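import Fermat.Agent.Carayol.ChartLift
import Mathlib

/-!
# Integral closure of a chart along a finite extension
-/

set_option autoImplicit false

noncomputable section

namespace Fermat.Agent.CarayolHigh

open Carayol Polynomial

variable {W E F Ω : Type} [CommRing W] [IsDomain W] [IsDiscreteValuationRing W]
  [Field E] [Field F] [Field Ω] [Algebra W E] [Algebra W F] [Algebra E F] [IsScalarTower W E F]

/-- The integral closure of `R_E` in `F`, as a `W`-algebra. -/
def chartClosure (RE : Subalgebra W E) : Subalgebra W F :=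
  (integralClosure RE F).restrictScalars W

omit [IsDomain W] [IsDiscreteValuationRing W] in
theorem mem_chartClosure_iff {RE : Subalgebra W E} {a : F} :
    a ∈ chartClosure RE ↔ IsIntegral RE a := Iff.rfl

variable [FiniteDimensional E F] [Algebra.IsSeparable E F]

omit [IsDomain W] [IsDiscreteValuationRing W] in
/-- If the roots (in `Ω`) of all conjugates reduce to zero, a power of the element is divisible
by `π`. -/
theorem exists_pow_eq_of_conjugates (π : W) (RE : Subalgebra W E)
    (hclosed : ∀ e : E, IsIntegral RE e → e ∈ RE) (O : ValuationSubring Ω) (ψE : E →+* Ω)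
    (hrad : ∀ e ∈ RE, ψE e ∈ O.nonunits → ∃ b ∈ RE, e = algebraMap W E π * b)
    {σ : Type*} [Fintype σ] (ψ : σ → F →+* Ω) (hψ : Function.Injective ψ)
    (hψE : ∀ j, (ψ j).comp (algebraMap E F) = ψE)
    (hcard : Fintype.card σ = Module.finrank E F) {a : F} (ha : a ∈ chartClosure RE)
    (hres : ∀ j, ψ j a ∈ O.nonunits) :
    ∃ N : ℕ, ∃ b ∈ chartClosure (F := F) RE, a ^ N = algebraMap W F π * b := by
  classical
  let : Algebra E Ω := ψE.toAlgebra
  let ι₀ : Ω →+* AlgebraicClosure Ω := algebraMap Ω (AlgebraicClosure Ω)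
  let φ : σ → F →ₐ[E] AlgebraicClosure Ω := fun j =>
    { ι₀.comp (ψ j) with
      commutes' := fun e => by
        show ι₀ (ψ j (algebraMap E F e)) = _
        rw [show ψ j (algebraMap E F e) = ψE e from RingHom.congr_fun (hψE j) e]
        exact (IsScalarTower.algebraMap_apply E Ω (AlgebraicClosure Ω) e).symm }
  have hφ : Function.Bijective φ := by
    rw [Fintype.bijective_iff_injective_and_card]
    refine ⟨fun i j h => hψ (RingHom.ext fun x => ι₀.injective (DFunLike.congr_fun h x :)), ?_⟩
    rw [hcard, AlgHom.card]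
  have haE : IsIntegral E a := Algebra.IsIntegral.isIntegral a
  set p := minpoly E a with hp
  have hmonic : p.Monic := minpoly.monic haE
  -- coefficients lie in `RE`
  have hint : ∀ m, p.coeff m ∈ RE := by
    intro m
    obtain ⟨g, hg, hga⟩ := mem_chartClosure_iff.mp ha
    have hdvd : p ∣ g.map (algebraMap RE E) :=
      minpoly.dvd E a (by rwa [aeval_map_algebraMap, aeval_def])
    obtain ⟨Q, hQ⟩ := mem_lifts _ |>.mp
      (integralClosure.mem_lifts_of_monic_of_dvd_map E hg hmonic hdvd)
    refine hclosed _ ?_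
    rw [← hQ, coeff_map]
    exact (Q.coeff m).2
  -- all roots reduce to zero, so all lower coefficients do
  have hsmall : ∀ m, m < p.natDegree → ψE (p.coeff m) ∈ O.nonunits := by
    intro m hm
    let M := p.map (algebraMap E (AlgebraicClosure Ω))
    have hsplit : M.Splits := IsAlgClosed.splits M
    have hMeq : M = (M.roots.map fun r => X - C r).prod :=
      hsplit.eq_prod_roots_of_monic (hmonic.map _)
    have hroots : ∀ r ∈ M.roots, ∃ j, r = ι₀ (ψ j a) := by
      intro r hr
      have : r ∈ p.rootSet (AlgebraicClosure Ω) := by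
        rw [mem_rootSet, aeval_def, ← eval_map]
        exact ⟨hmonic.ne_zero, (mem_roots'.mp hr).2⟩
      rw [hp, ← Algebra.IsAlgebraic.range_eval_eq_rootSet_minpoly] at this
      obtain ⟨g, hg⟩ := this
      obtain ⟨j, rfl⟩ := hφ.2 g
      exact ⟨j, hg.symm⟩
    have : Nonempty σ := Fintype.card_pos_iff.mp (hcard ▸ Module.finrank_pos)
    choose! jr hjr using hroots
    let rts : Multiset Ω := M.roots.map fun r => ψ (jr r) a
    have hMΩ : p.map ψE = (rts.map fun r => X - C r).prod := by
      apply map_injective ι₀ ι₀.injective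
      rw [Polynomial.map_map, Polynomial.map_multiset_prod, Multiset.map_map]
      show M = _
      conv_lhs => rw [hMeq]
      refine congrArg Multiset.prod ?_
      simp only [rts, Multiset.map_map]
      refine Multiset.map_congr rfl fun r hr => ?_
      simp [← hjr r hr]
    have hmemO : ∀ r ∈ rts, ∃ h : r ∈ O, IsLocalRing.residue O ⟨r, h⟩ = 0 := by
      intro r hr
      obtain ⟨r', -, rfl⟩ := Multiset.mem_map.mp hr
      have hnu := hres (jr r')
      rw [← SetLike.mem_coe, ← O.image_maximalIdeal] at hnu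
      obtain ⟨y, hy, hy'⟩ := hnu
      refine ⟨hy' ▸ y.2, ?_⟩
      rw [IsLocalRing.residue_eq_zero_iff]
      exact (Subtype.ext hy' : y = ⟨ψ (jr r') a, hy' ▸ y.2⟩) ▸ hy
    let P : O[X] := (rts.attach.map fun r => X - C (⟨r.1, (hmemO r.1 r.2).1⟩ : O)).prod
    have hP : P.map O.subtype = p.map ψE := by
      rw [hMΩ, Polynomial.map_multiset_prod, Multiset.map_map]
      conv_rhs => rw [← Multiset.attach_map_val rts, Multiset.map_map]
      simp
    have hPres : P.map (IsLocalRing.residue O) = X ^ Multiset.card rts := by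
      rw [Polynomial.map_multiset_prod, Multiset.map_map]
      rw [Multiset.map_congr rfl (g := fun _ => (X : (IsLocalRing.ResidueField O)[X]))
        fun r _ => by simp [(hmemO r.1 r.2).2]]
      simp
    have hdeg : Multiset.card rts = p.natDegree := by
      rw [← natDegree_map_eq_of_injective ψE.injective p, hMΩ, natDegree_multiset_prod_X_sub_C_eq_card]
    rw [← coeff_map ψE, ← hP, coeff_map, ← SetLike.mem_coe, ← O.image_maximalIdeal]
    refine ⟨P.coeff m, ?_, rfl⟩
    rw [SetLike.mem_coe, ← IsLocalRing.residue_eq_zero_iff, ← coeff_map, hPres, coeff_X_pow,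
      if_neg (by omega)]
  choose b hb hpb using fun m : Fin p.natDegree => hrad _ (hint m) (hsmall m m.2)
  refine ⟨p.natDegree, -∑ m : Fin p.natDegree, algebraMap E F (b m) * a ^ (m : ℕ),
    neg_mem (sum_mem fun m _ => mul_mem ?_ (pow_mem ha _)), ?_⟩
  · exact mem_chartClosure_iff.mpr
      (isIntegral_algebraMap (R := RE) (A := F) (x := ⟨b m, hb m⟩))
  · have h0 : aeval a p = 0 := minpoly.aeval E a
    rw [aeval_eq_sum_range, Finset.sum_range_succ, hmonic.coeff_natDegree, one_smul,
      Finset.sum_range (fun m => p.coeff m • a ^ m)] at h0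
    rw [eq_neg_of_add_eq_zero_right h0, mul_neg, Finset.mul_sum]
    refine congrArg Neg.neg (Finset.sum_congr rfl fun m _ => ?_)
    rw [Algebra.smul_def, hpb m, map_mul, ← IsScalarTower.algebraMap_apply, mul_assoc]

theorem isChart_chartClosure {ι : Type} {C : ι → Type} [∀ i, Field (C i)] (Br : Branches F ι C)
    (π : W) (RE : Subalgebra W E) [IsNoetherianRing RE] [IsFractionRing RE E]
    (hclosed : ∀ e : E, IsIntegral RE e → e ∈ RE)
    (hmem : ∀ i, ∀ e ∈ RE, algebraMap E F e ∈ Br.V i)
    (hπ : ∀ i (h : algebraMap W F π ∈ Br.V i), Br.res i ⟨algebraMap W F π, h⟩ = 0)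
    (O : ValuationSubring Ω) (ψE : E →+* Ω)
    (hrad : ∀ e ∈ RE, ψE e ∈ O.nonunits → ∃ b ∈ RE, e = algebraMap W E π * b)
    {σ : Type*} [Fintype σ] (ψ : σ → F →+* Ω) (hψ : Function.Injective ψ)
    (hψE : ∀ j, (ψ j).comp (algebraMap E F) = ψE)
    (hcard : Fintype.card σ = Module.finrank E F)
    (hbr : ∀ j, ∃ i, ∀ a (h : a ∈ Br.V i), Br.res i ⟨a, h⟩ = 0 → ψ j a ∈ O.nonunits) :
    IsChart Br π (chartClosure (F := F) RE) where
  closed a ha := isIntegral_trans (A := integralClosure RE F) a ha
  noetherian := by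
    have : IsIntegrallyClosed RE :=
      (isIntegrallyClosed_iff E).mpr fun {e} he => ⟨⟨e, hclosed e he⟩, rfl⟩
    have : IsNoetherian RE (integralClosure RE F) := IsIntegralClosure.isNoetherian RE E F _
    have h : IsNoetherianRing (integralClosure RE F) :=
      isNoetherian_of_tower (R := RE) this
    exact h
  mem_V a ha i := by
    obtain ⟨g, hg, hga⟩ := mem_chartClosure_iff.mp ha
    let f : RE →+* Br.V i := ((algebraMap E F).comp RE.val.toRingHom).codRestrict _
      fun e => hmem i e e.2
    have hint : IsIntegral (Br.V i) a := ⟨g.map f, hg.map f, by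
      rw [eval₂_map]
      exact hga⟩
    obtain ⟨y, hy⟩ := IsIntegrallyClosed.isIntegral_iff.mp hint
    exact hy ▸ y.2
  res_π := hπ
  radical a ha hres := exists_pow_eq_of_conjugates π RE hclosed O ψE hrad ψ hψ hψE hcard ha
    fun j => by
      obtain ⟨i, hi⟩ := hbr j
      obtain ⟨g, hg, hga⟩ := mem_chartClosure_iff.mp ha
      let f : RE →+* Br.V i := ((algebraMap E F).comp RE.val.toRingHom).codRestrict _
        fun e => hmem i e e.2
      have hint : IsIntegral (Br.V i) a := ⟨g.map f, hg.map f, by
        rw [eval₂_map]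
        exact hga⟩
      obtain ⟨y, hy⟩ := IsIntegrallyClosed.isIntegral_iff.mp hint
      exact hi a (hy ▸ y.2) (hres i _)

omit [IsDomain W] [IsDiscreteValuationRing W] in
/-- Finiteness over `W[x]`. -/
theorem exists_spanning_chartClosure (RE : Subalgebra W E) [IsNoetherianRing RE]
    [IsFractionRing RE E] (hclosed : ∀ e : E, IsIntegral RE e → e ∈ RE) (x : E) (_hx : x ∈ RE)
    (hfin : ∃ s : Finset E, (s : Set E) ⊆ RE ∧
      ∀ e ∈ RE, e ∈ Submodule.span (Algebra.adjoin W {x}) (s : Set E)) :
    ∃ s : Finset F, (s : Set F) ⊆ chartClosure (F := F) RE ∧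
      ∀ a ∈ chartClosure (F := F) RE,
        a ∈ Submodule.span (Algebra.adjoin W {algebraMap E F x}) (s : Set F) := by
  classical
  have : IsIntegrallyClosed RE :=
    (isIntegrallyClosed_iff E).mpr fun {e} he => ⟨⟨e, hclosed e he⟩, rfl⟩
  have : IsNoetherian RE (integralClosure RE F) := IsIntegralClosure.isNoetherian RE E F _
  obtain ⟨t, ht⟩ := (inferInstance : Module.Finite RE (integralClosure RE F)).fg_top
  obtain ⟨s, hs, hspan⟩ := hfin
  refine ⟨(s ×ˢ t).image fun p => algebraMap E F p.1 * (p.2 : F), ?_, fun a ha => ?_⟩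
  · intro y hy
    obtain ⟨⟨e, c⟩, hec, rfl⟩ := Finset.mem_image.mp hy
    exact mul_mem (mem_chartClosure_iff.mpr (isIntegral_algebraMap (R := RE) (A := F)
      (x := ⟨e, hs (Finset.mem_product.mp hec).1⟩))) c.2
  · set M := Submodule.span (Algebra.adjoin W {algebraMap E F x})
      (((s ×ˢ t).image fun p => algebraMap E F p.1 * (p.2 : F) : Finset F) : Set F)
    have key : ∀ e ∈ RE, ∀ c ∈ t, algebraMap E F e * (c : F) ∈ M := by
      intro e he c hc
      refine Submodule.span_induction (p := fun e _ => algebraMap E F e * (c : F) ∈ M) ?_ ?_ ?_ ?_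
        (hspan e he)
      · intro e' he'
        exact Submodule.subset_span (Finset.mem_image.mpr ⟨(e', c), by simp [Finset.mem_coe.mp he', hc], rfl⟩)
      · simp
      · intro u v _ _ hu hv; rw [map_add, add_mul]; exact add_mem hu hv
      · intro r u _ hu
        have hr : algebraMap E F (r : E) ∈ Algebra.adjoin W {algebraMap E F x} := by
          have : algebraMap E F (r : E) ∈ (Algebra.adjoin W {x}).map (IsScalarTower.toAlgHom W E F) :=
            Subalgebra.mem_map.mpr ⟨(r : E), r.2, rfl⟩
          rwa [AlgHom.map_adjoin, Set.image_singleton] at this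
        show algebraMap E F ((r : E) * u) * (c : F) ∈ M
        rw [map_mul, mul_assoc]
        exact M.smul_mem ⟨_, hr⟩ hu
    have haM : (⟨a, ha⟩ : integralClosure RE F) ∈ Submodule.span RE (t : Set (integralClosure RE F)) :=
      ht ▸ Submodule.mem_top
    refine Submodule.span_induction (p := fun (y : integralClosure RE F) _ => ∀ e ∈ RE, algebraMap E F e * (y : F) ∈ M)
      ?_ ?_ ?_ ?_ haM 1 (one_mem _) |> fun h => by simpa using h
    · exact fun c hc e he => key e he c hc
    · simp
    · intro u v _ _ hu hv e he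
      rw [AddMemClass.coe_add, mul_add]
      exact add_mem (hu e he) (hv e he)
    · intro r u _ hu e he
      have h1 : ((r • u : integralClosure RE F) : F) = algebraMap E F (r : E) * (u : F) := by
        rw [Algebra.smul_def]; rfl
      rw [h1, ← mul_assoc, ← map_mul]
      exact hu _ (mul_mem he r.2)

end Fermat.Agent.CarayolHigh
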