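import Mathlib
import Fermat.Prelude.Def_ModularCurve_LaurentCoeff

/-!
# Gauss valuations from Laurent series embeddings

`K'` is a field, `O` a discrete valuation ring of it with a reduction `π : O →+* k`, and
`ψ : F →+* K'((y))` has values in the fraction field of `O((y))`. The Gauss valuation ring of `F`,
its residue map to `k((y))`, and their invariance under substitutions that are trivial modulo `π`.
-/

set_option autoImplicit false

noncomputable section

open ModularCurve

namespace Fermat.Agent.CarayolHigh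

variable {K' : Type*} [Field K'] (O : ValuationSubring K')

/-- The inclusion `O((y)) → K'((y))`. -/
def intSeries : LaurentSeries O →+* LaurentSeries K' := coeffMap O.subtype

@[simp]
theorem intSeries_coeff (a : LaurentSeries O) (n : ℤ) :
    (intSeries O a).coeff n = (a.coeff n : K') := coeffMap_coeff _ _ _

theorem intSeries_injective : Function.Injective (intSeries O) := fun a b h => by
  ext n
  have := congrArg (fun x : LaurentSeries K' => x.coeff n) h
  simpa using this

theorem intSeries_ne_zero {a : LaurentSeries O} (ha : a ≠ 0) : intSeries O a ≠ 0 := fun h =>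
  ha (intSeries_injective O (by rw [h, map_zero]))

theorem coeffMap_C' {R S : Type*} [CommRing R] [CommRing S] (f : R →+* S) (c : R) :
    coeffMap f (HahnSeries.C c) = HahnSeries.C (f c) := by
  rw [HahnSeries.C_apply, HahnSeries.C_apply, coeffMap_single]

/-- Quotients of integral series. -/
def fracSeries : Subfield (LaurentSeries K') where
  carrier := {z | ∃ a b : LaurentSeries O, b ≠ 0 ∧ z * intSeries O b = intSeries O a}
  one_mem' := ⟨1, 1, one_ne_zero, by simp⟩
  zero_mem' := ⟨0, 1, one_ne_zero, by simp⟩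
  mul_mem' := by
    rintro x y ⟨a, b, hb, h⟩ ⟨a', b', hb', h'⟩
    exact ⟨a * a', b * b', mul_ne_zero hb hb', by rw [map_mul, map_mul, ← h, ← h']; ring⟩
  add_mem' := by
    rintro x y ⟨a, b, hb, h⟩ ⟨a', b', hb', h'⟩
    exact ⟨a * b' + a' * b, b * b', mul_ne_zero hb hb', by
      rw [map_add, map_mul, map_mul, map_mul, ← h, ← h']; ring⟩
  neg_mem' := by
    rintro x ⟨a, b, hb, h⟩
    exact ⟨-a, b, hb, by rw [map_neg, ← h]; ring⟩
  inv_mem' := by
    rintro x ⟨a, b, hb, h⟩
    rcases eq_or_ne x 0 with rfl | hx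
    · exact ⟨0, 1, one_ne_zero, by simp⟩
    refine ⟨b, a, ?_, by rw [← h, ← mul_assoc, inv_mul_cancel₀ hx, one_mul]⟩
    rintro rfl
    rw [map_zero, mul_eq_zero] at h
    exact h.elim hx (intSeries_ne_zero O hb)

theorem mem_fracSeries_iff {z : LaurentSeries K'} :
    z ∈ fracSeries O ↔ ∃ a b : LaurentSeries O, b ≠ 0 ∧ z * intSeries O b = intSeries O a :=
  Iff.rfl

theorem intSeries_mem_fracSeries (a : LaurentSeries O) : intSeries O a ∈ fracSeries O :=
  ⟨a, 1, one_ne_zero, by simp⟩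

theorem C_mem_fracSeries (c : K') : (HahnSeries.C c : LaurentSeries K') ∈ fracSeries O := by
  have hi : ∀ a : O, intSeries O (HahnSeries.C a) = HahnSeries.C (a : K') := fun a =>
    coeffMap_C' _ _
  rcases O.mem_or_inv_mem c with h | h
  · have := intSeries_mem_fracSeries O (HahnSeries.C ⟨c, h⟩)
    rwa [hi] at this
  · have := intSeries_mem_fracSeries O (HahnSeries.C ⟨c⁻¹, h⟩)
    rw [hi] at this
    simpa [map_inv₀] using (fracSeries O).inv_mem this

variable {k : Type*} [Field k]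

/-- The primitive part: a nonzero integral series is `ϖ ^ r` times a series with nonzero
reduction. -/
theorem exists_primitive [IsDiscreteValuationRing O] {π : O →+* k}
    (hπ : ∀ c, π c = 0 ↔ ¬ IsUnit c) {ϖ : O} (hϖ : Irreducible ϖ) {a : LaurentSeries O}
    (ha : a ≠ 0) :
    ∃ (r : ℕ) (a₀ : LaurentSeries O), a = HahnSeries.C (ϖ ^ r) * a₀ ∧ coeffMap π a₀ ≠ 0 := by
  classical
  have hex : ∃ r : ℕ, ∃ n, ∃ u : Oˣ, a.coeff n = ϖ ^ r * u := by
    obtain ⟨n, hn⟩ : ∃ n, a.coeff n ≠ 0 := by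
      by_contra h
      push Not at h
      exact ha (HahnSeries.ext (funext fun n => by simpa using h n))
    obtain ⟨r, u, hu⟩ := IsDiscreteValuationRing.eq_unit_mul_pow_irreducible hn hϖ
    exact ⟨r, n, u, by rw [hu, mul_comm]⟩
  set r := Nat.find hex with hr
  have hdvd : ∀ n, ϖ ^ r ∣ a.coeff n := by
    intro n
    rcases eq_or_ne (a.coeff n) 0 with h | h
    · simp [h]
    obtain ⟨r', u, hu⟩ := IsDiscreteValuationRing.eq_unit_mul_pow_irreducible h hϖ
    have hle : r ≤ r' := Nat.find_min' hex ⟨n, u, by rw [hu, mul_comm]⟩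
    rw [hu]
    exact Dvd.dvd.mul_left (pow_dvd_pow _ hle) _
  choose c hc using hdvd
  have hp : (ϖ ^ r : O) ≠ 0 := pow_ne_zero _ hϖ.ne_zero
  have hsupp : Function.support c ⊆ a.support := fun n hn h0 => hn (by
    rw [hc n, mul_eq_zero] at h0
    exact h0.resolve_left hp)
  let a₀ : LaurentSeries O := ⟨c, a.isPWO_support.mono hsupp⟩
  refine ⟨r, a₀, ?_, ?_⟩
  · ext n
    rw [HahnSeries.C_apply, HahnSeries.coeff_single_zero_mul]
    exact congrArg Subtype.val (hc n)
  · obtain ⟨n, u, hu⟩ := Nat.find_spec hex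
    intro h
    have h1 := congrArg (fun x : LaurentSeries k => x.coeff n) h
    simp only [coeffMap_coeff, HahnSeries.coeff_zero] at h1
    have h2 : c n = u := mul_left_cancel₀ hp ((hc n).symm.trans hu)
    exact (hπ _).mp h1 (by show IsUnit (c n); rw [h2]; exact u.isUnit)

/-- The data of a Gauss valuation of `F`. -/
structure GaussBranch (O : ValuationSubring K') (k : Type*) [Field k] (F : Type*) [Field F] where
  π : O →+* k
  π_eq_zero : ∀ c, π c = 0 ↔ ¬ IsUnit c
  ψ : F →+* LaurentSeries K'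
  frac : ∀ x, ψ x ∈ fracSeries O

namespace GaussBranch

variable {O} {F : Type*} [Field F] (G : GaussBranch O k F)

/-- Reduction of integral series. -/
abbrev red : LaurentSeries O →+* LaurentSeries k := coeffMap G.π

/-- `x = a / b` with nonzero reduction of `b`. -/
def IsFrac (x : F) (a b : LaurentSeries O) : Prop :=
  G.red b ≠ 0 ∧ G.ψ x * intSeries O b = intSeries O a

theorem red_div_eq {x : F} {a b a' b' : LaurentSeries O} (h : G.IsFrac x a b)
    (h' : G.IsFrac x a' b') : G.red a / G.red b = G.red a' / G.red b' := by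
  rw [div_eq_div_iff h.1 h'.1, ← map_mul, ← map_mul]
  refine congrArg G.red (intSeries_injective O ?_)
  rw [map_mul, map_mul, ← h.2, ← h'.2]
  ring

/-- Elements integral for the Gauss valuation. -/
def ring : Subring F where
  carrier := {x | ∃ a b, G.IsFrac x a b}
  one_mem' := ⟨1, 1, by simp, by simp⟩
  zero_mem' := ⟨0, 1, by simp, by simp⟩
  mul_mem' := by
    rintro x y ⟨a, b, hb, h⟩ ⟨a', b', hb', h'⟩
    exact ⟨a * a', b * b', by rw [map_mul]; exact mul_ne_zero hb hb', by
      rw [map_mul, map_mul, map_mul, ← h, ← h']; ring⟩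
  add_mem' := by
    rintro x y ⟨a, b, hb, h⟩ ⟨a', b', hb', h'⟩
    exact ⟨a * b' + a' * b, b * b', by rw [map_mul]; exact mul_ne_zero hb hb', by
      rw [map_add, map_add, map_mul, map_mul, map_mul, ← h, ← h']; ring⟩
  neg_mem' := by
    rintro x ⟨a, b, hb, h⟩
    exact ⟨-a, b, hb, by rw [map_neg, map_neg, ← h]; ring⟩

theorem red_C (c : O) : G.red (HahnSeries.C c) = HahnSeries.C (G.π c) := coeffMap_C' _ _

theorem exists_scaled [IsDiscreteValuationRing O] {ϖ : O} (hϖ : Irreducible ϖ) {x : F}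
    (hx : x ≠ 0) : ∃ (z : ℤ) (a b : LaurentSeries O), G.red a ≠ 0 ∧ G.red b ≠ 0 ∧
      G.ψ x * intSeries O b = HahnSeries.C ((ϖ : K') ^ z) * intSeries O a := by
  obtain ⟨a, b, hb, h⟩ := G.frac x
  have ha : a ≠ 0 := by
    rintro rfl
    rw [map_zero, mul_eq_zero, map_eq_zero] at h
    exact h.elim hx (intSeries_ne_zero O hb)
  obtain ⟨r, a₀, rfl, ha₀⟩ := exists_primitive O G.π_eq_zero hϖ ha
  obtain ⟨s, b₀, rfl, hb₀⟩ := exists_primitive O G.π_eq_zero hϖ hb
  refine ⟨(r : ℤ) - s, a₀, b₀, ha₀, hb₀, ?_⟩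
  have hp : (ϖ : K') ≠ 0 := by simpa [ZeroMemClass.coe_eq_zero] using hϖ.ne_zero
  have hC : ∀ (c : O), intSeries O (HahnSeries.C c) = HahnSeries.C (c : K') := fun c =>
    coeffMap_C' _ _
  rw [map_mul, map_mul, hC, hC, ← mul_assoc, mul_comm (G.ψ x), mul_assoc] at h
  rw [zpow_sub₀ hp, zpow_natCast, zpow_natCast, div_eq_mul_inv, map_mul, map_inv₀]
  have hs : (HahnSeries.C ((ϖ : K') ^ s) : LaurentSeries K') ≠ 0 := by
    simp [pow_ne_zero _ hp]
  push_cast at h
  field_simp
  linear_combination h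

/-- An element or its inverse is integral. -/
theorem mem_or_inv_mem [IsDiscreteValuationRing O] (x : F) : x ∈ G.ring ∨ x⁻¹ ∈ G.ring := by
  rcases eq_or_ne x 0 with rfl | hx
  · exact Or.inl G.ring.zero_mem
  obtain ⟨ϖ, hϖ⟩ := IsDiscreteValuationRing.exists_irreducible O
  obtain ⟨z, a, b, ha, hb, h⟩ := G.exists_scaled hϖ hx
  have hp : (ϖ : K') ≠ 0 := by simpa [ZeroMemClass.coe_eq_zero] using hϖ.ne_zero
  rcases le_total 0 z with hz | hz
  · obtain ⟨m, rfl⟩ := Int.eq_ofNat_of_zero_le hz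
    refine Or.inl ⟨HahnSeries.C (ϖ ^ m) * a, b, hb, ?_⟩
    rw [h, map_mul]
    congr 1
    rw [intSeries, coeffMap_C']
    simp
  · obtain ⟨m, hm⟩ := Int.eq_ofNat_of_zero_le (neg_nonneg.mpr hz)
    refine Or.inr ⟨HahnSeries.C (ϖ ^ m) * b, a, ha, ?_⟩
    rw [map_mul, map_inv₀, inv_mul_eq_iff_eq_mul₀ (by simpa using hx)]
    have hc : intSeries O (HahnSeries.C (ϖ ^ m)) = HahnSeries.C ((ϖ : K') ^ m) := by
      rw [intSeries, coeffMap_C']; simp
    rw [hc, ← mul_assoc, mul_comm (G.ψ x), mul_assoc, h, ← mul_assoc, ← map_mul,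
      ← zpow_natCast, ← zpow_add₀ hp, show (m : ℤ) + z = 0 by omega, zpow_zero, map_one, one_mul]

variable [IsDiscreteValuationRing O]

/-- The Gauss valuation ring. -/
def V : ValuationSubring F := { G.ring with mem_or_inv_mem' := G.mem_or_inv_mem }

theorem mem_V_iff {x : F} : x ∈ G.V ↔ ∃ a b, G.IsFrac x a b := Iff.rfl

/-- The residue map, with values in `k((y))`. -/
def res : G.V →+* LaurentSeries k where
  toFun x := G.red x.2.choose / G.red x.2.choose_spec.choose
  map_one' := by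
    have h := G.red_div_eq (1 : G.V).2.choose_spec.choose_spec
      (show G.IsFrac ((1 : G.V) : F) 1 1 from ⟨by simp, by simp⟩)
    rw [h, map_one, div_one]
  map_zero' := by
    have h := G.red_div_eq (0 : G.V).2.choose_spec.choose_spec
      (show G.IsFrac ((0 : G.V) : F) 0 1 from ⟨by simp, by simp⟩)
    rw [h, map_zero, zero_div]
  map_mul' x y := by
    have hx := x.2.choose_spec.choose_spec
    have hy := y.2.choose_spec.choose_spec
    rw [G.red_div_eq (x * y).2.choose_spec.choose_spec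
      (show G.IsFrac ((x * y : G.V) : F) (x.2.choose * y.2.choose)
          (x.2.choose_spec.choose * y.2.choose_spec.choose) from
        ⟨by rw [map_mul]; exact mul_ne_zero hx.1 hy.1, by
          rw [MulMemClass.coe_mul, map_mul, map_mul, map_mul, ← hx.2, ← hy.2]; ring⟩)]
    rw [map_mul, map_mul, div_mul_div_comm]
  map_add' x y := by
    have hx := x.2.choose_spec.choose_spec
    have hy := y.2.choose_spec.choose_spec
    rw [G.red_div_eq (x + y).2.choose_spec.choose_spec
      (show G.IsFrac ((x + y : G.V) : F)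
          (x.2.choose * y.2.choose_spec.choose + y.2.choose * x.2.choose_spec.choose)
          (x.2.choose_spec.choose * y.2.choose_spec.choose) from
        ⟨by rw [map_mul]; exact mul_ne_zero hx.1 hy.1, by
          rw [AddMemClass.coe_add, map_add, map_add, map_mul, map_mul, map_mul, ← hx.2, ← hy.2]
          ring⟩)]
    rw [map_add, map_mul, map_mul, map_mul, div_add_div _ _ hx.1 hy.1]
    ring

theorem res_eq {x : F} (hx : x ∈ G.V) {a b : LaurentSeries O} (h : G.IsFrac x a b) :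
    G.res ⟨x, hx⟩ = G.red a / G.red b := by
  have h0 := (G.mem_V_iff.mp hx).choose_spec.choose_spec
  exact G.red_div_eq h0 h

omit [IsDiscreteValuationRing O] in
theorem isFrac_of_eq {x : F} {a : LaurentSeries O} (h : G.ψ x = intSeries O a) :
    G.IsFrac x a 1 :=
  ⟨by simp, by rw [map_one, mul_one, h]⟩

/-- Elements with an integral series. -/
theorem mem_V_of_eq {x : F} {a : LaurentSeries O} (h : G.ψ x = intSeries O a) : x ∈ G.V :=
  ⟨a, 1, G.isFrac_of_eq h⟩

theorem res_of_eq {x : F} {a : LaurentSeries O} (h : G.ψ x = intSeries O a) (hx : x ∈ G.V) :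
    G.res ⟨x, hx⟩ = coeffMap G.π a := by
  rw [G.res_eq hx (G.isFrac_of_eq h), map_one, div_one]

theorem res_eq_zero (x : G.V) : G.res x = 0 ↔ ¬ IsUnit x := by
  constructor
  · intro h hu
    exact not_isUnit_zero (h ▸ hu.map G.res)
  · intro hu
    by_contra h
    obtain ⟨x, hxV⟩ := x
    obtain ⟨a, b, hab⟩ := G.mem_V_iff.mp hxV
    rw [G.res_eq hxV hab] at h
    have ha : G.red a ≠ 0 := fun h0 => h (by rw [h0, zero_div])
    have hx0 : x ≠ 0 := by
      rintro rfl
      have h0 := hab.2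
      rw [map_zero, zero_mul] at h0
      exact ha (by rw [intSeries_injective O (h0.symm.trans (map_zero (intSeries O)).symm), map_zero])
    have hinv : x⁻¹ ∈ G.V := ⟨b, a, ha, by
      rw [← hab.2, map_inv₀, ← mul_assoc, inv_mul_cancel₀ (by simpa using hx0), one_mul]⟩
    exact hu (isUnit_iff_exists_inv.mpr ⟨⟨x⁻¹, hinv⟩, Subtype.ext (mul_inv_cancel₀ hx0)⟩)

variable {k₂ : Type*} [Field k₂] {G}

/-- Comparison of two branches: if every normalised fraction for `G` gives one for `G'` with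
corresponding reduction, the valuation rings coincide and so do the residues. -/
theorem V_eq_and_res {G' : GaussBranch O k₂ F} (ρ : LaurentSeries k →+* LaurentSeries k₂)
    (h : ∀ x a b, G.IsFrac x a b → ∃ a' b', G'.IsFrac x a' b' ∧
      ρ (G.red a / G.red b) = G'.red a' / G'.red b') :
    G.V = G'.V ∧ ∀ (x : F) (hx : x ∈ G.V) (hx' : x ∈ G'.V),
      G'.res ⟨x, hx'⟩ = ρ (G.res ⟨x, hx⟩) := by
  have key : ∀ (x : F) (hx : x ∈ G.V), ∃ hx' : x ∈ G'.V,
      G'.res ⟨x, hx'⟩ = ρ (G.res ⟨x, hx⟩) := by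
    intro x hx
    obtain ⟨a, b, hab⟩ := G.mem_V_iff.mp hx
    obtain ⟨a', b', hab', he⟩ := h x a b hab
    exact ⟨G'.mem_V_iff.mpr ⟨a', b', hab'⟩, by rw [G.res_eq hx hab, G'.res_eq _ hab', he]⟩
  refine ⟨le_antisymm (fun x hx => (key x hx).1) fun x hx' => ?_,
    fun x hx hx' => (key x hx).2⟩
  by_contra hx
  have hinv : x⁻¹ ∈ G.V := (G.V.mem_or_inv_mem x).resolve_left hx
  obtain ⟨hinv', he⟩ := key x⁻¹ hinv
  have h0 : G.res ⟨x⁻¹, hinv⟩ = 0 := (G.res_eq_zero _).mpr fun hu => hx (by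
    obtain ⟨⟨y, hy⟩, hxy⟩ := isUnit_iff_exists_inv.mp hu
    have h1 : x⁻¹ * y = 1 := congrArg Subtype.val hxy
    rcases eq_or_ne x 0 with rfl | hx0
    · exact zero_mem _
    · rwa [← (inv_mul_eq_iff_eq_mul₀ hx0).mp h1 |>.trans (mul_one x)])
  rw [h0, map_zero] at he
  have hx0 : x ≠ 0 := fun h0 => hx (h0 ▸ zero_mem _)
  have h1 : (⟨x, hx'⟩ : G'.V) * ⟨x⁻¹, hinv'⟩ = 1 := Subtype.ext (mul_inv_cancel₀ hx0)
  have := congrArg G'.res h1
  rw [map_mul, he, mul_zero, map_one] at this
  exact zero_ne_one this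

/-- A substitution `τ` of integral series compatible with a substitution of `ψ` and trivial
modulo `π` does not change the branch. -/
theorem V_eq_of_trivial {G' : GaussBranch O k F} (hπ : G'.π = G.π)
    (τ : LaurentSeries O →+* LaurentSeries O) (hτ : ∀ a, coeffMap G.π (τ a) = coeffMap G.π a)
    (hψ : ∀ x a b, G.ψ x * intSeries O b = intSeries O a →
      G'.ψ x * intSeries O (τ b) = intSeries O (τ a)) :
    G.V = G'.V ∧ ∀ (x : F) (hx : x ∈ G.V) (hx' : x ∈ G'.V),
      G'.res ⟨x, hx'⟩ = G.res ⟨x, hx⟩ := by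
  refine V_eq_and_res (RingHom.id _) fun x a b hab => ⟨τ a, τ b, ⟨?_, hψ x a b hab.2⟩, ?_⟩
  · show coeffMap G'.π (τ b) ≠ 0
    rw [hπ, hτ]; exact hab.1
  · simp only [RingHom.id_apply, red, hπ, hτ]

/-- Applying an automorphism of the coefficients trivial modulo `π`. -/
theorem V_eq_of_coeffMap {G' : GaussBranch O k F} (hπ : G'.π = G.π) (σ : K' →+* K')
    (hσ : ∀ c ∈ O, σ c ∈ O) (hσπ : ∀ c : O, G.π ⟨σ c, hσ c c.2⟩ = G.π c)
    (hψ : ∀ x, G'.ψ x = coeffMap σ (G.ψ x)) :
    G.V = G'.V ∧ ∀ (x : F) (hx : x ∈ G.V) (hx' : x ∈ G'.V),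
      G'.res ⟨x, hx'⟩ = G.res ⟨x, hx⟩ := by
  let σO : O →+* O := (σ.comp O.subtype).codRestrict O fun c => hσ c c.2
  refine V_eq_of_trivial hπ (coeffMap σO) (fun a => ?_) fun x a b h => ?_
  · rw [coeffMap_coeffMap]
    exact congrArg (fun f : O →+* k => coeffMap f a) (RingHom.ext hσπ)
  · have hc : ∀ a : LaurentSeries O, intSeries O (coeffMap σO a) = coeffMap σ (intSeries O a) :=
      fun a => by
        rw [intSeries, coeffMap_coeffMap, coeffMap_coeffMap]
        rfl
    rw [hψ, hc, hc, ← map_mul, h]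

end GaussBranch

end Fermat.Agent.CarayolHigh
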