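/-
The modular units `Δ(qᵇτ)/Δ(qᵃτ)`, `a ≤ b ≤ n`, of `X₀(L qⁿ)` on the branches of `BranchEmb`, their
residues modulo `q`, and their versions on the chart at infinity (helper50, S36).

On the branch `i` the unit `pairU qᵃ q^(a+1)` vanishes modulo `q` exactly for `a < i`, the unit
`pairV qᵃ q^(a+1)` exactly for `i ≤ a`. On the chart at infinity the elements are
`pairV qᵃ q^(a+1) / j^(qᵃ(q-1))` and `(pairU qᵃ q^(a+1))^q / j^(qᵃ(q-1))`.
-/
import Fermat.Agent.CarayolHigh.BranchEmb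
import Fermat.Agent.Carayol.Elements
import Fermat.Agent.RED.Specialization.FrobSeries

set_option autoImplicit false

noncomputable section

open UpperHalfPlane HahnSeries ModularCurve
open Fermat.Agent.Igusa Fermat.Agent.RED.Spec Fermat.Agent.HK.Corr Fermat.Agent.Carayol
open scoped MatrixGroups Real

namespace Fermat.Agent.CarayolHigh

section Values

variable {R : Type} [CommRing R]

/-- The unit `pairU qᵃ qᵇ` on the branch `i` of `ζ`. -/
def unitUVal (n i : ℕ) (ζ : Rˣ) (q : ℕ) [NeZero q] (a b : ℕ) : LaurentSeries R :=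
  single (0 : ℤ) (((q ^ (min b i - min a i) : ℕ) : R) ^ 12) *
    (branchTerm n i ζ q b (deltaSeries R) * branchTerm n i ζ q a (deltaInvSeries R))

/-- The unit `pairV qᵃ qᵇ` on the branch `i` of `ζ`. -/
def unitVVal (n i : ℕ) (ζ : Rˣ) (q : ℕ) [NeZero q] (a b : ℕ) : LaurentSeries R :=
  single (0 : ℤ) (((q ^ ((b - min b i) - (a - min a i)) : ℕ) : R) ^ 12) *
    (branchTerm n i ζ q a (deltaSeries R) * branchTerm n i ζ q b (deltaInvSeries R))

variable {S : Type} [CommRing S] (φ : R →+* S) {q : ℕ} [NeZero q] (n i : ℕ) (ζ : Rˣ) (a b : ℕ)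

theorem coeffMap_unitUVal : coeffMap φ (unitUVal n i ζ q a b) =
    unitUVal n i (Units.map φ.toMonoidHom ζ) q a b := by
  simp only [unitUVal, map_mul, coeffMap_single, map_pow, map_natCast, coeffMap_branchTerm,
    coeffMap_deltaSeries, coeffMap_deltaInvSeries]

theorem coeffMap_unitVVal : coeffMap φ (unitVVal n i ζ q a b) =
    unitVVal n i (Units.map φ.toMonoidHom ζ) q a b := by
  simp only [unitVVal, map_mul, coeffMap_single, map_pow, map_natCast, coeffMap_branchTerm,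
    coeffMap_deltaSeries, coeffMap_deltaInvSeries]

end Values

/-! ### The units in `K(X₀(L qⁿ))` and their values -/

section Level

variable {L q n : ℕ} [NeZero L] [NeZero q]

omit [NeZero L] [NeZero q] in
theorem pow_dvd_level {k : ℕ} (hk : k ≤ n) : q ^ k ∣ L * q ^ n :=
  (pow_dvd_pow q hk).trans (dvd_mul_left _ _)

omit [NeZero L] in
/-- The Hermite form at `q^k` and the expansion of a level one function along it. -/
theorem exists_isTri_branch {i : ℕ} {β : ℤ} {γ : SL(2, ℤ)} (hγ : BranchMatrix L q n i β γ)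
    {w : ℂˣ} (hw : (w : ℂ) = Complex.exp (2 * π * Complex.I * β / (q ^ n : ℕ))) {k : ℕ}
    (hk : k ≤ n) :
    ∃ (g : SL(2, ℤ)) (b : ℤ), IsTri γ (q ^ k) g (q ^ min k i) (q ^ (k - min k i)) b ∧
      ∀ (f : ℍ → ℂ) (x : LaurentSeries ℂ), HasExp 1 f x →
        HasExp 1 (fun τ => f (affH (q ^ min k i) (q ^ (k - min k i)) b (MF.scaleH (q ^ n) τ)))
          (branchTerm n i w q k x) := by
  rcases le_or_gt k i with hki | hki
  · rw [min_eq_left hki, Nat.sub_self, pow_zero]
    obtain ⟨g, hg⟩ := isTri_Gamma0 (d := q ^ k) ((pow_dvd_pow q hki).trans (dvd_mul_left _ L))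
      (hγ.mem dvd_rfl)
    refine ⟨g, 0, hg, fun f x hf => ?_⟩
    rw [branchTerm, if_pos hki]
    refine (congrArg (HasExp 1 · _) ?_).mpr (hasExp_scaleH hf (q ^ (n + k)))
    funext τ
    rw [affH_diag]
    congr 1
    ext
    rw [MF.coe_scaleH, MF.coe_scaleH, MF.coe_scaleH, _root_.pow_add]
    push_cast
    ring
  · obtain ⟨g, hg⟩ := hγ.tri (one_dvd L) hki hk
    rw [min_eq_right hki.le]
    simp only [Nat.cast_one, one_mul] at hg
    refine ⟨g, β, hg, fun f x hf => ?_⟩
    have h := hasExp_comp_branch hf hw 1 hki hk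
    rw [branchTerm, if_neg (not_le.mpr hki)]
    simpa only [Nat.cast_one, one_mul, qExpand_one_apply] using h

variable {a b : ℕ}

omit [NeZero L] in
theorem hasExp_uPair_branch {i : ℕ} {β : ℤ} {γ : SL(2, ℤ)} (hγ : BranchMatrix L q n i β γ)
    {w : ℂˣ} (hw : (w : ℂ) = Complex.exp (2 * π * Complex.I * β / (q ^ n : ℕ))) (hab : a ≤ b)
    (hb : b ≤ n) :
    HasExp 1 (uPair (q ^ a) (q ^ b) ∘ fun τ => γ • MF.scaleH (q ^ n) τ)
      (unitUVal n i w q a b) := by
  obtain ⟨g₁, b₁, h₁, e₁⟩ := exists_isTri_branch hγ hw (hab.trans hb)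
  obtain ⟨g₂, b₂, h₂, e₂⟩ := exists_isTri_branch hγ hw hb
  have hq0 : (q : ℂ) ≠ 0 := Nat.cast_ne_zero.mpr (NeZero.ne q)
  have hm : min a i ≤ min b i := min_le_min_right i hab
  refine (congrArg (HasExp 1 · _) ?_).mpr
    ((hasExp_const _).mul ((e₂ _ _ hasExp_discriminant).mul (e₁ _ _ hasExp_discriminant_inv)))
  funext τ
  show uPair _ _ (γ • _) = _
  rw [uPair_smul h₁ h₂ (pow_dvd_pow q hab)]
  push_cast
  rw [pow_sub₀ _ hq0 hm, ← div_eq_mul_inv]
  rfl

omit [NeZero L] in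
theorem hasExp_vPair_branch {i : ℕ} {β : ℤ} {γ : SL(2, ℤ)} (hγ : BranchMatrix L q n i β γ)
    {w : ℂˣ} (hw : (w : ℂ) = Complex.exp (2 * π * Complex.I * β / (q ^ n : ℕ))) (hab : a ≤ b)
    (hb : b ≤ n) :
    HasExp 1 (vPair (q ^ a) (q ^ b) ∘ fun τ => γ • MF.scaleH (q ^ n) τ)
      (unitVVal n i w q a b) := by
  obtain ⟨g₁, b₁, h₁, e₁⟩ := exists_isTri_branch hγ hw (hab.trans hb)
  obtain ⟨g₂, b₂, h₂, e₂⟩ := exists_isTri_branch hγ hw hb
  have hq0 : (q : ℂ) ≠ 0 := Nat.cast_ne_zero.mpr (NeZero.ne q)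
  have hm : a - min a i ≤ b - min b i := by omega
  refine (congrArg (HasExp 1 · _) ?_).mpr
    ((hasExp_const _).mul ((e₁ _ _ hasExp_discriminant).mul (e₂ _ _ hasExp_discriminant_inv)))
  funext τ
  show vPair _ _ (γ • _) = _
  rw [vPair_smul h₁ h₂]
  push_cast
  rw [pow_sub₀ _ hq0 hm, ← div_eq_mul_inv]
  rfl

variable {K₀ K : Type} [Field K₀] [Algebra ℚ K₀] [Field K] [Algebra ℚ K] (ι : K →+* ℂ)
  (hq : q.Prime) (hqL : ¬ q ∣ L)

include ι

theorem pairU_pow_mem (hab : a ≤ b) (hb : b ≤ n) :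
    pairU K (q ^ a) (q ^ b) ∈ modField K (L * q ^ n) :=
  pairU_mem ι (pow_dvd_pow q hab) (pow_dvd_level hb)

theorem pairV_pow_mem (hab : a ≤ b) (hb : b ≤ n) :
    pairV K (q ^ a) (q ^ b) ∈ modField K (L * q ^ n) :=
  pairV_mem ι (pow_dvd_pow q hab) (pow_dvd_level hb)

theorem isIntegralElem_pairU_pow (hab : a ≤ b) :
    (Polynomial.eval₂RingHom (Int.castRingHom (LaurentSeries K)) (jqModC K)).IsIntegralElem
      (pairU K (q ^ a) (q ^ b)) :=
  isIntegralElem_pairU (N := q ^ b) ι (pow_dvd_pow q hab) dvd_rfl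

theorem isIntegralElem_pairV_pow (hab : a ≤ b) :
    (Polynomial.eval₂RingHom (Int.castRingHom (LaurentSeries K)) (jqModC K)).IsIntegralElem
      (pairV K (q ^ a) (q ^ b)) :=
  isIntegralElem_pairV (N := q ^ b) ι (pow_dvd_pow q hab) dvd_rfl

include hq hqL

/-- **The units on the branch `i` of `ζ`.** -/
theorem branch_pair {κ : K₀ →+* K} {i : ℕ} {ζ : Kˣ} (hζ : ζ ^ q ^ n = 1)
    (hprim : 0 < i → i < n → IsPrimitiveRoot ζ (q ^ n))
    {φ : modField K₀ (L * q ^ n) →+* LaurentSeries K}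
    (hφ : IsSubst κ φ (branchVal hq hqL i ζ)) (hab : a ≤ b) (hb : b ≤ n)
    (hu : pairU K₀ (q ^ a) (q ^ b) ∈ modField K₀ (L * q ^ n))
    (hv : pairV K₀ (q ^ a) (q ^ b) ∈ modField K₀ (L * q ^ n)) :
    φ ⟨_, hu⟩ = unitUVal n i ζ q a b ∧ φ ⟨_, hv⟩ = unitVVal n i ζ q a b := by
  obtain ⟨β, hw, hβ⟩ := exists_root_exp hq ι hζ hprim
  obtain ⟨γ, hγ⟩ := exists_branchMatrix (n := n) hq hqL β hβ
  obtain ⟨ψ, hψ⟩ := exists_embedding_branch ι hq hqL ζ hζ hprim
  have hexp : ∀ d, HasExp 1 (genFun d ∘ fun τ => γ • MF.scaleH (q ^ n) τ)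
      (coeffMap ι (ψ ⟨genSer K d, genSer_mem d⟩)) := fun d => by
    rw [hψ, coeffMap_branchVal]
    exact hasExp_branchVal hq hqL hγ hw d
  have U := pairU_pow_mem (L := L) (q := q) (K := K) ι hab hb
  have V := pairV_pow_mem (L := L) (q := q) (K := K) ι hab hb
  have cu := coeffMap_pairU κ (q ^ a) (q ^ b)
  have cv := coeffMap_pairV κ (q ^ a) (q ^ b)
  rw [isSubst_eq_fieldExt ι hφ ψ hψ hu cu U, isSubst_eq_fieldExt ι hφ ψ hψ hv cv V]
  refine ⟨substEmbedding_eq ι Nat.one_pos _ ψ hexp U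
      ((coeffMap_pairU ι (q ^ a) (q ^ b)).symm ▸ hasExp_uPair (q ^ a) (q ^ b)) ?_,
    substEmbedding_eq ι Nat.one_pos _ ψ hexp V
      ((coeffMap_pairV ι (q ^ a) (q ^ b)).symm ▸ hasExp_vPair (q ^ a) (q ^ b)) ?_⟩
  · rw [coeffMap_unitUVal]
    exact hasExp_uPair_branch hγ hw hab hb
  · rw [coeffMap_unitVVal]
    exact hasExp_vPair_branch hγ hw hab hb

omit [Algebra ℚ K] ι in
/-- `1/j` on every branch. -/
theorem branch_jInv {κ : K₀ →+* K} {i : ℕ} {ζ : Kˣ}
    {φ : modField K₀ (L * q ^ n) →+* LaurentSeries K}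
    (hφ : IsSubst κ φ (branchVal hq hqL i ζ)) (h : jInvSeries K₀ ∈ modField K₀ (L * q ^ n)) :
    φ ⟨_, h⟩ = qExpand K (q ^ n) (jInvSeries K) := by
  let d : DivIdx (L * q ^ n) := ⟨1, one_pos, one_dvd _⟩
  have hd : (⟨genSer K₀ d, genSer_mem d⟩ : modField K₀ (L * q ^ n)) * ⟨_, h⟩ = 1 :=
    Subtype.ext (by
      show genSer K₀ d * jInvSeries K₀ = 1
      rw [show genSer K₀ d = qExpand K₀ 1 (jqModC K₀) from rfl, qExpand_one_apply,
        jqModC_mul_inv])
  have hv : φ ⟨genSer K₀ d, genSer_mem d⟩ = qExpand K (q ^ n) (jqModC K) := by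
    rw [hφ.gen, branchVal_eq hq hqL _ _ (oneIdx L) (k := 0) (by simp [d, oneIdx]), branchTerm,
      if_pos (Nat.zero_le _), show genSer K (oneIdx L) = qExpand K 1 (jqModC K) from rfl,
      qExpand_one_apply]
    exact qExpand_congr (by rw [Nat.add_zero]) _
  have h1 : qExpand K (q ^ n) (jqModC K) * qExpand K (q ^ n) (jInvSeries K) = 1 := by
    rw [← map_mul, jqModC_mul_inv, map_one]
  refine mul_left_cancel₀ (left_ne_zero_of_mul_eq_one h1) ?_
  rw [h1, ← hv, ← map_mul, hd, map_one]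

end Level

/-! ### Residues modulo `q` -/

section Residue

variable {k : Type} [CommRing k] {q : ℕ} [NeZero q] [Fact q.Prime] [CharP k q] {n i a : ℕ}

theorem qExpand_deltaInv_char :
    qExpand k q (deltaInvSeries k) = deltaInvSeries k ^ q := by
  rw [laurentSeries_pow_char, coeffMap_deltaInvSeries]

theorem delta_mul_qExpand_deltaInv_char :
    deltaSeries k * qExpand k q (deltaInvSeries k) = deltaInvSeries k ^ (q - 1) := by
  rw [qExpand_deltaInv_char]
  obtain ⟨r, hr⟩ := Nat.exists_eq_add_of_le (Fact.out : q.Prime).one_le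
  rw [hr, Nat.add_sub_cancel_left, Nat.add_comm 1 r, pow_succ', ← mul_assoc,
    deltaSeries_mul_inv, one_mul]

omit [NeZero q] [Fact q.Prime] in
theorem natCast_pow_char_eq_zero {e : ℕ} (he : e ≠ 0) : ((q ^ e : ℕ) : k) ^ 12 = 0 := by
  rw [Nat.cast_pow, CharP.cast_eq_zero, zero_pow he, zero_pow (by norm_num)]

omit [Fact q.Prime] in
theorem unitUVal_one_of_lt (h : a < i) : unitUVal n i (1 : kˣ) q a (a + 1) = 0 := by
  rw [unitUVal, natCast_pow_char_eq_zero (by omega), map_zero, zero_mul]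

omit [Fact q.Prime] in
theorem unitVVal_one_of_le (h : i ≤ a) : unitVVal n i (1 : kˣ) q a (a + 1) = 0 := by
  rw [unitVVal, natCast_pow_char_eq_zero (by omega), map_zero, zero_mul]

/-- `pairV qᵃ q^(a+1)` modulo `q` on the branches `i > a`. -/
theorem unitVVal_one_of_lt (h : a < i) :
    unitVVal n i (1 : kˣ) q a (a + 1) =
      qExpand k (q ^ (n + a)) (deltaInvSeries k ^ (q - 1)) := by
  rw [unitVVal, show a + 1 - min (a + 1) i - (a - min a i) = 0 by omega, pow_zero, Nat.cast_one,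
    one_pow, single_zero_one, one_mul, branchTerm_one, branchTerm_one,
    ← delta_mul_qExpand_deltaInv_char, map_mul, qExpand_qExpand]
  congr 1
  · exact qExpand_congr (by rw [if_pos h.le]) _
  · exact qExpand_congr (by rw [if_pos (Nat.succ_le_of_lt h), ← pow_succ, add_assoc]) _

/-- `pairU qᵃ q^(a+1)` modulo `q` on the branches `i ≤ a`. -/
theorem unitUVal_one_of_le (h : i ≤ a) (ha : a + 1 ≤ n) :
    unitUVal n i (1 : kˣ) q a (a + 1) =
      qExpand k (q ^ (n + 2 * i - (a + 1))) (deltaInvSeries k ^ (q - 1)) := by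
  rw [unitUVal, show min (a + 1) i - min a i = 0 by omega, pow_zero, Nat.cast_one, one_pow,
    single_zero_one, one_mul, branchTerm_one, branchTerm_one,
    ← delta_mul_qExpand_deltaInv_char, map_mul, qExpand_qExpand]
  congr 1
  · exact qExpand_congr (by rw [if_neg (by omega)]) _
  · refine qExpand_congr ?_ _
    rw [← pow_succ]
    congr 1
    split_ifs <;> omega

theorem hasLead_deltaInv_mul_jInv {R : Type} [CommRing R] :
    HasLead (deltaInvSeries R * jInvSeries R) 0 1 := by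
  simpa using (hasLead_deltaInvSeries R).mul (hasLead_jInvSeries R)

theorem jInv_pow_char (m : ℕ) :
    jInvSeries k ^ q ^ m = qExpand k (q ^ m) (jInvSeries k) := by
  induction m with
  | zero =>
    exact (congrArg (jInvSeries k ^ ·) (pow_zero q)).trans ((pow_one _).trans
      ((qExpand_one_apply _).symm.trans (qExpand_congr (pow_zero q).symm _)))
  | succ m ih =>
    have h : jInvSeries k ^ q ^ (m + 1) = (jInvSeries k ^ q ^ m) ^ q := by
      rw [← pow_mul, ← pow_succ]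
    rw [h, ih, ← map_pow, laurentSeries_pow_char, coeffMap_jInvSeries, qExpand_qExpand]
    exact qExpand_congr (pow_succ q m).symm _

/-- The residue of `pairV qᵃ q^(a+1) / j^(qᵃ(q-1))` on the branches `i > a`. -/
theorem unitVVal_one_mul_jInv (h : a < i) :
    unitVVal n i (1 : kˣ) q a (a + 1) * qExpand k (q ^ n) (jInvSeries k) ^ (q ^ a * (q - 1)) =
      qExpand k (q ^ (n + a)) ((deltaInvSeries k * jInvSeries k) ^ (q - 1)) := by
  rw [unitVVal_one_of_lt h, ← map_pow, pow_mul, jInv_pow_char, ← map_pow, qExpand_qExpand,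
    mul_pow, map_mul]
  congr 1
  exact qExpand_congr (by rw [_root_.pow_add]) _

/-- The residue of `(pairU qᵃ q^(a+1))^q / j^(qᵃ(q-1))` on the branches `i ≤ a`. -/
theorem unitUVal_one_pow_mul_jInv (h : i ≤ a) (ha : a + 1 ≤ n) :
    unitUVal n i (1 : kˣ) q a (a + 1) ^ q *
        qExpand k (q ^ n) (jInvSeries k) ^ (q ^ a * (q - 1)) =
      qExpand k (q ^ (n + 2 * i - a)) ((deltaInvSeries k *
        qExpand k (q ^ (2 * (a - i))) (jInvSeries k)) ^ (q - 1)) := by
  rw [unitUVal_one_of_le h ha, ← map_pow, ← map_pow, ← pow_mul, mul_comm (q - 1) q, pow_mul,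
    ← qExpand_deltaInv_char, ← map_pow, qExpand_qExpand, pow_mul (jInvSeries k), jInv_pow_char,
    ← map_pow, qExpand_qExpand, mul_pow, ← map_pow, map_mul, qExpand_qExpand]
  congr 1
  · exact qExpand_congr (by rw [← pow_succ]; congr 1; omega) _
  · exact qExpand_congr (by rw [← _root_.pow_add, ← _root_.pow_add]; congr 1; omega) _

/-- The residue of `(pairU qᵃ q^(a+1))^q / j^(qᵃ(q-1))` on the branch `a`. -/
theorem unitUVal_one_pow_mul_jInv_self (ha : a + 1 ≤ n) :
    unitUVal n a (1 : kˣ) q a (a + 1) ^ q *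
        qExpand k (q ^ n) (jInvSeries k) ^ (q ^ a * (q - 1)) =
      qExpand k (q ^ (n + a)) ((deltaInvSeries k * jInvSeries k) ^ (q - 1)) := by
  rw [unitUVal_one_pow_mul_jInv le_rfl ha, qExpand_congr (show q ^ (2 * (a - a)) = 1 by simp),
    qExpand_one_apply]
  exact qExpand_congr (by congr 1; omega) _

end Residue

/-! ### The chart at infinity -/

section ChartOne

variable {q n : ℕ} [NeZero q]

/-- The orders of the conjugates: at every cusp there is `c ≤ n` with `r(qᵏ) = q^(n + 2 min k c - k)`. -/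
theorem r_pow_cases (hq : q.Prime) (c : Coset (1 * q ^ n)) :
    ∃ m ≤ n, ∀ {k : ℕ} (hk : k ≤ n),
      (tri c (pow_dvd_level (L := 1) (q := q) hk)).r = q ^ (n + 2 * min k m - k) := by
  set ℓ := lowerLeft c
  obtain ⟨m, hm, hgm⟩ := (Nat.dvd_prime_pow hq).mp
    (Int.natCast_dvd_natCast.mp (Int.gcd_dvd_left ((q ^ n : ℕ) : ℤ) ℓ))
  refine ⟨m, hm, fun {k} hk => ?_⟩
  have ha : (tri c (pow_dvd_level (L := 1) (q := q) hk)).a = q ^ min k m := by
    rw [tri_a]
    have h : ((q ^ k : ℕ) : ℤ).gcd ℓ = Nat.gcd (q ^ k) (((q ^ n : ℕ) : ℤ).gcd ℓ) := by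
      simp only [Int.gcd_def, Int.natAbs_natCast]
      rw [← Nat.gcd_assoc, Nat.gcd_eq_left (pow_dvd_pow q hk)]
    rw [h, hgm]
    rcases le_total k m with h' | h'
    · rw [min_eq_left h', Nat.gcd_eq_left (pow_dvd_pow q h')]
    · rw [min_eq_right h', Nat.gcd_eq_right (pow_dvd_pow q h')]
  have hmul := tri_mul c (pow_dvd_level (L := 1) (q := q) hk)
  rw [ha] at hmul
  have he : (tri c (pow_dvd_level (L := 1) (q := q) hk)).e = q ^ (k - min k m) :=
    Nat.eq_of_mul_eq_mul_left (pow_pos hq.pos (min k m))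
      (hmul.trans (by rw [← _root_.pow_add]; congr 1; omega))
  rw [TriData.r, ha, he, one_mul, Nat.pow_div (by omega) hq.pos, ← _root_.pow_add]
  congr 1
  omega

variable {K : Type} [Field K] (ι : K →+* ℂ) {a : ℕ}

include ι

omit [NeZero q] in
/-- `pairV qᵃ q^(a+1) / j^(qᵃ(q-1))` is integral over `ℤ[1/j]`. -/
theorem isIntegralElem_pairV_inf [NeZero q] (hq : q.Prime) :
    (Polynomial.eval₂RingHom (Int.castRingHom (LaurentSeries K)) (jInvSeries K)).IsIntegralElem
      (pairV K (q ^ a) (q ^ (a + 1)) * jInvSeries K ^ (q ^ a * (q - 1))) := by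
  have hd : q ^ a ∣ q ^ (a + 1) := pow_dvd_pow q a.le_succ
  have hd2 : q ^ (a + 1) ∣ 1 * q ^ (a + 1) := dvd_mul_left _ _
  refine isIntegralElem_div_j_pow (conjugable_vPair hd hd2) ι ?_ _ fun c ↦ ?_
  · rw [coeffMap_pairV]
    exact hasExp_vPair _ _
  obtain ⟨x, hx⟩ := exists_hasLead_vPairSer (tri c (hd.trans hd2)) (tri c hd2)
  refine ⟨_, _, by rw [expHom_conj_vPair hd hd2]; exact hx, ?_⟩
  obtain ⟨m, hm, hr⟩ := r_pow_cases hq c
  rw [hr a.le_succ, hr le_rfl]
  have hq1 : (1 : ℤ) ≤ q := by exact_mod_cast hq.pos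
  have key : ∀ t : ℕ, (0 : ℤ) ≤ (q : ℤ) ^ t := fun t => by positivity
  have hN : (0 : ℤ) ≤ (q : ℤ) ^ a * (q : ℤ) ^ a * (q : ℤ) * ((q : ℤ) - 1) :=
    mul_nonneg (mul_nonneg (mul_nonneg (key a) (key a)) (by positivity)) (sub_nonneg.mpr hq1)
  rcases le_or_gt m a with h | h
  · rw [min_eq_right (h.trans a.le_succ), min_eq_right h,
      show a + 1 + 2 * m - a = 2 * m + 1 by omega, show a + 1 + 2 * m - (a + 1) = 2 * m by omega]
    simp only [_root_.pow_add, pow_one]
    push_cast [Nat.cast_sub hq.one_le]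
    nlinarith [mul_nonneg (key (2 * m)) (sub_nonneg.mpr hq1)]
  · rw [min_eq_left (show a + 1 ≤ m by omega), min_eq_left h.le,
      show a + 1 + 2 * a - a = a + (a + 1) by omega,
      show a + 1 + 2 * (a + 1) - (a + 1) = a + (a + 1) + 1 by omega]
    simp only [_root_.pow_add, pow_one]
    push_cast [Nat.cast_sub hq.one_le]
    linarith

omit [NeZero q] in
/-- `(pairU qᵃ q^(a+1))^q / j^(qᵃ(q-1))` is integral over `ℤ[1/j]`. -/
theorem isIntegralElem_pairU_inf [NeZero q] (hq : q.Prime) :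
    (Polynomial.eval₂RingHom (Int.castRingHom (LaurentSeries K)) (jInvSeries K)).IsIntegralElem
      (pairU K (q ^ a) (q ^ (a + 1)) ^ q * jInvSeries K ^ (q ^ a * (q - 1))) := by
  have hd : q ^ a ∣ q ^ (a + 1) := pow_dvd_pow q a.le_succ
  have hd2 : q ^ (a + 1) ∣ 1 * q ^ (a + 1) := dvd_mul_left _ _
  have hc := conjugable_uPair hd hd2
  refine isIntegralElem_div_j_pow (Conjugable.pow' hc q) ι ?_ _ fun c ↦ ?_
  · rw [map_pow, coeffMap_pairU]
    exact hasExp_pow (hasExp_uPair _ _) q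
  obtain ⟨x, hx⟩ := exists_hasLead_uPairSer (tri c (hd.trans hd2)) (tri c hd2)
  refine ⟨_, _, by rw [expHom_conj_pow hc, expHom_conj_uPair hd hd2]; exact HasLead.pow' hx q, ?_⟩
  obtain ⟨m, hm, hr⟩ := r_pow_cases hq c
  rw [hr a.le_succ, hr le_rfl]
  have hq1 : (1 : ℤ) ≤ q := by exact_mod_cast hq.pos
  have key : ∀ t : ℕ, (0 : ℤ) ≤ (q : ℤ) ^ t := fun t => by positivity
  have hN : (0 : ℤ) ≤ (q : ℤ) ^ a * (q : ℤ) ^ a * (q : ℤ) * ((q : ℤ) - 1) :=
    mul_nonneg (mul_nonneg (mul_nonneg (key a) (key a)) (by positivity)) (sub_nonneg.mpr hq1)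
  rcases le_or_gt m a with h | h
  · rw [min_eq_right (h.trans a.le_succ), min_eq_right h,
      show a + 1 + 2 * m - a = 2 * m + 1 by omega, show a + 1 + 2 * m - (a + 1) = 2 * m by omega]
    have hle : (q : ℤ) ^ (2 * m) ≤ (q : ℤ) ^ a * (q : ℤ) ^ a := by
      rw [← _root_.pow_add]
      exact pow_le_pow_right₀ hq1 (by omega)
    simp only [_root_.pow_add, pow_one]
    push_cast [Nat.cast_sub hq.one_le]
    nlinarith [mul_le_mul_of_nonneg_left hle
      (mul_nonneg (by positivity : (0 : ℤ) ≤ q) (sub_nonneg.mpr hq1))]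
  · rw [min_eq_left (show a + 1 ≤ m by omega), min_eq_left h.le,
      show a + 1 + 2 * a - a = a + (a + 1) by omega,
      show a + 1 + 2 * (a + 1) - (a + 1) = a + (a + 1) + 1 by omega]
    simp only [_root_.pow_add, pow_one]
    push_cast [Nat.cast_sub hq.one_le]
    nlinarith [mul_nonneg hN (by positivity : (0 : ℤ) ≤ q + 1)]

end ChartOne

/-! ### The separator of the branch `i` -/

section Separator

variable (R : Type) [CommRing R] (q n i : ℕ) [NeZero q]

/-- Modulo `q` this vanishes on all branches but `i`. -/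
def sepFin : LaurentSeries R :=
  (if i = 0 then 1 else pairV R (q ^ (i - 1)) (q ^ (i - 1 + 1))) *
    (if i = n then 1 else pairU R (q ^ i) (q ^ (i + 1)) ^ q)

/-- The power of `j` of the separator on the chart at infinity. -/
def sepExp : ℕ :=
  (if i = 0 then 0 else q ^ (i - 1) * (q - 1)) + (if i = n then 0 else q ^ i * (q - 1))

/-- The separator on the chart at infinity. -/
def sepInf : LaurentSeries R := sepFin R q n i * jInvSeries R ^ sepExp q n i

variable {R} {q n i}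

/-- The separator on the branch `i'` of `ζ`. -/
def sepVal (n i' : ℕ) (ζ : Rˣ) (q : ℕ) [NeZero q] (i : ℕ) : LaurentSeries R :=
  (if i = 0 then 1 else unitVVal n i' ζ q (i - 1) (i - 1 + 1)) *
    (if i = n then 1 else unitUVal n i' ζ q i (i + 1) ^ q)

theorem coeffMap_sepVal {S : Type} [CommRing S] (φ : R →+* S) (i' : ℕ) (ζ : Rˣ) :
    coeffMap φ (sepVal n i' ζ q i) = sepVal n i' (Units.map φ.toMonoidHom ζ) q i := by
  unfold sepVal
  split_ifs <;> simp only [map_mul, map_one, map_pow, coeffMap_unitUVal, coeffMap_unitVVal]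

end Separator

section SeparatorField

variable {L q n i : ℕ} [NeZero L] [NeZero q] {K₀ K : Type} [Field K₀] [Algebra ℚ K₀] [Field K]
  [Algebra ℚ K] (ι : K →+* ℂ)

include ι

theorem sepFin_mem (hi : i ≤ n) : sepFin K q n i ∈ modField K (L * q ^ n) := by
  unfold sepFin
  refine mul_mem ?_ ?_
  · split_ifs
    · exact one_mem _
    · exact pairV_pow_mem ι (Nat.le_succ _) (by omega)
  · split_ifs
    · exact one_mem _
    · exact pow_mem (pairU_pow_mem ι (Nat.le_succ _) (by omega)) q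

omit [NeZero L] in
theorem isIntegralElem_sepFin :
    (Polynomial.eval₂RingHom (Int.castRingHom (LaurentSeries K)) (jqModC K)).IsIntegralElem
      (sepFin K q n i) := by
  unfold sepFin
  refine RingHom.IsIntegralElem.mul _ ?_ ?_
  · split_ifs
    · exact RingHom.isIntegralElem_one _
    · exact isIntegralElem_pairV_pow ι (Nat.le_succ _)
  · split_ifs
    · exact RingHom.isIntegralElem_one _
    · let _ : Algebra (Polynomial ℤ) (LaurentSeries K) :=
        (Polynomial.eval₂RingHom (Int.castRingHom (LaurentSeries K)) (jqModC K)).toAlgebra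
      exact IsIntegral.pow (R := Polynomial ℤ) (isIntegralElem_pairU_pow ι (Nat.le_succ _)) q

omit [Algebra ℚ K] [NeZero L] in
theorem isIntegralElem_sepInf (hq : q.Prime) :
    (Polynomial.eval₂RingHom (Int.castRingHom (LaurentSeries K)) (jInvSeries K)).IsIntegralElem
      (sepInf K q n i) := by
  rw [sepInf, sepExp, _root_.pow_add, sepFin, mul_mul_mul_comm]
  refine RingHom.IsIntegralElem.mul _ ?_ ?_
  · split_ifs
    · rw [pow_zero, mul_one]; exact RingHom.isIntegralElem_one _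
    · exact isIntegralElem_pairV_inf ι hq
  · split_ifs
    · rw [pow_zero, mul_one]; exact RingHom.isIntegralElem_one _
    · exact isIntegralElem_pairU_inf ι hq

/-- The separators on the branches. -/
theorem branch_sepFin (hq : q.Prime) (hqL : ¬ q ∣ L) {κ : K₀ →+* K} {i' : ℕ} {ζ : Kˣ}
    (hζ : ζ ^ q ^ n = 1) (hprim : 0 < i' → i' < n → IsPrimitiveRoot ζ (q ^ n))
    {φ : modField K₀ (L * q ^ n) →+* LaurentSeries K}
    (hφ : IsSubst κ φ (branchVal hq hqL i' ζ)) (ι₀ : K₀ →+* ℂ) (hi : i ≤ n)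
    (h : sepFin K₀ q n i ∈ modField K₀ (L * q ^ n)) :
    φ ⟨_, h⟩ = sepVal n i' ζ q i := by
  let A : modField K₀ (L * q ^ n) := if h0 : i = 0 then 1 else
    ⟨pairV K₀ (q ^ (i - 1)) (q ^ (i - 1 + 1)), pairV_pow_mem ι₀ (Nat.le_succ _) (by omega)⟩
  let B : modField K₀ (L * q ^ n) := if hn : i = n then 1 else
    ⟨pairU K₀ (q ^ i) (q ^ (i + 1)), pairU_pow_mem ι₀ (Nat.le_succ _) (by omega)⟩ ^ q
  have hAB : (⟨_, h⟩ : modField K₀ (L * q ^ n)) = A * B := Subtype.ext (by
    show sepFin K₀ q n i = (A : LaurentSeries K₀) * (B : LaurentSeries K₀)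
    simp only [sepFin, A, B]
    split_ifs <;> simp)
  rw [hAB, map_mul, sepVal]
  congr 1
  · simp only [A]
    split_ifs with h0
    · exact map_one φ
    · exact (branch_pair ι hq hqL hζ hprim hφ (Nat.le_succ _) (by omega)
        (pairU_pow_mem ι₀ (Nat.le_succ _) (by omega)) _).2
  · simp only [B]
    split_ifs with hn
    · exact map_one φ
    · rw [map_pow, (branch_pair ι hq hqL hζ hprim hφ (Nat.le_succ _) (by omega) _
        (pairV_pow_mem ι₀ (Nat.le_succ _) (by omega))).1]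

end SeparatorField

section SeparatorResidue

variable {k : Type} [CommRing k] {q : ℕ} [NeZero q] [Fact q.Prime] [CharP k q] {n i i' : ℕ}

/-- Off the branch `i` the separator vanishes modulo `q`. -/
theorem sepVal_one_of_ne (hi' : i' ≤ n) (h : i' ≠ i) :
    sepVal n i' (1 : kˣ) q i = 0 := by
  rcases lt_or_gt_of_ne h with h | h
  · rw [sepVal, if_neg (by omega), unitVVal_one_of_le (by omega), zero_mul]
  · rw [sepVal, if_neg (show i ≠ n by omega), unitUVal_one_of_lt h,
      zero_pow (Fact.out : q.Prime).ne_zero, mul_zero]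

/-- On the branch `i` the separator is a unit modulo `q`. -/
theorem isUnit_sepVal_one (hi : i ≤ n) : IsUnit (sepVal n i (1 : kˣ) q i) := by
  have hu : ∀ (m : ℕ) [NeZero m], IsUnit (qExpand k m (deltaInvSeries k ^ (q - 1))) := fun m _ =>
    ((IsUnit.of_mul_eq_one _ (by rw [mul_comm]; exact deltaSeries_mul_inv k)).pow (q - 1)).map
      (qExpand k m)
  rw [sepVal]
  refine IsUnit.mul ?_ ?_
  · split_ifs
    · exact isUnit_one
    · rw [unitVVal_one_of_lt (by omega)]; exact hu _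
  · split_ifs
    · exact isUnit_one
    · rw [unitUVal_one_of_le le_rfl (by omega)]; exact (hu _).pow q

/-- At infinity the separator of the branch `i` has constant term one modulo `q`. -/
theorem hasLead_sepVal_one_mul_jInv (hi : i ≤ n) :
    HasLead (sepVal n i (1 : kˣ) q i * qExpand k (q ^ n) (jInvSeries k) ^ sepExp q n i) 0 1 := by
  have hu : ∀ (m : ℕ) [NeZero m],
      HasLead (qExpand k m ((deltaInvSeries k * jInvSeries k) ^ (q - 1))) 0 1 := fun m _ => by
    simpa using (HasLead.pow' (hasLead_deltaInv_mul_jInv (R := k)) (q - 1)).qExpand m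
  rw [sepVal, sepExp, _root_.pow_add, mul_mul_mul_comm, ← zero_add (0 : ℤ), ← one_mul (1 : k)]
  refine HasLead.mul ?_ ?_
  · split_ifs
    · rw [pow_zero, mul_one]; exact hasLead_one
    · rw [unitVVal_one_mul_jInv (by omega)]; exact hu _
  · split_ifs
    · rw [pow_zero, mul_one]; exact hasLead_one
    · rw [unitUVal_one_pow_mul_jInv_self (by omega)]; exact hu _

end SeparatorResidue

end Fermat.Agent.CarayolHigh
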