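import Fermat.Agent.Galois.Cyclotomic
import Fermat.Agent.Galois.Unramified
import Mathlib

/-!
# The maximal unramified base at `q` and its cyclotomic extensions

For a place `A` of `Qbar` over `q`, the fixed field `K` of inertia carries a discrete valuation
ring with uniformiser `q` and residue field that of `A`; finite extensions of `K` keep discrete
valuation rings, and inertia moves `q`-power roots of unity arbitrarily.
-/

set_option autoImplicit false
set_option linter.style.haveILetI false

noncomputable section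

open IsLocalRing IntermediateField Fermat.Agent.Galois
open scoped NumberField

namespace Fermat.Agent.CarayolHigh

variable {A : ValuationSubring Qbar} {q : ℕ}

/-- The fixed field of inertia at `A`. -/
def inertiaField (A : ValuationSubring Qbar) : IntermediateField ℚ Qbar :=
  IntermediateField.fixedField (A.inertiaSubgroupIn ℚ)

theorem mem_inertiaField_iff {x : Qbar} :
    x ∈ inertiaField A ↔ ∀ σ ∈ A.inertiaSubgroupIn ℚ, σ x = x := by
  simp [inertiaField, IntermediateField.mem_fixedField_iff]

/-- Restriction of the place to a subfield. -/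
abbrev baseRing (A : ValuationSubring Qbar) (E : IntermediateField ℚ Qbar) : ValuationSubring E :=
  A.comap (algebraMap E Qbar)

theorem mem_baseRing_iff {E : IntermediateField ℚ Qbar} {x : E} :
    x ∈ baseRing A E ↔ (x : Qbar) ∈ A := Iff.rfl

/-- The inclusion of the rings. -/
def baseIncl (A : ValuationSubring Qbar) (E : IntermediateField ℚ Qbar) : baseRing A E →+* A :=
  ((algebraMap E Qbar).comp (baseRing A E).subtype).codRestrict A fun x => x.2

/-- The reduction to the residue field of `A`. -/
def baseRed (A : ValuationSubring Qbar) (E : IntermediateField ℚ Qbar) :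
    baseRing A E →+* ResidueField A :=
  (residue A).comp (baseIncl A E)

theorem isUnit_baseIncl_iff {E : IntermediateField ℚ Qbar} (x : baseRing A E) :
    IsUnit (baseIncl A E x) ↔ IsUnit x := by
  refine ⟨fun h => ?_, fun h => h.map _⟩
  obtain ⟨⟨y, hy⟩, hxy⟩ := isUnit_iff_exists_inv.mp h
  have h1 : ((x : E) : Qbar) * y = 1 := congrArg Subtype.val hxy
  have hy' : y = (((x : E)⁻¹ : E) : Qbar) := by
    rw [IntermediateField.coe_inv]
    exact eq_inv_of_mul_eq_one_right h1
  have hmem : (x : E)⁻¹ ∈ baseRing A E := mem_baseRing_iff.mpr (hy' ▸ hy)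
  refine isUnit_iff_exists_inv.mpr ⟨⟨(x : E)⁻¹, hmem⟩, Subtype.ext ?_⟩
  exact mul_inv_cancel₀ fun h0 => one_ne_zero (h1.symm.trans (by simp [h0]))

theorem baseRed_eq_zero_iff {E : IntermediateField ℚ Qbar} (x : baseRing A E) :
    baseRed A E x = 0 ↔ ¬ IsUnit x := by
  rw [baseRed, RingHom.comp_apply, residue_eq_zero_iff, mem_maximalIdeal, mem_nonunits_iff,
    isUnit_baseIncl_iff]

/-! ## Ramification index one in the inertia field of a finite level -/

theorem ramificationIdx_under_eq_one {K L : Type*} [Field K] [NumberField K] [Field L]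
    [NumberField L] [Algebra K L] [IsGalois ℚ L] (P : Ideal (𝓞 L)) [P.IsPrime]
    (h : ∀ g ∈ P.inertia Gal(L/ℚ), ∀ x : K, g (algebraMap K L x) = algebraMap K L x) :
    (P.under (𝓞 K)).ramificationIdx ℤ = 1 := by
  have : IsGalois K L := IsGalois.tower_top_of_isGalois ℚ K L
  let e : P.inertia Gal(L/K) → P.inertia Gal(L/ℚ) := fun g =>
    ⟨(g : L ≃ₐ[K] L).restrictScalars ℚ, fun x => g.2 x⟩
  have he : Function.Bijective e := by
    refine ⟨fun a b hab => Subtype.ext (AlgEquiv.ext fun x =>
      DFunLike.congr_fun (congrArg Subtype.val hab) x), fun g => ?_⟩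
    exact ⟨⟨{ (g : L ≃ₐ[ℚ] L).toRingEquiv with commutes' := h g g.2 }, fun x => g.2 x⟩,
      Subtype.ext (AlgEquiv.ext fun x => rfl)⟩
  have hc := Nat.card_eq_of_bijective e he
  rw [Ideal.card_inertia_eq_ramificationIdxIn (P.under (𝓞 K)) P,
    Ideal.card_inertia_eq_ramificationIdxIn (P.under ℤ) P,
    Ideal.ramificationIdxIn_eq_ramificationIdx (P.under (𝓞 K)) P Gal(L/K),
    Ideal.ramificationIdxIn_eq_ramificationIdx (P.under ℤ) P Gal(L/ℚ),
    Ideal.ramificationIdx_tower (R := ℤ) (P.under (𝓞 K)) P] at hc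
  have hpos : 0 < P.ramificationIdx (𝓞 K) := Ideal.ramificationIdx_pos P (𝓞 K)
  exact (right_eq_mul₀ hpos.ne').mp hc

/-- On a finite level fixed by inertia, `q` generates the maximal ideal locally at `A`. -/
theorem exists_mul_eq_natCast_mul (hA : A.LiesOverPrime q) (hq : q.Prime)
    (F : IntermediateField ℚ Qbar) [FiniteDimensional ℚ F] (hF : F ≤ inertiaField A) (y : 𝓞 F)
    (hy : ((y : F) : Qbar) ∈ A.nonunits) :
    ∃ s y' : 𝓞 F, ((s : F) : Qbar) ∉ A.nonunits ∧ s * y = (q : 𝓞 F) * y' := by
  let L := IntermediateField.normalClosure ℚ F Qbar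
  have : NumberField F := NumberField.of_module_finite ℚ F
  have : NumberField L := NumberField.of_module_finite ℚ L
  have : Normal ℚ L := normalClosure.normal ℚ F Qbar
  have : IsGalois ℚ L := ⟨⟩
  have hFL : F ≤ L := IntermediateField.le_normalClosure F
  let : Algebra F L := (IntermediateField.inclusion hFL).toRingHom.toAlgebra
  let P := levelPlaceIdeal L A
  have hfix : ∀ g ∈ P.inertia Gal(L/ℚ), ∀ x : F, g (algebraMap F L x) = algebraMap F L x := by
    intro g hg x
    obtain ⟨σ, hσ⟩ := exists_galQ_restrict L g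
    obtain ⟨i, hi, hix⟩ := exists_inertia_eq_on (σ := σ) L hA hq fun z hz hzi => by
      let z' : 𝓞 L := ⟨⟨z, hz⟩,
        (isIntegral_algHom_iff (IsScalarTower.toAlgHom ℤ L Qbar) Subtype.val_injective).mp hzi⟩
      have := (mem_levelPlaceIdeal_iff L).mp (hg z')
      rw [hσ ⟨z, hz⟩]
      exact this
    apply Subtype.ext
    rw [← hσ, ← hix _ (algebraMap F L x).2]
    exact mem_inertiaField_iff.mp (hF x.2) i hi
  have hram := ramificationIdx_under_eq_one (K := F) P hfix
  set Q := P.under (𝓞 F) with hQ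
  have hQmem : ∀ z : 𝓞 F, z ∈ Q ↔ ((z : F) : Qbar) ∈ A.nonunits := fun z => by
    rw [hQ, Ideal.mem_comap, mem_levelPlaceIdeal_iff]
    rfl
  have hqQ : (q : 𝓞 F) ∈ Q := (hQmem _).mpr (by simpa using! hA)
  have hover : Q.LiesOver (Ideal.span {(q : ℤ)}) :=
    (Ideal.liesOver_span_iff Ideal.IsPrime.ne_top' (Nat.prime_iff_prime_int.mp hq)).mpr
      (by simpa using hqQ)
  have hmap : (Ideal.span {(q : ℤ)}).map (algebraMap ℤ (𝓞 F)) = Ideal.span {(q : 𝓞 F)} := by
    rw [Ideal.map_span, Set.image_singleton]; simp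
  have hne : (Ideal.span {(q : ℤ)}).map (algebraMap ℤ (𝓞 F)) ≠ ⊥ := by
    rw [hmap, Ne, Ideal.span_singleton_eq_bot]; exact Nat.cast_ne_zero.mpr hq.ne_zero
  have hQ0 : Q ≠ ⊥ := fun h0 => Nat.cast_ne_zero.mpr hq.ne_zero (Ideal.mem_bot.mp (h0 ▸ hqQ))
  have : Q.IsMaximal := Ideal.IsPrime.isMaximal inferInstance hQ0
  obtain ⟨J, hJ, heq⟩ := Ideal.eq_prime_pow_mul_coprime hne Q
  rw [← Ideal.IsDedekindDomain.ramificationIdx_eq_normalizedFactors_count (Ideal.span {(q : ℤ)}) Q hne,
    hram, pow_one, hmap] at heq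
  obtain ⟨s, hsJ, hsQ⟩ := SetLike.not_le_iff_exists.mp (fun hle => Ideal.IsPrime.ne_top'
    (I := Q) (by rwa [sup_of_le_left hle] at hJ))
  have hsy : s * y ∈ Ideal.span {(q : 𝓞 F)} := by
    rw [heq, mul_comm s y]
    exact Ideal.mul_mem_mul ((hQmem y).mpr hy) hsJ
  obtain ⟨y', hy'⟩ := Ideal.mem_span_singleton.mp hsy
  exact ⟨s, y', fun h => hsQ ((hQmem s).mpr h), hy'⟩

theorem valuation_natCast_lt_one (hA : A.LiesOverPrime q) : A.valuation (q : Qbar) < 1 := hA

theorem valuation_eq_one_of_not_mem_nonunits {x : Qbar} (hx : x ∈ A) (h : x ∉ A.nonunits) :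
    A.valuation x = 1 :=
  le_antisymm ((A.valuation_le_one_iff x).mpr hx) (not_lt.mp fun hl => h hl)

/-- A nonzero algebraic integer is not divisible by arbitrarily high powers of `q` at `A`. -/
theorem exists_valuation_pow_lt (hA : A.LiesOverPrime q) (hq : q.Prime) {y : Qbar}
    (hy : IsIntegral ℤ y) (hy0 : y ≠ 0) :
    ∃ M : ℕ, A.valuation ((q : Qbar) ^ M) < A.valuation y := by
  classical
  set p := minpoly ℤ y with hp
  have hc : p.coeff 0 ≠ 0 := fun h => by
    refine minpoly.coeff_zero_ne_zero (A := ℚ) (x := y) hy.tower_top hy0 ?_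
    rw [minpoly.isIntegrallyClosed_eq_field_fractions' ℚ hy, Polynomial.coeff_map, ← hp, h,
      map_zero]
  have hdvd : ∃ z : Qbar, z ∈ A ∧ (p.coeff 0 : Qbar) = y * z := by
    refine ⟨-Polynomial.aeval y p.divX, neg_mem ?_, ?_⟩
    · exact place_mem_of_isIntegral A (IsIntegral.of_mem_of_fg _ hy.fg_adjoin_singleton _
        (Polynomial.aeval_mem_adjoin_singleton ℤ y))
    · have h := minpoly.aeval ℤ y
      rw [← hp, ← Polynomial.X_mul_divX_add p, map_add, map_mul, Polynomial.aeval_X,
        Polynomial.aeval_C] at h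
      rw [mul_neg, ← eq_neg_of_add_eq_zero_right h]
      simp
  obtain ⟨z, hz, hzy⟩ := hdvd
  obtain ⟨m, hm⟩ : ∃ m, (p.coeff 0).natAbs = m := ⟨_, rfl⟩
  obtain ⟨r, c, hcq, hmc⟩ := Nat.exists_eq_pow_mul_and_not_dvd (n := m)
    (by rw [← hm]; simpa using hc) q hq.ne_one
  have hvc : A.valuation (c : Qbar) = 1 :=
    valuation_eq_one_of_not_mem_nonunits (place_natCast_mem A c)
      (fun h => hcq ((place_natCast_mem_nonunits_iff hA hq c).mp h))
  have hv : A.valuation (p.coeff 0 : Qbar) = A.valuation ((q : Qbar) ^ r) := by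
    rcases Int.natAbs_eq (p.coeff 0) with h | h <;> rw [h, hm, hmc] <;> push_cast <;>
      simp [map_mul, hvc]
  refine ⟨r + 1, lt_of_lt_of_le ?_ (show A.valuation ((q : Qbar) ^ r) ≤ A.valuation y from ?_)⟩
  · rw [pow_succ, map_mul]
    refine mul_lt_of_lt_one_right (zero_lt_iff.mpr ?_) (valuation_natCast_lt_one hA)
    exact (Valuation.ne_zero_iff _).mpr (pow_ne_zero _ (Nat.cast_ne_zero.mpr hq.ne_zero))
  · rw [← hv, hzy, map_mul]
    exact mul_le_of_le_one_right' ((A.valuation_le_one_iff z).mpr hz)

/-- Every element of a level fixed by inertia is a power of `q` times a unit at `A`. -/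
theorem exists_eq_natCast_zpow_mul (hA : A.LiesOverPrime q) (hq : q.Prime) {x : Qbar}
    (hxK : x ∈ inertiaField A) (hx0 : x ≠ 0) :
    ∃ r : ℤ, A.valuation x = A.valuation (q : Qbar) ^ r := by
  let F : IntermediateField ℚ Qbar := ℚ⟮x⟯
  have : FiniteDimensional ℚ F :=
    IntermediateField.adjoin.finiteDimensional (Algebra.IsAlgebraic.isAlgebraic x).isIntegral
  have hF : F ≤ inertiaField A := IntermediateField.adjoin_simple_le_iff.mpr hxK
  have key : ∀ (N : ℕ) (y : 𝓞 F), A.valuation ((q : Qbar) ^ N) < A.valuation ((y : F) : Qbar) →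
      ∃ r : ℕ, A.valuation ((y : F) : Qbar) = A.valuation (q : Qbar) ^ r := by
    intro N
    induction N with
    | zero =>
      intro y h
      rw [pow_zero, map_one] at h
      exact absurd ((A.valuation_le_one_iff _).mpr (levelIntegerHom_mem F A y)) (not_le.mpr h)
    | succ N ih =>
      intro y h
      by_cases hy : ((y : F) : Qbar) ∈ A.nonunits
      · obtain ⟨s, y', hs, hsy⟩ := exists_mul_eq_natCast_mul hA hq F hF y hy
        have h1 := congrArg (fun t : 𝓞 F => A.valuation ((t : F) : Qbar)) hsy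
        simp only [map_mul, IntermediateField.coe_mul, map_natCast] at h1
        have hs1 : A.valuation ((s : F) : Qbar) = 1 :=
          valuation_eq_one_of_not_mem_nonunits (levelIntegerHom_mem F A s) hs
        rw [hs1, one_mul] at h1
        rw [h1, pow_succ', map_mul] at h
        have hq0 : 0 < A.valuation (q : Qbar) :=
          zero_lt_iff.mpr ((Valuation.ne_zero_iff _).mpr (Nat.cast_ne_zero.mpr hq.ne_zero))
        obtain ⟨r, hr⟩ := ih y' (lt_of_mul_lt_mul_left' h)
        exact ⟨r + 1, by rw [h1, pow_succ', hr]; simp⟩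
      · exact ⟨0, by
          rw [pow_zero]
          exact valuation_eq_one_of_not_mem_nonunits (levelIntegerHom_mem F A y) hy⟩
  have main : ∀ y : 𝓞 F, y ≠ 0 →
      ∃ r : ℕ, A.valuation ((y : F) : Qbar) = A.valuation (q : Qbar) ^ r := fun y hy => by
    obtain ⟨M, hM⟩ := exists_valuation_pow_lt hA hq (levelInteger_isIntegral F y)
      (by simpa using hy)
    exact key M y hM
  have : NumberField F := NumberField.of_module_finite ℚ F
  obtain ⟨a, b, hb, hab⟩ := IsFractionRing.div_surjective (𝓞 F)
    (⟨x, IntermediateField.mem_adjoin_simple_self ℚ x⟩ : F)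
  have hab' : ((a : F) : Qbar) / ((b : F) : Qbar) = x := by
    have := congrArg Subtype.val hab
    simpa using this
  have hb0 : b ≠ 0 := nonZeroDivisors.ne_zero hb
  have ha0 : a ≠ 0 := fun h => hx0 (by rw [← hab', h]; simp)
  obtain ⟨r, hr⟩ := main a ha0
  obtain ⟨t, ht⟩ := main b hb0
  refine ⟨(r : ℤ) - t, ?_⟩
  rw [← hab', map_div₀, hr, ht, zpow_sub₀ ((Valuation.ne_zero_iff _).mpr
    (Nat.cast_ne_zero.mpr hq.ne_zero)), zpow_natCast, zpow_natCast]

theorem irreducible_natCast_baseRing (hA : A.LiesOverPrime q) (hq : q.Prime) :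
    Irreducible (q : baseRing A (inertiaField A)) := by
  have hu : ∀ z : baseRing A (inertiaField A), IsUnit z ↔
      A.valuation (((z : inertiaField A)) : Qbar) = 1 := fun z => by
    rw [← isUnit_baseIncl_iff]
    exact A.valuation_eq_one_iff _
  constructor
  · rw [hu]; simpa using (valuation_natCast_lt_one hA).ne
  · intro a b hab
    simp only [hu]
    by_contra h
    push Not at h
    have hv := congrArg (fun z : baseRing A (inertiaField A) =>
      A.valuation (((z : inertiaField A)) : Qbar)) hab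
    simp only [map_mul, MulMemClass.coe_mul] at hv
    have hlt : ∀ z : baseRing A (inertiaField A),
        A.valuation (((z : inertiaField A)) : Qbar) ≠ 1 →
        A.valuation (((z : inertiaField A)) : Qbar) ≤ A.valuation (q : Qbar) := by
      intro z hz
      rcases eq_or_ne (((z : inertiaField A)) : Qbar) 0 with h0 | h0
      · rw [h0, map_zero]; exact zero_le
      obtain ⟨r, hr⟩ := exists_eq_natCast_zpow_mul hA hq (z : inertiaField A).2 h0
      have h1 : A.valuation (((z : inertiaField A)) : Qbar) ≤ 1 :=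
        (A.valuation_le_one_iff _).mpr z.2
      rw [hr] at h1 hz ⊢
      have hq0 : 0 < A.valuation (q : Qbar) :=
        zero_lt_iff.mpr ((Valuation.ne_zero_iff _).mpr (Nat.cast_ne_zero.mpr hq.ne_zero))
      have hr1 : 0 ≤ r := by
        by_contra hneg
        exact not_lt.mpr h1 (one_lt_zpow_of_neg₀ hq0 (valuation_natCast_lt_one hA) (by omega))
      have hr2 : r ≠ 0 := fun h => hz (by rw [h, zpow_zero])
      calc A.valuation (q : Qbar) ^ r ≤ A.valuation (q : Qbar) ^ (1 : ℤ) :=
            zpow_le_zpow_right_of_le_one₀ hq0 (valuation_natCast_lt_one hA).le (by omega)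
        _ = _ := zpow_one _
    have h2 := mul_le_mul' (hlt a h.1) (hlt b h.2)
    rw [← hv] at h2
    simp at h2
    refine absurd h2 (not_le.mpr ?_)
    exact mul_lt_of_lt_one_right (zero_lt_iff.mpr ((Valuation.ne_zero_iff _).mpr
      (Nat.cast_ne_zero.mpr hq.ne_zero))) (valuation_natCast_lt_one hA)

theorem isDiscreteValuationRing_baseRing (hA : A.LiesOverPrime q) (hq : q.Prime) :
    IsDiscreteValuationRing (baseRing A (inertiaField A)) := by
  refine IsDiscreteValuationRing.ofHasUnitMulPowIrreducibleFactorization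
    ⟨(q : baseRing A (inertiaField A)), irreducible_natCast_baseRing hA hq, ?_⟩
  intro z hz
  have h0 : (((z : inertiaField A)) : Qbar) ≠ 0 := by
    simpa [ZeroMemClass.coe_eq_zero] using hz
  obtain ⟨r, hr⟩ := exists_eq_natCast_zpow_mul hA hq (z : inertiaField A).2 h0
  have hq0 : 0 < A.valuation (q : Qbar) :=
    zero_lt_iff.mpr ((Valuation.ne_zero_iff _).mpr (Nat.cast_ne_zero.mpr hq.ne_zero))
  have hr1 : 0 ≤ r := by
    by_contra hneg
    have h1 : A.valuation (((z : inertiaField A)) : Qbar) ≤ 1 :=
      (A.valuation_le_one_iff _).mpr z.2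
    rw [hr] at h1
    exact not_lt.mpr h1 (one_lt_zpow_of_neg₀ hq0 (valuation_natCast_lt_one hA) (by omega))
  obtain ⟨m, rfl⟩ := Int.eq_ofNat_of_zero_le hr1
  refine ⟨m, ?_⟩
  have hqK : ((q : inertiaField A)) ≠ 0 := Nat.cast_ne_zero.mpr hq.ne_zero
  have hmem : (z : inertiaField A) / (q : inertiaField A) ^ m ∈ baseRing A (inertiaField A) := by
    rw [mem_baseRing_iff, ← A.valuation_le_one_iff]
    simp [hr, hq0.ne']
  have hu : IsUnit (⟨_, hmem⟩ : baseRing A (inertiaField A)) := by
    rw [← isUnit_baseIncl_iff]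
    refine (A.valuation_eq_one_iff _).mpr ?_
    show A.valuation (((z : inertiaField A) / (q : inertiaField A) ^ m : inertiaField A) : Qbar) = 1
    simp [hr, hq0.ne']
  refine ⟨hu.unit, ?_⟩
  apply Subtype.ext
  apply Subtype.ext
  push_cast
  rw [IsUnit.unit_spec]
  simp [mul_div_cancel₀, hq.ne_zero]

theorem baseRed_surjective (hA : A.LiesOverPrime q) (hq : q.Prime) :
    Function.Surjective (baseRed A (inertiaField A)) := by
  intro r
  rcases eq_or_ne r 0 with rfl | hr
  · exact ⟨0, map_zero _⟩
  have := Fact.mk hq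
  have := place_charP_residueField hA hq
  obtain ⟨n, hn, hrn⟩ := place_exists_pow_eq hA hq r
  have hq1 : 1 < q ^ n := Nat.one_lt_pow (by omega) hq.one_lt
  set m := q ^ n - 1 with hm
  have hm0 : m ≠ 0 := by omega
  have hrm : r ^ m = 1 := by
    apply mul_right_cancel₀ hr
    rw [← pow_succ, hm, Nat.sub_add_cancel hq1.le, hrn, one_mul]
  obtain ⟨a, rfl⟩ := residue_surjective r
  let f : Polynomial A := Polynomial.X ^ m - 1
  obtain ⟨b, hb, hba⟩ := place_exists_root_sub_mem A f
    (by simpa [f] using Polynomial.monic_X_pow_sub_C (1 : A) hm0) a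
    (by rw [← residue_eq_zero_iff]; simp [f, hrm])
    (by rw [show f = Polynomial.X ^ m - Polynomial.C 1 by simp [f], Polynomial.natDegree_X_pow_sub_C]; exact hm0)
  have hbm : (b : Qbar) ^ m = 1 := by
    have := congrArg Subtype.val (show (b : A) ^ m = 1 from sub_eq_zero.mp (by simpa [f] using hb))
    simpa using this
  have hbK : (b : Qbar) ∈ inertiaField A := mem_inertiaField_iff.mpr fun σ hσ =>
    inertia_apply_rootOfUnity hA hq hσ (m := m) (fun hdvd => by
      have h1 : q ∣ q ^ n := dvd_pow_self q (by omega)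
      have := Nat.dvd_sub h1 hdvd
      rw [hm, Nat.sub_sub_self hq1.le] at this
      exact hq.ne_one (Nat.dvd_one.mp this)) hbm
  refine ⟨⟨⟨(b : Qbar), hbK⟩, b.2⟩, ?_⟩
  show residue A b = residue A a
  rw [← sub_eq_zero, ← map_sub, residue_eq_zero_iff]
  exact hba

/-- Finite extensions of a field with discretely valued subring keep discreteness. -/
theorem isDiscreteValuationRing_of_finite {K L : Type*} [Field K] [Field L] [Algebra K L]
    [FiniteDimensional K L] (B : ValuationSubring L)
    [IsDiscreteValuationRing (B.comap (algebraMap K L))] : IsDiscreteValuationRing B := by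
  classical
  obtain ⟨π, hπ⟩ := IsDiscreteValuationRing.exists_irreducible (B.comap (algebraMap K L))
  set p : L := algebraMap K L (π : K) with hp
  have hp0 : p ≠ 0 := by simpa [hp, ZeroMemClass.coe_eq_zero] using hπ.ne_zero
  have hpB : p ∈ B := π.2
  have hunit : ∀ u : (B.comap (algebraMap K L))ˣ,
      B.valuation (algebraMap K L ((u : B.comap (algebraMap K L)) : K)) = 1 := by
    intro u
    refine (B.valuation_eq_one_iff ⟨_, (u : B.comap (algebraMap K L)).2⟩).mp ?_
    refine isUnit_iff_exists_inv.mpr ⟨⟨_, (↑u⁻¹ : B.comap (algebraMap K L)).2⟩, Subtype.ext ?_⟩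
    show algebraMap K L _ * algebraMap K L _ = (1 : L)
    rw [← map_mul, ← MulMemClass.coe_mul, u.mul_inv]
    simp
  have hp1 : B.valuation p < 1 := by
    refine lt_of_le_of_ne ((B.valuation_le_one_iff _).mpr hpB) fun h => hπ.not_isUnit ?_
    have hinv : p⁻¹ ∈ B := (B.valuation_le_one_iff _).mp (by simp [h])
    refine isUnit_iff_exists_inv.mpr ⟨⟨(π : K)⁻¹, ?_⟩, ?_⟩
    · show algebraMap K L (π : K)⁻¹ ∈ B
      rw [map_inv₀]; exact hinv
    · exact Subtype.ext (mul_inv_cancel₀ fun h0 => hp0 (by simp [hp, h0]))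
  have hvp0 : 0 < B.valuation p := zero_lt_iff.mpr ((Valuation.ne_zero_iff _).mpr hp0)
  -- values of `K` are powers of that of `p`
  have hK : ∀ c : K, c ≠ 0 → ∃ n : ℤ, B.valuation (algebraMap K L c) = B.valuation p ^ n := by
    intro c hc
    obtain ⟨n, u, hu⟩ :=
      IsDiscreteValuationRing.exists_units_eq_smul_zpow_of_irreducible (K := K) hπ hc
    refine ⟨n, ?_⟩
    rw [Units.smul_def, Algebra.smul_def] at hu
    have hu' : c = ((u : B.comap (algebraMap K L)) : K) * (π : K) ^ n := hu
    rw [hu', map_mul, map_zpow₀, map_mul, hunit u, one_mul, map_zpow₀]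
  -- finitely many values above that of `p`
  have hfin : {γ | B.valuation p < γ ∧ γ ≤ 1 ∧ ∃ b, B.valuation b = γ}.Finite := by
    by_contra hinf
    obtain ⟨t, hts, htc⟩ := Set.Infinite.exists_subset_card_eq hinf (Module.finrank K L + 1)
    choose h1 h2 b hb using fun γ : t => hts γ.2
    have hli : LinearIndependent K b := by
      rw [Fintype.linearIndependent_iff]
      intro g hg i
      by_contra hi
      set S := Finset.univ.filter fun j => g j ≠ 0 with hS
      have hval : ∀ j ∈ S, ∃ n : ℤ, B.valuation (g j • b j) = B.valuation p ^ n * (j : B.ValueGroup) := by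
        intro j hj
        obtain ⟨n, hn⟩ := hK (g j) (Finset.mem_filter.mp hj).2
        exact ⟨n, by rw [Algebra.smul_def, map_mul, hn, hb j]⟩
      obtain ⟨m, hmS, hmax⟩ := S.exists_max_image (fun j => B.valuation (g j • b j))
        ⟨i, by simp [hS, hi]⟩
      have hne : ∀ j ∈ S, j ≠ m → B.valuation (g j • b j) ≠ B.valuation (g m • b m) := by
        intro j hj hjm he
        obtain ⟨n, hn⟩ := hval j hj
        obtain ⟨n', hn'⟩ := hval m hmS
        rw [hn, hn'] at he
        have key : ∀ (a c : ℤ) (x y : t), a < c →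
            B.valuation p ^ c * (x : B.ValueGroup) ≠ B.valuation p ^ a * (y : B.ValueGroup) := by
          intro a c x y hac h
          have h3 : B.valuation p ^ c * (x : B.ValueGroup) < B.valuation p ^ a * (y : B.ValueGroup) := by
            calc B.valuation p ^ c * (x : B.ValueGroup) ≤ B.valuation p ^ c * 1 :=
                  mul_le_mul_of_nonneg_left (h2 x) zero_le
              _ ≤ B.valuation p ^ a * B.valuation p := by
                  rw [mul_one, ← zpow_add_one₀ hvp0.ne']
                  exact zpow_le_zpow_right_of_le_one₀ hvp0 hp1.le (by omega)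
              _ < B.valuation p ^ a * (y : B.ValueGroup) :=
                  mul_lt_mul_of_pos_left (h1 y) (zpow_pos hvp0 a)
          exact h3.ne h
        rcases lt_trichotomy n n' with h | h | h
        · exact key n n' m j h he.symm
        · subst h
          exact hjm (Subtype.ext (mul_left_cancel₀ (zpow_ne_zero _ hvp0.ne') he))
        · exact key n' n j m h he
      have hsum : ∑ j ∈ S, g j • b j = 0 := by
        rw [hS, Finset.sum_filter_of_ne]
        · exact hg
        · intro j _ hj h0; exact hj (by rw [h0, zero_smul])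
      have hlt := Valuation.map_sum_eq_of_lt (s := S) (j := m) B.valuation
        (f := fun j => g j • b j) hmS fun j hj => by
          obtain ⟨hjS, hjm⟩ : j ∈ S ∧ j ≠ m := by simpa using hj
          exact lt_of_le_of_ne (hmax j hjS) (hne j hjS hjm)
      rw [hsum, map_zero] at hlt
      obtain ⟨n, hn⟩ := hval m hmS
      rw [hn] at hlt
      exact (mul_pos (zpow_pos hvp0 n) (hvp0.trans (h1 m))).ne hlt
    have := hli.fintype_card_le_finrank
    rw [Fintype.card_coe, htc] at this
    omega
  -- principal ideals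
  have hpir : IsPrincipalIdealRing B := by
    refine ⟨fun I => ?_⟩
    rcases eq_or_ne I ⊥ with rfl | hI
    · infer_instance
    obtain ⟨a, haI, ha0⟩ := Submodule.exists_mem_ne_zero_of_ne_bot hI
    have ha0' : (a : L) ≠ 0 := by simpa [ZeroMemClass.coe_eq_zero] using ha0
    -- every value below one is above a power of that of `p`
    obtain ⟨N, hN⟩ : ∃ N : ℕ, B.valuation p ^ N ≤ B.valuation (a : L) := by
      obtain ⟨g, hg, hga⟩ := (Algebra.IsIntegral.isIntegral (R := K) (a : L)⁻¹)
      by_contra hcon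
      push Not at hcon
      have hbig : ∀ N : ℕ, 1 < B.valuation (a : L)⁻¹ * B.valuation p ^ N := fun N => by
        rw [map_inv₀, lt_inv_mul_iff₀ (zero_lt_iff.mpr ((Valuation.ne_zero_iff _).mpr ha0')),
          mul_one]
        exact hcon N
      set y := (a : L)⁻¹
      have hy0 : B.valuation y ≠ 0 := (Valuation.ne_zero_iff _).mpr (inv_ne_zero ha0')
      have hy1 : 1 < B.valuation y := by simpa using hbig 0
      -- the leading term dominates
      have hterm : ∀ j < g.natDegree,
          B.valuation (g.coeff j • y ^ j) < B.valuation y ^ g.natDegree := by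
        intro j hj
        rw [Algebra.smul_def, map_mul, map_pow]
        rcases eq_or_ne (g.coeff j) 0 with h0 | h0
        · simp [h0, pow_pos (zero_lt_iff.mpr hy0)]
        obtain ⟨n, hn⟩ := hK _ h0
        rw [hn]
        have h4 : B.valuation p ^ n < B.valuation y := by
          have h5 := hbig (-n).toNat
          rcases le_or_gt 0 n with hn0 | hn0
          · exact lt_of_le_of_lt ((zpow_le_zpow_right_of_le_one₀ hvp0 hp1.le hn0).trans_eq
              (zpow_zero _)) hy1
          · rw [← zpow_natCast, Int.toNat_of_nonneg (by omega), zpow_neg,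
              lt_mul_inv_iff₀ (zpow_pos hvp0 n), one_mul] at h5
            exact h5
        calc B.valuation p ^ n * B.valuation y ^ j
            < B.valuation y * B.valuation y ^ j :=
              mul_lt_mul_of_pos_right h4 (pow_pos (zero_lt_iff.mpr hy0) j)
          _ ≤ B.valuation y ^ g.natDegree := by
              rw [← pow_succ']; exact pow_le_pow_right₀ hy1.le hj
      rw [← Polynomial.aeval_def, Polynomial.aeval_eq_sum_range] at hga
      have hlt := Valuation.map_sum_eq_of_lt (s := Finset.range (g.natDegree + 1))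
        (j := g.natDegree) B.valuation (f := fun j => g.coeff j • y ^ j)
        (Finset.self_mem_range_succ _) fun j hj => by
          obtain ⟨hj1, hj2⟩ : j < g.natDegree + 1 ∧ j ≠ g.natDegree := by simpa using hj
          rw [hg.coeff_natDegree, one_smul, map_pow]
          exact hterm j (by omega)
      rw [hga, map_zero, hg.coeff_natDegree, one_smul, map_pow] at hlt
      exact (pow_pos (zero_lt_iff.mpr hy0) g.natDegree).ne hlt
    have hfinN : ∀ N : ℕ,
        {γ | B.valuation p ^ N ≤ γ ∧ γ ≤ 1 ∧ ∃ b, B.valuation b = γ}.Finite := by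
      intro N
      induction N with
      | zero => exact (Set.finite_singleton 1).subset fun γ h => le_antisymm h.2.1 (by simpa using h.1)
      | succ N ih =>
        refine (ih.union ((hfin.insert (B.valuation p)).image fun γ => B.valuation p ^ N * γ)).subset ?_
        rintro γ ⟨hl, hu, c, rfl⟩
        rcases le_or_gt (B.valuation p ^ N) (B.valuation c) with h | h
        · exact Or.inl ⟨h, hu, c, rfl⟩
        refine Or.inr ⟨B.valuation (c / p ^ N), ?_, ?_⟩
        · rw [map_div₀, map_pow]
          rw [pow_succ'] at hl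
          rcases eq_or_lt_of_le hl with h' | h'
          · left
            rw [← h', mul_div_cancel_right₀ _ (pow_ne_zero _ hvp0.ne')]
          · right
            refine ⟨(lt_div_iff₀ (pow_pos hvp0 N)).mpr h',
              (div_le_one₀ (pow_pos hvp0 N)).mpr h.le, c / p ^ N, by rw [map_div₀, map_pow]⟩
        · show B.valuation p ^ N * B.valuation (c / p ^ N) = _
          rw [map_div₀, map_pow, mul_div_cancel₀ _ (pow_ne_zero _ hvp0.ne')]
    set T := {γ | B.valuation (a : L) ≤ γ ∧ ∃ c ∈ I, B.valuation ((c : B) : L) = γ}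
    have hT : T.Finite := (hfinN N).subset fun γ ⟨hγ, c, _, hc⟩ =>
      ⟨hN.trans hγ, hc ▸ B.valuation_le_one c, _, hc⟩
    obtain ⟨γ, ⟨hγ, c, hcI, rfl⟩, hmax⟩ := hT.exists_maximal ⟨_, le_rfl, a, haI, rfl⟩
    refine ⟨c, le_antisymm (fun d hd => ?_) ((Ideal.span_singleton_le_iff_mem I).mpr hcI)⟩
    have hdc : B.valuation (d : L) ≤ B.valuation (c : L) := by
      rcases le_total (B.valuation (d : L)) (B.valuation (c : L)) with h | h
      · exact h
      · exact hmax ⟨hγ.trans h, d, hd, rfl⟩ h
    have hc0 : (c : L) ≠ 0 := fun h0 => ha0' (by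
      rw [h0, map_zero, le_zero_iff, map_eq_zero] at hγ; exact hγ)
    refine Ideal.mem_span_singleton.mpr ⟨⟨(d : L) / c, (B.valuation_le_one_iff _).mp ?_⟩, ?_⟩
    · rw [map_div₀]; exact div_le_one_of_le₀ hdc zero_le
    · ext; simp [mul_div_cancel₀ _ hc0]
  refine { hpir with not_a_field' := ?_ }
  intro h
  have hmem : (⟨p, hpB⟩ : B) ∈ maximalIdeal B := by
    rw [mem_maximalIdeal, mem_nonunits_iff, B.valuation_eq_one_iff]
    exact hp1.ne
  rw [h, Ideal.mem_bot] at hmem
  exact hp0 (congrArg Subtype.val hmem)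

/-- Discreteness on any finite extension of the inertia field. -/
theorem isDiscreteValuationRing_baseRing_of_finite (hA : A.LiesOverPrime q) (hq : q.Prime)
    (E : IntermediateField (inertiaField A) Qbar) [FiniteDimensional (inertiaField A) E] :
    IsDiscreteValuationRing (baseRing A (E.restrictScalars ℚ)) := by
  have := isDiscreteValuationRing_baseRing hA hq
  have h : (A.comap (algebraMap E Qbar)).comap (algebraMap (inertiaField A) E)
      = baseRing A (inertiaField A) := rfl
  have : IsDiscreteValuationRing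
      ((A.comap (algebraMap E Qbar)).comap (algebraMap (inertiaField A) E)) := h ▸ this
  exact isDiscreteValuationRing_of_finite (K := inertiaField A) (A.comap (algebraMap E Qbar))

/-- Inertia moves `q`-power roots of unity by every unit exponent. -/
theorem exists_inertia_rootOfUnity (hA : A.LiesOverPrime q) (hq : q.Prime) {n : ℕ} {ζ : Qbar}
    (hζ : IsPrimitiveRoot ζ (q ^ n)) {u : ℕ} (hu : u.Coprime q) :
    ∃ σ : GalQ, σ ζ = ζ ^ u ∧ (∀ x ∈ inertiaField A, σ x = x) ∧
      (∀ x, σ x ∈ A ↔ x ∈ A) ∧ ∀ x ∈ A, σ x - x ∈ A.nonunits := by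
  have : NeZero (q ^ n) := ⟨pow_ne_zero _ hq.ne_zero⟩
  have hn : Nat.card (rootsOfUnity (q ^ n) Qbar) = q ^ n := by
    exact hζ.card_rootsOfUnity
  obtain ⟨σ, hσI, hσ⟩ := exists_inertia_modularCyclotomicCharacter_eq hA hq n hn
    (ZMod.unitOfCoprime u (hu.pow_right n))
  refine ⟨σ, ?_, fun x hx => mem_inertiaField_iff.mp hx σ hσI,
    fun x => mem_decomposition_iff.mp (inertia_le_decomposition A hσI) x,
    fun x hx => inertia_sub_mem_nonunits hσI hx⟩
  have h := modularCyclotomicCharacter.spec Qbar hn (σ : Qbar ≃+* Qbar)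
    (t := hζ.toRootsOfUnity) (hζ.toRootsOfUnity).2
  rw [hσ] at h
  have h' : σ ζ = ζ ^ (u : ZMod (q ^ n)).val := by
    simpa using h
  rw [h', ZMod.val_natCast, ← pow_eq_pow_mod u hζ.pow_eq_one]

end Fermat.Agent.CarayolHigh
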