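/-
The norm along any degeneracy map commutes with the extension of constants: the degree does not
depend on the field of constants, so a basis of the smaller extension is one of the larger.
-/
import Fermat.Agent.Carayol.DescentAux
import Fermat.Agent.HK.DegenDegree
import Fermat.Agent.HK.HeckeFinal
import Mathlib.RingTheory.Norm.Basic

set_option autoImplicit false
set_option linter.style.haveILetI false

noncomputable section

open ModularCurve AlgebraicCurve
open Fermat.Agent.HK.Corr Fermat.Agent.Carayol

namespace Fermat.Agent.CarayolHigh

local notation "Qb" => AlgebraicClosure ℚ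

/-- Norms commute with a map sending a basis to a basis. -/
theorem norm_map_of_span_eq_top {A B A' B' : Type*} [Field A] [Field B] [Field A'] [Field B']
    [Algebra A B] [Algebra A' B'] [FiniteDimensional A B] (r₀ : A →+* A') (r : B →+* B')
    (hr : ∀ x, r (algebraMap A B x) = algebraMap A' B' (r₀ x))
    (hspan : Submodule.span A' (Set.range r) = ⊤)
    (hrank : Module.finrank A B = Module.finrank A' B') (x : B) :
    Algebra.norm A' (r x) = r₀ (Algebra.norm A x) := by
  classical
  let b := Module.finBasis A B
  have hsum : ∀ y, r y = ∑ i, r₀ (b.repr y i) • r (b i) := fun y => by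
    conv_lhs => rw [← b.sum_repr y, map_sum]
    refine Finset.sum_congr rfl fun i _ => ?_
    rw [Algebra.smul_def, Algebra.smul_def, map_mul, hr]
  have htop : ⊤ ≤ Submodule.span A' (Set.range fun i => r (b i)) := by
    rw [← hspan, Submodule.span_le]
    rintro _ ⟨y, rfl⟩
    rw [hsum y]
    exact Submodule.sum_mem _ fun i _ => Submodule.smul_mem _ _ (Submodule.subset_span ⟨i, rfl⟩)
  let b' := basisOfTopLeSpanOfCardEqFinrank (fun i => r (b i)) htop (by
    rw [Fintype.card_fin, hrank])
  have hb' : ∀ i, b' i = r (b i) := fun i => by
    rw [coe_basisOfTopLeSpanOfCardEqFinrank]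
  rw [Algebra.norm_eq_matrix_det b', Algebra.norm_eq_matrix_det b, RingHom.map_det]
  congr 1
  ext i j
  rw [Algebra.leftMulMatrix_eq_repr_mul, RingHom.mapMatrix_apply, Matrix.map_apply,
    Algebra.leftMulMatrix_eq_repr_mul, hb', ← map_mul, hsum (x * b j)]
  simp only [← hb']
  rw [b'.repr_sum_self]

/-- **The norm along a degeneracy map commutes with the extension of constants.** -/
theorem norm_fieldExt_degen {K : Type} [Field K] [Algebra ℚ K] (κ : K →+* Qb) {M N : ℕ} [NeZero M]
    [NeZero N] (d : ℕ) [NeZero d] (h : M * d ∣ N) (x : modField K N) :
    (letI := algebraAlong (degenMap Qb d h); Algebra.norm (modField Qb M) (fieldExt κ N x)) =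
      fieldExt κ M (letI := algebraAlong (degenMap K d h); Algebra.norm (modField K M) x) := by
  letI := algebraAlong (degenMap K d h)
  letI := algebraAlong (degenMap Qb d h)
  haveI : Module.Finite (modField K M) (modField K N) :=
    finiteAlong_degenMap (degreeInput K) d h
  haveI : Module.Finite (modField Qb M) (modField Qb N) :=
    finiteAlong_degenMap (degreeInput Qb) d h
  have hr : ∀ y : modField K M, fieldExt κ N (degenMap K d h y) =
      degenMap Qb d h (fieldExt κ M y) := fun y => Subtype.ext <| by
    show coeffMap κ (qExpand K d (y : LaurentSeries K)) =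
      qExpand Qb d (coeffMap κ (y : LaurentSeries K))
    rw [ModularCurve.coeffMap_qExpand]
  refine norm_map_of_span_eq_top (fieldExt κ M) (fieldExt κ N) hr ?_ ?_ x
  · set T := Set.range (fieldExt κ N)
    set S := IntermediateField.adjoin (modField Qb M) T with hS
    have hmem : ∀ y : modField Qb N, y ∈ S := by
      intro y
      letI : Algebra (modField K N) (modField Qb N) := (fieldExt κ N).toAlgebra
      have h1 : y ∈ IntermediateField.adjoin (modField K N)
          (Set.range (algebraMap Qb (modField Qb N))) := by
        rw [adjoin_constants_eq_top κ N]; exact IntermediateField.mem_top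
      induction h1 using IntermediateField.adjoin_induction with
      | mem z hz =>
        obtain ⟨c, rfl⟩ := hz
        rw [← (degenMap Qb d h).commutes c]
        exact S.algebraMap_mem _
      | algebraMap z => exact IntermediateField.subset_adjoin _ _ ⟨z, rfl⟩
      | add a b _ _ iha ihb => exact S.add_mem iha ihb
      | inv a _ iha => exact S.inv_mem iha
      | mul a b _ _ iha ihb => exact S.mul_mem iha ihb
    have h2 : S.toSubalgebra = Algebra.adjoin (modField Qb M) T :=
      IntermediateField.adjoin_toSubalgebra_of_isAlgebraic fun z _ =>
        (IsIntegral.of_finite (modField Qb M) z).isAlgebraic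
    have h3 : Subalgebra.toSubmodule (Algebra.adjoin (modField Qb M) T) =
        Submodule.span (modField Qb M) T := by
      rw [Algebra.adjoin_eq_span]
      congr 1
      exact le_antisymm (fun z hz => by
        refine Submonoid.closure_le (S := MonoidHom.mrange (fieldExt κ N).toMonoidHom).mpr ?_ hz
        exact le_of_eq rfl) Submonoid.subset_closure
    rw [eq_top_iff, ← h3, ← h2]
    exact fun y _ => hmem y
  · have h1 := finrankAlong_degenMap (degreeInput K) d h (functionFieldGeneration_all d)
    have h2 := finrankAlong_degenMap (degreeInput Qb) d h (functionFieldGeneration_all d)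
    exact Nat.eq_of_mul_eq_mul_left (Fermat.Agent.HK.Corr.psi_pos M) (h1.trans h2.symm)

end Fermat.Agent.CarayolHigh
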