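/-
From a key statement about functions over a fixed field `K ≅ Qb^G` to the vanishing of torsion
classes fixed by `G` with trivial pushforwards along two degeneracy maps, at any levels.
-/
import Fermat.Agent.Carayol.Descent
import Fermat.Agent.CarayolHigh.NormBaseChange

set_option autoImplicit false
set_option linter.unusedSectionVars false
set_option linter.style.haveILetI false

noncomputable section

open AlgebraicCurve ModularCurve
open Fermat.Agent.HK.Corr Fermat.Agent.Carayol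

namespace Fermat.Agent.CarayolHigh

local notation "Qb" => AlgebraicClosure ℚ

/-- **Descent.** -/
theorem eq_zero_of_fixed {M N : ℕ} [NeZero M] [NeZero N] (G : Subgroup (Qb ≃ₐ[ℚ] Qb))
    {K : Type} [Field K] [Algebra ℚ K] (κ : K →+* Qb)
    (hK : ∀ x : Qb, x ∈ κ.range ↔ ∀ σ ∈ G, σ x = x) {W : Type} [CommRing W] [IsDomain W]
    [IsDiscreteValuationRing W] [Algebra W K] [IsFractionRing W K] [Algebra W (modField K N)]
    [IsScalarTower W K (modField K N)] {m d d' : ℕ} [NeZero d] [NeZero d'] (hm0 : m ≠ 0)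
    (h1 : M * d ∣ N) (h2 : M * d' ∣ N)
    (hkey : ∀ f : modField K N, f ≠ 0 → HorizDvd W m f →
      Carayol.Model.NormPow (W := W) (degenNorm d h1) m f →
      Carayol.Model.NormPow (W := W) (degenNorm d' h2) m f →
      ∃ (a b : W) (h : modField K N),
        a ≠ 0 ∧ b ≠ 0 ∧ h ≠ 0 ∧ algebraMap W _ b * f = algebraMap W _ a * h ^ m)
    (P : JZero N) (hmP : m • P = 0) (hfix : ∀ σ ∈ G, σ • P = P)
    (hα : pushJ d h1 P = 0) (hβ : pushJ d' h2 P = 0) : P = 0 := by
  obtain ⟨D, f, rfl, hf, hfD, hffix⟩ := exists_fixed_function G hm0 P hmP hfix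
  obtain ⟨f₀, rfl⟩ := exists_fieldExt_eq κ hK f fun σ hσ =>
    congrArg Subtype.val (hffix σ hσ)
  have hf₀ : f₀ ≠ 0 := fun e => hf (by rw [e, map_zero])
  obtain ⟨a, b, h₀, ha, hb, hh₀, heq⟩ := hkey f₀ hf₀
    (horizDvd_of_fieldExt κ m hf₀ fun v => ⟨_, (hfD v).symm⟩)
    (normPow_of_pushJ κ hK d h1 (norm_fieldExt_degen κ d h1) hm0 hf₀ hfD hα)
    (normPow_of_pushJ κ hK d' h2 (norm_fieldExt_degen κ d' h2) hm0 hf₀ hfD hβ)
  have hh : fieldExt κ N h₀ ≠ 0 := (map_ne_zero _).mpr hh₀
  show QuotientAddGroup.mk D = (0 : JZero N)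
  rw [QuotientAddGroup.eq_zero_iff, AddSubgroup.mem_addSubgroupOf, Divisor.mem_principal]
  refine ⟨_, hh, fun v => ?_⟩
  have key := congrArg (fun x => v.ord (fieldExt κ N x)) heq
  simp only [map_mul, map_pow, IsScalarTower.algebraMap_apply W K (modField K N),
    fieldExt_algebraMap] at key
  rw [v.ord_mul ((map_ne_zero _).mpr ((map_ne_zero _).mpr ((map_ne_zero_iff _
      (IsFractionRing.injective W K)).mpr hb))) ((map_ne_zero _).mpr hf₀),
    v.ord_mul ((map_ne_zero _).mpr ((map_ne_zero _).mpr ((map_ne_zero_iff _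
      (IsFractionRing.injective W K)).mpr ha))) (pow_ne_zero m hh),
    FF.ord_algebraMap, FF.ord_algebraMap, zero_add, zero_add, FF.ord_pow, ← hfD]
    at key
  exact mul_left_cancel₀ (Nat.cast_ne_zero.mpr hm0 : (m : ℤ) ≠ 0) key

end Fermat.Agent.CarayolHigh
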