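/-
The interface between the geometry of `X₀(qⁿ L)` at `q`, `n ≥ 3`, and the descent of torsion classes.

`Model W F k C n` collects what is used about the branches `i ≤ n` (all with residue field inside the
field `C` of level `L` in characteristic `q`), the two charts (`0`: finite `j`, `1`: around the
cusps), the local rings, and the norms to level `qⁿ⁻¹ L`.

For `normα` (along `τ ↦ τ`) each branch `i ≤ n - 2` is alone over its image, and `n`, `n - 1` have
the same image. For `normβ` (along `τ ↦ q τ`) each branch `i ≥ 2` is alone over its image.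
-/
import Fermat.Agent.Carayol.ModelBasic

set_option autoImplicit false
set_option linter.unusedSectionVars false

noncomputable section

namespace Fermat.Agent.CarayolHigh

open Carayol

variable (W F : Type) [CommRing W] [IsDomain W] [IsDiscreteValuationRing W] [Field F]
  [Algebra W F]

/-- The geometry of `X₀(qⁿ L)` at `q`. -/
structure Model (k C : Type) [Field k] [Field C] [Algebra k C] (n : ℕ) where
  q : ℕ
  hq : q.Prime
  n_ge : 3 ≤ n
  hinj : Function.Injective (algebraMap W F)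
  irreducible_q : Irreducible (q : W)
  ρ : W →+* k
  ρ_surjective : Function.Surjective ρ
  algClosed : IsAlgClosed k
  /-- the branches -/
  Br : Branches F (Fin (n + 1)) (fun _ => C)
  res_const : ∀ i (w : W) (h : algebraMap W F w ∈ Br.V i),
    Br.res i ⟨algebraMap W F w, h⟩ = algebraMap k C (ρ w)
  /-- normalised orders along the branches -/
  ord : Fin (n + 1) → F → ℤ
  ord_mul : ∀ i a b, a ≠ 0 → b ≠ 0 → ord i (a * b) = ord i a + ord i b
  mem_iff : ∀ i a, a ≠ 0 → (a ∈ Br.V i ↔ 0 ≤ ord i a)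
  res_eq_zero_iff : ∀ i a (h : a ∈ Br.V i), a ≠ 0 → (Br.res i ⟨a, h⟩ = 0 ↔ 0 < ord i a)
  exists_ord_one : ∀ i, ∃ p : F, p ≠ 0 ∧ ord i p = 1
  ord_zero_q : ord 0 (algebraMap W F q) = 1
  ord_last_q : ord (Fin.last n) (algebraMap W F q) = 1
  /-- the coordinate -/
  x : F
  x_ne_zero : x ≠ 0
  /-- the two charts -/
  R : Fin 2 → Subalgebra W F
  chart : ∀ c, IsChart Br (q : W) (R c)
  x_mem : x ∈ R 0
  x_inv_mem : x⁻¹ ∈ R 1
  finite₀ : ∃ s₀ : Finset F, (s₀ : Set F) ⊆ R 0 ∧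
    ∀ a ∈ R 0, a ∈ Submodule.span (Algebra.adjoin W {x}) (s₀ : Set F)
  frac : ∀ c, ∀ a : F, ∃ b d : F, b ∈ R c ∧ d ∈ R c ∧ d ≠ 0 ∧ a = b / d
  glue₀ : ∀ a ∈ R 0, ∃ N : ℕ, a * x⁻¹ ^ N ∈ R 1
  glue₁ : ∀ a ∈ R 1, ∃ N : ℕ, a * x ^ N ∈ R 0
  const : ∀ a, a ∈ R 0 → a ∈ R 1 → ∃ w : W, a = algebraMap W F w
  /-- a separator of every branch -/
  exists_sep : ∀ i, ∃ e : F, e ≠ 0 ∧ ord i e = 0 ∧ ∀ j, j ≠ i → 0 < ord j e
  /-- the local rings of the points of the special fibre are factorial -/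
  ufm : ∀ c (y : Ideal (R c)) [y.IsMaximal],
    (⟨algebraMap W F q, (R c).algebraMap_mem _⟩ : R c) ∈ y →
      UniqueFactorizationMonoid (Localization.AtPrime y)
  /-- the image of the local ring on a branch through the point is a valuation ring -/
  branchValue : ∀ c (y : Ideal (R c)) [y.IsMaximal],
    (⟨algebraMap W F q, (R c).algebraMap_mem _⟩ : R c) ∈ y → ∀ i,
    (∀ (a : R c) (h : (a : F) ∈ Br.V i), Br.res i ⟨a, h⟩ = 0 → a ∈ y) →
    ∃ O : ValuationSubring C,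
      (∀ (a : R c) (h : (a : F) ∈ Br.V i), Br.res i ⟨a, h⟩ ∈ O) ∧
      ∀ z ∈ O, ∃ a r : R c, r ∉ y ∧ ∀ (ha : (a : F) ∈ Br.V i) (hr : (r : F) ∈ Br.V i),
        z * Br.res i ⟨r, hr⟩ = Br.res i ⟨a, ha⟩
  /-- a point lies on one branch, or on all, and then the branches `n - 1` and `n` pass through it
  at the same point of the reduced curve -/
  dichotomy : ∀ c (y : Ideal (R c)) [y.IsMaximal],
    (⟨algebraMap W F q, (R c).algebraMap_mem _⟩ : R c) ∈ y →
    (∃ i, ∀ j, j ≠ i → ∃ (a : R c) (h : (a : F) ∈ Br.V j), Br.res j ⟨a, h⟩ = 0 ∧ a ∉ y) ∨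
    ((∀ i (a : R c) (h : (a : F) ∈ Br.V i), Br.res i ⟨a, h⟩ = 0 → a ∈ y) ∧
      ∀ i : Fin (n + 1), (i : ℕ) + 1 = n → ∀ (a r : R c), r ∉ y →
        ∀ (ha : (a : F) ∈ Br.V i) (hr : (r : F) ∈ Br.V i),
          ∃ a' r' : R c, r' ∉ y ∧ a * r' - a' * r ∈ y ∧
            ∀ (ha' : (a' : F) ∈ Br.V (Fin.last n)) (hr' : (r' : F) ∈ Br.V (Fin.last n)),
              Br.res i ⟨a, ha⟩ * Br.res (Fin.last n) ⟨r', hr'⟩ =
                Br.res (Fin.last n) ⟨a', ha'⟩ * Br.res i ⟨r, hr⟩)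
  /-- the pullbacks of the norms along the two degeneracy maps to level `qⁿ⁻¹ L` -/
  normα : F →* F
  normβ : F →* F
  normα_ne_zero : ∀ a, a ≠ 0 → normα a ≠ 0
  normβ_ne_zero : ∀ a, a ≠ 0 → normβ a ≠ 0
  normα_mem : ∀ c, ∀ a ∈ R c, normα a ∈ R c
  /-- the second norm does not preserve the chart at the cusps, but it does near the points on
  all branches -/
  normβ_mem : ∀ c (y : Ideal (R c)) [y.IsMaximal],
    (⟨algebraMap W F q, (R c).algebraMap_mem _⟩ : R c) ∈ y →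
    (∀ i (a : R c) (h : (a : F) ∈ Br.V i), Br.res i ⟨a, h⟩ = 0 → a ∈ y) →
    ∀ a ∈ R c, ∃ r : R c, r ∉ y ∧ (r : F) * normβ a ∈ R c
  normα_const : ∀ w : W, normα (algebraMap W F w) = algebraMap W F w ^ q
  normβ_const : ∀ w : W, normβ (algebraMap W F w) = algebraMap W F w ^ q
  ord_normα : ∀ i : Fin (n + 1), (i : ℕ) + 2 ≤ n → ∀ a, a ≠ 0 →
    ord i (normα a) = q * ord i a
  ord_normβ : ∀ i : Fin (n + 1), 2 ≤ (i : ℕ) → ∀ a, a ≠ 0 → ord i (normβ a) = q * ord i a
  ord_normα_last : ∃ l : ℤ, ∀ i : Fin (n + 1), (i : ℕ) + 1 = n → ∀ a, a ≠ 0 →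
    ord (Fin.last n) (normα a) = ord (Fin.last n) a + l * ord i a
  res_normα : ∀ i : Fin (n + 1), (i : ℕ) + 2 ≤ n → ∀ a (h : a ∈ Br.V i)
    (hN : normα a ∈ Br.V i), Br.res i ⟨normα a, hN⟩ = Br.res i ⟨a, h⟩ ^ q
  res_normβ : ∀ i : Fin (n + 1), 2 ≤ (i : ℕ) → ∀ a (h : a ∈ Br.V i)
    (hN : normβ a ∈ Br.V i), Br.res i ⟨normβ a, hN⟩ = Br.res i ⟨a, h⟩ ^ q
  res_normα_last : ∀ i : Fin (n + 1), (i : ℕ) + 1 = n → ∀ a (hl : a ∈ Br.V (Fin.last n))
    (h : a ∈ Br.V i) (hN : normα a ∈ Br.V (Fin.last n)),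
    Br.res (Fin.last n) ⟨normα a, hN⟩ =
      Br.res (Fin.last n) ⟨a, hl⟩ * Br.res i ⟨a, h⟩ ^ (q - 1)

namespace Model

variable {W F} {k C : Type} [Field k] [Field C] [Algebra k C] {n : ℕ} (M : Model W F k C n)

open Classical in
/-- The residue along a branch, extended by zero. -/
def red (i : Fin (n + 1)) (a : F) : C := if h : a ∈ M.Br.V i then M.Br.res i ⟨a, h⟩ else 0

theorem red_of_mem {i : Fin (n + 1)} {a : F} (h : a ∈ M.Br.V i) : M.red i a = M.Br.res i ⟨a, h⟩ :=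
  dif_pos h

theorem red_mul {i : Fin (n + 1)} {a b : F} (ha : a ∈ M.Br.V i) (hb : b ∈ M.Br.V i) :
    M.red i (a * b) = M.red i a * M.red i b := by
  rw [red_of_mem M ha, red_of_mem M hb, red_of_mem M (mul_mem ha hb), ← map_mul]
  rfl

theorem red_add {i : Fin (n + 1)} {a b : F} (ha : a ∈ M.Br.V i) (hb : b ∈ M.Br.V i) :
    M.red i (a + b) = M.red i a + M.red i b := by
  rw [red_of_mem M ha, red_of_mem M hb, red_of_mem M (add_mem ha hb), ← map_add]
  rfl

theorem red_one (i : Fin (n + 1)) : M.red i 1 = 1 := by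
  rw [red_of_mem M (one_mem _)]
  exact map_one (M.Br.res i)

theorem red_zero (i : Fin (n + 1)) : M.red i 0 = 0 := by
  rw [red_of_mem M (zero_mem _)]
  exact map_zero (M.Br.res i)

theorem red_pow {i : Fin (n + 1)} {a : F} (ha : a ∈ M.Br.V i) (n : ℕ) :
    M.red i (a ^ n) = M.red i a ^ n := by
  rw [red_of_mem M ha, red_of_mem M (pow_mem ha n), ← map_pow]
  rfl

theorem mem_of_mem {c : Fin 2} {a : F} (ha : a ∈ M.R c) (i : Fin (n + 1)) : a ∈ M.Br.V i :=
  (M.chart c).mem_V a ha i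

theorem const_mem (i : Fin (n + 1)) (w : W) : algebraMap W F w ∈ M.Br.V i :=
  M.mem_of_mem (c := 0) ((M.R 0).algebraMap_mem w) i

theorem red_const (i : Fin (n + 1)) (w : W) :
    M.red i (algebraMap W F w) = algebraMap k C (M.ρ w) := by
  rw [red_of_mem M (M.const_mem i w), M.res_const]

variable {i : Fin (n + 1)} {a b : F}

theorem ord_one (i : Fin (n + 1)) : M.ord i 1 = 0 := by
  have := M.ord_mul i 1 1 one_ne_zero one_ne_zero
  rw [mul_one] at this
  omega

theorem ord_inv (ha : a ≠ 0) : M.ord i a⁻¹ = -M.ord i a := by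
  have := M.ord_mul i a a⁻¹ ha (inv_ne_zero ha)
  rw [mul_inv_cancel₀ ha, M.ord_one] at this
  omega

theorem ord_pow (ha : a ≠ 0) (n : ℕ) : M.ord i (a ^ n) = n * M.ord i a := by
  induction n with
  | zero => simp [M.ord_one]
  | succ n ih =>
    rw [pow_succ, M.ord_mul i _ _ (pow_ne_zero _ ha) ha, ih]
    push_cast
    ring

theorem ord_div (ha : a ≠ 0) (hb : b ≠ 0) : M.ord i (a / b) = M.ord i a - M.ord i b := by
  rw [div_eq_mul_inv, M.ord_mul i _ _ ha (inv_ne_zero hb), M.ord_inv hb, sub_eq_add_neg]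

theorem ord_zpow (ha : a ≠ 0) (n : ℤ) : M.ord i (a ^ n) = n * M.ord i a := by
  rcases Int.eq_nat_or_neg n with ⟨N, rfl | rfl⟩
  · rw [zpow_natCast, M.ord_pow ha]
  · rw [zpow_neg, zpow_natCast, M.ord_inv (pow_ne_zero _ ha), M.ord_pow ha]
    ring

theorem mem_of_ord_nonneg (h : 0 ≤ M.ord i a) : a ∈ M.Br.V i := by
  rcases eq_or_ne a 0 with rfl | ha
  · exact zero_mem _
  · exact (M.mem_iff i a ha).mpr h

theorem red_ne_zero_of_ord (ha : a ≠ 0) (h : M.ord i a = 0) : M.red i a ≠ 0 := by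
  have hm := M.mem_of_ord_nonneg (i := i) h.ge
  rw [red_of_mem M hm, Ne, M.res_eq_zero_iff i a hm ha]
  omega

theorem ord_eq_zero_of_red (hm : a ∈ M.Br.V i) (h : M.red i a ≠ 0) :
    a ≠ 0 ∧ M.ord i a = 0 := by
  have ha : a ≠ 0 := fun e => h (by rw [e, M.red_zero])
  rw [red_of_mem M hm, Ne, M.res_eq_zero_iff i a hm ha] at h
  exact ⟨ha, by have := (M.mem_iff i a ha).mp hm; omega⟩

include M in
theorem const_ne_zero {w : W} (hw : w ≠ 0) : algebraMap W F w ≠ 0 := fun h =>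
  hw (M.hinj (h.trans (map_zero _).symm))

theorem q_ne_zero : algebraMap W F (M.q : W) ≠ 0 := M.const_ne_zero M.irreducible_q.ne_zero

theorem ord_const_of_isUnit {w : W} (hw : IsUnit w) (i : Fin (n + 1)) :
    M.ord i (algebraMap W F w) = 0 := by
  obtain ⟨v, hv⟩ := hw.exists_right_inv
  have h1 := (M.mem_iff i _ (M.const_ne_zero hw.ne_zero)).mp (M.const_mem i w)
  have hv0 : v ≠ 0 := fun e => by simp [e] at hv
  have h2 := (M.mem_iff i _ (M.const_ne_zero hv0)).mp (M.const_mem i v)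
  have h3 := M.ord_mul i _ _ (M.const_ne_zero hw.ne_zero) (M.const_ne_zero hv0)
  rw [← map_mul, hv, map_one, M.ord_one] at h3
  omega

/-- A constant is a power of `q` times a unit. -/
theorem exists_const_eq {w : W} (hw : w ≠ 0) :
    ∃ (n : ℕ) (u : W), IsUnit u ∧ w = (M.q : W) ^ n * u ∧
      ∀ i, M.ord i (algebraMap W F w) = n * M.ord i (algebraMap W F (M.q : W)) := by
  obtain ⟨n, u, rfl⟩ := IsDiscreteValuationRing.eq_unit_mul_pow_irreducible hw M.irreducible_q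
  refine ⟨n, u, u.isUnit, mul_comm _ _, fun i => ?_⟩
  rw [map_mul, map_pow, M.ord_mul i _ _ (M.const_ne_zero u.ne_zero) (pow_ne_zero _ M.q_ne_zero),
    M.ord_const_of_isUnit u.isUnit, M.ord_pow M.q_ne_zero, zero_add]

/-- A product with a unit of a branch. -/
theorem red_prod_ne_zero (ha : a ∈ M.Br.V i) (hb : b ∈ M.Br.V i) (h : M.red i a ≠ 0)
    (h' : M.red i b ≠ 0) : M.red i (a * b) ≠ 0 := by
  rw [M.red_mul ha hb]
  exact mul_ne_zero h h'

/-- Weak approximation of the orders. -/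
theorem exists_ord_eq_int (v : Fin (n + 1) → ℤ) : ∃ H : F, H ≠ 0 ∧ ∀ i, M.ord i H = v i := by
  classical
  choose p hp0 hp1 using M.exists_ord_one
  choose e he0 he1 he2 using M.exists_sep
  set N : ℕ := (∑ i, ∑ j, (v i - v j * M.ord i (p j)).natAbs) + 1 with hN
  let T : Fin (n + 1) → F := fun j => e j ^ N * p j ^ v j
  have hT0 : ∀ j, T j ≠ 0 := fun j =>
    mul_ne_zero (pow_ne_zero _ (he0 j)) (zpow_ne_zero _ (hp0 j))
  have hTo : ∀ i j, M.ord i (T j) = N * M.ord i (e j) + v j * M.ord i (p j) := fun i j => by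
    rw [M.ord_mul i _ _ (pow_ne_zero _ (he0 j)) (zpow_ne_zero _ (hp0 j)), M.ord_pow (he0 j),
      M.ord_zpow (hp0 j)]
  have hdiv : ∀ i j, j ≠ i → T j / T i ∈ M.Br.V i ∧ M.red i (T j / T i) = 0 := by
    intro i j hji
    have hlt : 0 < M.ord i (T j / T i) := by
      rw [M.ord_div (hT0 j) (hT0 i), hTo, hTo, he1, hp1]
      have h1 := he2 j i (Ne.symm hji)
      have h3 : (v i - v j * M.ord i (p j)) < N := by
        have a1 := Finset.single_le_sum (f := fun j => (v i - v j * M.ord i (p j)).natAbs)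
          (fun _ _ => Nat.zero_le _) (Finset.mem_univ j)
        have a2 := Finset.single_le_sum
          (f := fun i => ∑ j, (v i - v j * M.ord i (p j)).natAbs)
          (fun _ _ => Nat.zero_le _) (Finset.mem_univ i)
        omega
      nlinarith
    have hm := M.mem_of_ord_nonneg (i := i) hlt.le
    exact ⟨hm, by rw [red_of_mem M hm, M.res_eq_zero_iff i _ hm (div_ne_zero (hT0 j) (hT0 i))]
                  exact hlt⟩
  have hHi : ∀ i, (∑ j, T j) ≠ 0 ∧ M.ord i (∑ j, T j) = M.ord i (T i) := by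
    intro i
    have hsum : (∑ j, T j) = T i * (1 + ∑ j ∈ Finset.univ.erase i, T j / T i) := by
      rw [mul_add, mul_one, Finset.mul_sum, ← Finset.add_sum_erase _ _ (Finset.mem_univ i)]
      congr 1
      exact Finset.sum_congr rfl fun j _ => by field_simp [hT0 i]
    have hmem : ∀ s : Finset (Fin (n + 1)), i ∉ s →
        (∑ j ∈ s, T j / T i) ∈ M.Br.V i ∧ M.red i (∑ j ∈ s, T j / T i) = 0 := by
      intro s
      induction s using Finset.induction_on with
      | empty => intro; simp [M.red_zero]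
      | insert j s hj ih =>
        intro hi
        rw [Finset.mem_insert, not_or] at hi
        obtain ⟨h1, h2⟩ := hdiv i j (Ne.symm hi.1)
        obtain ⟨h3, h4⟩ := ih hi.2
        rw [Finset.sum_insert hj]
        exact ⟨add_mem h1 h3, by rw [M.red_add h1 h3, h2, h4, add_zero]⟩
    obtain ⟨hm, hr⟩ := hmem _ (Finset.notMem_erase i Finset.univ)
    obtain ⟨h0, h00⟩ := M.ord_eq_zero_of_red (add_mem (one_mem _) hm)
      (by rw [M.red_add (one_mem _) hm, hr, M.red_one, add_zero]; exact one_ne_zero)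
    rw [hsum]
    exact ⟨mul_ne_zero (hT0 i) h0, by rw [M.ord_mul i _ _ (hT0 i) h0, h00, add_zero]⟩
  refine ⟨∑ j, T j, (hHi 0).1, fun i => ?_⟩
  rw [(hHi i).2, hTo, he1, hp1]
  ring

end Fermat.Agent.CarayolHigh.Model
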