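/-
At every point of the special fibre a suitably normalised `f` is an `m`-th power times a unit.
-/
import Fermat.Agent.CarayolHigh.Model
import Fermat.Agent.Carayol.PrimeVal
import Mathlib.RingTheory.Localization.AsSubring

set_option autoImplicit false
set_option linter.unusedSectionVars false
set_option linter.style.haveILetI false

noncomputable section

namespace Fermat.Agent.CarayolHigh.Model

open Carayol

variable {W F k C : Type} [CommRing W] [IsDomain W] [IsDiscreteValuationRing W] [Field F]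
  [Algebra W F] [Field k] [Field C] [Algebra k C] {n : ℕ} (M : Model W F k C n)

/-- The point lies on the branch `i`. -/
def OnBranch (c : Fin 2) (y : Ideal (M.R c)) (i : Fin (n + 1)) : Prop :=
  ∀ (a : M.R c) (h : (a : F) ∈ M.Br.V i), M.Br.res i ⟨a, h⟩ = 0 → a ∈ y

variable (c : Fin 2)

instance isFractionRing_chart : IsFractionRing (M.R c) F :=
  IsFractionRing.of_field (M.R c) F fun z => by
    obtain ⟨b, d, hb, hd, -, rfl⟩ := M.frac c z
    exact ⟨⟨b, hb⟩, ⟨d, hd⟩, rfl⟩

/-- `q` in the chart. -/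
def qR : M.R c := ⟨algebraMap W F (M.q : W), (M.R c).algebraMap_mem _⟩

/-- A prime of the chart containing `q` contains the kernel of some branch. -/
theorem exists_branch_le (P : Ideal (M.R c)) [P.IsPrime] (hq : M.qR c ∈ P) :
    ∃ i, M.OnBranch c P i := by
  by_contra h
  simp only [OnBranch] at h
  push Not at h
  choose a hmem ha haP using h
  have hres : ∀ i (hi : ((∏ j, a j : M.R c) : F) ∈ M.Br.V i),
      M.Br.res i ⟨_, hi⟩ = 0 := by
    intro i hi
    have hprod : ((∏ j, a j : M.R c) : F) = (a i : F) * ((∏ j ∈ Finset.univ.erase i, a j : M.R c) : F) := by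
      rw [← MulMemClass.coe_mul, Finset.mul_prod_erase _ _ (Finset.mem_univ i)]
    have hr := M.mem_of_mem (c := c) (∏ j ∈ Finset.univ.erase i, a j : M.R c).2 i
    rw [show (⟨_, hi⟩ : M.Br.V i) = ⟨(a i : F), hmem i⟩ * ⟨_, hr⟩ from Subtype.ext hprod,
      map_mul, ha i, zero_mul]
  obtain ⟨N, b, hb, hN⟩ := (M.chart c).radical _ (∏ j, a j : M.R c).2 hres
  have hmemP : (∏ j, a j : M.R c) ^ N ∈ P := by
    rw [show (∏ j, a j : M.R c) ^ N = M.qR c * ⟨b, hb⟩ from Subtype.ext (by simpa [qR] using hN)]
    exact P.mul_mem_right _ hq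
  obtain ⟨j, -, hj⟩ := (inferInstance : P.IsPrime).prod_mem_iff.mp
    ((inferInstance : P.IsPrime).mem_of_pow_mem N hmemP)
  exact haP j hj

variable (y : Ideal (M.R c)) [y.IsMaximal]

/-- **Local generator.** If `f` is a unit on the three branches and has horizontal divisor
divisible by `m`, then near a point `a ^ m * f` is a unit for some `a`. -/
theorem exists_local_unit (hy : M.qR c ∈ y) {m : ℕ} (hm : m ≠ 0) {f : F} (hf : f ≠ 0)
    (hord : ∀ i, M.ord i f = 0) (hor : HorizDvd W m f) :
    ∃ (a : F) (u : M.R c), a ≠ 0 ∧ u ∉ y ∧ a ^ m * f = (u : F) := by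
  classical
  have hle : y.primeCompl ≤ nonZeroDivisors (M.R c) := y.primeCompl_le_nonZeroDivisors
  let S := Localization.subalgebra.ofField F y.primeCompl hle
  haveI : UniqueFactorizationMonoid S :=
    (IsLocalization.algEquiv y.primeCompl (Localization.AtPrime y) S).toMulEquiv
      |>.uniqueFactorizationMonoid (M.ufm c y hy)
  have hrep : ∀ x : S, ∃ r s : M.R c, s ∉ y ∧ (x : F) * (s : F) = (r : F) := fun x => by
    obtain ⟨⟨r, s⟩, h⟩ := IsLocalization.surj y.primeCompl x
    exact ⟨r, s, s.2, congrArg Subtype.val h⟩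
  have hval : ∀ r : M.R c, algebraMap S F (algebraMap (M.R c) S r) = (r : F) := fun _ => rfl
  have hcomp : ∀ p : S, Prime p → ∀ r : M.R c, r ∉ y → ¬ p ∣ algebraMap (M.R c) S r :=
    fun p hp r hr hd =>
      hp.not_isUnit (isUnit_of_dvd_unit hd (IsLocalization.map_units S (⟨r, hr⟩ : y.primeCompl)))
  have hgen : ∀ p : S, Prime p → ∃ (a : F) (u v : S), ¬ p ∣ u ∧ ¬ p ∣ v ∧
      f * algebraMap S F v = a ^ m * algebraMap S F u := by
    intro p hp
    let P : Ideal (M.R c) := (Ideal.span {p}).comap (algebraMap (M.R c) S)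
    haveI : (Ideal.span {p}).IsPrime := (Ideal.span_singleton_prime hp.ne_zero).mpr hp
    haveI : P.IsPrime := Ideal.IsPrime.comap _
    have hPmem : ∀ r, r ∈ P ↔ p ∣ algebraMap (M.R c) S r := fun r => Ideal.mem_span_singleton
    by_cases hq : M.qR c ∈ P
    · -- the prime of a branch
      obtain ⟨i, hi⟩ := M.exists_branch_le c P hq
      have hR : ∀ r : M.R c, r ∉ P → M.ord i (r : F) = 0 := fun r hr =>
        (M.ord_eq_zero_of_red (M.mem_of_mem r.2 i) (by
          rw [red_of_mem M (M.mem_of_mem r.2 i)]; exact fun h => hr (hi r _ h))).2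
      have hS : ∀ x : S, ¬ p ∣ x → M.ord i (x : F) = 0 := by
        intro x hx
        obtain ⟨r, s, hs, h⟩ := hrep x
        have hs' : s ∉ P := fun h' => hcomp p hp s hs ((hPmem s).mp h')
        have hr' : r ∉ P := by
          intro h'
          have h2 : x * algebraMap (M.R c) S s = algebraMap (M.R c) S r := Subtype.ext h
          exact (hp.dvd_or_dvd (h2 ▸ (hPmem r).mp h')).elim hx (hcomp p hp s hs)
        have hx0 : (x : F) ≠ 0 := fun e => hx (by rw [show x = 0 from Subtype.ext e]; exact dvd_zero p)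
        have hs0 : (s : F) ≠ 0 := fun e => hs (by rw [show s = 0 from Subtype.ext e]; exact zero_mem _)
        have := M.ord_mul i (x : F) s hx0 hs0
        rw [h, hR r hr', hR s hs'] at this
        omega
      have hp0 : (p : F) ≠ 0 := fun e => hp.ne_zero (Subtype.ext e)
      have hpow : ∀ a : F, a ≠ 0 → ∃ (n : ℤ) (u v : S), ¬ p ∣ u ∧ ¬ p ∣ v ∧
          a * (v : F) = (p : F) ^ n * (u : F) ∧ M.ord i a = n * M.ord i (p : F) := by
        intro a ha
        obtain ⟨n, u, v, hu, hv, h⟩ := exists_zpow_prime (K := F) hp ha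
        have hu0 : (u : F) ≠ 0 := fun e => hu (by rw [show u = 0 from Subtype.ext e]; exact dvd_zero p)
        have hv0 : (v : F) ≠ 0 := fun e => hv (by rw [show v = 0 from Subtype.ext e]; exact dvd_zero p)
        refine ⟨n, u, v, hu, hv, h, ?_⟩
        have h1 := M.ord_mul i a v ha hv0
        rw [show a * (v : F) = (p : F) ^ n * (u : F) from h,
          M.ord_mul i _ _ (zpow_ne_zero _ hp0) hu0, M.ord_zpow hp0, hS u hu, hS v hv] at h1
        omega
      obtain ⟨π, hπ0, hπ1⟩ := M.exists_ord_one i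
      obtain ⟨n', -, -, -, -, -, hn'⟩ := hpow π hπ0
      rw [hπ1] at hn'
      have hpne : M.ord i (p : F) ≠ 0 := fun e => by rw [e, mul_zero] at hn'; omega
      obtain ⟨n, u, v, hu, hv, h, hn⟩ := hpow f hf
      rw [hord i] at hn
      obtain rfl : n = 0 := (mul_eq_zero.mp hn.symm).resolve_right hpne
      exact ⟨1, u, v, hu, hv, by
        rw [one_pow, one_mul]
        exact h.trans (by rw [zpow_zero, one_mul]; rfl)⟩
    · -- a horizontal prime
      obtain ⟨a, u, hu, hu', hfu⟩ := hor (primeValSubring F hp) (isDVR_primeValSubring hp)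
        fun w hw => by
          obtain ⟨n, e, he, rfl, -⟩ := M.exists_const_eq hw
          obtain ⟨e', he'⟩ := he.exists_right_inv
          refine ⟨algebraMap_mem_primeValSubring hp
              (algebraMap (M.R c) S ⟨_, (M.R c).algebraMap_mem _⟩), ?_⟩
          rw [map_mul, map_pow, mul_inv, ← inv_pow]
          refine mul_mem (pow_mem ?_ _) ?_
          · exact inv_mem_primeValSubring hp (x := algebraMap (M.R c) S (M.qR c))
              fun h => hq ((hPmem _).mpr h)
          · rw [inv_eq_of_mul_eq_one_right (by rw [← map_mul, he', map_one])]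
            exact algebraMap_mem_primeValSubring hp
              (algebraMap (M.R c) S ⟨_, (M.R c).algebraMap_mem e'⟩)
      obtain ⟨u1, v1, hv1, h1⟩ := hu
      obtain ⟨u2, v2, hv2, h2⟩ := hu'
      refine ⟨a, u1, v1, fun hd => ?_, hv1, by rw [hfu, mul_assoc, h1]⟩
      have hu0 : u ≠ 0 := fun e => hf (by rw [hfu, e, mul_zero])
      have h3 : u1 * u2 = v1 * v2 := by
        apply IsFractionRing.injective S F
        rw [map_mul, map_mul, ← h1, ← h2]
        field_simp
      exact (hp.dvd_or_dvd (h3 ▸ dvd_mul_of_dvd_left hd u2)).elim hv1 hv2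
  obtain ⟨a, u, ha, hu, hau⟩ := exists_pow_mul_eq_unit hm hf hgen
  obtain ⟨r, s, hs, hrs⟩ := hrep u
  have hr : r ∉ y := by
    intro hr
    have h2 : u * algebraMap (M.R c) S s = algebraMap (M.R c) S r := Subtype.ext hrs
    have : IsUnit (algebraMap (M.R c) S r) :=
      h2 ▸ hu.mul (IsLocalization.map_units S (⟨s, hs⟩ : y.primeCompl))
    rw [IsLocalization.AtPrime.isUnit_to_map_iff S y] at this
    exact this hr
  obtain ⟨k', rfl⟩ := Nat.exists_eq_succ_of_ne_zero hm
  refine ⟨a * (s : F), r * s ^ k', mul_ne_zero ha fun e => hs ?_, fun h => ?_, ?_⟩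
  · rw [show s = 0 from Subtype.ext e]; exact zero_mem _
  · exact ((inferInstance : y.IsMaximal).isPrime.mem_or_mem h).elim hr
      fun h' => hs ((inferInstance : y.IsMaximal).isPrime.mem_of_pow_mem _ h')
  · push_cast
    rw [mul_pow, mul_right_comm, hau, ← hrs, pow_succ' (s : F)]
    show (u : F) * ((s : F) * (s : F) ^ k') = (u : F) * s * (s : F) ^ k'
    ring

end Fermat.Agent.CarayolHigh.Model
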