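/-
Values at a point of functions on the branches, and gluing of roots by `RootMem`.
-/
import Fermat.Agent.CarayolHigh.ModelLocal

set_option autoImplicit false
set_option linter.unusedSectionVars false
set_option linter.style.haveILetI false

noncomputable section

namespace Fermat.Agent.CarayolHigh.Model

open Carayol

variable {W F k C : Type} [CommRing W] [IsDomain W] [IsDiscreteValuationRing W] [Field F]
  [Algebra W F] [Field k] [Field C] [Algebra k C] {n : ℕ} (M : Model W F k C n)
variable (c : Fin 2) (y : Ideal (M.R c))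

/-- `z` takes the value `v` at the point on the branch `i`. -/
def IsVal (i : Fin (n + 1)) (z : C) (v : M.R c ⧸ y) : Prop :=
  ∃ a r : M.R c, r ∉ y ∧ z * M.red i (r : F) = M.red i (a : F) ∧
    v * Ideal.Quotient.mk y r = Ideal.Quotient.mk y a

variable {c y} {i : Fin (n + 1)}

theorem red_ne_zero_of_notMem (hi : M.OnBranch c y i) {r : M.R c} (hr : r ∉ y) :
    M.red i (r : F) ≠ 0 := by
  rw [red_of_mem M (M.mem_of_mem r.2 i)]
  exact fun h => hr (hi r _ h)

theorem mk_eq_of_red_eq (hi : M.OnBranch c y i) {a b : M.R c}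
    (h : M.red i (a : F) = M.red i (b : F)) :
    Ideal.Quotient.mk y a = Ideal.Quotient.mk y b := by
  rw [Ideal.Quotient.eq]
  refine hi _ (M.mem_of_mem (a - b).2 i) ?_
  have := M.red_add (M.mem_of_mem (a - b).2 i) (M.mem_of_mem b.2 i)
  rw [show ((a - b : M.R c) : F) + (b : F) = a by simp, h, right_eq_add,
    red_of_mem M (M.mem_of_mem (a - b).2 i)] at this
  exact this

variable [y.IsMaximal]

theorem isVal_unique (hi : M.OnBranch c y i) {z : C} {v v' : M.R c ⧸ y}
    (h : M.IsVal c y i z v) (h' : M.IsVal c y i z v') : v = v' := by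
  obtain ⟨a, r, hr, hz, hv⟩ := h
  obtain ⟨a', r', hr', hz', hv'⟩ := h'
  have h1 : Ideal.Quotient.mk y (a * r') = Ideal.Quotient.mk y (a' * r) := by
    refine M.mk_eq_of_red_eq hi ?_
    push_cast
    rw [M.red_mul (M.mem_of_mem a.2 i) (M.mem_of_mem r'.2 i),
      M.red_mul (M.mem_of_mem a'.2 i) (M.mem_of_mem r.2 i), ← hz, ← hz']
    ring
  rw [map_mul, map_mul, ← hv, ← hv'] at h1
  have hne : Ideal.Quotient.mk y r * Ideal.Quotient.mk y r' ≠ 0 :=
    mul_ne_zero (by rwa [Ne, Ideal.Quotient.eq_zero_iff_mem])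
      (by rwa [Ne, Ideal.Quotient.eq_zero_iff_mem])
  exact mul_right_cancel₀ hne (by linear_combination h1)

theorem isVal_of_mem (a : M.R c) : M.IsVal c y i (M.red i (a : F)) (Ideal.Quotient.mk y a) :=
  ⟨a, 1, fun h => (Ideal.IsMaximal.ne_top inferInstance) ((Ideal.eq_top_iff_one _).mpr h),
    by simp [M.red_one], by simp⟩

theorem isVal_const (w : W) :
    M.IsVal c y i (algebraMap k C (M.ρ w)) (Ideal.Quotient.mk y (algebraMap W (M.R c) w)) := by
  have h := M.isVal_of_mem (y := y) (i := i) (algebraMap W (M.R c) w)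
  rwa [show ((algebraMap W (M.R c) w : M.R c) : F) = algebraMap W F w from rfl,
    M.red_const] at h

theorem isVal_mul {z z' : C} {v v' : M.R c ⧸ y} (h : M.IsVal c y i z v)
    (h' : M.IsVal c y i z' v') : M.IsVal c y i (z * z') (v * v') := by
  obtain ⟨a, r, hr, hz, hv⟩ := h
  obtain ⟨a', r', hr', hz', hv'⟩ := h'
  refine ⟨a * a', r * r', fun hm => ((inferInstance : y.IsMaximal).isPrime.mem_or_mem hm).elim
    hr hr', ?_, ?_⟩
  · push_cast
    rw [M.red_mul (M.mem_of_mem r.2 i) (M.mem_of_mem r'.2 i),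
      M.red_mul (M.mem_of_mem a.2 i) (M.mem_of_mem a'.2 i), ← hz, ← hz']
    ring
  · rw [map_mul, map_mul, ← hv, ← hv']
    ring

theorem isVal_pow {z : C} {v : M.R c ⧸ y} (h : M.IsVal c y i z v) (n : ℕ) :
    M.IsVal c y i (z ^ n) (v ^ n) := by
  induction n with
  | zero =>
    simp only [pow_zero]
    have := M.isVal_of_mem (y := y) (i := i) 1
    simpa [M.red_one] using this
  | succ n ih =>
    rw [pow_succ, pow_succ]
    exact M.isVal_mul ih h

/-- A root of a local unit has a value. -/
theorem exists_isVal (hy : M.qR c ∈ y) (hi : M.OnBranch c y i) {m : ℕ} (hm : m ≠ 0) {u : M.R c}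
    {z : C} (hz : z ^ m = M.red i (u : F)) : ∃ v, M.IsVal c y i z v := by
  obtain ⟨O, hO, hrep⟩ := M.branchValue c y hy i hi
  have hzO : z ∈ O := by
    rcases O.mem_or_inv_mem z with h | h
    · exact h
    · rcases eq_or_ne z 0 with rfl | hz0
      · exact zero_mem _
      have h2 : z ^ m ∈ O := by
        rw [hz, red_of_mem M (M.mem_of_mem u.2 i)]
        exact hO u _
      obtain ⟨n, rfl⟩ := Nat.exists_eq_succ_of_ne_zero hm
      have h3 := mul_mem h2 (pow_mem h n)
      rwa [pow_succ', mul_assoc, inv_pow, mul_inv_cancel₀ (pow_ne_zero _ hz0), mul_one] at h3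
  obtain ⟨a, r, hr, h⟩ := hrep z hzO
  have hzr : z * M.red i (r : F) = M.red i (a : F) := by
    rw [red_of_mem M (M.mem_of_mem r.2 i), red_of_mem M (M.mem_of_mem a.2 i)]
    exact h _ _
  letI := Ideal.Quotient.field y
  refine ⟨Ideal.Quotient.mk y a / Ideal.Quotient.mk y r, a, r, hr, hzr,
    div_mul_cancel₀ _ ?_⟩
  rwa [Ne, Ideal.Quotient.eq_zero_iff_mem]

variable (c) in
/-- The residues on the three branches, as a homomorphism. -/
def resAll : M.R c →+* (Fin (n + 1) → C) :=
  Pi.ringHom fun i =>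
    (M.Br.res i).comp ((M.R c).val.toRingHom.codRestrict (M.Br.V i).toSubring
      fun a => M.mem_of_mem a.2 i)

theorem resAll_apply (a : M.R c) (i : Fin (n + 1)) : M.resAll c a i = M.red i (a : F) := by
  rw [red_of_mem M (M.mem_of_mem a.2 i)]
  rfl

/-- **Gluing.** If the candidate roots have a common value at the point, they come from one
section. -/
theorem localRootAt_of_val (hy : M.qR c ∈ y) {m : ℕ} (hmy : ((m : ℕ) : M.R c) ∉ y) {f a : F}
    {u : M.R c} (hu : u ∉ y) (hau : a ^ m * f = (u : F)) (haV : ∀ i, a ∈ M.Br.V i)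
    (s : Fin (n + 1) → C) (hs : ∀ i, s i ≠ 0)
    (hpow : ∀ i, (M.red i a / s i) ^ m = M.red i (u : F)) (v : M.R c ⧸ y)
    (hv : ∀ i, M.OnBranch c y i → M.IsVal c y i (M.red i a / s i) v) :
    LocalRootAt M.Br (M.R c) m f s y := by
  classical
  set B := (M.resAll c).range with hB
  let π : M.R c →+* B := (M.resAll c).rangeRestrict
  have hπ : Function.Surjective π := (M.resAll c).rangeRestrict_surjective
  have hker : RingHom.ker π ≤ y := by
    intro a ha
    rw [RingHom.mem_ker] at ha
    have hres : ∀ i (h : (a : F) ∈ M.Br.V i), M.Br.res i ⟨a, h⟩ = 0 := fun i h => by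
      have := congrArg (fun x : B => (x : Fin (n + 1) → C) i) ha
      change M.resAll c a i = 0 at this
      rwa [M.resAll_apply, red_of_mem M h] at this
    obtain ⟨N, b, hb, hN⟩ := (M.chart c).radical _ a.2 hres
    refine (inferInstance : y.IsMaximal).isPrime.mem_of_pow_mem N ?_
    rw [show a ^ N = M.qR c * ⟨b, hb⟩ from Subtype.ext (by simpa [qR] using hN)]
    exact y.mul_mem_right _ hy
  let yB : Ideal B := y.map π
  have hmem : ∀ a, π a ∈ yB ↔ a ∈ y := fun a => by
    refine ⟨fun h => ?_, fun h => Ideal.mem_map_of_mem _ h⟩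
    obtain ⟨b, hb, hab⟩ := (Ideal.mem_map_iff_of_surjective π hπ).mp h
    have : b - a ∈ y := hker (by rw [RingHom.mem_ker, map_sub, hab, sub_self])
    simpa using sub_mem hb this
  haveI : yB.IsMaximal :=
    (Ideal.map_eq_top_or_isMaximal_of_surjective π hπ inferInstance).resolve_left fun h => by
      have h1 : (1 : B) ∈ yB := by
        show (1 : B) ∈ y.map π
        rw [h]; trivial
      rw [← map_one π, hmem] at h1
      exact (Ideal.IsMaximal.ne_top inferInstance) ((Ideal.eq_top_iff_one _).mpr h1)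
  obtain ⟨v, rfl⟩ := Ideal.Quotient.mk_surjective v
  have hv' : ∀ Y : Ideal (Subring.closure ((B : Set (Fin (n + 1) → C)) ∪ {fun i => M.red i a / s i})),
      Y.IsPrime → (∀ b : B, b ∈ yB ↔ (⟨(b : Fin (n + 1) → C), Subring.subset_closure (Or.inl b.2)⟩ :
        Subring.closure ((B : Set (Fin (n + 1) → C)) ∪ {fun i => M.red i a / s i})) ∈ Y) →
      (⟨(fun i => M.red i a / s i) - ((π v : B) : Fin (n + 1) → C),
          sub_mem (Subring.subset_closure (Or.inr rfl))
            (Subring.subset_closure (Or.inl (π v).2))⟩ :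
        Subring.closure ((B : Set (Fin (n + 1) → C)) ∪ {fun i => M.red i a / s i})) ∈ Y := by
    intro Y hY hYy
    let emb : B →+* Subring.closure ((B : Set (Fin (n + 1) → C)) ∪ {fun i => M.red i a / s i}) := Subring.inclusion fun b hb => Subring.subset_closure (Or.inl hb)
    let w : Subring.closure ((B : Set (Fin (n + 1) → C)) ∪ {fun i => M.red i a / s i}) := ⟨_, Subring.subset_closure (Or.inr rfl)⟩
    obtain ⟨i, hi⟩ : ∃ i, ∀ x : Subring.closure ((B : Set (Fin (n + 1) → C)) ∪ {fun i => M.red i a / s i}), (x : Fin (n + 1) → C) i = 0 → x ∈ Y := by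
      by_contra h
      push Not at h
      choose x hx hxY using h
      obtain ⟨j, -, hj⟩ := hY.prod_mem_iff.mp (show ∏ j, x j ∈ Y by
        convert Y.zero_mem
        refine Subtype.ext (funext fun i => ?_)
        push_cast
        rw [Finset.prod_apply]
        exact Finset.prod_eq_zero (Finset.mem_univ i) (hx i))
      exact hxY j hj
    have hon : M.OnBranch c y i := fun r h hr => by
      rw [← hmem, hYy]
      refine hi _ ?_
      show M.resAll c r i = 0
      rw [M.resAll_apply, red_of_mem M h, hr]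
    obtain ⟨b, r, hr, hz, hvr⟩ := hv i hon
    rw [← map_mul, Ideal.Quotient.eq] at hvr
    have h1 : emb (π r) * w - emb (π b) ∈ Y := hi _ (by
      show (M.resAll c r * fun i => M.red i a / s i) i - M.resAll c b i = 0
      rw [Pi.mul_apply, M.resAll_apply, M.resAll_apply, mul_comm, hz, sub_self])
    have h2 : emb (π (v * r)) - emb (π b) ∈ Y := by
      rw [← map_sub emb, ← map_sub π]
      exact (hYy _).mp ((hmem _).mpr hvr)
    have h3 : emb (π r) * (w - emb (π v)) ∈ Y := by
      have := sub_mem h1 h2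
      rw [sub_sub_sub_cancel_right, map_mul, map_mul, mul_comm (emb (π v)), ← mul_sub] at this
      exact this
    exact (hY.mem_or_mem h3).resolve_left fun h => hr ((hmem r).mp ((hYy _).mpr h))
  obtain ⟨r, hr, hrw⟩ := exists_mul_mem_of_root B yB m
    (by rw [← map_natCast π, hmem]; exact hmy) (π u) (π v) (by rwa [hmem])
    (fun i => M.red i a / s i)
    (funext fun i => (hpow i).trans (M.resAll_apply u i).symm) hv'
  obtain ⟨r, rfl⟩ := hπ r
  obtain ⟨b, hb⟩ := hrw
  have hbi : ∀ i, M.red i (r : F) * (M.red i a / s i) = M.red i (b : F) := fun i => by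
    rw [← M.resAll_apply b, hb, Pi.mul_apply]
    congr 1
    exact (M.resAll_apply r i).symm
  have hry : r ∉ y := fun h => hr ((hmem r).mpr h)
  obtain ⟨i, hi⟩ := M.exists_branch_le c y hy
  have hb0 : b ∉ y := by
    intro hby
    have hv1 : M.IsVal c y i (M.red i a / s i) 0 :=
      ⟨b, r, hry, by rw [mul_comm]; exact hbi i, by
        rw [zero_mul, Ideal.Quotient.eq_zero_iff_mem.mpr hby]⟩
    have h0 := M.isVal_unique hi (hv i hi) hv1
    have hvu := M.isVal_unique hi (M.isVal_pow (hv i hi) m) (hpow i ▸ M.isVal_of_mem (y := y) u)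
    have hm0 : m ≠ 0 := by
      rintro rfl
      simp at hmy
    rw [h0, zero_pow hm0] at hvu
    exact hu (Ideal.Quotient.eq_zero_iff_mem.mp hvu.symm)
  refine ⟨(r : F) * a, smul_mem_rootSet (by show a ^ m * f ∈ M.R c; rw [hau]; exact u.2) r.2, b,
    hb0, fun i ha hrb => ?_⟩
  rw [← red_of_mem M ha, ← red_of_mem M hrb, M.red_mul (M.mem_of_mem r.2 i) (haV i), ← hbi i,
    mul_assoc, div_mul_cancel₀ _ (hs i)]

end Fermat.Agent.CarayolHigh.Model
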