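/-
Orders and residue roots of a torsion function on the branches of `Model`, `n ≥ 3`.

Both norms determine `q • ord i f` and `(red i f)^q` on the branches where they apply, and together
these cover all branches; as `q` is prime to `m` no bounded power is lost.
-/
import Fermat.Agent.CarayolHigh.ModelValue
import Fermat.Agent.Carayol.KeyRoots

set_option autoImplicit false
set_option linter.unusedSectionVars false
set_option linter.style.haveILetI false

noncomputable section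

namespace Fermat.Agent.CarayolHigh.Model

open Carayol
open Carayol.Model (NormPow)

variable {W F k C : Type} [CommRing W] [IsDomain W] [IsDiscreteValuationRing W] [Field F]
  [Algebra W F] [Field k] [Field C] [Algebra k C] {n : ℕ} (M : Model W F k C n) {m : ℕ}

/-- The index `n - 1`. -/
def pen (n : ℕ) : Fin (n + 1) := ⟨n - 1, by omega⟩

include M in
theorem val_pen : ((pen n : Fin (n + 1)) : ℕ) + 1 = n := by
  have := M.n_ge; show n - 1 + 1 = n; omega

include M in
theorem two_le_pen : 2 ≤ ((pen n : Fin (n + 1)) : ℕ) := by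
  have := M.n_ge; show 2 ≤ n - 1; omega

include M in
theorem two_le_last : 2 ≤ ((Fin.last n : Fin (n + 1)) : ℕ) := by
  have := M.n_ge; rw [Fin.val_last]; omega

include M in
theorem zero_le_sub : ((0 : Fin (n + 1)) : ℕ) + 2 ≤ n := by
  have := M.n_ge; rw [Fin.val_zero]; omega

include M in
theorem two_le_of_not (i : Fin (n + 1)) (h : ¬ (i : ℕ) + 2 ≤ n) : 2 ≤ (i : ℕ) := by
  have := M.n_ge
  have := i.2
  omega

theorem coprime_q (hm : IsUnit (m : W)) : Nat.Coprime M.q m :=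
  (M.hq.coprime_iff_not_dvd).mpr fun ⟨d, hd⟩ => M.irreducible_q.not_isUnit
    (isUnit_of_mul_isUnit_left (y := (d : W)) (by rwa [← Nat.cast_mul, ← hd]))

/-- The orders of a norm which is a constant times an `m`-th power. -/
theorem exists_ord_normPow {N : F →* F} {f : F} (hN : N f ≠ 0)
    (h : NormPow (W := W) N m f) :
    ∃ c : ℤ, ∀ l, (m : ℤ) ∣ M.ord l (N f) - c * M.ord l (algebraMap W F (M.q : W)) := by
  obtain ⟨a, b, G, ha, hb, hG, h⟩ := h
  obtain ⟨i, -, -, -, hao⟩ := M.exists_const_eq ha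
  obtain ⟨j, -, -, -, hbo⟩ := M.exists_const_eq hb
  refine ⟨(i : ℤ) - j, fun l => ⟨M.ord l G, ?_⟩⟩
  have := congrArg (M.ord l) h
  rw [M.ord_mul l _ _ (M.const_ne_zero hb) hN, M.ord_mul l _ _ (M.const_ne_zero ha)
    (pow_ne_zero _ hG), M.ord_pow hG, hao, hbo] at this
  linear_combination this

/-- **The orders of a torsion function are congruent to those of a constant.** -/
theorem exists_ord_congr (hm : IsUnit (m : W)) {f : F} (hf : f ≠ 0)
    (hα : NormPow (W := W) M.normα m f) (hβ : NormPow (W := W) M.normβ m f) :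
    ∃ c : ℤ, ∀ i, (m : ℤ) ∣ M.ord i f - c * M.ord i (algebraMap W F (M.q : W)) := by
  obtain ⟨cα, hcα⟩ := M.exists_ord_normPow (M.normα_ne_zero f hf) hα
  obtain ⟨cβ, hcβ⟩ := M.exists_ord_normPow (M.normβ_ne_zero f hf) hβ
  obtain ⟨l, hl⟩ := M.ord_normα_last
  have hQ := M.q_ne_zero
  set r : Fin (n + 1) → ℤ := fun i => M.ord i (algebraMap W F (M.q : W)) with hr
  set a : Fin (n + 1) → ℤ := fun i => M.ord i f
  have hA : ∀ i : Fin (n + 1), (i : ℕ) + 2 ≤ n → (m : ℤ) ∣ M.q * a i - cα * r i := fun i hi =>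
    M.ord_normα i hi f hf ▸ hcα i
  have hB : ∀ i : Fin (n + 1), 2 ≤ (i : ℕ) → (m : ℤ) ∣ M.q * a i - cβ * r i := fun i hi =>
    M.ord_normβ i hi f hf ▸ hcβ i
  have htop : (m : ℤ) ∣ a (Fin.last n) + l * a (pen n) - cα := by
    have h1 := hcα (Fin.last n)
    rw [hl (pen n) M.val_pen f hf, M.ord_last_q, mul_one] at h1
    exact h1
  have hq : (M.q : ℤ) = 1 + l * r (pen n) := by
    have h1 := hl (pen n) M.val_pen _ hQ
    rw [M.normα_const, M.ord_pow hQ, M.ord_last_q, mul_one] at h1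
    exact h1
  have hlast : (m : ℤ) ∣ M.q * a (Fin.last n) - cβ := by
    have h1 := hB (Fin.last n) M.two_le_last
    rwa [show r (Fin.last n) = 1 from M.ord_last_q, mul_one] at h1
  have hcop : IsCoprime (M.q : ℤ) m := Nat.isCoprime_iff_coprime.mpr (M.coprime_q hm)
  have hc : (m : ℤ) ∣ cβ - cα := by
    refine hcop.symm.dvd_of_dvd_mul_left ?_
    have h1 := dvd_sub (htop.mul_left (M.q : ℤ))
      (dvd_add hlast ((hB (pen n) M.two_le_pen).mul_left l))
    rw [show (M.q : ℤ) * (a (Fin.last n) + l * a (pen n) - cα) -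
      (M.q * a (Fin.last n) - cβ + l * (M.q * a (pen n) - cβ * r (pen n))) =
      (M.q : ℤ) * (cβ - cα) by linear_combination (-cβ) * hq] at h1
    exact h1
  obtain ⟨u, v, huv⟩ := hcop
  refine ⟨u * cα, fun i => ?_⟩
  have hi : (m : ℤ) ∣ M.q * a i - cα * r i := by
    by_cases h : (i : ℕ) + 2 ≤ n
    · exact hA i h
    · have h1 := dvd_add (hB i (M.two_le_of_not i h)) (hc.mul_right (r i))
      rwa [show (M.q : ℤ) * a i - cβ * r i + (cβ - cα) * r i = M.q * a i - cα * r i by ring] at h1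
  have h2 := dvd_add (hi.mul_left u) (dvd_mul_of_dvd_right (dvd_mul_right (m : ℤ) (a i)) v)
  show (m : ℤ) ∣ a i - u * cα * r i
  rwa [show u * ((M.q : ℤ) * a i - cα * r i) + v * ((m : ℤ) * a i) = a i - u * cα * r i by
    linear_combination (a i) * huv] at h2

include M in
theorem normPow_adjust {N : F →* F} {f : F} (h : NormPow (W := W) N m f)
    (hN : ∀ w : W, N (algebraMap W F w) = algebraMap W F w ^ M.q)
    (hN0 : ∀ a, a ≠ 0 → N a ≠ 0) {x z : W} (hx : x ≠ 0) (hz : z ≠ 0) {H : F} (hH : H ≠ 0) :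
    NormPow (W := W) N m (f * (algebraMap W F x / algebraMap W F z) * H ^ m) := by
  obtain ⟨a, b, G, ha, hb, hG, h⟩ := h
  have hz' := M.const_ne_zero hz
  have hdiv : N (algebraMap W F x / algebraMap W F z) =
      algebraMap W F x ^ M.q / algebraMap W F z ^ M.q := by
    rw [eq_div_iff (pow_ne_zero _ hz'), ← hN z, ← map_mul, div_mul_cancel₀ _ hz', hN]
  refine ⟨a * x ^ M.q, b * z ^ M.q, G * N H, mul_ne_zero ha (pow_ne_zero _ hx),
    mul_ne_zero hb (pow_ne_zero _ hz), mul_ne_zero hG (hN0 H hH), ?_⟩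
  rw [map_mul N, map_mul N, map_pow N, hdiv, map_mul, map_mul, map_pow, map_pow, mul_pow]
  field_simp
  linear_combination (algebraMap W F x ^ M.q * N H ^ m) * h

/-- Clearing the orders. -/
theorem exists_normalized (hm : IsUnit (m : W)) {f : F} (hf : f ≠ 0) (hor : HorizDvd W m f)
    (hα : NormPow (W := W) M.normα m f) (hβ : NormPow (W := W) M.normβ m f) :
    ∃ (a b : W) (H g : F), a ≠ 0 ∧ b ≠ 0 ∧ H ≠ 0 ∧ g ≠ 0 ∧
      g = f * (algebraMap W F a / algebraMap W F b) * H ^ m ∧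
      (∀ i, M.ord i g = 0) ∧ HorizDvd W m g ∧
      NormPow (W := W) M.normα m g ∧ NormPow (W := W) M.normβ m g := by
  obtain ⟨c, hc⟩ := M.exists_ord_congr hm hf hα hβ
  choose e he using hc
  obtain ⟨H, hH, hHo⟩ := M.exists_ord_eq_int fun i => -e i
  have hqne : (M.q : W) ≠ 0 := M.irreducible_q.ne_zero
  set x : W := (M.q : W) ^ (-c).toNat
  set z : W := (M.q : W) ^ c.toNat
  have hx : x ≠ 0 := pow_ne_zero _ hqne
  have hz : z ≠ 0 := pow_ne_zero _ hqne
  have hx' := M.const_ne_zero hx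
  have hz' := M.const_ne_zero hz
  refine ⟨x, z, H, _, hx, hz, hH,
    mul_ne_zero (mul_ne_zero hf (div_ne_zero hx' hz')) (pow_ne_zero _ hH), rfl, fun i => ?_,
    hor.adjust hx hz H, M.normPow_adjust hα M.normα_const M.normα_ne_zero hx hz hH,
    M.normPow_adjust hβ M.normβ_const M.normβ_ne_zero hx hz hH⟩
  rw [M.ord_mul i _ _ (mul_ne_zero hf (div_ne_zero hx' hz')) (pow_ne_zero _ hH),
    M.ord_mul i _ _ hf (div_ne_zero hx' hz'), M.ord_div hx' hz', M.ord_pow hH, hHo]
  simp only [x, z, map_pow, M.ord_pow M.q_ne_zero]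
  have := Int.toNat_sub_toNat_neg c
  linear_combination he i - M.ord i (algebraMap W F (M.q : W)) * this

/-- The norm relation with unit constants, `o` an unramified branch. -/
theorem exists_normPow_unit {N : F →* F} {g : F} (h : NormPow (W := W) N m g) (hN : N g ≠ 0)
    (hm : m ≠ 0) (o : Fin (n + 1)) (ho : M.ord o (algebraMap W F (M.q : W)) = 1)
    (hNo : M.ord o (N g) = 0) :
    ∃ (a b : W) (G : F), IsUnit a ∧ IsUnit b ∧ G ≠ 0 ∧
      algebraMap W F b * N g = algebraMap W F a * G ^ m ∧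
      ∀ l, M.ord l (N g) = 0 → M.ord l G = 0 := by
  obtain ⟨a, b, G, ha, hb, hG, h⟩ := h
  obtain ⟨i, a', ha', rfl, hao⟩ := M.exists_const_eq ha
  obtain ⟨j, b', hb', rfl, hbo⟩ := M.exists_const_eq hb
  have hQ := M.q_ne_zero
  have k0 : (j : ℤ) = i + m * M.ord o G := by
    have := congrArg (M.ord o) h
    rw [M.ord_mul o _ _ (M.const_ne_zero hb) hN, M.ord_mul o _ _ (M.const_ne_zero ha)
      (pow_ne_zero _ hG), M.ord_pow hG, hao, hbo, hNo, ho] at this
    linarith
  set Q := algebraMap W F (M.q : W)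
  have hG' : G * Q ^ (-M.ord o G) ≠ 0 := mul_ne_zero hG (zpow_ne_zero _ hQ)
  have heq : algebraMap W F b' * N g = algebraMap W F a' * (G * Q ^ (-M.ord o G)) ^ m := by
    rw [map_mul, map_mul, map_pow, map_pow] at h
    refine mul_left_cancel₀ (pow_ne_zero j hQ) ?_
    rw [← mul_assoc, h, mul_pow, ← zpow_natCast Q j, ← zpow_natCast Q i,
      ← zpow_natCast (Q ^ (-M.ord o G)) m, ← zpow_mul]
    rw [k0, zpow_add₀ hQ,
      show (-M.ord o G) * (m : ℤ) = -((m : ℤ) * M.ord o G) by ring, zpow_neg]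
    field_simp
  refine ⟨a', b', _, ha', hb', hG', heq, fun l hl => ?_⟩
  have := congrArg (M.ord l) heq
  rw [M.ord_mul l _ _ (M.const_ne_zero hb'.ne_zero) hN, M.ord_mul l _ _
    (M.const_ne_zero ha'.ne_zero) (pow_ne_zero _ hG'), M.ord_pow hG', hl,
    M.ord_const_of_isUnit hb', M.ord_const_of_isUnit ha', zero_add, zero_add] at this
  exact (mul_eq_zero.mp this.symm).resolve_left (Nat.cast_ne_zero.mpr hm)

/-- The residues of such a relation. -/
theorem exists_red_relation {N : F →* F} {g : F} {a b : W} {G : F} (hb : IsUnit b) (h : algebraMap W F b * N g = algebraMap W F a * G ^ m)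
    {l : Fin (n + 1)} (hl : M.ord l (N g) = 0) (hG : M.ord l G = 0) :
    M.red l (N g) = algebraMap k C (M.ρ a / M.ρ b) * M.red l G ^ m := by
  have := congrArg (M.red l) h
  rw [M.red_mul (M.const_mem l b) (M.mem_of_ord_nonneg hl.ge),
    M.red_mul (M.const_mem l a) (pow_mem (M.mem_of_ord_nonneg hG.ge) m), M.red_const, M.red_const,
    M.red_pow (M.mem_of_ord_nonneg hG.ge)] at this
  rw [map_div₀, div_mul_eq_mul_div, eq_div_iff ((map_ne_zero _).mpr (hb.map M.ρ).ne_zero),
    mul_comm]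
  exact this

include M in
/-- An `m`-th root of a constant is a constant. -/
theorem exists_eq_algebraMap_of_pow_eq (hm : 0 < m) {x : C} {c : k}
    (h : x ^ m = algebraMap k C c) : ∃ e : k, x = algebraMap k C e := by
  classical
  haveI := M.algClosed
  let P : Polynomial k := Polynomial.X ^ m - Polynomial.C c
  have hP : P ≠ 0 := (Polynomial.monic_X_pow_sub_C _ hm.ne').ne_zero
  have hroot : x ∈ (P.map (algebraMap k C)).roots := by
    rw [Polynomial.mem_roots (Polynomial.map_ne_zero hP)]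
    simp [P, h]
  rw [Polynomial.Splits.roots_map (IsAlgClosed.splits P), Multiset.mem_map] at hroot
  obtain ⟨r, -, rfl⟩ := hroot
  exact ⟨r, rfl⟩

include M in
/-- A root from one of the relations `x^q = κ y^m`. -/
theorem exists_root (hm : IsUnit (m : W)) (hm0 : 0 < m) {x y : C} {κ : k} (hx : x ≠ 0)
    (h : x ^ M.q = algebraMap k C κ * y ^ m) : ∃ t : C, t ^ m = x := by
  haveI := M.algClosed
  obtain ⟨c, rfl⟩ := IsAlgClosed.exists_pow_nat_eq κ hm0
  exact Carayol.Model.exists_root_of_pow (M.coprime_q hm) hx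
    ⟨algebraMap k C c * y, by rw [h, mul_pow, ← map_pow]⟩

include M in
/-- The product of a root with the residue of `G` is a constant. -/
theorem exists_const_of_relation (hm0 : 0 < m) {X u y : C} {κ : k}
    (hX : u * X ^ m = 1) (h : u = algebraMap k C κ * y ^ m) :
    ∃ e : k, e ≠ 0 ∧ X * y = algebraMap k C e := by
  have h1 : (X * y) ^ m = algebraMap k C κ⁻¹ := by
    rw [map_inv₀]
    refine eq_inv_of_mul_eq_one_left ?_
    rw [← hX, h, mul_pow]
    ring
  obtain ⟨e, he⟩ := M.exists_eq_algebraMap_of_pow_eq hm0 h1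
  refine ⟨e, fun e0 => ?_, he⟩
  rw [he, e0, map_zero, zero_pow hm0.ne', eq_comm, map_eq_zero, inv_eq_zero] at h1
  rw [h, h1, map_zero, zero_mul, zero_mul] at hX
  exact zero_ne_one hX

/-- The data on the branches: roots, the two relations, and the constants. -/
structure Rooted (m : ℕ) (g : F) where
  ord_eq : ∀ i, M.ord i g = 0
  ne_zero : g ≠ 0
  horiz : HorizDvd W m g
  s : Fin (n + 1) → C
  hs : ∀ i, M.red i g * s i ^ m = 1
  aα : W
  bα : W
  Gα : F
  aβ : W
  bβ : W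
  Gβ : F
  aα_unit : IsUnit aα
  aβ_unit : IsUnit aβ
  ord_Gα : ∀ i : Fin (n + 1), (i : ℕ) + 2 ≤ n → M.ord i Gα = 0
  ord_Gα_last : M.ord (Fin.last n) Gα = 0
  ord_Gβ : ∀ i : Fin (n + 1), 2 ≤ (i : ℕ) → M.ord i Gβ = 0
  hα : algebraMap W F bα * M.normα g = algebraMap W F aα * Gα ^ m
  hβ : algebraMap W F bβ * M.normβ g = algebraMap W F aβ * Gβ ^ m
  eα : Fin (n + 1) → k
  eβ : Fin (n + 1) → k
  et : k
  eα_spec : ∀ i : Fin (n + 1), (i : ℕ) + 2 ≤ n →
    eα i ≠ 0 ∧ s i ^ M.q * M.red i Gα = algebraMap k C (eα i)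
  eβ_spec : ∀ i : Fin (n + 1), 2 ≤ (i : ℕ) →
    eβ i ≠ 0 ∧ s i ^ M.q * M.red i Gβ = algebraMap k C (eβ i)
  et_spec : et ≠ 0 ∧ s (Fin.last n) * s (pen n) ^ (M.q - 1) * M.red (Fin.last n) Gα =
    algebraMap k C et

/-- **Roots exist.** -/
theorem exists_rooted (hm : IsUnit (m : W)) (hm0 : 0 < m) {g : F} (hg : g ≠ 0)
    (hord : ∀ i, M.ord i g = 0) (hor : HorizDvd W m g)
    (hα : NormPow (W := W) M.normα m g) (hβ : NormPow (W := W) M.normβ m g) :
    Nonempty (M.Rooted m g) := by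
  classical
  obtain ⟨l, hl⟩ := M.ord_normα_last
  have hV : ∀ i, g ∈ M.Br.V i := fun i => M.mem_of_ord_nonneg (hord i).ge
  have hu : ∀ i, M.red i g ≠ 0 := fun i => M.red_ne_zero_of_ord hg (hord i)
  have oα : ∀ i : Fin (n + 1), (i : ℕ) + 2 ≤ n → M.ord i (M.normα g) = 0 := fun i hi => by
    rw [M.ord_normα i hi g hg, hord, mul_zero]
  have oβ : ∀ i : Fin (n + 1), 2 ≤ (i : ℕ) → M.ord i (M.normβ g) = 0 := fun i hi => by
    rw [M.ord_normβ i hi g hg, hord, mul_zero]
  have ot : M.ord (Fin.last n) (M.normα g) = 0 := by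
    rw [hl (pen n) M.val_pen g hg, hord, hord, mul_zero, add_zero]
  obtain ⟨a, b, G, ha, hb, hG, hA, hGo⟩ := M.exists_normPow_unit hα (M.normα_ne_zero g hg)
    hm0.ne' 0 M.ord_zero_q (oα 0 M.zero_le_sub)
  obtain ⟨a', b', G', ha', hb', hG', hB, hGo'⟩ := M.exists_normPow_unit hβ (M.normβ_ne_zero g hg)
    hm0.ne' (Fin.last n) M.ord_last_q (oβ _ M.two_le_last)
  have rα : ∀ i : Fin (n + 1), (i : ℕ) + 2 ≤ n →
      M.red i g ^ M.q = algebraMap k C (M.ρ a / M.ρ b) * M.red i G ^ m := fun i hi => by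
    rw [← M.exists_red_relation hb hA (oα i hi) (hGo i (oα i hi)),
      red_of_mem M (M.mem_of_ord_nonneg (oα i hi).ge), M.res_normα i hi g (hV i), red_of_mem M (hV i)]
  have rβ : ∀ i : Fin (n + 1), 2 ≤ (i : ℕ) →
      M.red i g ^ M.q = algebraMap k C (M.ρ a' / M.ρ b') * M.red i G' ^ m := fun i hi => by
    rw [← M.exists_red_relation hb' hB (oβ i hi) (hGo' i (oβ i hi)),
      red_of_mem M (M.mem_of_ord_nonneg (oβ i hi).ge), M.res_normβ i hi g (hV i), red_of_mem M (hV i)]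
  have rt : M.red (Fin.last n) g * M.red (pen n) g ^ (M.q - 1) =
      algebraMap k C (M.ρ a / M.ρ b) * M.red (Fin.last n) G ^ m := by
    rw [← M.exists_red_relation hb hA ot (hGo _ ot),
      red_of_mem M (M.mem_of_ord_nonneg ot.ge), M.res_normα_last _ M.val_pen g (hV _) (hV _),
      red_of_mem M (hV _), red_of_mem M (hV _)]
  have hroot : ∀ i, ∃ t : C, t ^ m = M.red i g := fun i => by
    by_cases h : (i : ℕ) + 2 ≤ n
    · exact M.exists_root hm hm0 (hu i) (rα i h)
    · exact M.exists_root hm hm0 (hu i) (rβ i (M.two_le_of_not i h))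
  choose t ht using hroot
  let s : Fin (n + 1) → C := fun i => (t i)⁻¹
  have hs : ∀ i, M.red i g * s i ^ m = 1 := fun i => by
    rw [inv_pow, ht i, mul_inv_cancel₀ (hu i)]
  have hsq : ∀ i, M.red i g ^ M.q * (s i ^ M.q) ^ m = 1 := fun i => by
    rw [← pow_mul, mul_comm M.q, pow_mul, ← mul_pow, hs, one_pow]
  have hex : ∀ i : Fin (n + 1), ∃ e : k, (i : ℕ) + 2 ≤ n →
      e ≠ 0 ∧ s i ^ M.q * M.red i G = algebraMap k C e := fun i => by
    by_cases h : (i : ℕ) + 2 ≤ n
    · obtain ⟨e, he⟩ := M.exists_const_of_relation hm0 (hsq i) (rα i h)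
      exact ⟨e, fun _ => he⟩
    · exact ⟨0, fun h' => absurd h' h⟩
  have hex' : ∀ i : Fin (n + 1), ∃ e : k, 2 ≤ (i : ℕ) →
      e ≠ 0 ∧ s i ^ M.q * M.red i G' = algebraMap k C e := fun i => by
    by_cases h : 2 ≤ (i : ℕ)
    · obtain ⟨e, he⟩ := M.exists_const_of_relation hm0 (hsq i) (rβ i h)
      exact ⟨e, fun _ => he⟩
    · exact ⟨0, fun h' => absurd h' h⟩
  choose eα heα using hex
  choose eβ heβ using hex'
  obtain ⟨et, het⟩ := M.exists_const_of_relation hm0
    (X := s (Fin.last n) * s (pen n) ^ (M.q - 1)) (by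
      rw [mul_pow, mul_mul_mul_comm, hs, one_mul, ← pow_mul, mul_comm (M.q - 1), pow_mul, ← mul_pow,
        hs, one_pow]) rt
  exact ⟨⟨hord, hg, hor, s, hs, a, b, G, a', b', G', ha, ha', fun i hi => hGo i (oα i hi),
    hGo _ ot, fun i hi => hGo' i (oβ i hi), hA, hB, eα, eβ, et, heα, heβ, het⟩⟩

end Fermat.Agent.CarayolHigh.Model
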