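/-
**Key theorem for `X₀(qⁿ L)`, `n ≥ 3`.** A function with horizontal divisor divisible by `m` (prime
to `q`) whose two norms to level `qⁿ⁻¹ L` are constants times `m`-th powers is itself a constant
times an `m`-th power.

At a point on all branches the values `V i` of the candidate roots satisfy `(V i)^q = κ i (V 0)^q`
with constants `κ i`, and the Frobenius is injective: the roots can be adjusted by constants.
-/
import Fermat.Agent.CarayolHigh.KeyRoots
import Mathlib.Algebra.CharP.Basic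

set_option autoImplicit false
set_option linter.unusedSectionVars false
set_option linter.style.haveILetI false

noncomputable section

namespace Fermat.Agent.CarayolHigh.Model

open Carayol
open Carayol.Model (NormPow)

variable {W F k C : Type} [CommRing W] [IsDomain W] [IsDiscreteValuationRing W] [Field F]
  [Algebra W F] [Field k] [Field C] [Algebra k C] {n : ℕ} {M : Model W F k C n} {m : ℕ} {g : F}

theorem Rooted.s_ne_zero (h : M.Rooted m g) (hm : m ≠ 0) (i : Fin (n + 1)) : h.s i ≠ 0 :=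
  fun e => by simpa [e, hm] using h.hs i

variable (M)

theorem ρ_q : M.ρ (M.q : W) = 0 := by
  by_contra hq0
  have h1 := (M.ord_eq_zero_of_red (M.const_mem 0 _) (by
    rw [M.red_const]; exact (map_ne_zero _).mpr hq0)).2
  have := M.ord_zero_q
  omega

theorem dvd_of_ρ_eq_zero {w : W} (hw : M.ρ w = 0) : (M.q : W) ∣ w := by
  rw [← Ideal.mem_span_singleton, ← M.irreducible_q.maximalIdeal_eq]
  exact fun hu => (hu.map M.ρ).ne_zero hw

variable {c : Fin 2} {y : Ideal (M.R c)}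

theorem charP_quotient [y.IsMaximal] (hy : M.qR c ∈ y) : CharP (M.R c ⧸ y) M.q := by
  letI := Ideal.Quotient.field y
  refine (CharP.charP_iff_prime_eq_zero M.hq).mpr ?_
  rw [← map_natCast (Ideal.Quotient.mk y), Ideal.Quotient.eq_zero_iff_mem]
  have : (M.q : M.R c) = M.qR c := Subtype.ext (by simp [qR])
  rwa [this]

/-- The constants in the residue field of a point. -/
def pointConst (hy : M.qR c ∈ y) : k →+* M.R c ⧸ y :=
  M.ρ.liftOfSurjective M.ρ_surjective ⟨(Ideal.Quotient.mk y).comp (algebraMap W (M.R c)),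
    fun w hw => by
      obtain ⟨d, rfl⟩ := M.dvd_of_ρ_eq_zero hw
      rw [RingHom.mem_ker, map_mul]
      refine mul_eq_zero_of_left ?_ _
      rw [RingHom.comp_apply, Ideal.Quotient.eq_zero_iff_mem]
      exact hy⟩

theorem pointConst_ρ (hy : M.qR c ∈ y) (w : W) :
    M.pointConst hy (M.ρ w) = Ideal.Quotient.mk y (algebraMap W (M.R c) w) :=
  RingHom.liftOfRightInverse_comp_apply _ _ _ _ w

theorem isVal_pointConst (hy : M.qR c ∈ y) [y.IsMaximal] (i : Fin (n + 1)) (e : k) :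
    M.IsVal c y i (algebraMap k C e) (M.pointConst hy e) := by
  obtain ⟨w, rfl⟩ := M.ρ_surjective e
  rw [M.pointConst_ρ hy]
  exact M.isVal_const w

variable [y.IsMaximal]

/-- At a point on all branches the value on the branch `n - 1` is the value on the branch `n`. -/
theorem isVal_congr {i j : Fin (n + 1)}
    (hcong : ∀ (a r : M.R c), r ∉ y → ∀ (ha : (a : F) ∈ M.Br.V i) (hr : (r : F) ∈ M.Br.V i),
        ∃ a' r' : M.R c, r' ∉ y ∧ a * r' - a' * r ∈ y ∧
          ∀ (ha' : (a' : F) ∈ M.Br.V j) (hr' : (r' : F) ∈ M.Br.V j),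
            M.Br.res i ⟨a, ha⟩ * M.Br.res j ⟨r', hr'⟩ = M.Br.res j ⟨a', ha'⟩ * M.Br.res i ⟨r, hr⟩)
    (hi : M.OnBranch c y i) {z : C} {v : M.R c ⧸ y} (h : M.IsVal c y i z v) :
    M.IsVal c y j z v := by
  obtain ⟨a, r, hr, hz, hv⟩ := h
  obtain ⟨a', r', hr', hy', hres⟩ := hcong a r hr (M.mem_of_mem a.2 i) (M.mem_of_mem r.2 i)
  have h1 := hres (M.mem_of_mem a'.2 j) (M.mem_of_mem r'.2 j)
  rw [← red_of_mem M (M.mem_of_mem a.2 i), ← red_of_mem M (M.mem_of_mem r.2 i),
    ← red_of_mem M (M.mem_of_mem a'.2 j), ← red_of_mem M (M.mem_of_mem r'.2 j), ← hz] at h1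
  refine ⟨a', r', hr', mul_right_cancel₀ (M.red_ne_zero_of_notMem hi hr)
    (by linear_combination h1), ?_⟩
  have h2 := Ideal.Quotient.eq.mpr hy'
  rw [map_mul, map_mul, ← hv] at h2
  refine mul_right_cancel₀ (b := Ideal.Quotient.mk y r) ?_ (by linear_combination h2)
  rwa [Ne, Ideal.Quotient.eq_zero_iff_mem]

/-- Data of a point: a section and the values of the candidate roots. -/
theorem exists_point_data (hm0 : 0 < m) (h : M.Rooted m g) (hy : M.qR c ∈ y) :
    ∃ (a : F) (u : M.R c), a ≠ 0 ∧ u ∉ y ∧ a ^ m * g = (u : F) ∧ (∀ i, a ∈ M.Br.V i) ∧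
      (∀ i, (M.red i a / h.s i) ^ m = M.red i (u : F)) ∧
      (∀ i, M.OnBranch c y i → M.ord i a = 0) ∧
      ∀ i, M.OnBranch c y i → ∃ v : M.R c ⧸ y, v ^ m = Ideal.Quotient.mk y u ∧
        M.IsVal c y i (M.red i a / h.s i) v := by
  obtain ⟨a, u, ha, hu, hau⟩ :=
    M.exists_local_unit c y hy hm0.ne' h.ne_zero h.ord_eq h.horiz
  have hu0 : (u : F) ≠ 0 := hau ▸ mul_ne_zero (pow_ne_zero _ ha) h.ne_zero
  have hord : ∀ i, M.ord i (u : F) = m * M.ord i a := fun i => by
    rw [← hau, M.ord_mul i _ _ (pow_ne_zero _ ha) h.ne_zero, M.ord_pow ha, h.ord_eq, add_zero]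
  have haV : ∀ i, a ∈ M.Br.V i := fun i => M.mem_of_ord_nonneg (by
    have h1 := (M.mem_iff i _ hu0).mp (M.mem_of_mem u.2 i)
    rw [hord] at h1
    exact (mul_nonneg_iff_of_pos_left (by exact_mod_cast hm0)).mp h1)
  have hpow : ∀ i, (M.red i a / h.s i) ^ m = M.red i (u : F) := fun i => by
    rw [div_pow, ← hau, M.red_mul (pow_mem (haV i) m) (M.mem_of_ord_nonneg (h.ord_eq i).ge),
      M.red_pow (haV i), div_eq_iff (pow_ne_zero _ (h.s_ne_zero hm0.ne' i)), mul_assoc, h.hs i,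
      mul_one]
  refine ⟨a, u, ha, hu, hau, haV, hpow, fun i hi => ?_, fun i hi => ?_⟩
  · have h1 := (M.ord_eq_zero_of_red (M.mem_of_mem u.2 i) (M.red_ne_zero_of_notMem hi hu)).2
    rw [hord] at h1
    exact (mul_eq_zero.mp h1).resolve_left (by exact_mod_cast hm0.ne')
  · obtain ⟨v, hv⟩ := M.exists_isVal hy hi hm0.ne' (hpow i)
    exact ⟨v, M.isVal_unique hi (M.isVal_pow hv m) (hpow i ▸ M.isVal_of_mem (y := y) u), hv⟩

/-- `N a * G` is in the chart. -/
theorem norm_mul_mem (hm0 : 0 < m) {N : F →* F} {a : F} {u r : M.R c}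
    (hru : (r : F) * N (u : F) ∈ M.R c) (hau : a ^ m * g = (u : F)) {aN bN : W} (haN : IsUnit aN)
    {G : F} (hA : algebraMap W F bN * N g = algebraMap W F aN * G ^ m) :
    (r : F) * (N a * G) ∈ M.R c := by
  obtain ⟨a1, ha1⟩ := haN.exists_right_inv
  refine mem_of_pow_mem_chart M.Br (M.chart c) hm0.ne' ?_
  have h1 : (N a * G) ^ m = N (u : F) * algebraMap W F (bN * a1) := by
    have h1' : algebraMap W F aN * algebraMap W F a1 = 1 := by rw [← map_mul, ha1, map_one]
    rw [← hau, map_mul N, map_pow, map_mul, mul_pow]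
    linear_combination (-(N a ^ m) * G ^ m) * h1' - (N a ^ m * algebraMap W F a1) * hA
  rw [mul_pow, h1, ← pow_sub_one_mul hm0.ne' (r : F),
    show (r : F) ^ (m - 1) * r * (N (u : F) * algebraMap W F (bN * a1)) =
      (r : F) ^ (m - 1) * ((r : F) * N (u : F)) * algebraMap W F (bN * a1) by ring]
  exact mul_mem (mul_mem (pow_mem r.2 _) hru) ((M.R c).algebraMap_mem _)

/-- The value of `N a * G` on a branch alone over its image. -/
theorem value_single (hy : M.qR c ∈ y) {N : F →* F} {i : Fin (n + 1)} (hi : M.OnBranch c y i)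
    {a G : F} (ha : a ∈ M.Br.V i) (hG : G ∈ M.Br.V i) (hN : N a ∈ M.Br.V i)
    (hres : M.Br.res i ⟨N a, hN⟩ = M.Br.res i ⟨a, ha⟩ ^ M.q) {r : M.R c}
    (hz : (r : F) * (N a * G) ∈ M.R c) {s : C} (hs : s ≠ 0) {e : k}
    (he : s ^ M.q * M.red i G = algebraMap k C e) {V : M.R c ⧸ y}
    (hV : M.IsVal c y i (M.red i a / s) V) :
    Ideal.Quotient.mk y r * (V ^ M.q * M.pointConst hy e) = Ideal.Quotient.mk y ⟨_, hz⟩ := by
  have h1 := M.isVal_mul (M.isVal_of_mem (y := y) (i := i) r)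
    (M.isVal_mul (M.isVal_pow hV M.q) (M.isVal_pointConst hy i e))
  refine M.isVal_unique hi h1 ?_
  have h2 := M.isVal_of_mem (y := y) (i := i) ⟨_, hz⟩
  convert h2 using 1
  rw [M.red_mul (M.mem_of_mem r.2 i) (mul_mem hN hG), M.red_mul hN hG, red_of_mem M hN, hres,
    ← red_of_mem M ha, ← he, div_pow]
  have := pow_ne_zero M.q hs
  field_simp

omit [y.IsMaximal]

/-- The constants comparing the branches. -/
theorem exists_mu (hm0 : 0 < m) (h : M.Rooted m g) :
    ∃ μ : Fin (n + 1) → k, (∀ i, μ i ≠ 0) ∧ ∀ c (y : Ideal (M.R c)) [y.IsMaximal]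
      (hy : M.qR c ∈ y), (∀ i, M.OnBranch c y i) →
      (∀ (i : Fin (n + 1)), (i : ℕ) + 1 = n → ∀ z v, M.IsVal c y i z v →
        M.IsVal c y (Fin.last n) z v) →
      ∀ (a : F) (u : M.R c), a ≠ 0 → a ^ m * g = (u : F) → (∀ i, a ∈ M.Br.V i) →
        (∀ i, M.ord i a = 0) → ∀ V : Fin (n + 1) → M.R c ⧸ y,
        (∀ i, M.IsVal c y i (M.red i a / h.s i) (V i)) →
        ∀ i, V i = M.pointConst hy (μ i) * V 0 := by
  classical
  haveI := M.algClosed
  have hroot : ∀ x : k, ∃ z : k, z ^ M.q = x := fun x => IsAlgClosed.exists_pow_nat_eq x M.hq.pos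
  choose rt hrt using hroot
  have hrt0 : ∀ x : k, x ≠ 0 → rt x ≠ 0 := fun x hx e => hx (by
    rw [← hrt x, e, zero_pow M.hq.ne_zero])
  have h0 := h.eα_spec 0 M.zero_le_sub
  have hl := h.eβ_spec (Fin.last n) M.two_le_last
  have hp := h.eβ_spec (pen n) M.two_le_pen
  let γ : k := rt (h.eβ (Fin.last n) / h.eβ (pen n))
  have hγ : γ ≠ 0 := hrt0 _ (div_ne_zero hl.1 hp.1)
  let δ : k := rt (h.eα 0 / (γ ^ (M.q - 1) * h.et))
  have hδ : δ ≠ 0 := hrt0 _ (div_ne_zero h0.1 (mul_ne_zero (pow_ne_zero _ hγ) h.et_spec.1))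
  refine ⟨fun i => if (i : ℕ) + 2 ≤ n then rt (h.eα 0 / h.eα i) else
    rt (h.eβ (Fin.last n) / h.eβ i) * δ, fun i => ?_, ?_⟩
  · dsimp only
    split_ifs with hi
    · exact hrt0 _ (div_ne_zero h0.1 (h.eα_spec i hi).1)
    · exact mul_ne_zero (hrt0 _ (div_ne_zero hl.1 (h.eβ_spec i (M.two_le_of_not i hi)).1)) hδ
  intro c y _ hy hon hcong a u ha hau haV hao V hV
  letI := Ideal.Quotient.field y
  haveI := M.charP_quotient hy
  haveI : Fact M.q.Prime := ⟨M.hq⟩
  set φ := M.pointConst hy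
  obtain ⟨l, hl'⟩ := M.ord_normα_last
  have hy1 : (1 : M.R c) ∉ y := fun h1 =>
    (Ideal.IsMaximal.ne_top inferInstance : y ≠ ⊤) ((Ideal.eq_top_iff_one y).mpr h1)
  obtain ⟨r, hr, hru⟩ := M.normβ_mem c y hy hon _ u.2
  have hr0 : Ideal.Quotient.mk y r ≠ 0 := by rwa [Ne, Ideal.Quotient.eq_zero_iff_mem]
  have hzα := M.norm_mul_mem (c := c) (r := 1) hm0
    (by simpa using M.normα_mem c _ u.2) hau h.aα_unit h.hα
  have hzβ := M.norm_mul_mem (c := c) hm0 hru hau h.aβ_unit h.hβ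
  have vα : ∀ i : Fin (n + 1), (i : ℕ) + 2 ≤ n →
      V i ^ M.q * φ (h.eα i) = Ideal.Quotient.mk y ⟨_, hzα⟩ := fun i hi => by
    rw [← one_mul (V i ^ M.q * φ (h.eα i)), ← map_one (Ideal.Quotient.mk y)]
    have hN : M.normα a ∈ M.Br.V i := M.mem_of_ord_nonneg (by
      rw [M.ord_normα i hi a ha, hao, mul_zero])
    exact M.value_single hy (hon i) (haV i) (M.mem_of_ord_nonneg (h.ord_Gα i hi).ge) hN
      (M.res_normα i hi a (haV i) hN) hzα (h.s_ne_zero hm0.ne' i) (h.eα_spec i hi).2 (hV i)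
  have vβ : ∀ i : Fin (n + 1), 2 ≤ (i : ℕ) →
      Ideal.Quotient.mk y r * (V i ^ M.q * φ (h.eβ i)) = Ideal.Quotient.mk y ⟨_, hzβ⟩ := fun i hi => by
    have hN : M.normβ a ∈ M.Br.V i := M.mem_of_ord_nonneg (by
      rw [M.ord_normβ i hi a ha, hao, mul_zero])
    exact M.value_single hy (hon i) (haV i) (M.mem_of_ord_nonneg (h.ord_Gβ i hi).ge) hN
      (M.res_normβ i hi a (haV i) hN) hzβ (h.s_ne_zero hm0.ne' i) (h.eβ_spec i hi).2 (hV i)
  have vt : V (Fin.last n) * V (pen n) ^ (M.q - 1) * φ h.et =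
      Ideal.Quotient.mk y ⟨_, hzα⟩ := by
    have hN : M.normα a ∈ M.Br.V (Fin.last n) := M.mem_of_ord_nonneg (by
      rw [hl' (pen n) M.val_pen a ha, hao, hao, mul_zero, add_zero])
    have h1 := M.isVal_mul (M.isVal_mul (hV (Fin.last n))
      (M.isVal_pow (hcong _ M.val_pen _ _ (hV (pen n))) (M.q - 1)))
      (M.isVal_pointConst hy (Fin.last n) h.et)
    refine M.isVal_unique (hon _) h1 ?_
    have h2 := M.isVal_of_mem (y := y) (i := Fin.last n) ⟨_, hzα⟩
    convert h2 using 1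
    show _ = M.red _ ((1 : M.R c) * (M.normα a * h.Gα))
    rw [OneMemClass.coe_one, one_mul,
      M.red_mul hN (M.mem_of_ord_nonneg h.ord_Gα_last.ge), red_of_mem M hN,
      M.res_normα_last _ M.val_pen a (haV _) (haV _), ← red_of_mem M (haV _),
      ← red_of_mem M (haV _), ← h.et_spec.2, div_pow]
    have := h.s_ne_zero hm0.ne' (Fin.last n)
    have := pow_ne_zero (M.q - 1) (h.s_ne_zero hm0.ne' (pen n))
    field_simp
  have hcancel : ∀ {A B : M.R c ⧸ y} {e e' : k}, e ≠ 0 →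
      A ^ M.q * φ e = B ^ M.q * φ e' → A = φ (rt (e' / e)) * B := fun {A B e e'} he hAB => by
    refine frobenius_inj (M.R c ⧸ y) M.q ?_
    rw [frobenius_def, frobenius_def, mul_pow, ← map_pow, hrt, map_div₀,
      div_mul_eq_mul_div, eq_div_iff ((map_ne_zero φ).mpr he), hAB, mul_comm]
  have hβl : ∀ i : Fin (n + 1), 2 ≤ (i : ℕ) →
      V i = φ (rt (h.eβ (Fin.last n) / h.eβ i)) * V (Fin.last n) := fun i hi =>
    hcancel (h.eβ_spec i hi).1
      (mul_left_cancel₀ hr0 ((vβ i hi).trans (vβ _ M.two_le_last).symm))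
  have hlast : V (Fin.last n) = φ δ * V 0 := by
    refine hcancel (mul_ne_zero (pow_ne_zero _ hγ) h.et_spec.1)
      (Eq.trans ?_ (vα 0 M.zero_le_sub).symm)
    rw [← vt, hβl (pen n) M.two_le_pen, map_mul, map_pow, mul_pow,
      ← mul_pow_sub_one M.hq.ne_zero (V (Fin.last n))]
    ring
  intro i
  dsimp only
  split_ifs with hi
  · exact hcancel (h.eα_spec i hi).1 ((vα i hi).trans (vα 0 M.zero_le_sub).symm)
  · rw [map_mul, mul_assoc, ← hlast]
    exact hβl i (M.two_le_of_not i hi)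

/-- **Coherent roots.** -/
theorem exists_coherent_roots (hm : IsUnit (m : W)) (hm0 : 0 < m) (h : M.Rooted m g) :
    ∃ s : Fin (n + 1) → C, (∀ i, M.red i g * s i ^ m = 1) ∧
      ∀ c (y : Ideal (M.R c)), y.IsMaximal → M.qR c ∈ y →
        LocalRootAt M.Br (M.R c) m g s y := by
  classical
  obtain ⟨μ, hμ0, hμ⟩ := M.exists_mu hm0 h
  let μ' : Fin (n + 1) → k := fun i => if μ i ^ m = 1 then μ i else 1
  have hμ' : ∀ i, μ' i ^ m = 1 := fun i => by
    simp only [μ']; split_ifs with hi <;> simp [hi]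
  have hμne : ∀ i, algebraMap k C (μ' i) ≠ 0 := fun i => by
    rw [map_ne_zero]; exact fun e => by simpa [e, hm0.ne'] using hμ' i
  let s : Fin (n + 1) → C := fun i => h.s i * algebraMap k C (μ' i)
  refine ⟨s, fun i => by rw [mul_pow, ← map_pow, hμ', map_one, mul_one, h.hs], fun c y hym hy => ?_⟩
  haveI := hym
  obtain ⟨a, u, ha, hu, hau, haV, hpow, hao, hval⟩ := M.exists_point_data hm0 h hy
  have hmy : ((m : ℕ) : M.R c) ∉ y := fun hmem => by
    rw [← map_natCast (algebraMap W (M.R c))] at hmem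
    exact (Ideal.IsMaximal.ne_top inferInstance : y ≠ ⊤)
      (Ideal.eq_top_of_isUnit_mem _ hmem (hm.map _))
  have hs : ∀ i, s i ≠ 0 := fun i => mul_ne_zero (h.s_ne_zero hm0.ne' i) (hμne i)
  have hw : ∀ i, M.red i a / s i = M.red i a / h.s i * algebraMap k C (μ' i)⁻¹ := fun i => by
    rw [map_inv₀, ← div_eq_mul_inv, div_div]
  have hpow' : ∀ i, (M.red i a / s i) ^ m = M.red i (u : F) := fun i => by
    rw [hw, mul_pow, hpow, ← map_pow, inv_pow, hμ', inv_one, map_one, mul_one]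
  have hvμ : ∀ i v, M.IsVal c y i (M.red i a / h.s i) v →
      M.IsVal c y i (M.red i a / s i) (v * M.pointConst hy (μ' i)⁻¹) := fun i v hv => by
    rw [hw]
    exact M.isVal_mul hv (M.isVal_pointConst hy i _)
  rcases M.dichotomy c y hy with ⟨i, hi⟩ | ⟨hall, hcong⟩
  · -- a point on one branch
    have hon : ∀ j, M.OnBranch c y j → j = i := fun j hj => by
      by_contra hji
      obtain ⟨r, hr, hr0, hry⟩ := hi j hji
      exact hry (hj r hr hr0)
    obtain ⟨j, hj⟩ := M.exists_branch_le c y hy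
    obtain ⟨v, -, hv⟩ := hval j hj
    refine M.localRootAt_of_val hy hmy hu hau haV s hs hpow' (v * M.pointConst hy (μ' j)⁻¹)
      fun l hl => ?_
    rw [show l = j from (hon l hl).trans (hon j hj).symm]
    exact hvμ j v hv
  · -- a supersingular point
    choose V hVm hV using fun i => hval i (hall i)
    have hV0 := hμ c y hy hall
      (fun i hi z v hzv => M.isVal_congr (hcong i hi) (hall i) hzv) a u ha hau haV
      (fun i => hao i (hall i)) V hV
    have hu0 : Ideal.Quotient.mk y u ≠ 0 := fun e => hu (Ideal.Quotient.eq_zero_iff_mem.mp e)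
    letI := Ideal.Quotient.field y
    have hμeq : ∀ i, μ' i = μ i := fun i => by
      refine if_pos ((M.pointConst hy).injective ?_)
      have h1 := congrArg (· ^ m) (hV0 i)
      simp only [mul_pow, hVm] at h1
      rw [map_pow, map_one]
      exact mul_right_cancel₀ hu0 (h1.symm.trans (one_mul _).symm)
    refine M.localRootAt_of_val hy hmy hu hau haV s hs hpow' (V 0) fun i _ => ?_
    convert hvμ i (V i) (hV i) using 1
    rw [hV0 i, hμeq, mul_comm (M.pointConst hy (μ i)), mul_assoc, ← map_mul,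
      mul_inv_cancel₀ (hμ0 i), map_one, mul_one]

/-- **Key theorem.** -/
theorem exists_eq_const_mul_pow {f : F} (hm : IsUnit (m : W)) (hm0 : 0 < m) (hf : f ≠ 0)
    (hor : HorizDvd W m f) (hα : NormPow (W := W) M.normα m f)
    (hβ : NormPow (W := W) M.normβ m f) :
    ∃ (a b : W) (h : F), a ≠ 0 ∧ b ≠ 0 ∧ h ≠ 0 ∧
      algebraMap W F b * f = algebraMap W F a * h ^ m := by
  obtain ⟨a, b, H, g, ha, hb, hH, hg, heq, hord, hgor, hgα, hgβ⟩ :=
    M.exists_normalized hm hf hor hα hβ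
  obtain ⟨hr⟩ := M.exists_rooted hm hm0 hg hord hgor hgα hgβ
  obtain ⟨s, hs, hloc⟩ := M.exists_coherent_roots hm hm0 hr
  have hfV : ∀ i, ∃ h : g ∈ M.Br.V i, M.Br.res i ⟨g, h⟩ * s i ^ m = 1 := fun i =>
    ⟨M.mem_of_ord_nonneg (hord i).ge, by rw [← red_of_mem M]; exact hs i⟩
  obtain ⟨h, h0, h1, hres⟩ := exists_global_root M.Br (M.q : W) m g s M.x M.x_ne_zero
    (M.chart 0) (M.chart 1) M.x_mem M.x_inv_mem M.finite₀ (M.frac 0) M.glue₀ M.glue₁ hm hm0 hfV
    (fun y hy hq => hloc 0 y hy hq) (fun y hy hq => hloc 1 y hy hq)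
  obtain ⟨w, hw⟩ := M.const _ h0 h1
  have hh0 : h ≠ 0 := by
    intro e
    have h2 := hres 0 (e ▸ zero_mem _)
    obtain ⟨hm', h3⟩ := hfV 0
    have : s 0 = 0 := by
      rw [← h2, show (⟨h, e ▸ zero_mem _⟩ : M.Br.V 0) = 0 from Subtype.ext e, map_zero]
    rw [this, zero_pow hm0.ne', mul_zero] at h3
    exact zero_ne_one h3
  have hw0 : w ≠ 0 := fun e =>
    mul_ne_zero (pow_ne_zero m hh0) hg (by rw [hw, e, map_zero])
  refine ⟨b * w, a, 1 / (h * H), mul_ne_zero hb hw0, ha,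
    div_ne_zero one_ne_zero (mul_ne_zero hh0 hH), ?_⟩
  rw [map_mul, ← hw, heq, div_pow, one_pow, mul_pow]
  have := M.const_ne_zero hb
  field_simp

end Fermat.Agent.CarayolHigh.Model
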