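/-
`P = 0` for torsion classes of level `L qⁿ` fixed by inertia with trivial pushforwards to level
`L qⁿ⁻¹`, `n ≥ 3`, from the existence of the `Model`.
-/
import Fermat.Agent.CarayolHigh.Key
import Fermat.Agent.CarayolHigh.Descent
import Fermat.Agent.CarayolHigh.Setting

set_option autoImplicit false
set_option linter.style.haveILetI false

noncomputable section

open ModularCurve AlgebraicCurve
open Fermat.Agent.HK.Corr Fermat.Agent.Carayol

namespace Fermat.Agent.CarayolHigh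

local notation "Qb" => AlgebraicClosure ℚ

/-- Classes of order prime to `q` of level `L qⁿ` fixed by inertia at `q`, with trivial
pushforwards to level `L qⁿ⁻¹`, vanish. -/
def InertiaTorsionZero : Prop :=
  ∀ (L q n : ℕ) [NeZero q] [NeZero (L * q ^ (n - 1))] [NeZero (L * q ^ n)],
    q.Prime → ¬ q ∣ L → ((q ≠ 2 ∧ 4 ∣ L) ∨ (q = 2 ∧ 9 ∣ L)) → 3 ≤ n →
    ∀ A : ValuationSubring Qb, A.LiesOverPrime q →
    ∀ (h1 : L * q ^ (n - 1) * 1 ∣ L * q ^ n) (h2 : L * q ^ (n - 1) * q ∣ L * q ^ n),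
      ∀ m : ℕ, m ≠ 0 → m.Coprime q → ∀ P : JZero (L * q ^ n), m • P = 0 →
        (∀ σ ∈ A.inertiaSubgroupIn ℚ, σ • P = P) → pushJ 1 h1 P = 0 → pushJ q h2 P = 0 → P = 0

/-- The existence of the model at every setting. The constants contain the `qⁿ⁺¹`-th roots of
unity: the norm along `τ ↦ q τ` needs them. -/
def ModelExists : Prop :=
  ∀ (L q n : ℕ) [NeZero L] [NeZero q] [NeZero (L * q ^ (n - 1))] [NeZero (L * q ^ n)],
    q.Prime → ¬ q ∣ L → ((q ≠ 2 ∧ 4 ∣ L) ∨ (q = 2 ∧ 9 ∣ L)) → 3 ≤ n →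
    ∀ (A₀ : ValuationSubring Qb) (K K' k : Type) [Field K] [Algebra ℚ K] [Algebra K Qb] [Field K']
      [Algebra ℚ K'] [Field k] (π₀ : A₀ →+* k) (κ : K →+* K') (ι : K' →+* Qb) (η : K'ˣ),
      Consts A₀ q (n + 1) π₀ κ ι η →
    ∀ [IsDiscreteValuationRing (constA A₀ K)]
      (h1 : L * q ^ (n - 1) * 1 ∣ L * q ^ n) (h2 : L * q ^ (n - 1) * q ∣ L * q ^ n),
      ∃ (C : Type) (_ : Field C) (_ : Algebra k C)
        (M : Model (constA A₀ K) (modField K (L * q ^ n)) k C n),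
        M.q = q ∧ M.normα = degenNorm 1 h1 ∧ M.normβ = degenNorm q h2

/-- **The key statement at level `L qⁿ`.** -/
theorem inertiaTorsionZero_of_model (H : ModelExists) : InertiaTorsionZero := by
  intro L q n _ _ _ hq hqL hL hn A hA h1 h2 m hm0 hmq P hmP hfix hα hβ
  haveI : NeZero L := ⟨fun e => NeZero.ne (L * q ^ n) (by rw [e, zero_mul])⟩
  obtain ⟨K, _, _, _, K', _, _, κ, ι, η, hc⟩ := exists_consts (n + 1) hq hA
  haveI := hc.dvrA
  obtain ⟨C, _, _, M, hMq, hMα, hMβ⟩ :=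
    H L q n hq hqL hL hn A K K' _ (IsLocalRing.residue A) κ ι η hc h1 h2
  refine eq_zero_of_fixed (A.inertiaSubgroupIn ℚ) (algebraMap K Qb) hc.fixed
    (W := constA A K) hm0 h1 h2 (fun f hf hor hA' hB' => ?_) P hmP hfix hα hβ
  have hm : IsUnit (m : constA A K) := by
    by_contra h
    have hmem : (m : constA A K) ∈ Ideal.span {(q : constA A K)} := by
      rw [← hc.irreducible_q.maximalIdeal_eq]; exact h
    obtain ⟨u, v, huv⟩ := Nat.isCoprime_iff_coprime.mpr hmq
    refine hc.irreducible_q.not_isUnit (Ideal.span_singleton_eq_top.mp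
      (Ideal.eq_top_iff_one _ |>.mpr ?_))
    rw [← Int.cast_one (R := constA A K), ← huv, Int.cast_add, Int.cast_mul, Int.cast_mul,
      Int.cast_natCast, Int.cast_natCast]
    exact add_mem (Ideal.mul_mem_left _ _ hmem)
      (Ideal.mul_mem_left _ _ (Ideal.mem_span_singleton_self _))
  exact M.exists_eq_const_mul_pow hm (Nat.pos_of_ne_zero hm0) hf hor (hMα ▸ hA') (hMβ ▸ hB')

end Fermat.Agent.CarayolHigh
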