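/-
The analogue of S36 for exponents at least three, from the bound on torsion classes of level `L qⁿ`
fixed by inertia with trivial pushforwards to level `L qⁿ⁻¹`.
-/
import Fermat.Agent.Carayol.Wiring
import Fermat.Agent.CondLevel.ArbitraryLevel
import Fermat.Agent.GAL.FromSpecialization
import Fermat.Agent.S37

set_option autoImplicit false
set_option linter.style.haveILetI false

noncomputable section

open Polynomial ModularCurve CongruenceSubgroup
open Fermat.Agent.Carayol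

namespace Fermat.Agent.CarayolHigh

local notation "Qb" => AlgebraicClosure ℚ

/-- Classes of order prime to `q` of level `L qⁿ`, `n ≥ 3`, fixed by inertia at `q` with trivial
pushforwards to level `L qⁿ⁻¹` have bounded order. -/
def InertiaTorsionBoundHigh : Prop :=
  ∀ (L₀ q n : ℕ) [NeZero L₀] [NeZero q] [NeZero (L₀ * q ^ (n - 1))] [NeZero (L₀ * q ^ n)],
    3 ≤ n → q.Prime → ¬ q ∣ L₀ → ((q ≠ 2 ∧ 4 ∣ L₀) ∨ (q = 2 ∧ 9 ∣ L₀)) →
    ∀ A : ValuationSubring Qb, A.LiesOverPrime q →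
    ∀ (h1 : L₀ * q ^ (n - 1) * 1 ∣ L₀ * q ^ n) (h2 : L₀ * q ^ (n - 1) * q ∣ L₀ * q ^ n),
      ∃ e : ℕ, e ≠ 0 ∧ ∀ m : ℕ, m ≠ 0 → m.Coprime q → ∀ P : JZero (L₀ * q ^ n), m • P = 0 →
        (∀ σ ∈ A.inertiaSubgroupIn ℚ, σ • P = P) → pushJ 1 h1 P = 0 → pushJ q h2 P = 0 → e • P = 0

theorem exists_level {M q : ℕ} (hM : M ≠ 0) (hq : q.Prime) (hMq : 3 ≤ M.factorization q) :
    ∃ L₀ n : ℕ, 3 ≤ n ∧ L₀ ≠ 0 ∧ ¬ q ∣ L₀ ∧ ((q ≠ 2 ∧ 4 ∣ L₀) ∨ (q = 2 ∧ 9 ∣ L₀)) ∧
      M ∣ L₀ * q ^ n ∧ ¬ M ∣ L₀ * q ^ (n - 1) := by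
  set n := M.factorization q with hn
  set c := if q = 2 then 9 else 4 with hc
  have hqc : ¬ q ∣ c := by
    rw [hc]
    split_ifs with h
    · subst h; decide
    · intro h'
      exact h ((Nat.prime_dvd_prime_iff_eq hq Nat.prime_two).mp
        (hq.dvd_of_dvd_pow (show q ∣ 2 ^ 2 from h')))
  have hqM : ¬ q ∣ M / q ^ n := Nat.not_dvd_ordCompl hq hM
  have hqL : ¬ q ∣ Nat.lcm (M / q ^ n) c := fun h =>
    (hq.dvd_mul.mp (h.trans (Nat.lcm_dvd_mul _ c))).elim hqM hqc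
  have hL0 : Nat.lcm (M / q ^ n) c ≠ 0 := fun h => hqL (h ▸ dvd_zero q)
  refine ⟨_, n, hMq, hL0, hqL, ?_, ?_, ?_⟩
  · have h := Nat.dvd_lcm_right (M / q ^ n) c
    by_cases h2 : q = 2
    · exact .inr ⟨h2, by simpa [hc, h2] using h⟩
    · exact .inl ⟨h2, by simpa [hc, h2] using h⟩
  · calc M = M / q ^ n * q ^ n := (Nat.div_mul_cancel (Nat.ordProj_dvd M q)).symm
      _ ∣ _ := mul_dvd_mul_right (Nat.dvd_lcm_left _ _) _
  · intro h
    have h2 : q ^ (n - 1) * q ∣ q ^ (n - 1) * Nat.lcm (M / q ^ n) c := by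
      rw [← pow_succ, show n - 1 + 1 = n by omega, mul_comm (q ^ (n - 1))]
      exact (Nat.ordProj_dvd M q).trans h
    exact hqL (Nat.dvd_of_mul_dvd_mul_left (pow_pos hq.pos _) h2)

/-- The representation is not unipotent on inertia at `q`. -/
theorem not_unipotent (hbound : InertiaTorsionBoundHigh)
    {M : ℕ} [NeZero M] {g : CuspForm (Gamma0 M) 2} (hg : g.IsNewform)
    (lam : ℕ) [Fact lam.Prime]
    (hquad : ∀ (N : ℕ) [NeZero N], GAL.TorsionQuadratic N lam)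
    (S : Finset ℕ) {O' : Type} [CommRing O'] [IsDomain O']
    (chig : CuspForm.heckeAlgebra M 2 (↑S : Set ℕ) →+* ℂ)
    (hchig : ∀ (ℓ : ℕ) (hℓ : ℓ.Prime) (hℓM : ¬ ℓ ∣ M) (hℓS : ℓ ∉ (↑S : Set ℕ)),
      chig (CuspForm.heckeAlgebra.T hℓ hℓM hℓS) = ModularFormClass.qCoeff g ℓ)
    (iota : chig.range →+* O') {O'' : Type} [CommRing O''] [IsDomain O'']
    [IsDiscreteValuationRing O''] [IsAdicComplete (IsLocalRing.maximalIdeal O'') O'']
    [Finite (IsLocalRing.ResidueField O'')] [CharZero O''] [Algebra O' O'']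
    (f : GAL.HeckeT M →+* O'')
    (hf : ∀ a, f ((Subalgebra.inclusion (CuspForm.heckeAlgebra_mono (N := M) (k := 2)
      (Set.empty_subset (↑S : Set ℕ)))).toRingHom a) =
        algebraMap O' O'' ((iota.comp chig.rangeRestrict) a))
    (ζ : ℤ_[lam] →+* O'')
    (r : GaloisRepAdic O'')
    (hrE : ∀ g, (r.ρ g).charpoly.map (algebraMap O'' (FractionRing O'')) =
        ((GAL.specialise (E := FractionRing O'') ζ f).mapMatrix
          ((HK.tateCoords M lam).tateRho g)).charpoly)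
    {q : ℕ} (hq : q.Prime) (hql : q ≠ lam) (hMq : 3 ≤ M.factorization q)
    (hun : r.IsUnipotentOnInertiaAt q) : False := by
  classical
  haveI := MF.IntStruct.moduleFinite_heckeAlgebra M 2 (↑S : Set ℕ)
  -- the prime `q`
  have : Fact q.Prime := ⟨hq⟩
  obtain ⟨A, hA⟩ := Fermat.Agent.Galois.exists_liesOverPrime (L := Qb) hq
  set χ := GAL.specialise (E := FractionRing O'') ζ f with hχ
  have hG : ∀ σ ∈ A.inertiaSubgroupIn ℚ,
      (χ.mapMatrix ((HK.tateCoords M lam).tateRho σ)).charpoly = (X - 1) ^ 2 := fun σ hσ => by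
    rw [← hrE σ, hun A hA σ hσ]
    simp only [Polynomial.map_pow, Polynomial.map_sub, Polynomial.map_X, Polynomial.map_one]
  have hcM := HK.Corr.heckeOperatorsCommuteBar M
  obtain ⟨P, hPtor, hPfix, hPkill, hPunb⟩ :=
    exists_fixed_points hcM χ (A.inertiaSubgroupIn ℚ) hG
  -- the levels
  obtain ⟨L₀, n, hn, hL0, hqL, hcase, hMN, hMN'⟩ := exists_level (NeZero.ne M) hq hMq
  have : NeZero L₀ := ⟨hL0⟩
  have : NeZero (L₀ * q ^ (n - 1)) := ⟨mul_ne_zero hL0 (pow_ne_zero _ hq.ne_zero)⟩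
  have : NeZero (L₀ * q ^ n) := ⟨mul_ne_zero hL0 (pow_ne_zero n hq.ne_zero)⟩
  have h1 : L₀ * q ^ (n - 1) * 1 ∣ L₀ * q ^ n := by
    rw [mul_one]; exact mul_dvd_mul_left _ (pow_dvd_pow q (Nat.sub_le n 1))
  have h2 : L₀ * q ^ (n - 1) * q ∣ L₀ * q ^ n := by
    rw [mul_assoc, ← pow_succ, show n - 1 + 1 = n by omega]
  have h0 : M * 1 ∣ L₀ * q ^ n := by rwa [mul_one]
  have hcN := HK.Corr.heckeOperatorsCommuteBar (L₀ * q ^ (n - 1))
  obtain ⟨e, he, hbd⟩ := hbound L₀ q n hn hq hqL hcase A hA h1 h2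
  -- the annihilating polynomial
  set S' : Finset ℕ := S ∪ (M * (L₀ * q ^ (n - 1)) * lam).primeFactors with hS'
  have hMS' : ∀ ℓ : ℕ, ℓ.Prime → ℓ ∣ M * (L₀ * q ^ (n - 1)) * lam → ℓ ∈ S' := fun ℓ hℓ h =>
    Finset.mem_union_right _ (Nat.mem_primeFactors.mpr ⟨hℓ, h, mul_ne_zero
      (mul_ne_zero (NeZero.ne M) (NeZero.ne _)) (Fact.out (p := lam.Prime)).ne_zero⟩)
  let φ : TraceFn.AwayHecke S' →+* chig.range :=
    MvPolynomial.eval₂Hom (Int.castRingHom _) fun i => chig.rangeRestrict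
      (CuspForm.heckeAlgebra.T (S := (↑S : Set ℕ)) i.1.2
        (fun h => i.2 (hMS' _ i.1.2 ((h.mul_right _).mul_right _)))
        (fun h => i.2 (Finset.mem_union_left _ (Finset.mem_coe.mp h))))
  obtain ⟨Θ, hΘN, hΘ⟩ := exists_kills_of_not_dvd hg hMN' S'
    (fun ℓ hℓ h => hMS' ℓ hℓ ((h.mul_left M).mul_right lam)) (chig.range.subtype.comp φ)
    fun ℓ hℓ hℓS' => by
      rw [RingHom.comp_apply, TraceFn.awayGen, dif_pos ⟨hℓ, hℓS'⟩, MvPolynomial.eval₂Hom_X']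
      exact hchig ℓ hℓ _ _
  have hΘ0 : φ Θ ≠ 0 := fun h => hΘ (by rw [RingHom.comp_apply, h, map_zero])
  have hint : IsIntegral ℤ (φ Θ) := by
    obtain ⟨t, ht⟩ := chig.rangeRestrict_surjective (φ Θ)
    rw [← ht]
    exact map_isIntegral_int chig.rangeRestrict (Algebra.IsIntegral.isIntegral t)
  set hpol := minpoly ℤ (φ Θ)
  set c := hpol.coeff 0
  have hc : c ≠ 0 := fun h => hΘ0 (by
    have hass : Associated (X : ℤ[X]) hpol := irreducible_X.associated_of_dvd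
      (minpoly.irreducible hint) (X_dvd_iff.mpr h)
    have := minpoly.aeval ℤ (φ Θ)
    rw [← eq_of_monic_of_associated monic_X (minpoly.monic hint) hass, aeval_X] at this
    exact this)
  set Ψ := aeval Θ hpol
  have hφΨ : φ Ψ = 0 := by
    rw [show φ Ψ = aeval (φ Θ) hpol from (aeval_algHom_apply φ.toIntAlgHom Θ hpol).symm]
    exact minpoly.aeval _ _
  have hfac : f.comp ((CuspForm.heckeEvalForms M 2).comp (TraceFn.awayIncl S')) =
      (algebraMap O' O'').comp (iota.comp φ) :=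
    MvPolynomial.ringHom_ext (fun a => by simp) fun i => by
      simp only [RingHom.comp_apply]
      rw [show TraceFn.awayIncl S' (MvPolynomial.X i) = heckeGen i.1 from MvPolynomial.rename_X _ _,
        CuspForm.heckeEvalForms_heckeGen_of_not_dvd
          (fun h => i.2 (hMS' _ i.1.2 ((h.mul_right _).mul_right _))),
        MvPolynomial.eval₂Hom_X']
      exact hf (CuspForm.heckeAlgebra.T _ _ _)
  have hΨP : ∀ k, heckeEvalBar hcM (TraceFn.awayIncl S' Ψ) (P k) = 0 := hPkill _ (by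
    rw [hχ, GAL.specialise_toRatHecke,
      show f (CuspForm.heckeEvalForms M 2 (TraceFn.awayIncl S' Ψ)) =
        algebraMap O' O'' (iota (φ Ψ)) from RingHom.congr_fun hfac Ψ, hφΨ, map_zero, map_zero,
      map_zero])
  -- the pushforwards of the pullbacks
  have hQ : ∀ (d : ℕ) [NeZero d] (hd : L₀ * q ^ (n - 1) * d ∣ L₀ * q ^ n) (k : ℕ),
      c • pushJ d hd (pullJ 1 h0 (P k)) = 0 := by
    intro d _ hd k
    exact coeff_zero_smul_push_pull (hquad M) (hquad (L₀ * q ^ (n - 1))) hd h0 hcM hcN S' hMS' Θ hΘN hpol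
      (hPtor k) (hΨP k)
  -- conclusion
  obtain ⟨k, hk⟩ := hPunb (AlgebraicCurve.finrankAlong Qb (HK.Corr.degenMap Qb 1 h0) * (e * c.natAbs))
    (mul_ne_zero (finrankAlong_degen_ne_zero 1 h0) (mul_ne_zero he (Int.natAbs_ne_zero.mpr hc)))
  exact hk (smul_eq_zero_of_pullJ h0 h1 h2 (A.inertiaSubgroupIn ℚ)
    (hbd (lam ^ k) (pow_ne_zero k (Fact.out (p := lam.Prime)).ne_zero)
      (Nat.Coprime.pow_left k
        ((Nat.coprime_primes (Fact.out (p := lam.Prime)) hq).mpr (Ne.symm hql))))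
    (hPtor k) (hPfix k) (hQ 1 h1 k) (hQ q h2 k))

/-- The analogue of S36 for exponents at least three, from the inputs. -/
theorem exists_not_unipotent (hbound : InertiaTorsionBoundHigh)
    {M : ℕ} [NeZero M] {g : CuspForm (Gamma0 M) 2} (hg : g.IsNewform)
    (lam : ℕ) [Fact lam.Prime]
    (hquad : ∀ (N : ℕ) [NeZero N], GAL.TorsionQuadratic N lam)
    (S : Finset ℕ) (O' : Type) [CommRing O'] [IsDomain O'] [IsDiscreteValuationRing O']
    [IsAdicComplete (IsLocalRing.maximalIdeal O') O'] [Finite (IsLocalRing.ResidueField O')]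
    [CharZero O'] (hlamO' : (lam : O') ∈ IsLocalRing.maximalIdeal O')
    (chig : CuspForm.heckeAlgebra M 2 (↑S : Set ℕ) →+* ℂ)
    (hchig : ∀ (ℓ : ℕ) (hℓ : ℓ.Prime) (hℓM : ¬ ℓ ∣ M) (hℓS : ℓ ∉ (↑S : Set ℕ)),
      chig (CuspForm.heckeAlgebra.T hℓ hℓM hℓS) = ModularFormClass.qCoeff g ℓ)
    (iota : chig.range →+* O') (hlamS : lam ∈ S) :
    ∃ (O'' : Type) (_ : CommRing O'') (_ : IsDomain O'') (_ : IsDiscreteValuationRing O'')
      (_ : IsAdicComplete (IsLocalRing.maximalIdeal O'') O'')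
      (_ : Finite (IsLocalRing.ResidueField O''))
      (_ : CharZero O'') (_ : Algebra O' O'') (_ : Module.Finite O' O'')
      (_ : IsLocalHom (algebraMap O' O'')),
      Function.Injective (algebraMap O' O'') ∧
      ∃ ρ : GaloisRepAdic O'',
        (∀ (ℓ : ℕ) (hℓ : ℓ.Prime) (hℓM : ¬ ℓ ∣ M) (hℓS : ℓ ∉ (↑S : Set ℕ)),
          ∀ A : ValuationSubring Qb, A.LiesOverPrime ℓ →
            ∀ σ : Qb ≃ₐ[ℚ] Qb, A.IsFrobeniusAt σ ℓ →
              LinearMap.charpoly (ρ.ρ σ) =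
                X ^ 2 - C (algebraMap O' O'' ((iota.comp chig.rangeRestrict)
                  (CuspForm.heckeAlgebra.T hℓ hℓM hℓS))) * X + C ((ℓ : O''))) ∧
        (∀ q : ℕ, q.Prime → q ≠ lam → 3 ≤ M.factorization q →
          ¬ ρ.IsUnipotentOnInertiaAt q) := by
  classical
  have hle : CuspForm.heckeAlgebra M 2 (↑S : Set ℕ) ≤ CuspForm.heckeAlgebra M 2 (∅ : Set ℕ) :=
    CuspForm.heckeAlgebra_mono (Set.empty_subset _)
  haveI := MF.IntStruct.moduleFinite_heckeAlgebra M 2 (∅ : Set ℕ)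
  haveI := MF.IntStruct.moduleFinite_heckeAlgebra M 2 (↑S : Set ℕ)
  obtain ⟨O'', _, _, _, _, _, _, _, _, _, f, hinj, hf⟩ :=
    GAL.exists_extension O' (B := GAL.HeckeT M) (Subalgebra.inclusion hle).toRingHom
      (Subalgebra.inclusion_injective hle) (iota.comp chig.rangeRestrict)
  have hp : (lam : O'') ∈ IsLocalRing.maximalIdeal O'' := by
    rw [← map_natCast (algebraMap O' O'')]
    exact map_nonunit (algebraMap O' O'') _ hlamO'
  obtain ⟨ζ⟩ := GAL.exists_padicInt_hom (p := lam) hp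
  obtain ⟨r, hrE, hrF⟩ := exists_galoisRep_charpoly hp (hquad M) f ζ
  refine ⟨O'', ‹_›, ‹_›, ‹_›, ‹_›, ‹_›, ‹_›, ‹_›, ‹_›, ‹_›, hinj, r,
    fun ℓ hℓ hℓM hℓS A hA σ hσ => ?_, fun q hq hql hMq hun => ?_⟩
  · rw [hrF ℓ hℓ hℓM (fun e => hℓS (e ▸ hlamS)) A hA σ hσ, ← hf]
    rfl
  exact not_unipotent hbound hg lam hquad S chig hchig iota f hf ζ r hrE hq hql hMq hun

/-- The input for the conductor level, from the bound. -/
theorem carayolNotUnipotentHigh_of (hbound : InertiaTorsionBoundHigh) :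
    CondLevel.CarayolNotUnipotentHigh := by
  intro M _ g hg lam _ S O' _ _ _ _ _ _ hlam _ chig hchig iota hlamS _ _
  exact exists_not_unipotent hbound hg lam
    (fun N _ => (GAL.torsion_properties_of_specializationExists N lam
      (HK.Corr.heckeOperatorsCommuteBar N) (HK.Corr.smulCommClass_heckeModuleBar N)
      (S37.result N lam (HK.Corr.heckeOperatorsCommuteBar N))).1)
    S O' hlam chig hchig iota hlamS

end Fermat.Agent.CarayolHigh
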