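/-
The bound on inertia-fixed torsion at exponents at least three from the existence of the model.
-/
import Fermat.Agent.CarayolHigh.KeyJZero
import Fermat.Agent.CarayolHigh.Wiring

set_option autoImplicit false

noncomputable section

namespace Fermat.Agent.CarayolHigh

/-- `InertiaTorsionBoundHigh`, with bound `1`, from the model. -/
theorem inertiaTorsionBoundHigh_of_model (H : ModelExists) : InertiaTorsionBoundHigh :=
  fun L q n _ _ _ _ hn hq hqL hL A hA h1 h2 =>
    ⟨1, one_ne_zero, fun m hm hmq P hP hfix hα hβ => by
      rw [one_smul]
      exact inertiaTorsionZero_of_model H L q n hq hqL hL hn A hA h1 h2 m hm hmq P hP hfix hα hβ⟩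

end Fermat.Agent.CarayolHigh
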