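/-
The embeddings of `K(X₀(L qⁿ))` into Laurent series given by `τ ↦ γᵢ (qⁿ τ)`, `γᵢ ≡ (1 0; L qⁱ s 1)`:
one for every branch `i ≤ n` and every admissible root of unity. They are all the extensions of
`qExpand qⁿ` from level `L` (helper50, S36).
-/
import Fermat.Agent.Carayol.MidBranch
import Fermat.Agent.Carayol.UnitPairs
import Mathlib.Data.ZMod.Units
import Mathlib.Data.Nat.Totient

set_option autoImplicit false

noncomputable section

open UpperHalfPlane HahnSeries ModularCurve AlgebraicCurve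
open Fermat.Agent.Igusa Fermat.Agent.RED.Spec Fermat.Agent.HK.Corr Fermat.Agent.Carayol
open scoped MatrixGroups Real

namespace Fermat.Agent.CarayolHigh

section Indices

variable {L q n : ℕ}

/-- The power of `q` in a divisor of `L qⁿ`. -/
def qExpN (hq : q.Prime) (d : DivIdx (L * q ^ n)) : ℕ :=
  haveI := Fact.mk hq
  padicValNat q d.1

/-- The prime-to-`q` part of a divisor of `L qⁿ`. -/
def qFreeN (hq : q.Prime) (d : DivIdx (L * q ^ n)) : ℕ := d.1 / q ^ qExpN hq d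

theorem qExpN_eq (hq : q.Prime) (hqL : ¬ q ∣ L) {d : DivIdx (L * q ^ n)} {e k : ℕ}
    (h : d.1 = e * q ^ k) (he : e ∣ L) : qExpN hq d = k ∧ qFreeN hq d = e := by
  have : Fact q.Prime := ⟨hq⟩
  have he0 : e ≠ 0 := fun h0 => d.2.1.ne' (by rw [h, h0, zero_mul])
  have hv : qExpN hq d = k := by
    show padicValNat q d.1 = k
    rw [h, padicValNat.mul he0 (pow_ne_zero k hq.ne_zero), padicValNat.prime_pow,
      padicValNat.eq_zero_of_not_dvd (fun hd => hqL (hd.trans he)), zero_add]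
  exact ⟨hv, by rw [qFreeN, hv, h, Nat.mul_div_cancel _ (pow_pos hq.pos k)]⟩

theorem qFreeN_spec (hq : q.Prime) (hqL : ¬ q ∣ L) (d : DivIdx (L * q ^ n)) :
    d.1 = qFreeN hq d * q ^ qExpN hq d ∧ qExpN hq d ≤ n ∧ qFreeN hq d ∣ L ∧ 0 < qFreeN hq d := by
  obtain ⟨a, b, ha, hb, hab⟩ := Nat.dvd_mul.mp d.2.2
  obtain ⟨k, hk, rfl⟩ := (Nat.dvd_prime_pow hq).mp hb
  obtain ⟨hv, hf⟩ := qExpN_eq hq hqL hab.symm ha
  refine ⟨by rw [hv, hf, hab], hv ▸ hk, hf ▸ ha, ?_⟩
  rw [hf]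
  exact Nat.pos_of_ne_zero fun h => d.2.1.ne' (by rw [← hab, h, zero_mul])

/-- The prime-to-`q` index. -/
def freeIdxN (hq : q.Prime) (hqL : ¬ q ∣ L) (d : DivIdx (L * q ^ n)) : DivIdx L :=
  ⟨qFreeN hq d, (qFreeN_spec hq hqL d).2.2.2, (qFreeN_spec hq hqL d).2.2.1⟩

end Indices

section Values

variable {q : ℕ} [NeZero q] {R : Type*} [CommRing R]

/-- A series in the parameter of `τ ↦ qᵏ τ`, seen on the branch `i`. -/
def branchTerm (n i : ℕ) (ζ : Rˣ) (q : ℕ) [NeZero q] (k : ℕ) (x : LaurentSeries R) :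
    LaurentSeries R :=
  if k ≤ i then qExpand R (q ^ (n + k)) x
  else qExpand R (q ^ (n + 2 * i - k)) (qScale (ζ ^ q ^ (n - (k - i))) x)

theorem coeffMap_branchTerm {S : Type*} [CommRing S] (φ : R →+* S) (n i : ℕ) (ζ : Rˣ) (k : ℕ)
    (x : LaurentSeries R) :
    coeffMap φ (branchTerm n i ζ q k x) =
      branchTerm n i (Units.map φ.toMonoidHom ζ) q k (coeffMap φ x) := by
  unfold branchTerm
  split_ifs
  · exact coeffMap_qExpand _ _ _
  · rw [coeffMap_qExpand, coeffMap_qScale, map_pow]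

theorem branchTerm_mul (n i : ℕ) (ζ : Rˣ) (k : ℕ) (x y : LaurentSeries R) :
    branchTerm n i ζ q k (x * y) = branchTerm n i ζ q k x * branchTerm n i ζ q k y := by
  unfold branchTerm
  split_ifs <;> simp only [map_mul]

/-- Along trivial roots of unity a branch is a substitution `x ↦ x^(q^m)`. -/
theorem branchTerm_one (n i k : ℕ) (x : LaurentSeries R) :
    branchTerm n i (1 : Rˣ) q k x =
      qExpand R (q ^ (if k ≤ i then n + k else n + 2 * i - k)) x := by
  unfold branchTerm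
  split_ifs with h
  · rfl
  · rw [one_pow, qScale_one, RingHom.id_apply]

variable {L n : ℕ}

/-- The images of the generators on the branch `i` of `ζ`. -/
def branchVal (hq : q.Prime) (hqL : ¬ q ∣ L) (i : ℕ) (ζ : Rˣ) (d : DivIdx (L * q ^ n)) :
    LaurentSeries R :=
  branchTerm n i ζ q (qExpN hq d) (genSer R (freeIdxN hq hqL d))

theorem branchVal_eq (hq : q.Prime) (hqL : ¬ q ∣ L) (i : ℕ) (ζ : Rˣ) {d : DivIdx (L * q ^ n)}
    (e : DivIdx L) {k : ℕ} (h : d.1 = e.1 * q ^ k) :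
    branchVal hq hqL i ζ d = branchTerm n i ζ q k (genSer R e) := by
  rw [branchVal, (qExpN_eq hq hqL h e.2.2).1,
    genSer_congr R (d := freeIdxN hq hqL d) (d' := e) (qExpN_eq hq hqL h e.2.2).2]

theorem coeffMap_branchVal {S : Type*} [CommRing S] (φ : R →+* S) (hq : q.Prime) (hqL : ¬ q ∣ L)
    (i : ℕ) (ζ : Rˣ) (d : DivIdx (L * q ^ n)) :
    coeffMap φ (branchVal hq hqL i ζ d) = branchVal hq hqL i (Units.map φ.toMonoidHom ζ) d := by
  rw [branchVal, coeffMap_branchTerm, coeffMap_genSer, branchVal]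

end Values

variable {L q n : ℕ} [NeZero L] [NeZero q] {K K' : Type*} [Field K] [Field K']

/-- `γ ≡ (1 0; L qⁱ s 1)` together with its Hermite forms on the indices `e qᵏ`, `k > i`. -/
structure BranchMatrix (L q n i : ℕ) (β : ℤ) (γ : SL(2, ℤ)) : Prop where
  mem : ∀ {M : ℕ}, M ∣ L * q ^ i → γ ∈ CongruenceSubgroup.Gamma0 M
  tri : ∀ {e k : ℕ}, e ∣ L → i < k → k ≤ n →
    ∃ g : SL(2, ℤ), IsTri γ (e * q ^ k) g (e * q ^ i) (q ^ (k - i)) (e * β)

omit [NeZero L] [NeZero q] in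
theorem exists_branchMatrix (hq : q.Prime) (hqL : ¬ q ∣ L) {i : ℕ} (β : ℤ)
    (hβ : 0 < i → i < n → ¬ (q : ℤ) ∣ β) : ∃ γ : SL(2, ℤ), BranchMatrix L q n i β γ := by
  -- `L s b + m qⁿ = 1` and `b + qⁱ t = β`
  obtain ⟨s, b, t, m, h1, h2⟩ : ∃ s b t m : ℤ,
      (i < n → (L : ℤ) * s * b + m * (q : ℤ) ^ n = 1) ∧ (i < n → b + (q : ℤ) ^ i * t = β) := by
    have hqp : Prime (q : ℤ) := Nat.prime_iff_prime_int.mp hq
    rcases le_or_gt n i with hni | hni
    · exact ⟨0, 0, 0, 0, fun h => absurd h (not_lt.mpr hni), fun h => absurd h (not_lt.mpr hni)⟩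
    rcases Nat.eq_zero_or_pos i with rfl | hi
    · obtain ⟨x, y, hxy⟩ : IsCoprime (L : ℤ) ((q : ℤ) ^ n) :=
        ((hqp.coprime_iff_not_dvd.mpr fun h => hqL (by exact_mod_cast h)).symm).pow_right
      exact ⟨1, x, β - x, y, fun _ => by linear_combination hxy, fun _ => by ring⟩
    · obtain ⟨x, y, hxy⟩ : IsCoprime ((L : ℤ) * β) ((q : ℤ) ^ n) :=
        ((hqp.coprime_iff_not_dvd.mpr fun h => (hqp.dvd_or_dvd h).elim
          (fun h' => hqL (by exact_mod_cast h')) (hβ hi hni)).symm).pow_right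
      exact ⟨x, β, 0, y, fun _ => by linear_combination hxy, fun _ => by ring⟩
  refine ⟨slMk 1 t ((L : ℤ) * (q : ℤ) ^ i * s) ((L : ℤ) * (q : ℤ) ^ i * s * t + 1) (by ring),
    fun {M} hM => ?_, fun {e k} he hik hkn => ?_⟩
  · rw [CongruenceSubgroup.Gamma0_mem, ZMod.intCast_zmod_eq_zero_iff_dvd]
    simp only [slMk]
    exact (Int.natCast_dvd_natCast.mpr hM).trans ⟨s, by push_cast; simp⟩
  · obtain ⟨c, hc⟩ := he
    have hcZ : (L : ℤ) = e * c := by exact_mod_cast hc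
    have hp : (q : ℤ) ^ (k - i) * (q : ℤ) ^ i = (q : ℤ) ^ k := by
      rw [← _root_.pow_add, Nat.sub_add_cancel hik.le]
    have hp2 : (q : ℤ) ^ (k - i) * (q : ℤ) ^ (n - (k - i)) = (q : ℤ) ^ n := by
      rw [← _root_.pow_add, Nat.add_sub_cancel' (by omega)]
    have h1' := h1 (lt_of_lt_of_le hik hkn)
    have h2' := h2 (lt_of_lt_of_le hik hkn)
    refine ⟨slMk ((q : ℤ) ^ (k - i)) (-((e : ℤ) * b)) ((c : ℤ) * s) (m * (q : ℤ) ^ (n - (k - i))) ?_,
      ⟨?_, ?_, ?_, ?_, ?_⟩⟩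
    · linear_combination h1' + m * hp2 - s * b * hcZ
    · rw [mul_assoc, ← _root_.pow_add, Nat.add_sub_cancel' hik.le]
    all_goals simp [slMk]
    · linear_combination (e : ℤ) * hp
    · rw [hcZ]; ring
    · linear_combination (e : ℤ) * t * hp - (q : ℤ) ^ (k - i) * (e : ℤ) * h2'
    · linear_combination h1' + m * hp2 - (c : ℤ) * s * e * h2' -
        (s * b + (q : ℤ) ^ i * s * t) * hcZ

/-- The expansion of `f` at `τ ↦ (a qⁿ τ + e β)/q^(k-i)`. -/
theorem hasExp_comp_branch {f : ℍ → ℂ} {x : LaurentSeries ℂ} (hf : HasExp 1 f x) {β : ℤ}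
    {w : ℂˣ} (hw : (w : ℂ) = Complex.exp (2 * π * Complex.I * β / (q ^ n : ℕ))) {i k : ℕ} (e : ℕ)
    [NeZero e] (hik : i < k) (hkn : k ≤ n) :
    HasExp 1 (fun τ => f (affH (e * q ^ i) (q ^ (k - i)) (e * β) (MF.scaleH (q ^ n) τ)))
      (qExpand ℂ (q ^ (n + 2 * i - k)) (qScale (w ^ q ^ (n - (k - i))) (qExpand ℂ e x))) := by
  rw [qScale_qExpand, qExpand_qExpand]
  refine hf.comp _ _ _ fun τ => ?_
  have hq0 : q ≠ 0 := NeZero.ne q
  have hqC : (q : ℂ) ≠ 0 := Nat.cast_ne_zero.mpr hq0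
  rw [coe_affH _ _ (Nat.pos_of_ne_zero (mul_ne_zero (NeZero.ne e) (pow_ne_zero i hq0)))
      (Nat.pos_of_ne_zero (pow_ne_zero _ hq0)), MF.coe_scaleH, ← pow_mul,
    Units.val_pow_eq_pow_val, hw, Function.Periodic.qParam, Function.Periodic.qParam,
    ← Complex.exp_nat_mul, ← Complex.exp_nat_mul, ← Complex.exp_add]
  congr 1
  have h1 : (q : ℂ) ^ (k - i) * (q : ℂ) ^ (n - (k - i)) = (q : ℂ) ^ n := by
    rw [← _root_.pow_add, Nat.add_sub_cancel' (by omega)]
  have h2 : (q : ℂ) ^ (k - i) * (q : ℂ) ^ (n + 2 * i - k) = (q : ℂ) ^ i * (q : ℂ) ^ n := by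
    rw [← _root_.pow_add, ← _root_.pow_add]
    congr 1
    omega
  have hA := pow_ne_zero (k - i) hqC
  have hB := pow_ne_zero n hqC
  push_cast
  field_simp
  linear_combination (-((e : ℂ) * β)) * h1 - ((e : ℂ) * (q : ℂ) ^ n * (τ : ℂ)) * h2

/-- A function of period one scaled. -/
theorem hasExp_scaleH {f : ℍ → ℂ} {x : LaurentSeries ℂ} (hf : HasExp 1 f x) (d : ℕ) [NeZero d] :
    HasExp 1 (fun τ => f (MF.scaleH d τ)) (qExpand ℂ d x) := by
  have h := hf.comp (h' := 1) (MF.scaleH d) 1 d fun τ => by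
    rw [Units.val_one, one_mul, MF.coe_scaleH, Function.Periodic.qParam,
      Function.Periodic.qParam, ← Complex.exp_nat_mul]
    congr 1
    push_cast
    ring
  rwa [qScale_one, RingHom.id_apply] at h

theorem exists_root_exp (hq : q.Prime) (ι : K →+* ℂ) {i : ℕ} {ζ : Kˣ} (hζ : ζ ^ q ^ n = 1)
    (hprim : 0 < i → i < n → IsPrimitiveRoot ζ (q ^ n)) :
    ∃ β : ℤ, ((Units.map ι.toMonoidHom ζ : ℂˣ) : ℂ) =
      Complex.exp (2 * π * Complex.I * β / (q ^ n : ℕ)) ∧ (0 < i → i < n → ¬ (q : ℤ) ∣ β) := by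
  have hz : (ι ζ) ^ q ^ n = 1 := by
    rw [← map_pow, ← Units.val_pow_eq_pow_val, hζ, Units.val_one, map_one]
  have hE := Complex.isPrimitiveRoot_exp (q ^ n) (NeZero.ne _)
  obtain ⟨b, -, hb⟩ := hE.eq_pow_of_pow_eq_one hz
  refine ⟨b, ?_, fun hi hin hdvd => ?_⟩
  · show ι ζ = _
    rw [← hb, ← Complex.exp_nat_mul]
    congr 1
    push_cast
    ring
  · have hp : IsPrimitiveRoot ((Complex.exp (2 * π * Complex.I / (q ^ n : ℕ))) ^ b) (q ^ n) := by
      rw [hb]
      exact (IsPrimitiveRoot.coe_units_iff.mpr (hprim hi hin)).map_of_injective ι.injective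
    rw [hE.pow_iff_coprime (Nat.pos_of_ne_zero (NeZero.ne _)),
      Nat.coprime_pow_right_iff (lt_trans hi hin)] at hp
    exact (hq.coprime_iff_not_dvd.mp hp.symm) (by exact_mod_cast hdvd)

omit [NeZero L] in
/-- The generators along `τ ↦ γ (qⁿ τ)`. -/
theorem hasExp_branchVal (hq : q.Prime) (hqL : ¬ q ∣ L) {i : ℕ} {β : ℤ} {γ : SL(2, ℤ)}
    (hγ : BranchMatrix L q n i β γ) {w : ℂˣ}
    (hw : (w : ℂ) = Complex.exp (2 * π * Complex.I * β / (q ^ n : ℕ)))
    (d : DivIdx (L * q ^ n)) :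
    HasExp 1 (genFun d ∘ fun τ => γ • MF.scaleH (q ^ n) τ) (branchVal hq hqL i w d) := by
  obtain ⟨hd, hkn, he, he0⟩ := qFreeN_spec hq hqL d
  haveI : NeZero (qFreeN hq d) := ⟨he0.ne'⟩
  haveI : NeZero d.1 := ⟨d.2.1.ne'⟩
  rw [branchVal,
    show genSer ℂ (freeIdxN hq hqL d) = qExpand ℂ (qFreeN hq d) (jqModC ℂ) from rfl, branchTerm]
  split_ifs with hki
  · refine (congrArg (HasExp 1 · _) ?_).mpr (hasExp_scaleH
      (hasExp_scaleH hasExp_jFun (qFreeN hq d)) (q ^ (n + qExpN hq d)))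
    funext τ
    show MF.kleinJ (MF.scaleH d.1 (γ • MF.scaleH (q ^ n) τ)) = _
    refine (gammaInv_jFun_scale (d := d.1) (N := L * q ^ i)
      (hd ▸ mul_dvd_mul he (pow_dvd_pow q hki)) γ (hγ.mem dvd_rfl) (MF.scaleH (q ^ n) τ)).trans ?_
    show MF.kleinJ _ = _
    congr 1
    ext
    rw [MF.coe_scaleH, MF.coe_scaleH, MF.coe_scaleH, MF.coe_scaleH, hd, _root_.pow_add]
    push_cast
    ring
  · obtain ⟨g, hg⟩ := hγ.tri he (not_le.mp hki) hkn
    refine (congrArg (HasExp 1 · _) ?_).mpr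
      (hasExp_comp_branch hasExp_jFun hw _ (not_le.mp hki) hkn)
    funext τ
    show MF.kleinJ (MF.scaleH d.1 (γ • MF.scaleH (q ^ n) τ)) = _
    rw [hd, hg.jFun_eq]

/-- **The branch `i` of `ζ`**: the embedding over `K`. -/
theorem exists_embedding_branch [Algebra ℚ K] (ι : K →+* ℂ) (hq : q.Prime) (hqL : ¬ q ∣ L) {i : ℕ}
    (ζ : Kˣ) (hζ : ζ ^ q ^ n = 1) (hprim : 0 < i → i < n → IsPrimitiveRoot ζ (q ^ n)) :
    ∃ φ : modField K (L * q ^ n) →ₐ[K] LaurentSeries K,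
      ∀ d, φ ⟨genSer K d, genSer_mem d⟩ = branchVal hq hqL i ζ d := by
  obtain ⟨β, hw, hβ⟩ := exists_root_exp hq ι hζ hprim
  obtain ⟨γ, hγ⟩ := exists_branchMatrix (n := n) hq hqL β hβ
  refine exists_substEmbedding ι Nat.one_pos (fun τ => γ • MF.scaleH (q ^ n) τ)
    (surjective_smul_comp γ (q ^ n)) _ fun d => ?_
  rw [coeffMap_branchVal]
  exact hasExp_branchVal hq hqL hγ hw d

variable [Algebra ℚ K] [Algebra ℚ K'] (κ : K →+* K')

/-- The branch with extended constants. -/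
theorem exists_branchEmb (ι : K' →+* ℂ) (hq : q.Prime) (hqL : ¬ q ∣ L) {i : ℕ} (ζ : K'ˣ)
    (hζ : ζ ^ q ^ n = 1) (hprim : 0 < i → i < n → IsPrimitiveRoot ζ (q ^ n)) :
    ∃ φ : modField K (L * q ^ n) →+* LaurentSeries K',
      IsSubst κ φ (branchVal hq hqL i ζ) := by
  obtain ⟨φ, hφ⟩ := exists_embedding_branch ι hq hqL ζ hζ hprim
  exact ⟨_, isSubst_comp_fieldExt κ φ hφ⟩

/-! ### The complete family over level `L` -/

/-- The branches over level `L`: `i = n`; `i = 0` with all roots; `0 < i < n` with the primitive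
`q^(n-i)`-th roots. -/
abbrev BranchIdx (q n : ℕ) : Type :=
  Unit ⊕ Fin (q ^ n) ⊕ Σ i : Fin (n - 1), (ZMod (q ^ (n - 1 - (i : ℕ))))ˣ

/-- The branch of an index. -/
def branchOf : BranchIdx q n → ℕ :=
  Sum.elim (fun _ => n) (Sum.elim (fun _ => 0) fun x => (x.1 : ℕ) + 1)

/-- The exponent of the root of unity of an index. -/
def rootExp : BranchIdx q n → ℕ :=
  Sum.elim (fun _ => 0) (Sum.elim (fun b => (b : ℕ)) fun x =>
    ((x.2 : (ZMod (q ^ (n - 1 - (x.1 : ℕ))))ˣ) : ZMod (q ^ (n - 1 - (x.1 : ℕ)))).val)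

omit [NeZero L] [NeZero q] in
theorem branchOf_le (x : BranchIdx q n) : branchOf x ≤ n := by
  rcases x with u | b | ⟨i, u⟩ <;> simp only [branchOf, Sum.elim_inl, Sum.elim_inr] <;> omega

omit [NeZero L] [NeZero q] [Algebra ℚ K'] in
theorem rootExp_spec (_hq : q.Prime) {η : K'ˣ} (hη : IsPrimitiveRoot η (q ^ n)) (x : BranchIdx q n) :
    (η ^ rootExp x) ^ q ^ n = 1 ∧
      (0 < branchOf x → branchOf x < n → IsPrimitiveRoot (η ^ rootExp x) (q ^ n)) := by
  refine ⟨unit_pow_pow_eq_one hη _ dvd_rfl, fun h0 hn => ?_⟩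
  rcases x with u | b | ⟨i, u⟩
  · exact absurd hn (lt_irrefl n)
  · exact absurd h0 (lt_irrefl 0)
  · refine hη.pow_of_coprime _ ?_
    have h := ZMod.val_coe_unit_coprime u
    rw [Nat.coprime_pow_right_iff (by omega)] at h
    exact Nat.Coprime.pow_right n h

/-- All branches exist. -/
theorem exists_branchFamily (ι : K' →+* ℂ) (hq : q.Prime) (hqL : ¬ q ∣ L) {η : K'ˣ}
    (hη : IsPrimitiveRoot η (q ^ n)) :
    ∃ φ : BranchIdx q n → modField K (L * q ^ n) →+* LaurentSeries K',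
      ∀ x, IsSubst κ (φ x) (branchVal hq hqL (branchOf x) (η ^ rootExp x)) := by
  choose φ hφ using fun x : BranchIdx q n =>
    exists_branchEmb κ ι hq hqL (η ^ rootExp x) (rootExp_spec hq hη x).1 (rootExp_spec hq hη x).2
  exact ⟨φ, hφ⟩

omit [NeZero L] [NeZero q] in
theorem sum_totient_prime_pow (hq : q.Prime) (m : ℕ) :
    (∑ j ∈ Finset.range m, Nat.totient (q ^ (j + 1))) + 1 = q ^ m := by
  induction m with
  | zero => simp
  | succ m ih =>
    rw [Finset.sum_range_succ, Nat.totient_prime_pow_succ hq, add_right_comm, ih, pow_succ]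
    obtain ⟨r, hr⟩ := Nat.exists_eq_add_of_le hq.one_le
    rw [hr, Nat.add_sub_cancel_left]
    ring

omit [NeZero L] in
theorem card_branchIdx (hq : q.Prime) (hn : 0 < n) :
    Fintype.card (BranchIdx q n) = q ^ n + q ^ (n - 1) := by
  have h := sum_totient_prime_pow hq (n - 1)
  simp only [BranchIdx, Fintype.card_sum, Fintype.card_unit, Fintype.card_fin, Fintype.card_sigma,
    ZMod.card_units_eq_totient]
  rw [Fin.sum_univ_eq_sum_range fun i => Nat.totient (q ^ (n - 1 - i))]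
  rw [← Finset.sum_range_reflect (fun j => Nat.totient (q ^ (j + 1))) (n - 1)] at h
  have : ∑ i ∈ Finset.range (n - 1), Nat.totient (q ^ (n - 1 - i)) =
      ∑ j ∈ Finset.range (n - 1), Nat.totient (q ^ (n - 1 - 1 - j + 1)) :=
    Finset.sum_congr rfl fun j hj => by
      rw [Finset.mem_range] at hj
      congr 2
      omega
  omega

omit [NeZero L] [NeZero q] in
theorem dedekindPsi_mul_prime_pow [NeZero L] (hq : q.Prime) (hqL : ¬ q ∣ L) (m : ℕ) :
    dedekindPsi (L * q ^ (m + 1)) = dedekindPsi L * (q ^ (m + 1) + q ^ m) := by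
  haveI : NeZero q := ⟨hq.ne_zero⟩
  induction m with
  | zero => rw [zero_add, pow_one, psi_mul_prime_of_not_dvd hq hqL, pow_zero]; ring
  | succ m ih =>
    rw [pow_succ, ← mul_assoc, psi_mul_prime_of_dvd hq
      (Dvd.dvd.mul_left (dvd_pow_self q (Nat.succ_ne_zero m)) L), ih]
    ring

variable {κ}

/-- **Completeness**: these are all the extensions from level `L`. -/
theorem complete_branches (hq : q.Prime) (hqL : ¬ q ∣ L) (hn : 0 < n) {η : K'ˣ}
    (hη : IsPrimitiveRoot η (q ^ n))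
    (φ : BranchIdx q n → modField K (L * q ^ n) →+* LaurentSeries K')
    (hφ : ∀ x, IsSubst κ (φ x) (branchVal hq hqL (branchOf x) (η ^ rootExp x)))
    (h : L * 1 ∣ L * q ^ n) :
    letI := algebraAlong (degenMap K 1 h)
    CompleteEmb ((qExpand K' (q ^ n)).comp (baseEmb κ L)) φ := by
  letI := algebraAlong (degenMap K 1 h)
  refine ⟨fun x a => DFunLike.congr_fun (f := (φ x).comp
    (degenMap K 1 h : modField K L →+* modField K (L * q ^ n))) ?_ a, ?_, ?_, ⟨.inl ()⟩⟩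
  · refine ((hφ x).comp_degen 1 h).ext ((isSubst_baseEmb κ L).qExpand_comp (q ^ n)) fun d => ?_
    rw [branchVal_eq hq hqL _ _ d (k := 0) (by rw [coe_mulIdx, one_mul, pow_zero, mul_one]),
      branchTerm, if_pos (Nat.zero_le _)]
    exact qExpand_congr (by rw [Nat.add_zero]) _
  · let top : DivIdx (L * q ^ n) :=
      ⟨q ^ n, pow_pos hq.pos n, dvd_mul_left _ _⟩
    refine injective_of_hasLead φ ⟨genSer K top, genSer_mem _⟩
      (Sum.elim (fun _ => ((q ^ (n + n) : ℕ) : ℤ) * (-1))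
        (Sum.elim (fun _ => ((q ^ (n + 2 * 0 - n) : ℕ) : ℤ) * (-1))
          fun x => ((q ^ (n + 2 * ((x.1 : ℕ) + 1) - n) : ℕ) : ℤ) * (-1)))
      (Sum.elim (fun _ => (1 : K'))
        (Sum.elim
          (fun b => ((((η ^ (b : ℕ)) ^ q ^ (n - (n - 0))) ^ (-1 : ℤ) : K'ˣ) : K'))
          fun x => ((((η ^ ((x.2 : (ZMod (q ^ (n - 1 - (x.1 : ℕ))))ˣ) :
            ZMod (q ^ (n - 1 - (x.1 : ℕ)))).val) ^ q ^ (n - (n - ((x.1 : ℕ) + 1)))) ^ (-1 : ℤ) :
            K'ˣ) : K')))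
      ?_ ?_ ?_
    · have hval : ∀ x, φ x ⟨genSer K top, genSer_mem _⟩ =
          branchTerm n (branchOf x) (η ^ rootExp x) q n (genSer K' (oneIdx L)) := fun x => by
        rw [(hφ x).gen, branchVal_eq hq hqL _ _ (oneIdx L) (k := n) (one_mul _).symm]
      rintro (u | b | ⟨i, u⟩) <;> rw [hval, branchTerm]
      · rw [if_pos (show n ≤ branchOf (Sum.inl u) from le_refl n)]
        exact hasLead_one_idx.qExpand _
      · rw [if_neg (by show ¬ n ≤ 0; omega)]
        exact (hasLead_qScale_one _).qExpand _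
      · rw [if_neg (by show ¬ n ≤ (i : ℕ) + 1; have := i.2; omega)]
        exact (hasLead_qScale_one _).qExpand _
    · rintro (u | b | x) <;> simp
    · have hneg : ∀ a b : ℕ, a ≠ b → ((q ^ a : ℕ) : ℤ) * (-1) ≠ ((q ^ b : ℕ) : ℤ) * (-1) :=
        fun a b hab he => hab (Nat.pow_right_injective hq.two_le (Int.ofNat_inj.mp
          (mul_right_cancel₀ (by norm_num : (-1 : ℤ) ≠ 0) he)))
      have hinv : ∀ u v : K'ˣ, ((u ^ (-1 : ℤ) : K'ˣ) : K') = ((v ^ (-1 : ℤ) : K'ˣ) : K') →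
          u = v := fun u v he => by simpa using Units.ext he
      refine sum_lead_inj (fun _ _ _ _ => rfl) (sum_lead_inj ?_ ?_ ?_) ?_
      · intro a b _ he
        have h1 := hinv _ _ he
        rw [Nat.sub_zero, Nat.sub_self, pow_zero, pow_one, pow_one] at h1
        exact Fin.ext (hη.pow_inj a.2 b.2 h1)
      · rintro ⟨i, u⟩ ⟨j, v⟩ hm he
        obtain rfl : i = j := by
          by_contra hij
          exact hneg _ _ (fun hh => hij (Fin.ext (by simp only at hh; omega))) hm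
        have h1 := hinv _ _ he
        simp only at h1
        rw [← pow_mul, ← pow_mul] at h1
        have hsub : n - (n - ((i : ℕ) + 1)) = (i : ℕ) + 1 := by have := i.2; omega
        rw [hsub] at h1
        have hlt : ∀ w : (ZMod (q ^ (n - 1 - (i : ℕ))))ˣ,
            (w : ZMod (q ^ (n - 1 - (i : ℕ)))).val * q ^ ((i : ℕ) + 1) < q ^ n := fun w => by
          have h2 := ZMod.val_lt (w : ZMod (q ^ (n - 1 - (i : ℕ))))
          calc _ < q ^ (n - 1 - (i : ℕ)) * q ^ ((i : ℕ) + 1) :=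
                (Nat.mul_lt_mul_right (pow_pos hq.pos _)).mpr h2
            _ = q ^ n := by rw [← _root_.pow_add]; congr 1; have := i.2; omega
        have h3 := hη.pow_inj (hlt u) (hlt v) h1
        exact congrArg _ (Units.ext (ZMod.val_injective _
          (Nat.eq_of_mul_eq_mul_right (pow_pos hq.pos _) h3)))
      · intro _ x
        exact hneg _ _ (by omega)
      · rintro _ (_ | x) <;> refine hneg _ _ ?_
        · omega
        · have := x.1.2; omega
  · rw [show Module.finrank (modField K L) (modField K (L * q ^ n)) =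
      finrankAlong K (degenMap K 1 h) from rfl, card_branchIdx hq hn]
    obtain ⟨m, rfl⟩ := Nat.exists_eq_succ_of_ne_zero hn.ne'
    have h1 := finrankAlong_degenMap (degreeInput K) 1 h (MF.Coeff.functionFieldGeneration 1)
    rw [dedekindPsi_mul_prime_pow hq hqL] at h1
    exact (Nat.eq_of_mul_eq_mul_left (psi_pos L) h1).symm

/-! ### Restriction to level `L qⁿ⁻¹` -/

omit [NeZero L] [Algebra ℚ K] [Algebra ℚ K'] in
/-- Along `τ ↦ τ` the branch `i` restricts to the branch `min i n` of `ζ^q`. -/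
theorem branchVal_mulIdx_one (hq : q.Prime) (hqL : ¬ q ∣ L) {i : ℕ} (hi : i ≤ n + 1) (ζ : K'ˣ)
    (h : L * q ^ n * 1 ∣ L * q ^ (n + 1)) (d : DivIdx (L * q ^ n)) :
    branchVal hq hqL i ζ (mulIdx 1 h d) =
      qExpand K' q (branchVal hq hqL (min i n) (ζ ^ q) d) := by
  obtain ⟨hd, hk, -, -⟩ := qFreeN_spec hq hqL d
  rw [branchVal_eq hq hqL i ζ (freeIdxN hq hqL d) (k := qExpN hq d)
    (by rw [coe_mulIdx, one_mul]; exact hd), branchVal, branchTerm, branchTerm]
  by_cases hki : qExpN hq d ≤ i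
  · rw [if_pos hki, if_pos (le_min hki hk), qExpand_qExpand]
    exact qExpand_congr (by ring) _
  · rw [if_neg hki, if_neg (fun h' => hki (h'.trans (min_le_left _ _))), qExpand_qExpand,
      min_eq_left (by omega), ← pow_mul ζ, show q * q ^ (n - (qExpN hq d - i)) =
        q ^ (n + 1 - (qExpN hq d - i)) by rw [← pow_succ']; congr 1; omega]
    exact qExpand_congr (by rw [← pow_succ']; congr 1; omega) _

omit [NeZero L] [Algebra ℚ K] [Algebra ℚ K'] in
/-- Along `τ ↦ q τ` the branch `i + 1` restricts to the branch `i` of `ζ^q`. -/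
theorem branchVal_mulIdx_prime (hq : q.Prime) (hqL : ¬ q ∣ L) {i : ℕ} (ζ : K'ˣ)
    (h : L * q ^ n * q ∣ L * q ^ (n + 1)) (d : DivIdx (L * q ^ n)) :
    branchVal hq hqL (i + 1) ζ (mulIdx q h d) =
      qExpand K' (q * q) (branchVal hq hqL i (ζ ^ q) d) := by
  obtain ⟨hd, hk, -, -⟩ := qFreeN_spec hq hqL d
  rw [branchVal_eq hq hqL (i + 1) ζ (freeIdxN hq hqL d) (k := qExpN hq d + 1)
    (by rw [coe_mulIdx]; conv_lhs => rw [hd]
        rw [freeIdxN, pow_succ]; ring), branchVal, branchTerm, branchTerm]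
  by_cases hki : qExpN hq d ≤ i
  · rw [if_pos (by omega), if_pos hki, qExpand_qExpand]
    exact qExpand_congr (by ring) _
  · rw [if_neg (by omega), if_neg hki, qExpand_qExpand, ← pow_mul ζ,
      show q * q ^ (n - (qExpN hq d - i)) = q ^ (n + 1 - (qExpN hq d + 1 - (i + 1))) by
        rw [← pow_succ']; congr 1; omega]
    exact qExpand_congr (by rw [← pow_two, ← _root_.pow_add]; congr 1; omega) _

omit [NeZero L] [Algebra ℚ K] [Algebra ℚ K'] in
/-- Along `τ ↦ q τ` the branch `0` of `ζ` restricts to the branch `0` of `1`, twisted by `ζ`. -/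
theorem branchVal_mulIdx_prime_zero (hq : q.Prime) (hqL : ¬ q ∣ L) (ζ : K'ˣ)
    (h : L * q ^ n * q ∣ L * q ^ (n + 1)) (d : DivIdx (L * q ^ n)) :
    branchVal hq hqL 0 ζ (mulIdx q h d) = qScale ζ (branchVal hq hqL 0 1 d) := by
  obtain ⟨hd, hk, -, -⟩ := qFreeN_spec hq hqL d
  rw [branchVal_eq hq hqL 0 ζ (freeIdxN hq hqL d) (k := qExpN hq d + 1)
    (by rw [coe_mulIdx]; conv_lhs => rw [hd]
        rw [freeIdxN, pow_succ]; ring), branchVal, branchTerm_one, branchTerm,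
    if_neg (by omega), qScale_qExpand]
  have he : n + 1 + 2 * 0 - (qExpN hq d + 1) =
      if qExpN hq d ≤ 0 then n + qExpN hq d else n + 2 * 0 - qExpN hq d := by
    split_ifs <;> omega
  rw [show n + 1 - (qExpN hq d + 1 - 0) = n + 1 + 2 * 0 - (qExpN hq d + 1) by omega]
  simp only [he]

end Fermat.Agent.CarayolHigh
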