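/-
The setting of the model of `X₀(qⁿ L)` at a place over `q`: constants, one embedding for every index
of `BranchIdx`, and the branches `i ≤ n`.

On the branch `i` the series live in the variable `x^(q^lowExp n i)`, `lowExp n i = min n (2 i)`;
residues are read in that variable.
-/
import Fermat.Agent.Carayol.ChartConcrete
import Fermat.Agent.CarayolHigh.BranchEmb

set_option autoImplicit false
set_option linter.unusedSectionVars false

noncomputable section

open HahnSeries ModularCurve
open Fermat.Agent.Igusa Fermat.Agent.RED.Spec Fermat.Agent.HK.Corr Fermat.Agent.Carayol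

namespace Fermat.Agent.CarayolHigh

/-- The exponent of the variable of the branch `i`. -/
def lowExp (n i : ℕ) : ℕ := min n (2 * i)

theorem lowExp_le (n i : ℕ) : lowExp n i ≤ n := min_le_left _ _

/-- Composition of scalings. -/
theorem qScale_qScale {R : Type*} [CommRing R] (u v : Rˣ) (x : LaurentSeries R) :
    qScale u (qScale v x) = qScale (u * v) x := by
  ext m
  simp [mul_zpow, mul_assoc]

variable {K : Type} [Field K] [Algebra ℚ K] {K' : Type} [Field K'] [Algebra ℚ K']
  {O : ValuationSubring K'} {k : Type} [Field k]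
variable {L₀ q n : ℕ} [NeZero L₀] [NeZero q]

/-- The hypotheses of the chart facts at `X₀(qⁿ L₀)`: the constants, all the embeddings over level
`L₀`, one representative for every branch, and the branches with their residues. -/
structure ChartData (hq : q.Prime) (hqL : ¬ q ∣ L₀) (π : O →+* k) (κ : K →+* K') (η : K'ˣ)
    (A : ValuationSubring K)
    (φ : BranchIdx q n → modField K (L₀ * q ^ n) →+* LaurentSeries K')
    (rep : Fin (n + 1) → BranchIdx q n) {C : Type} [Field C]
    (Br : Branches (modField K (L₀ * q ^ n)) (Fin (n + 1)) (fun _ => C))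
    (ev : C →+* LaurentSeries k) : Prop where
  n_pos : 0 < n
  hπ : ∀ c, π c = 0 ↔ ¬IsUnit c
  dvr : IsDiscreteValuationRing O
  dvrA : IsDiscreteValuationRing A
  charP : CharP k q
  hA : ∀ a ∈ A, κ a ∈ O
  hAO : ∀ a, κ a ∈ O → a ∈ A
  hAπ : ∀ a : A, π ⟨κ a, hA a a.2⟩ = 0 ↔ ¬IsUnit a
  hsurj : ∀ y : k, ∃ (a : K) (ha : a ∈ A), π ⟨κ a, hA a ha⟩ = y
  hL : (L₀ : k) ≠ 0
  hη : IsPrimitiveRoot η (q ^ n)
  hφ : ∀ x, IsSubst κ (φ x) (branchVal hq hqL (branchOf x) (η ^ rootExp x))
  hrep : ∀ i, branchOf (rep i) = (i : ℕ)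
  sigma : ∀ u : ℕ, u.Coprime q → ∃ (σ : K' →+* K') (hσ : ∀ c ∈ O, σ c ∈ O),
    σ.comp κ = κ ∧ σ (η : K') = (η : K') ^ u ∧ ∀ c : O, π ⟨σ c, hσ c c.2⟩ = π c
  isGauss_iff : ∀ (i : Fin (n + 1)) a r,
    IsGauss π (φ (rep i) a) (qExpand k (q ^ lowExp n i) r) ↔
      ∃ h : a ∈ Br.V i, ev (Br.res i ⟨a, h⟩) = r

/-- The index of the branch of an embedding. -/
def branchFin (x : BranchIdx q n) : Fin (n + 1) := ⟨branchOf x, Nat.lt_succ_of_le (branchOf_le x)⟩

/-- A representative of the branch `i`. -/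
def branchRep (hq : q.Prime) (i : Fin (n + 1)) : BranchIdx q n :=
  if (i : ℕ) = n then .inl ()
  else if (i : ℕ) = 0 then .inr (.inl ⟨0, pow_pos hq.pos n⟩)
  else if h : (i : ℕ) - 1 < n - 1 then .inr (.inr ⟨⟨(i : ℕ) - 1, h⟩, 1⟩)
  else .inl ()

theorem branchOf_branchRep (hq : q.Prime) (i : Fin (n + 1)) :
    branchOf (branchRep hq i) = (i : ℕ) := by
  have := i.2
  unfold branchRep
  split_ifs with h₁ h₂ h₃
  · exact h₁.symm
  · exact h₂.symm
  · show (i : ℕ) - 1 + 1 = i
    omega
  · omega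

theorem coprime_rootExp (hq : q.Prime) (x : BranchIdx q n) (h0 : 0 < branchOf x)
    (hn : branchOf x < n) : (rootExp x).Coprime q := by
  rcases x with u | b | ⟨i, u⟩
  · exact absurd hn (lt_irrefl n)
  · exact absurd h0 (lt_irrefl 0)
  · have h := ZMod.val_coe_unit_coprime u
    rwa [Nat.coprime_pow_right_iff (by omega)] at h

variable {hq : q.Prime} {hqL : ¬ q ∣ L₀} {π : O →+* k} {κ : K →+* K'} {η : K'ˣ}
  {φ : BranchIdx q n → modField K (L₀ * q ^ n) →+* LaurentSeries K'}

section Family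

variable (hη : IsPrimitiveRoot η (q ^ n))
  (hφ : ∀ x, IsSubst κ (φ x) (branchVal hq hqL (branchOf x) (η ^ rootExp x)))

include hη in
theorem pow_pow_rootExp (x : BranchIdx q n) : (η ^ rootExp x) ^ q ^ n = 1 := by
  rw [← pow_mul, mul_comm, pow_mul, hη.pow_eq_one, one_pow]

include hη hφ in
/-- All the series are quotients of integral series. -/
theorem family_mem_fracSeries [CharP k q] (π : O →+* k) (x : BranchIdx q n)
    (a : modField K (L₀ * q ^ n)) : φ x a ∈ fracSeries O := by
  have := Fact.mk hq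
  have key : ∀ (e m : ℕ) [NeZero m] (d : DivIdx L₀) (u : K'ˣ), u ^ q ^ e = 1 →
      qExpand K' m (qScale u (genSer K' d)) ∈ fracSeries O := fun e m _ d u hu => by
    rw [← coeffMap_genSer O.subtype d]
    exact (((isGauss_int (π := π) (genSer O d)).qScale_root hu).qExpand m).mem_fracSeries
  refine (hφ x).mem_fracSeries (fun d => ?_) a
  rw [branchVal, branchTerm]
  split_ifs
  · simpa [qScale_one] using key n (q ^ (n + qExpN hq d)) (freeIdxN hq hqL d) 1 (one_pow _)
  · refine key n _ _ _ ?_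
    rw [← pow_mul, mul_comm, pow_mul, pow_pow_rootExp hη x, one_pow]

include hη hφ in
/-- The series of the branch `i` live in the variable `x^(q^lowExp n i)`. -/
theorem family_exists_qExpand [CharP k q] (π : O →+* k) (x : BranchIdx q n)
    (a : modField K (L₀ * q ^ n)) :
    ∃ w ∈ fracSeries O, φ x a = qExpand K' (q ^ lowExp n (branchOf x)) w := by
  have := Fact.mk hq
  set m := lowExp n (branchOf x) with hm
  let S : Subfield (LaurentSeries K') := (fracSeries O).map (qExpand K' (q ^ m))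
  have hC : ∀ c : K', (HahnSeries.single 0 c : LaurentSeries K') ∈ S := fun c =>
    ⟨HahnSeries.C c, C_mem_fracSeries O c, by
      rw [HahnSeries.C_apply, qExpand_single, mul_zero]⟩
  have key : ∀ (E : ℕ), m ≤ E → ∀ (d : DivIdx L₀) (u : K'ˣ), u ^ q ^ n = 1 →
      qExpand K' (q ^ E) (qScale u (genSer K' d)) ∈ S := fun E hE d u hu => by
    refine ⟨qExpand K' (q ^ (E - m)) (qScale u (genSer K' d)), ?_, ?_⟩
    · rw [← coeffMap_genSer O.subtype d]
      exact (((isGauss_int (π := π) (genSer O d)).qScale_root hu).qExpand _).mem_fracSeries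
    · rw [qExpand_qExpand]
      exact qExpand_congr (by rw [← _root_.pow_add]; congr 1; omega) _
  have hgen : ∀ d, branchVal hq hqL (branchOf x) (η ^ rootExp x) d ∈ S := fun d => by
    obtain ⟨-, hk, -, -⟩ := qFreeN_spec hq hqL d
    have h2 := branchOf_le x
    rw [branchVal, branchTerm]
    have hmn : m ≤ n := hm ▸ min_le_left _ _
    have hm2 : m ≤ 2 * branchOf x := hm ▸ min_le_right _ _
    split_ifs with hki
    · simpa [qScale_one] using
        key (n + qExpN hq d) (by omega) (freeIdxN hq hqL d) 1 (one_pow _)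
    · refine key _ (by omega) _ _ ?_
      rw [← pow_mul, mul_comm, pow_mul, pow_pow_rootExp hη x, one_pow]
  let T : IntermediateField K (modField K (L₀ * q ^ n)) :=
    (S.comap (φ x)).toIntermediateField fun c => by
      show φ x (algebraMap K _ c) ∈ S
      rw [(hφ x).const]
      exact hC (κ c)
  have hle : modField K (L₀ * q ^ n) ≤ IntermediateField.lift T := by
    refine (modField_eq_adjoin_genSer (L := K) _).le.trans ?_
    rw [IntermediateField.adjoin_le_iff]
    rintro _ ⟨d, rfl⟩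
    refine (IntermediateField.mem_lift (⟨_, genSer_mem d⟩ : modField K _)).mpr ?_
    show φ x _ ∈ S
    rw [(hφ x).gen]
    exact hgen d
  obtain ⟨w, hw, he⟩ := (IntermediateField.mem_lift a).mp (hle a.2)
  exact ⟨w, hw, he.symm⟩

include hη hφ in
/-- Residues of the branch `i` are series in `x^(q^lowExp n i)`. -/
theorem family_exists_res [CharP k q] [IsDiscreteValuationRing O] (hπ : ∀ c, π c = 0 ↔ ¬IsUnit c)
    {x : BranchIdx q n} {a : modField K (L₀ * q ^ n)} {R : LaurentSeries k}
    (h : IsGauss π (φ x a) R) : ∃ r, R = qExpand k (q ^ lowExp n (branchOf x)) r := by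
  obtain ⟨w, hw, he⟩ := family_exists_qExpand hη hφ π x a
  rw [he] at h
  obtain ⟨r, -, hr⟩ := exists_isGauss_of_qExpand hπ hw h
  exact ⟨r, hr⟩

include hη hφ in
/-- Two embeddings of one branch differ by an inertia automorphism and a root of unity. -/
theorem family_exists_conj (hσ : ∀ u : ℕ, u.Coprime q → ∃ (σ : K' →+* K') (hσ : ∀ c ∈ O, σ c ∈ O),
      σ.comp κ = κ ∧ σ (η : K') = (η : K') ^ u ∧ ∀ c : O, π ⟨σ c, hσ c c.2⟩ = π c)
    {x y : BranchIdx q n} (h : branchOf x = branchOf y) :
    ∃ (σ : K' →+* K') (hσ : ∀ c ∈ O, σ c ∈ O) (u : K'ˣ),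
      σ.comp κ = κ ∧ (∀ c : O, π ⟨σ c, hσ c c.2⟩ = π c) ∧ u ^ q ^ n = 1 ∧
      ∀ a, φ x a = qScale u (coeffMap σ (φ y a)) := by
  obtain ⟨σ, hσO, u, hσκ, hσπ, hu, hval⟩ : ∃ (σ : K' →+* K') (hσ : ∀ c ∈ O, σ c ∈ O) (u : K'ˣ),
      σ.comp κ = κ ∧ (∀ c : O, π ⟨σ c, hσ c c.2⟩ = π c) ∧ u ^ q ^ n = 1 ∧
      ∀ d, qScale u (coeffMap σ (branchVal hq hqL (branchOf y) (η ^ rootExp y) d)) =
        branchVal hq hqL (branchOf x) (η ^ rootExp x) d := by
    rcases Nat.eq_zero_or_pos (branchOf x) with h0 | h0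
    · -- the branch `0`
      let u : K'ˣ := η ^ rootExp x * (η ^ rootExp y)⁻¹
      have hu : u ^ q ^ n = 1 := by
        rw [mul_pow, inv_pow, pow_pow_rootExp hη, pow_pow_rootExp hη, inv_one, mul_one]
      refine ⟨RingHom.id K', fun c hc => hc, u, RingHom.id_comp κ, fun c => rfl, hu, fun d => ?_⟩
      rw [coeffMap_branchVal, ← h, h0, branchVal, branchVal, branchTerm, branchTerm,
        show Units.map (RingHom.id K').toMonoidHom (η ^ rootExp y) = η ^ rootExp y from
          Units.ext rfl]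
      obtain ⟨-, hk, -, -⟩ := qFreeN_spec hq hqL d
      split_ifs with hd
      · rw [qScale_qExpand,
          show u ^ q ^ (n + qExpN hq d) = 1 by rw [_root_.pow_add, pow_mul, hu, one_pow],
          qScale_one]
        rfl
      · rw [qScale_qExpand, qScale_qScale]
        refine congrArg _ (congrArg (fun v => qScale v _) ?_)
        rw [show n + 2 * 0 - qExpN hq d = n - (qExpN hq d - 0) by omega, ← mul_pow,
          inv_mul_cancel_right]
    rcases (branchOf_le x).eq_or_lt with hn | hn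
    · -- the branch `n`
      refine ⟨RingHom.id K', fun c hc => hc, 1, RingHom.id_comp κ, fun c => rfl, one_pow _,
        fun d => ?_⟩
      obtain ⟨-, hk, -, -⟩ := qFreeN_spec hq hqL d
      rw [coeffMap_branchVal, ← h, hn, qScale_one, branchVal, branchVal, branchTerm, branchTerm,
        if_pos hk, if_pos hk]
      rfl
    · -- the middle branches
      have hy := coprime_rootExp hq y (h ▸ h0) (h ▸ hn)
      obtain ⟨c, hc⟩ : ∃ c : ℕ, rootExp y * c ≡ 1 [MOD q ^ n] :=
        Nat.exists_mul_mod_eq_one_of_coprime (Nat.Coprime.pow_right n hy)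
          (Nat.one_lt_pow (by omega) hq.one_lt) |>.imp fun c hc => by
            rw [Nat.ModEq, hc.2, Nat.mod_eq_of_lt (Nat.one_lt_pow (by omega) hq.one_lt)]
      have hcq : (c * rootExp x).Coprime q := by
        refine Nat.Coprime.mul_left ?_ (coprime_rootExp hq x h0 hn)
        refine hq.coprime_iff_not_dvd.mpr (fun hd => ?_) |>.symm
        have h1 := hc.of_dvd (dvd_pow_self q (by omega : n ≠ 0))
        rw [Nat.ModEq, Nat.mul_mod, Nat.mod_eq_zero_of_dvd hd, mul_zero, Nat.zero_mod,
          Nat.mod_eq_of_lt hq.one_lt] at h1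
        exact zero_ne_one h1
      obtain ⟨σ, hσO, hσκ, hσe, hσπ⟩ := hσ (c * rootExp x) hcq
      refine ⟨σ, hσO, 1, hσκ, hσπ, one_pow _, fun d => ?_⟩
      rw [coeffMap_branchVal, qScale_one, h,
        show Units.map σ.toMonoidHom (η ^ rootExp y) = η ^ rootExp x from Units.ext (by
          show σ ((η ^ rootExp y : K'ˣ) : K') = _
          rw [Units.val_pow_eq_pow_val, map_pow, hσe, ← pow_mul, Units.val_pow_eq_pow_val]
          have hm : c * rootExp x * rootExp y ≡ rootExp x [MOD q ^ n] := by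
            have := hc.mul_left (rootExp x)
            rw [mul_one] at this
            convert this using 1
            ring
          exact pow_eq_pow_of_modEq hm (IsPrimitiveRoot.coe_units_iff.mpr hη).pow_eq_one)]
      rfl
  refine ⟨σ, hσO, u, hσκ, hσπ, hu, fun a => ?_⟩
  exact (DFunLike.congr_fun ((((hφ y).coeffMap_comp σ hσκ).qScale_comp u).ext (hφ x) hval) a).symm

include hη hφ in
/-- Residues do not depend on the embedding inside a branch. -/
theorem family_isGauss_conj [CharP k q]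
    (hσ : ∀ u : ℕ, u.Coprime q → ∃ (σ : K' →+* K') (hσ : ∀ c ∈ O, σ c ∈ O),
      σ.comp κ = κ ∧ σ (η : K') = (η : K') ^ u ∧ ∀ c : O, π ⟨σ c, hσ c c.2⟩ = π c)
    {x y : BranchIdx q n} (h : branchOf x = branchOf y) {a : modField K (L₀ * q ^ n)}
    {R : LaurentSeries k} (hy : IsGauss π (φ y a) R) : IsGauss π (φ x a) R := by
  have := Fact.mk hq
  obtain ⟨σ, hσO, u, -, hσπ, hu, he⟩ := family_exists_conj hη hφ hσ h
  rw [he]
  exact (hy.coeffMap σ hσO hσπ).qScale_root hu

end Family

namespace ChartData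

variable {A : ValuationSubring K} {rep : Fin (n + 1) → BranchIdx q n} {C : Type} [Field C]
  {Br : Branches (modField K (L₀ * q ^ n)) (Fin (n + 1)) (fun _ => C)}
  {ev : C →+* LaurentSeries k}
  (D : ChartData hq hqL π κ η A φ rep Br ev)

include D

theorem mem_fracSeries (x : BranchIdx q n) (a : modField K (L₀ * q ^ n)) :
    φ x a ∈ fracSeries O :=
  haveI := D.charP
  family_mem_fracSeries D.hη D.hφ π x a

theorem exists_res {x : BranchIdx q n} {a : modField K (L₀ * q ^ n)} {R : LaurentSeries k}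
    (h : IsGauss π (φ x a) R) : ∃ r, R = qExpand k (q ^ lowExp n (branchOf x)) r :=
  haveI := D.charP
  haveI := D.dvr
  family_exists_res D.hη D.hφ D.hπ h

theorem isGauss_conj {x y : BranchIdx q n} (h : branchOf x = branchOf y)
    {a : modField K (L₀ * q ^ n)} {R : LaurentSeries k} (hy : IsGauss π (φ y a) R) :
    IsGauss π (φ x a) R :=
  haveI := D.charP
  family_isGauss_conj D.hη D.hφ D.sigma h hy

/-- The residue of the branch `i` through any of its embeddings. -/
theorem isGauss_all {i : Fin (n + 1)} {x : BranchIdx q n} (hx : branchOf x = i)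
    {a : modField K (L₀ * q ^ n)} (h : a ∈ Br.V i) :
    IsGauss π (φ x a) (qExpand k (q ^ lowExp n i) (ev (Br.res i ⟨a, h⟩))) :=
  D.isGauss_conj (hx.trans (D.hrep i).symm) ((D.isGauss_iff i a _).mpr ⟨h, rfl⟩)

/-- Boundedness along one embedding gives membership in its branch. -/
theorem mem_of_isGauss {i : Fin (n + 1)} {x : BranchIdx q n} (hx : branchOf x = i)
    {a : modField K (L₀ * q ^ n)} {R : LaurentSeries k} (h : IsGauss π (φ x a) R) :
    ∃ hV : a ∈ Br.V i, R = qExpand k (q ^ lowExp n i) (ev (Br.res i ⟨a, hV⟩)) := by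
  obtain ⟨r, rfl⟩ := D.exists_res h
  rw [hx] at h ⊢
  obtain ⟨hV, he⟩ := (D.isGauss_iff i a r).mp (D.isGauss_conj ((D.hrep i).trans hx.symm) h)
  exact ⟨hV, by rw [he]⟩

theorem res_eq_zero_iff_isGauss {i : Fin (n + 1)} {a : modField K (L₀ * q ^ n)} :
    IsGauss π (φ (rep i) a) 0 ↔ ∃ h : a ∈ Br.V i, Br.res i ⟨a, h⟩ = 0 := by
  have := D.isGauss_iff i a 0
  rw [map_zero] at this
  rw [this]
  exact exists_congr fun h => map_eq_zero ev

/-- Constants on the branches. -/
theorem isGauss_const (x : BranchIdx q n) (w : A) :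
    IsGauss π (φ x (algebraMap K (modField K (L₀ * q ^ n)) (w : K)))
      (HahnSeries.C (π ⟨κ w, D.hA w w.2⟩)) := by
  have h := isGauss_int (π := π) (HahnSeries.C (⟨κ w, D.hA w w.2⟩ : O))
  rw [intSeries, coeffMap_C', coeffMap_C'] at h
  rw [(D.hφ x).const]
  exact h

end ChartData

end Fermat.Agent.CarayolHigh
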