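/-
The charts `j` and `1/j` of the model of `X₀(qⁿ L)` at a place over `q`: the criterion in terms of
the branches and the `Model` fields about the charts.
-/
import Fermat.Agent.CarayolHigh.ChartData

set_option autoImplicit false
set_option linter.unusedSectionVars false

noncomputable section

open HahnSeries ModularCurve AlgebraicCurve Polynomial IntermediateField
open Fermat.Agent.Igusa Fermat.Agent.RED.Spec Fermat.Agent.HK.Corr
open Fermat.Agent.Carayol Fermat.Agent.RED

namespace Fermat.Agent.CarayolHigh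

variable {K : Type} [Field K] [Algebra ℚ K] {K' : Type} [Field K'] [Algebra ℚ K']
  {O : ValuationSubring K'} {k : Type} [Field k] {π : O →+* k}
variable {L₀ q n : ℕ} [NeZero L₀] [NeZero q] {hq : q.Prime} {hqL : ¬ q ∣ L₀} {κ : K →+* K'}
  {η : K'ˣ} {A : ValuationSubring K}
  {φ : BranchIdx q n → modField K (L₀ * q ^ n) →+* LaurentSeries K'}
  {rep : Fin (n + 1) → BranchIdx q n} {C : Type} [Field C]
  {Br : Branches (modField K (L₀ * q ^ n)) (Fin (n + 1)) (fun _ => C)}
  {ev : C →+* LaurentSeries k}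

/-- `j` at level `L₀ qⁿ`. -/
abbrev jLevel (K : Type) [Field K] [Algebra ℚ K] (L₀ q n : ℕ) [NeZero L₀] [NeZero q] :
    modField K (L₀ * q ^ n) :=
  MF.Coeff.jElem K (L₀ * q ^ n)

omit [NeZero q] in
theorem degenMap_one_jElem_level [NeZero (L₀ * q ^ n)] (h : L₀ * 1 ∣ L₀ * q ^ n) :
    (degenMap K 1 h : modField K L₀ →+* modField K (L₀ * q ^ n)) (MF.Coeff.jElem K L₀) =
      MF.Coeff.jElem K (L₀ * q ^ n) :=
  Subtype.ext (qExpand_one_apply _)

variable (D : ChartData hq hqL π κ η A φ rep Br ev)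

include D in
/-- The level `L₀` input, for `x = j` and `x = 1/j`, and the conjugates in the Gauss field. -/
theorem ChartData.exists_setting (inv : Bool) :
    letI := algebraAlong (degenMap K 1
      (show L₀ * 1 ∣ L₀ * q ^ n from mul_dvd_mul_left L₀ (one_dvd (q ^ n))))
    ∃ (Oc : ValuationSubring (fracSeries O)) (ψE : modField K L₀ →+* fracSeries O)
      (ψ : BranchIdx q n → modField K (L₀ * q ^ n) →+* fracSeries O)
      (xE : modField K L₀),
      Function.Injective ψ ∧
      (∀ j, (ψ j).comp (algebraMap (modField K L₀) (modField K (L₀ * q ^ n))) = ψE) ∧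
      Fintype.card (BranchIdx q n) =
        Module.finrank (modField K L₀) (modField K (L₀ * q ^ n)) ∧
      algebraMap (modField K L₀) (modField K (L₀ * q ^ n)) xE =
        (if inv then (jLevel K L₀ q n)⁻¹ else jLevel K L₀ q n) ∧
      (∀ e, e ∈ coordRing K xE → ψE e ∈ Oc → e ∈ chartRing A xE) ∧
      (∀ e, ψE e ∈ Oc.nonunits → ∀ ϖ : A, Irreducible ϖ →
        ψE ((algebraMap A (modField K L₀) ϖ)⁻¹ * e) ∈ Oc) ∧
      ψE xE ∈ Oc ∧ (∀ w : A, ψE (algebraMap A (modField K L₀) w) ∈ Oc) ∧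
      (∀ (j : BranchIdx q n) a, (∀ i, a ∈ Br.V i) → ψ j a ∈ Oc) ∧
      (∀ j, ∃ i, ∀ a (h : a ∈ Br.V i), Br.res i ⟨a, h⟩ = 0 → ψ j a ∈ Oc.nonunits) ∧
      ∀ a, (∀ j, ψ j a ∈ Oc) → ∀ i, a ∈ Br.V i := by
  classical
  letI hd := algebraAlong (degenMap K 1
    (show L₀ * 1 ∣ L₀ * q ^ n from mul_dvd_mul_left L₀ (one_dvd (q ^ n))))
  haveI := D.dvr
  haveI := D.dvrA
  have hdvd : L₀ * 1 ∣ L₀ * q ^ n := mul_dvd_mul_left L₀ (one_dvd (q ^ n))
  have hA := D.hA
  have hπA : Function.Surjective (residueA π κ A hA) := fun y => by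
    obtain ⟨a, ha, hy⟩ := D.hsurj y
    exact ⟨⟨a, ha⟩, hy⟩
  let GE := levelBranch O π D.hπ κ (π := residueA π κ A hA) hA (fun _ => rfl) L₀ (q ^ n) hπA D.hL
  let ψ : BranchIdx q n → modField K (L₀ * q ^ n) →+* fracSeries O :=
    fun j => (φ j).codRestrict (fracSeries O) (D.mem_fracSeries j)
  have hC := complete_branches hq hqL D.n_pos D.hη φ D.hφ hdvd
  have hj : algebraMap (modField K L₀) (modField K (L₀ * q ^ n)) (MF.Coeff.jElem K L₀) =
      jLevel K L₀ q n := degenMap_one_jElem_level hdvd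
  refine ⟨(gaussTop O π D.hπ).V, toFrac O GE, ψ,
    if inv then (MF.Coeff.jElem K L₀)⁻¹ else MF.Coeff.jElem K L₀, ?_, ?_, hC.card, ?_, ?_, ?_,
    ?_, ?_, ?_, ?_, ?_⟩
  · intro i j hij
    exact hC.inj (RingHom.ext fun x => congrArg Subtype.val (RingHom.congr_fun hij x))
  · exact fun j => RingHom.ext fun x => Subtype.ext (hC.comp j x)
  · split_ifs
    · rw [map_inv₀, hj]
    · exact hj
  · intro e he hO
    cases inv
    · exact mem_chartRing_jElem O π D.hπ κ hA (fun _ => rfl) L₀ (q ^ n) hπA D.hL D.hAO D.hAπ he hO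
    · exact mem_chartRing_inv_jElem O π D.hπ κ hA (fun _ => rfl) L₀ (q ^ n) hπA D.hL D.hAO D.hAπ
        he hO
  · intro e he ϖ hϖ
    exact inv_mul_levelEmb_mem O π D.hπ κ hA (fun _ => rfl) L₀ (q ^ n) hπA D.hL D.hAO D.hAπ hϖ he
  · have hX : MF.Coeff.jElem K L₀ ∈ (levelRed (A := A) L₀ hπA D.hL).W :=
      toE_jPair A (residueA π κ A hA) L₀ ▸
        ((good_x0 A (residueA π κ A hA) L₀ hπA D.hL).paramX).2
    have hred : (levelRed (A := A) L₀ hπA D.hL).red ⟨_, hX⟩ ≠ 0 := by
      have h1 : (levelRed (A := A) L₀ hπA D.hL).red ⟨_, hX⟩ =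
          (levelRed (A := A) L₀ hπA D.hL).red
            (good_x0 A (residueA π κ A hA) L₀ hπA D.hL).paramX :=
        congrArg _ (Subtype.ext (toE_jPair A (residueA π κ A hA) L₀).symm)
      rw [h1]
      intro h0
      refine Polynomial.X_ne_zero ((transcendental_iff.mp
        (good_x0 A (residueA π κ A hA) L₀ hπA D.hL).param.transcendental) X ?_)
      rw [aeval_X, h0]
    cases inv
    · exact toFrac_levelRed_mem O π D.hπ κ hA (fun _ => rfl) L₀ (q ^ n) hπA D.hL ⟨_, hX⟩
    · exact toFrac_levelRed_mem O π D.hπ κ hA (fun _ => rfl) L₀ (q ^ n) hπA D.hL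
        ⟨_, (levelRed (A := A) L₀ hπA D.hL).inv_mem_of_red_ne_zero hred⟩
  · exact fun w => toFrac_levelRed_mem O π D.hπ κ hA (fun _ => rfl) L₀ (q ^ n) hπA D.hL
      ⟨_, (levelRed (A := A) L₀ hπA D.hL).algebraMap_mem w⟩
  · intro j a ha
    exact (mem_gaussTop_iff O π D.hπ).mpr
      ⟨_, D.isGauss_all (i := branchFin j) rfl (ha (branchFin j))⟩
  · intro j
    refine ⟨branchFin j, fun a h h0 => mem_gaussTop_nonunits O π D.hπ ?_⟩
    have := D.isGauss_all (i := branchFin j) (x := j) rfl h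
    rwa [h0, map_zero, map_zero] at this
  · intro a ha i
    obtain ⟨r, hr⟩ := (mem_gaussTop_iff O π D.hπ).mp (ha (rep i))
    exact (D.mem_of_isGauss (D.hrep i) hr).1

include D in
/-- Integers of `K` are bounded on every branch, with the expected residue. -/
theorem ChartData.ev_res_const (i : Fin (n + 1)) (w : A) :
    ∃ h : algebraMap K (modField K (L₀ * q ^ n)) (w : K) ∈ Br.V i,
      ev (Br.res i ⟨_, h⟩) = HahnSeries.C (π ⟨κ w, D.hA w w.2⟩) := by
  refine (D.isGauss_iff i _ _).mp ?_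
  rw [HahnSeries.C_apply, qExpand_single, mul_zero]
  exact D.isGauss_const (rep i) w

include D in
/-- **Criterion and chart.** For `x = j` or `1/j`: membership, and the chart properties. -/
theorem ChartData.chart (inv : Bool) {ϖ : A} (hϖ : Irreducible ϖ) :
    let x : modField K (L₀ * q ^ n) := if inv then (jLevel K L₀ q n)⁻¹ else jLevel K L₀ q n
    IsChart Br ϖ (chartRing A x) ∧
      ∀ a, a ∈ chartRing A x ↔ a ∈ coordRing K x ∧ ∀ i, a ∈ Br.V i := by
  intro x
  letI := algebraAlong (degenMap K 1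
    (show L₀ * 1 ∣ L₀ * q ^ n from mul_dvd_mul_left L₀ (one_dvd (q ^ n))))
  haveI := D.dvrA
  haveI := isScalarTower_valuationSubring (E := modField K L₀) A
  haveI := isScalarTower_valuationSubring (E := modField K (L₀ * q ^ n)) A
  haveI : IsScalarTower K (modField K L₀) (modField K (L₀ * q ^ n)) :=
    IsScalarTower.of_algebraMap_eq fun c => ((degenMap K 1 _).commutes c).symm
  haveI : IsScalarTower A (modField K L₀) (modField K (L₀ * q ^ n)) :=
    IsScalarTower.of_algebraMap_eq fun c => ((degenMap K 1 _).commutes (c : K)).symm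
  obtain ⟨Oc, ψE, ψ, xE, hinj, hψE, hcard, hx, hcrit, hdiv, hxO, hWO, hmem, hnu, hback⟩ :=
    D.exists_setting inv
  have hC := complete_branches hq hqL D.n_pos D.hη φ D.hφ
    (mul_dvd_mul_left L₀ (one_dvd (q ^ n)))
  haveI := hC.finiteDimensional
  haveI : CharZero K := charZero_of_injective_algebraMap (algebraMap ℚ K).injective
  haveI : CharZero (modField K L₀) := charZero_of_injective_algebraMap
    (algebraMap K (modField K L₀)).injective
  haveI : CharZero (modField K (L₀ * q ^ n)) := charZero_of_injective_algebraMap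
    (algebraMap K (modField K (L₀ * q ^ n))).injective
  have hcriterion := fun a => mem_chartRing_iff_conjugates (W := A) Oc ψE ψ hinj hψE hcard
    (xE := xE) hWO hxO hcrit (a := a)
  have hxV : ∀ i, algebraMap (modField K L₀) (modField K (L₀ * q ^ n)) xE ∈ Br.V i :=
    hback _ fun j => by rw [← RingHom.comp_apply (ψ j), hψE]; exact hxO
  have hWV : ∀ i (w : A), algebraMap A (modField K (L₀ * q ^ n)) w ∈ Br.V i := fun i w =>
    hback _ (fun j => by
      rw [IsScalarTower.algebraMap_apply A (modField K L₀) (modField K (L₀ * q ^ n)),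
        ← RingHom.comp_apply (ψ j), hψE]
      exact hWO w) i
  have htx : Transcendental K (algebraMap (modField K L₀) (modField K (L₀ * q ^ n)) xE) := by
    have := MF.Coeff.transcendental_jElem K (L₀ * q ^ n)
    rw [hx]
    split_ifs
    · exact fun h => this (by simpa using h.inv)
    · exact this
  have hfd : FiniteDimensional K⟮algebraMap (modField K L₀) (modField K (L₀ * q ^ n)) xE⟯
      (modField K (L₀ * q ^ n)) :=
    haveI := MF.Coeff.isFunctionField_laurentBaseChange K (L₀ * q ^ n)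
    FF.finiteDimensional_adjoin htx
  have hπV : ∀ i (h : algebraMap A (modField K (L₀ * q ^ n)) ϖ ∈ Br.V i),
      Br.res i ⟨_, h⟩ = 0 := by
    intro i h
    obtain ⟨_, hr⟩ := D.ev_res_const i ϖ
    rw [(D.hAπ ϖ).mpr hϖ.not_isUnit, map_zero] at hr
    exact (map_eq_zero ev).mp hr
  have hfin := exists_span_closure_of_finiteDimensional (W := A) hfd
  have hinjx := injective_aeval_of_transcendental (W := A) htx
  simp only [x]
  rw [← hx]
  refine ⟨isChart_chartRing Br ϖ hϖ.ne_zero Oc ψE ψ hinj hψE hcard hinjx hfin hcrit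
    (fun e he => hdiv e he ϖ hϖ) hWV hxV hπV hnu, fun a => (hcriterion a).trans
    (and_congr_right fun _ => ⟨hback a, fun h j => hmem j a h⟩)⟩

include D in
/-- The remaining chart fields of `Model`. -/
theorem ChartData.chart_facts :
    (∃ s₀ : Finset (modField K (L₀ * q ^ n)),
      (s₀ : Set _) ⊆ (chartRing A (jLevel K L₀ q n) : Set (modField K (L₀ * q ^ n))) ∧
      ∀ a ∈ chartRing A (jLevel K L₀ q n),
        a ∈ Submodule.span (Algebra.adjoin A {jLevel K L₀ q n}) (s₀ : Set _)) ∧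
    (∀ a : modField K (L₀ * q ^ n), ∃ b d, b ∈ chartRing A (jLevel K L₀ q n) ∧
      d ∈ chartRing A (jLevel K L₀ q n) ∧ d ≠ 0 ∧ a = b / d) ∧
    (∀ a : modField K (L₀ * q ^ n), ∃ b d, b ∈ chartRing A (jLevel K L₀ q n)⁻¹ ∧
      d ∈ chartRing A (jLevel K L₀ q n)⁻¹ ∧ d ≠ 0 ∧ a = b / d) ∧
    (∀ a ∈ chartRing A (jLevel K L₀ q n), ∃ N : ℕ,
      a * (jLevel K L₀ q n)⁻¹ ^ N ∈ chartRing A (jLevel K L₀ q n)⁻¹) ∧
    (∀ a ∈ chartRing A (jLevel K L₀ q n)⁻¹, ∃ N : ℕ,
      a * jLevel K L₀ q n ^ N ∈ chartRing A (jLevel K L₀ q n)) ∧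
    ∀ a, a ∈ chartRing A (jLevel K L₀ q n) → a ∈ chartRing A (jLevel K L₀ q n)⁻¹ →
      ∃ w : A, a = algebraMap A (modField K (L₀ * q ^ n)) w := by
  haveI := D.dvrA
  haveI := isScalarTower_valuationSubring (E := modField K (L₀ * q ^ n)) A
  haveI : CharZero K := charZero_of_injective_algebraMap (algebraMap ℚ K).injective
  haveI : CharZero (modField K (L₀ * q ^ n)) := charZero_of_injective_algebraMap
    (algebraMap K (modField K (L₀ * q ^ n))).injective
  haveI := MF.Coeff.isFunctionField_laurentBaseChange K (L₀ * q ^ n)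
  have ht := MF.Coeff.transcendental_jElem K (L₀ * q ^ n)
  have ht' : Transcendental K (jLevel K L₀ q n)⁻¹ := fun h => ht (by simpa using h.inv)
  have hne : jLevel K L₀ q n ≠ 0 := fun h => ht (by
    rw [show MF.Coeff.jElem K (L₀ * q ^ n) = 0 from h]; exact isAlgebraic_zero)
  have hf := chartRing_finite (W := A) (jLevel K L₀ q n) (injective_aeval_of_transcendental ht)
    (exists_span_closure_of_finiteDimensional (FF.finiteDimensional_adjoin ht))
  have hf' := chartRing_finite (W := A) (jLevel K L₀ q n)⁻¹ (injective_aeval_of_transcendental ht')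
    (exists_span_closure_of_finiteDimensional (FF.finiteDimensional_adjoin ht'))
  refine ⟨hf.2.1, hf.2.2, hf'.2.2, fun a ha => exists_mul_inv_pow_mem_chartRing hne ha,
    fun a ha => ?_, fun a h0 h1 => exists_const_of_mem_chartRing _ h0 h1⟩
  obtain ⟨N, hN⟩ := exists_mul_inv_pow_mem_chartRing (inv_ne_zero hne) ha
  rw [inv_inv] at hN
  exact ⟨N, hN⟩

end Fermat.Agent.CarayolHigh
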