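import Fermat.Agent.CarayolHigh.DivBranch
import Fermat.Agent.CarayolHigh.Units

/-!
The residue field of the branch `i` of `X₀(qⁿ L)` is the function field `C` of level `L` in
characteristic `q`, in the variable `x^(q^min(n, 2i))`.

On the branch `i` the powers of a uniformiser give `φ(q^min(i, n-i))` steps and the powers of `j̄`
give `q^(n - 2i)` residues independent over those of level `L`. Cut off by the separators all these
functions are independent over level `L`, and their number is the degree. So one further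
independent residue is impossible.
-/

set_option autoImplicit false
set_option linter.unusedSectionVars false

noncomputable section

open HahnSeries ModularCurve AlgebraicCurve
open Fermat.Agent.Igusa Fermat.Agent.RED.Spec Fermat.Agent.HK.Corr Fermat.Agent.Carayol

namespace Fermat.Agent.CarayolHigh

/-- `∑ φ(q^min(i, n-i)) q^(n-2i) = qⁿ + q^(n-1)`. -/
theorem sum_ram_mul_res {q : ℕ} (hq : q.Prime) : ∀ n, 1 ≤ n →
    ∑ i ∈ Finset.range (n + 1), (q ^ min i (n - i)).totient * q ^ (n - 2 * i) =
      q ^ n + q ^ (n - 1)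
  | 0, h => absurd h (by omega)
  | 1, _ => by simp [Finset.sum_range_succ]
  | 2, _ => by
    simp [Finset.sum_range_succ, Nat.totient_prime hq]
    have := hq.one_le
    omega
  | n + 3, _ => by
    set m := n + 1 with hm
    have ih := sum_ram_mul_res hq m (by omega)
    have hmid : ∀ i ∈ Finset.range (m + 1),
        (q ^ min (i + 1) (m + 2 - (i + 1))).totient * q ^ (m + 2 - 2 * (i + 1)) +
          ((if i = 0 then q ^ m else 0) + (if i = m then 1 else 0)) =
        q * ((q ^ min i (m - i)).totient * q ^ (m - 2 * i)) := by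
      intro i hi
      rw [Finset.mem_range] at hi
      rw [show m + 2 - 2 * (i + 1) = m - 2 * i by omega,
        show min (i + 1) (m + 2 - (i + 1)) = min i (m - i) + 1 by omega,
        Nat.totient_prime_pow_succ hq]
      have hq1 : q = q - 1 + 1 := by have := hq.one_le; omega
      rcases Nat.eq_zero_or_pos (min i (m - i)) with h0 | h0
      · rw [h0, pow_zero, one_mul, Nat.totient_one, one_mul]
        rw [show q * q ^ (m - 2 * i) = (q - 1) * q ^ (m - 2 * i) + q ^ (m - 2 * i) by
          rw [← add_one_mul, ← hq1]]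
        congr 1
        rcases Nat.eq_zero_or_pos i with rfl | hi0
        · simp [show (0 : ℕ) ≠ m by omega]
        · obtain rfl : i = m := by omega
          simp [show m ≠ 0 by omega, show m - 2 * m = 0 by omega]
      · obtain ⟨s, hs⟩ := Nat.exists_eq_add_of_le h0
        rw [if_neg (by omega), if_neg (by omega), show min i (m - i) = s + 1 by omega,
          Nat.totient_prime_pow_succ hq, pow_succ]
        ring
    have h := Finset.sum_congr rfl hmid
    rw [Finset.sum_add_distrib, Finset.sum_add_distrib, Finset.sum_ite_eq',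
      Finset.sum_ite_eq', ← Finset.mul_sum, ih] at h
    simp only [Finset.mem_range, show (0 : ℕ) < m + 1 by omega, Nat.lt_succ_self, if_true] at h
    rw [show n + 3 = m + 2 from rfl, Finset.sum_range_succ' _ (m + 2), Finset.sum_range_succ _ (m + 1)]
    have h2 : q ^ m = q * q ^ (m - 1) := by
      rw [← pow_succ', show m - 1 + 1 = m by omega]
    simp only [show m + 2 - (m + 1 + 1) = 0 by omega, Nat.min_zero, Nat.zero_min, pow_zero,
      Nat.totient_one, show m + 2 - 2 * (m + 1 + 1) = 0 by omega, Nat.mul_zero, Nat.sub_zero,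
      one_mul, mul_one, show m + 2 - 1 = m + 1 by omega]
    rw [mul_add, ← h2] at h
    have h3 : q ^ (m + 1) = q * q ^ m := pow_succ' q m
    omega

section Series

variable {k : Type} [Field k]

/-- Powers `< Q` of a series with a simple pole are independent over series in `x^Q`. -/
theorem eq_zero_of_sum_qExpand_mul_pow {Q : ℕ} [NeZero Q] {y : LaurentSeries k}
    (hy : HasLead y (-1) 1) (s : Fin Q → LaurentSeries k)
    (h : ∑ l : Fin Q, qExpand k Q (s l) * y ^ (l : ℕ) = 0) : s = 0 := by
  classical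
  by_contra hs
  obtain ⟨l₁, hl₁⟩ := Function.ne_iff.mp hs
  let S := Finset.univ.filter fun l => s l ≠ 0
  obtain ⟨l₀, hl₀, hmin⟩ := S.exists_min_image (fun l => (Q : ℤ) * (s l).order - (l : ℕ))
    ⟨l₁, by simpa [S] using hl₁⟩
  have hlead : ∀ l, s l ≠ 0 → HasLead (qExpand k Q (s l) * y ^ (l : ℕ))
      ((Q : ℤ) * (s l).order - (l : ℕ)) ((s l).coeff (s l).order) := by
    intro l hl
    have h1 : HasLead (s l) (s l).order ((s l).coeff (s l).order) :=
      ⟨(s l).powerSeriesPart, (LaurentSeries.single_order_mul_powerSeriesPart _).symm, by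
        rw [← PowerSeries.coeff_zero_eq_constantCoeff_apply, LaurentSeries.powerSeriesPart_coeff]
        simp⟩
    simpa [sub_eq_add_neg] using (h1.qExpand Q).mul (HasLead.pow' hy (l : ℕ))
  have hl₀' : s l₀ ≠ 0 := (Finset.mem_filter.mp hl₀).2
  have hc := congrArg (fun z : LaurentSeries k => z.coeff ((Q : ℤ) * (s l₀).order - (l₀ : ℕ))) h
  simp only [HahnSeries.coeff_sum, HahnSeries.coeff_zero] at hc
  rw [Finset.sum_eq_single l₀ (fun l _ hne => ?_) (by simp), (hlead l₀ hl₀').coeff_eq] at hc
  · exact hl₀' (HahnSeries.coeff_order_eq_zero.mp hc)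
  by_cases hl : s l = 0
  · simp [hl]
  refine (hlead l hl).coeff_of_lt (lt_of_le_of_ne (hmin l (by simp [S, hl])) fun he => hne ?_)
  have hd : (Q : ℤ) ∣ ((l : ℕ) : ℤ) - (l₀ : ℕ) :=
    ⟨(s l).order - (s l₀).order, by rw [mul_sub]; linarith⟩
  have hlt : |((l : ℕ) : ℤ) - (l₀ : ℕ)| < Q := by
    rw [abs_lt]; have := l.2; have := l₀.2; omega
  exact Fin.ext (by exact_mod_cast sub_eq_zero.mp (Int.eq_zero_of_abs_lt_dvd hd hlt))

/-- The function field in characteristic `q` is stable under `x ↦ x^(q^f)`. -/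
theorem qExpand_pow_mem_fullC {q : ℕ} [Fact q.Prime] [NeZero q] [CharP k q] {N : ℕ} :
    ∀ (f : ℕ) {x : LaurentSeries k}, x ∈ modularFunctionFieldFullC k N →
      qExpand k (q ^ f) x ∈ modularFunctionFieldFullC k N := by
  have h1 : ∀ x ∈ modularFunctionFieldFullC k N, qExpand k q x ∈ modularFunctionFieldFullC k N := by
    intro x hx
    have hle : modularFunctionFieldFullC k N ≤
        (modularFunctionFieldFullC k N).comap (qExpandAlgHomC k q) := by
      rw [modularFunctionFieldFullC, IntermediateField.adjoin_le_iff]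
      rintro y ⟨d, hd, hdN, rfl⟩
      show qExpand k q _ ∈ modularFunctionFieldFullC k N
      have hfix : coeffMap (frobenius k q) (qExpand k d (jqModC k)) = qExpand k d (jqModC k) := by
        rw [coeffMap_qExpand, coeffMap_jqModC]
      rw [← hfix, ← laurentSeries_pow_char]
      exact pow_mem (jqModCd_mem_full k N hdN) q
    exact hle hx
  intro f
  induction f with
  | zero =>
    intro x hx
    rwa [qExpand_congr (pow_zero q) x, qExpand_one_apply]
  | succ f ih =>
    intro x hx
    rw [qExpand_congr (pow_succ q f) x, ← qExpand_qExpand]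
    exact ih (h1 x hx)

end Series

section Count

variable {K' k : Type} [Field K'] [Field k] {O : ValuationSubring K'} {π : O →+* k}
  [IsDiscreteValuationRing O]

/-- Some member divides a finite family for the Gauss valuation. -/
theorem exists_isGauss_max {E : Type} [Field E] (φ : E →+* LaurentSeries K')
    (hπ : ∀ c, π c = 0 ↔ ¬ IsUnit c) (hφ : ∀ z, φ z ∈ fracSeries O) {J : Type} [Fintype J]
    {lam : J → E} {j₁ : J} (h : lam j₁ ≠ 0) :
    ∃ j₀, lam j₀ ≠ 0 ∧ ∀ j, ∃ r, IsGauss π (φ (lam j / lam j₀)) r := by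
  classical
  let G : GaussBranch O k E := ⟨π, hπ, φ, hφ⟩
  obtain ⟨j₀, -, hmax⟩ := (Finset.univ : Finset J).exists_max_image
    (fun j => G.V.valuation (lam j)) ⟨j₁, Finset.mem_univ _⟩
  have h0 : lam j₀ ≠ 0 := fun e => by
    have := hmax j₁ (Finset.mem_univ _)
    simp only [e, map_zero, le_zero_iff, map_eq_zero] at this
    exact h this
  refine ⟨j₀, h0, fun j => ?_⟩
  have hle : G.V.valuation (lam j / lam j₀) ≤ 1 := by
    rw [map_div₀, div_le_one₀ (zero_lt_iff.mpr (by simpa using h0))]
    exact hmax j (Finset.mem_univ _)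
  obtain ⟨a, b, hb, he⟩ := G.mem_V_iff.mp ((G.V.valuation_le_one_iff _).mp hle)
  exact ⟨_, a, b, hb, he, rfl⟩

variable {E F : Type} [Field E] [Field F] [Algebra E F] {I : Type} [Fintype I]
  (φE : E →+* LaurentSeries K') (ψ : I → F →+* LaurentSeries K') (Er : I → ℕ)
  (J : I → Type) [∀ i, Fintype (J i)]

/-- **The fundamental inequality.** Branch `i` with uniformiser `p i` of index `Er i` and residues
`rc i` independent over those of `E`, cut off by the separator `e i`. -/
theorem sum_mul_card_le [FiniteDimensional E F] (hπ : ∀ c, π c = 0 ↔ ¬ IsUnit c)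
    (hcomp : ∀ i z, ψ i (algebraMap E F z) = φE z)
    (hE : ∀ z, φE z ∈ fracSeries O) (hF : ∀ i x, ψ i x ∈ fracSeries O)
    (q : F) (qE : E) (hqE : algebraMap E F qE = q) (hqE0 : qE ≠ 0)
    (hq : ∀ i, IsGauss π (ψ i q) 0)
    (hdiv : ∀ z, IsGauss π (φE z) 0 → ∃ r, IsGauss π (φE (z / qE)) r)
    (p : I → F) (e : I → F) (c : (i : I) → J i → F) (rc : (i : I) → J i → LaurentSeries k)
    (hp : ∀ i, IsGauss π (ψ i (p i)) 0)
    (hpE : ∀ i, ∃ w, w ≠ 0 ∧ IsGauss π (ψ i (p i ^ Er i / q)) w)
    (he : ∀ i, ∃ s, s ≠ 0 ∧ IsGauss π (ψ i (e i)) s)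
    (he0 : ∀ i i', i' ≠ i → IsGauss π (ψ i' (e i)) 0)
    (hc : ∀ i l, IsGauss π (ψ i (c i l)) (rc i l))
    (hind : ∀ i (lam : J i → E) (rl : J i → LaurentSeries k),
      (∀ l, IsGauss π (φE (lam l)) (rl l)) → ∑ l, rl l * rc i l = 0 → ∀ l, rl l = 0) :
    ∑ i, Er i * Fintype.card (J i) ≤ Module.finrank E F := by
  classical
  have hq0 : q ≠ 0 := hqE ▸ (map_ne_zero _).mpr hqE0
  have hp0 : ∀ i, Er i ≠ 0 → p i ≠ 0 := fun i h0 hpi => by
    obtain ⟨w, hw, h⟩ := hpE i
    rw [hpi, zero_pow h0, zero_div, map_zero] at h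
    exact hw (h.unique isGauss_zero)
  let T := Σ i : I, Fin (Er i) × J i
  let b : T → F := fun t => p t.1 ^ (t.2.1 : ℕ) * c t.1 t.2.2
  -- cut off
  have hN : ∀ (t : T) (i' : I), ∃ N₀, ∀ N, N₀ ≤ N → i' ≠ t.1 →
      IsGauss π (ψ i' (e t.1 ^ N * b t / q)) 0 := by
    intro t i'
    by_cases hi : i' = t.1
    · exact ⟨0, fun _ _ h => absurd hi h⟩
    obtain ⟨N₀, hN₀⟩ := exists_pow_mul_isGauss_zero hπ (he0 t.1 i' hi) (hF i' (b t / q))
    refine ⟨N₀, fun N hN _ => ?_⟩
    rw [mul_div_assoc, map_mul, map_pow]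
    exact hN₀ N hN
  choose N₀ hN₀ using hN
  let N := Finset.univ.sup fun ti : T × I => N₀ ti.1 ti.2
  let v : T → F := fun t => e t.1 ^ N * b t
  suffices hv : LinearIndependent E v by
    have h := hv.fintype_card_le_finrank
    simpa [T] using h
  rw [Fintype.linearIndependent_iff]
  intro g hg t₁
  by_contra hne
  obtain ⟨t₀, ht₀, hmax⟩ := exists_isGauss_max φE hπ hE hne
  choose rl hrl using hmax
  -- the term at `t` on the branch `i`, divided by `q`, off its own branch
  have hoff : ∀ t i, i ≠ t.1 → IsGauss π (ψ i ((g t / g t₀) • v t / q)) 0 := by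
    intro t i hi
    rw [Algebra.smul_def, mul_div_assoc, map_mul, hcomp]
    have := (hrl t).mul (hN₀ t i N (Finset.le_sup (f := fun ti : T × I => N₀ ti.1 ti.2)
      (Finset.mem_univ (t, i))) hi)
    rwa [mul_zero] at this
  have hzero : ∑ t, (g t / g t₀) • v t = 0 := by
    simp only [div_eq_inv_mul, ← smul_smul]
    rw [← Finset.smul_sum, hg, smul_zero]
  -- every residue vanishes
  have hall : ∀ (i : I) (j : ℕ), ∀ t : T, t.1 = i → (t.2.1 : ℕ) < j → rl t = 0 := by
    intro i j
    induction j with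
    | zero => intro t _ h; omega
    | succ j ih =>
      intro t ht hj
      rcases lt_or_eq_of_le (Nat.le_of_lt_succ hj) with hj' | hj'
      · exact ih t ht hj'
      obtain ⟨w, hw, hwi⟩ := hpE i
      obtain ⟨s, hs, hsi⟩ := he i
      have hEi : j < Er i := by rw [← hj', ← ht]; exact t.2.1.2
      have hpi := hp0 i (by omega)
      -- `q / p^j` has residue zero
      have hqp : IsGauss π (ψ i (q / p i ^ j)) 0 := by
        have hwinv : IsGauss π (ψ i (p i ^ Er i / q))⁻¹ w⁻¹ := by
          obtain ⟨a', b', hb', he', hr'⟩ := hwi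
          have ha' : coeffMap π a' ≠ 0 := fun h0 => hw (by rw [hr', h0, zero_div])
          refine ⟨b', a', ha', ?_, by rw [hr', inv_div]⟩
          rw [← he', ← mul_assoc, inv_mul_cancel₀ (fun h0 => ha' ?_), one_mul]
          rw [h0, zero_mul] at he'
          rw [intSeries_injective O (he'.symm.trans (map_zero (intSeries O)).symm), map_zero]
        have h1 := hwinv.mul ((hp i).pow (Er i - j))
        rw [zero_pow (by omega), mul_zero] at h1
        convert h1 using 1
        rw [← map_inv₀, ← map_pow, ← map_mul, inv_div]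
        congr 1
        rw [show Er i = j + (Er i - j) by omega, _root_.pow_add, Nat.add_sub_cancel_left]
        field_simp [hpi, hq0]
      -- every term divided by `p^j`
      have hterm : ∀ u : T, IsGauss π (ψ i ((g u / g t₀) • v u / p i ^ j))
          (if u.1 = i ∧ (u.2.1 : ℕ) = j then s ^ N * rl u * rc u.1 u.2.2 else 0) := by
        intro u
        by_cases hui : u.1 = i
        · subst hui
          have hval : ψ u.1 ((g u / g t₀) • v u / p u.1 ^ j) = φE (g u / g t₀) * ψ u.1 (e u.1) ^ N *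
              ψ u.1 (c u.1 u.2.2) * ψ u.1 (p u.1 ^ (u.2.1 : ℕ) / p u.1 ^ j) := by
            rw [Algebra.smul_def, mul_div_assoc, map_mul, hcomp]
            simp only [v, b, map_mul, map_pow, map_div₀]
            ring
          rcases lt_trichotomy (u.2.1 : ℕ) j with hlt | heq | hgt
          · have hz : IsGauss π (φE (g u / g t₀)) 0 := by
              have := hrl u; rwa [ih u rfl hlt] at this
            obtain ⟨r', hr'⟩ := hdiv _ hz
            have h1 := ((hr'.mul (hsi.pow N)).mul (hc u.1 u.2.2)).mul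
              (hqp.mul ((hp u.1).pow (u.2.1 : ℕ)))
            rw [if_neg (by omega)]
            rw [zero_mul, mul_zero] at h1
            convert h1 using 1
            rw [hval, map_div₀ φE (g u / g t₀) qE, ← hcomp u.1 qE, hqE, map_div₀ (ψ u.1) q,
              map_div₀ (ψ u.1) (p u.1 ^ (u.2.1 : ℕ)), map_pow, map_pow]
            field_simp [(map_ne_zero (ψ u.1)).mpr hq0]
          · rw [if_pos ⟨rfl, heq⟩, hval, heq, div_self (pow_ne_zero _ hpi), map_one, mul_one]
            have h1 := ((hrl u).mul (hsi.pow N)).mul (hc u.1 u.2.2)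
            convert h1 using 1
            ring
          · rw [if_neg (by omega), hval]
            have h1 := (((hrl u).mul (hsi.pow N)).mul (hc u.1 u.2.2)).mul
              ((hp u.1).pow ((u.2.1 : ℕ) - j))
            rw [zero_pow (by omega), mul_zero] at h1
            convert h1 using 2
            rw [← map_pow]
            congr 1
            rw [div_eq_iff (pow_ne_zero _ hpi), ← _root_.pow_add]
            congr 1
            omega
        · rw [if_neg (fun h => hui h.1)]
          have h1 := (hoff u i (Ne.symm hui)).mul hqp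
          rw [zero_mul, ← map_mul] at h1
          convert h1 using 2
          field_simp [hq0, hpi]
      have hsum := IsGauss.sum Finset.univ fun u _ => hterm u
      rw [← map_sum, ← Finset.sum_div, hzero, zero_div, map_zero] at hsum
      have h0 := (isGauss_zero (π := π)).unique hsum
      -- the terms of index `j`
      have hre : (∑ u : T, if u.1 = i ∧ (u.2.1 : ℕ) = j then s ^ N * rl u * rc u.1 u.2.2 else 0) =
          s ^ N * ∑ l : J i, rl ⟨i, ⟨j, hEi⟩, l⟩ * rc i l := by
        rw [Finset.mul_sum, Fintype.sum_sigma, Finset.sum_eq_single i ?_ (by simp),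
          Fintype.sum_prod_type, Finset.sum_eq_single (⟨j, hEi⟩ : Fin (Er i)) ?_ (by simp)]
        · refine Finset.sum_congr rfl fun l _ => ?_
          rw [if_pos ⟨rfl, rfl⟩, mul_assoc]
        · intro j' _ hne'
          exact Finset.sum_eq_zero fun l _ => if_neg fun h => hne' (Fin.ext h.2)
        · intro i' _ hne'
          exact Finset.sum_eq_zero fun x _ => if_neg fun h => hne' h.1
      rw [hre] at h0
      have hz := hind i (fun l => g ⟨i, ⟨j, hEi⟩, l⟩ / g t₀) (fun l => rl ⟨i, ⟨j, hEi⟩, l⟩)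
        (fun l => hrl _) ((mul_eq_zero.mp h0.symm).resolve_left (pow_ne_zero _ hs))
      obtain ⟨i', ⟨j', l⟩⟩ := t
      simp only at ht hj'
      subst ht
      convert hz l using 2
      exact Sigma.ext rfl (heq_of_eq (Prod.ext (Fin.ext hj') rfl))
  have h1 := hrl t₀
  rw [div_self ht₀, map_one, hall t₀.1 ((t₀.2.1 : ℕ) + 1) t₀ rfl (Nat.lt_succ_self _)] at h1
  exact one_ne_zero (isGauss_one.unique h1)

end Count

section Level

variable {L q n : ℕ} [NeZero L] [NeZero q] {K K' k : Type} [Field K] [Algebra ℚ K] [Field K']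
  [Algebra ℚ K'] [Field k] [Fact q.Prime] [CharP k q] {κ : K →+* K'} {O : ValuationSubring K'}
  [IsDiscreteValuationRing O] {π : O →+* k}

/-- The degree over level `L`. -/
theorem finrank_level (hq : q.Prime) (hqL : ¬ q ∣ L) (hn : 0 < n) (h : L * 1 ∣ L * q ^ n) :
    letI := algebraAlong (degenMap K 1 h)
    Module.finrank (modField K L) (modField K (L * q ^ n)) = q ^ n + q ^ (n - 1) := by
  letI := algebraAlong (degenMap K 1 h)
  obtain ⟨m, rfl⟩ := Nat.exists_eq_succ_of_ne_zero hn.ne'
  have h1 := finrankAlong_degenMap (degreeInput K) 1 h (MF.Coeff.functionFieldGeneration 1)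
  rw [dedekindPsi_mul_prime_pow hq hqL] at h1
  exact Nat.eq_of_mul_eq_mul_left (psi_pos L) h1

/-- A generator on a branch is Gauss integral, with residue its value at the trivial root. -/
theorem isGauss_branchTerm {i : ℕ} {ζ : K'ˣ} (hζ : ζ ^ q ^ n = 1) (k' : ℕ) (x : LaurentSeries ℤ) :
    IsGauss π (branchTerm n i ζ q k' (coeffMap (Int.castRingHom K') x))
      (branchTerm n i (1 : kˣ) q k' (coeffMap (Int.castRingHom k) x)) := by
  obtain ⟨v, hv, hv1⟩ := exists_unit_res_one (π := π) hζ
  have h := isGauss_int (π := π) (branchTerm n i v q k' (coeffMap (Int.castRingHom O) x))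
  rwa [intSeries, coeffMap_branchTerm, coeffMap_branchTerm, coeffMap_coeffMap, coeffMap_coeffMap,
    show Units.map O.subtype.toMonoidHom v = ζ from Units.ext hv,
    show Units.map π.toMonoidHom v = 1 from Units.ext hv1,
    RingHom.ext_int (O.subtype.comp (Int.castRingHom O)) (Int.castRingHom K'),
    RingHom.ext_int (π.comp (Int.castRingHom O)) (Int.castRingHom k)] at h

/-- The separator on a branch. -/
theorem isGauss_sepVal {i i' : ℕ} {ζ : K'ˣ} (hζ : ζ ^ q ^ n = 1) :
    IsGauss π (sepVal n i' ζ q i) (sepVal n i' (1 : kˣ) q i) := by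
  obtain ⟨v, hv, hv1⟩ := exists_unit_res_one (π := π) hζ
  have h := isGauss_int (π := π) (sepVal n i' v q i)
  rwa [intSeries, coeffMap_sepVal, coeffMap_sepVal,
    show Units.map O.subtype.toMonoidHom v = ζ from Units.ext hv,
    show Units.map π.toMonoidHom v = 1 from Units.ext hv1] at h

/-- Branches have values among quotients of integral series. -/
theorem mem_fracSeries_of_branch (hq : q.Prime) (hqL : ¬ q ∣ L) {i : ℕ} {ζ : K'ˣ}
    (hζ : ζ ^ q ^ n = 1) {φ : modField K (L * q ^ n) →+* LaurentSeries K'}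
    (hφ : IsSubst κ φ (branchVal hq hqL i ζ)) (π : O →+* k) (x : modField K (L * q ^ n)) :
    φ x ∈ fracSeries O := by
  refine hφ.mem_fracSeries (fun d => ?_) x
  have h := isGauss_branchTerm (π := π) (i := i) hζ (qExpN hq d) (genSer ℤ (freeIdxN hq hqL d))
  rw [coeffMap_genSer] at h
  exact h.mem_fracSeries

/-- The uniformiser of an interior branch and the residue of its `E`-th power over `q`. -/
theorem exists_turn (hπ : ∀ c, π c = 0 ↔ ¬ IsUnit c) (hq : q.Prime) (hqL : ¬ q ∣ L) {i : ℕ}
    (hi : 0 < i) (hin : i < n) {ζ : K'ˣ} (hprim : IsPrimitiveRoot ζ (q ^ n))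
    {φ : modField K (L * q ^ n) →+* LaurentSeries K'} (hφ : IsSubst κ φ (branchVal hq hqL i ζ)) :
    ∃ p : modField K (L * q ^ n), IsGauss π (φ p) 0 ∧
      ∃ w, w ≠ 0 ∧ IsGauss π (φ (p ^ (q ^ min i (n - i)).totient / (q : ℕ))) w := by
  classical
  let J : ∀ a, a ≤ n → modField K (L * q ^ n) := fun a ha =>
    ⟨genSer K (⟨q ^ a, pow_pos hq.pos a, (pow_dvd_pow q ha).trans (dvd_mul_left _ _)⟩ :
      DivIdx (L * q ^ n)), genSer_mem _⟩
  have hJ : ∀ a (ha : a ≤ n), φ (J a ha) = branchTerm n i ζ q a (genSer K' (oneIdx L)) := fun a ha => by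
    rw [hφ.gen, branchVal_eq hq hqL _ _ (oneIdx L) (k := a) (one_mul _).symm]
  obtain ⟨r, N, _, μ, p, hrs, hμ, hp⟩ : ∃ (r N : ℕ) (_ : NeZero N) (μ : K'ˣ)
      (p : modField K (L * q ^ n)), min i (n - i) = r + 1 ∧ IsPrimitiveRoot (μ : K') (q ^ (r + 1)) ∧
        φ p = qExpand K' N (qScale μ (genSer K' (oneIdx L)) - genSer K' (oneIdx L)) := by
    have hζ' : IsPrimitiveRoot (ζ : K') (q ^ n) := IsPrimitiveRoot.coe_units_iff.mpr hprim
    rcases le_or_gt (2 * i) n with h | h
    · refine ⟨i - 1, q ^ n, inferInstance, ζ ^ q ^ (n - i), J (2 * i) h - J 0 (Nat.zero_le n),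
        by omega, ?_, ?_⟩
      · rw [show i - 1 + 1 = i by omega]
        exact isPrimitiveRoot_turn (by omega) hζ'
      · rw [map_sub, hJ (2 * i) h, hJ 0 (Nat.zero_le n), branchTerm_turn_low hi h]
    · refine ⟨n - i - 1, q ^ (2 * i), inferInstance, ζ ^ q ^ i,
        J n le_rfl - J (2 * i - n) (by omega), by omega, ?_, ?_⟩
      · rw [show n - i - 1 + 1 = n - i by omega]
        have h' := isPrimitiveRoot_turn (r := n - i) (Nat.sub_le n i) hζ'
        rwa [show n - (n - i) = i by omega] at h'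
      · rw [map_sub, hJ n le_rfl, hJ (2 * i - n) (by omega), branchTerm_turn_high h.le hin]
  have hμ1 : μ ^ q ^ (r + 1) = 1 :=
    Units.ext (by rw [Units.val_pow_eq_pow_val, hμ.pow_eq_one, Units.val_one])
  obtain ⟨μ', hμ', hμres⟩ := exists_unit_res_one (π := π) hμ1
  have hμO : IsPrimitiveRoot (μ' : O) (q ^ (r + 1)) :=
    IsPrimitiveRoot.of_map_of_injective (f := O.subtype) (by rw [← hμ'] at hμ; exact hμ)
      Subtype.val_injective
  obtain ⟨v, w, hv, hvw, hw⟩ := exists_turn_pow π hμO N (genSer O (oneIdx L))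
  have hint : intSeries O (qExpand O N (qScale μ' (genSer O (oneIdx L)) - genSer O (oneIdx L))) =
      φ p := by
    rw [hp, intSeries, coeffMap_qExpand, map_sub, coeffMap_qScale, coeffMap_genSer,
      show Units.map O.subtype.toMonoidHom μ' = μ from Units.ext hμ']
  refine ⟨p, ?_, ?_⟩
  · have h := isGauss_int (π := π)
      (qExpand O N (qScale μ' (genSer O (oneIdx L)) - genSer O (oneIdx L)))
    rwa [hint, coeffMap_qExpand, map_sub, coeffMap_qScale,
      show Units.map π.toMonoidHom μ' = 1 from Units.ext hμres, qScale_one, RingHom.id_apply,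
      sub_self, map_zero] at h
  obtain ⟨v', hv'⟩ := (not_not.mp fun h => hv ((hπ _).mpr h) : IsUnit v).exists_right_inv
  refine ⟨coeffMap π (HahnSeries.C v' * w), ?_, ?_⟩
  · rw [map_mul, coeffMap_C', hw, coeffMap_genSer]
    refine mul_ne_zero (HahnSeries.C_ne_zero fun h => ?_) ((_root_.map_ne_zero_iff _
      (qExpand_injective (R := k) (N := N))).mpr (pow_ne_zero _ ?_))
    · have := congrArg π hv'
      rw [map_mul, h, mul_zero, map_one] at this
      exact zero_ne_one this
    · intro h0
      have h1 := congrArg (fun z : LaurentSeries k => z.coeff (-1)) h0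
      simp [show (genSer k (oneIdx L)).coeff (-1) = 1 from hasLead_one_idx.coeff_eq] at h1
  · have hq0 : ((q : ℕ) : LaurentSeries K') ≠ 0 := by
      have : CharZero K' := charZero_of_injective_algebraMap (algebraMap ℚ K').injective
      rw [← map_natCast HahnSeries.C]
      exact HahnSeries.C_ne_zero (Nat.cast_ne_zero.mpr hq.ne_zero)
    convert isGauss_int (π := π) (HahnSeries.C v' * w) using 1
    rw [map_div₀, map_natCast, map_pow, hrs, ← hint, ← map_pow, div_eq_iff hq0,
      ← map_natCast (intSeries O), ← map_mul]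
    refine congrArg _ ?_
    rw [← map_natCast HahnSeries.C, mul_right_comm, mul_assoc (HahnSeries.C v'), ← hvw,
      ← mul_assoc, ← map_mul, mul_comm v' v, hv', map_one, one_mul]

/-- **The residues on the branch `i` lie in the function field of level `L`.** -/
theorem residue_mem_fullC (ι : K' →+* ℂ) (ι₀ : K →+* ℂ) (hπ : ∀ c, π c = 0 ↔ ¬ IsUnit c)
    {A : ValuationSubring K} (hA : ∀ a ∈ A, κ a ∈ O)
    (hsurj : ∀ y : k, ∃ (a : K) (ha : a ∈ A), π ⟨κ a, hA a ha⟩ = y)
    (hAq : ∀ a : A, π (constMap hA a) = 0 → (q : A) ∣ a) (hL : (L : k) ≠ 0)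
    (hq : q.Prime) (hqL : ¬ q ∣ L) (hn : 0 < n) (ζ : Fin (n + 1) → K'ˣ)
    (hζ : ∀ i, ζ i ^ q ^ n = 1)
    (hprim : ∀ i : Fin (n + 1), 0 < (i : ℕ) → (i : ℕ) < n → IsPrimitiveRoot (ζ i) (q ^ n))
    (φ : Fin (n + 1) → modField K (L * q ^ n) →+* LaurentSeries K')
    (hφ : ∀ i : Fin (n + 1), IsSubst κ (φ i) (branchVal hq hqL i (ζ i)))
    {i₀ : Fin (n + 1)} {x : modField K (L * q ^ n)} {R : LaurentSeries k}
    (hx : IsGauss π (φ i₀ x) R) :
    ∃ r ∈ modularFunctionFieldFullC k L, R = qExpand k (q ^ min n (2 * (i₀ : ℕ))) r := by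
  classical
  by_contra hR
  push Not at hR
  have hdvd : L * 1 ∣ L * q ^ n := mul_dvd_mul_left L (one_dvd _)
  letI := algebraAlong (degenMap K 1 hdvd)
  have : CharZero K := charZero_of_injective_algebraMap (algebraMap ℚ K).injective
  have : CharZero K' := charZero_of_injective_algebraMap (algebraMap ℚ K').injective
  have : CharZero (modField K L) :=
    charZero_of_injective_algebraMap (algebraMap K (modField K L)).injective
  let φE := (qExpand K' (q ^ n)).comp (baseEmb κ L)
  have hcomp : ∀ i z, φ i (algebraMap (modField K L) (modField K (L * q ^ n)) z) = φE z := by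
    intro i z
    refine DFunLike.congr_fun (f := (φ i).comp
      (degenMap K 1 hdvd : modField K L →+* modField K (L * q ^ n))) ?_ z
    refine ((hφ i).comp_degen 1 hdvd).ext ((isSubst_baseEmb κ L).qExpand_comp (q ^ n)) fun d => ?_
    rw [branchVal_eq hq hqL _ _ d (k := 0) (by rw [coe_mulIdx, one_mul, pow_zero, mul_one]),
      branchTerm, if_pos (Nat.zero_le _)]
    exact qExpand_congr (by rw [Nat.add_zero]) _
  have hF := fun i => mem_fracSeries_of_branch hq hqL (hζ i) (hφ i) π
  have hE : ∀ z, φE z ∈ fracSeries O := fun z => hcomp i₀ z ▸ hF i₀ _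
  have hqO : (q : O) ≠ 0 := fun h => Nat.cast_ne_zero.mpr hq.ne_zero
    (show ((q : ℕ) : K') = 0 by simpa using congrArg O.subtype h)
  have hfin := finrank_level (K := K) hq hqL hn hdvd
  have : FiniteDimensional (modField K L) (modField K (L * q ^ n)) :=
    Module.finite_of_finrank_pos (by rw [hfin]; exact Nat.add_pos_left (pow_pos hq.pos n) _)
  -- `q`
  have hπq : π (q : O) = 0 := by rw [map_natCast, CharP.cast_eq_zero]
  have hgq : ∀ i, IsGauss π (φ i ((q : ℕ) : modField K (L * q ^ n))) 0 := fun i => by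
    have h := isGauss_int (π := π) (HahnSeries.C (q : O))
    rwa [coeffMap_C', hπq, map_zero, map_natCast, map_natCast, ← map_natCast (φ i)] at h
  have hqF : ((q : ℕ) : modField K (L * q ^ n)) ≠ 0 := by
    have : CharZero (modField K (L * q ^ n)) :=
      charZero_of_injective_algebraMap (algebraMap K _).injective
    exact Nat.cast_ne_zero.mpr hq.ne_zero
  -- uniformisers
  have hturn : ∀ i : Fin (n + 1), ∃ p, IsGauss π (φ i p) 0 ∧ ∃ w, w ≠ 0 ∧
      IsGauss π (φ i (p ^ (q ^ min (i : ℕ) (n - i)).totient / (q : ℕ))) w := by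
    intro i
    by_cases h : 0 < (i : ℕ) ∧ (i : ℕ) < n
    · exact exists_turn hπ hq hqL h.1 h.2 (hprim i h.1 h.2) (hφ i)
    · refine ⟨(q : ℕ), hgq i, 1, one_ne_zero, ?_⟩
      rw [show min (i : ℕ) (n - i) = 0 by have := i.2; omega, pow_zero, Nat.totient_one, pow_one,
        div_self hqF, map_one]
      exact isGauss_one
  choose p hp hpE using hturn
  -- separators
  let e : Fin (n + 1) → modField K (L * q ^ n) := fun i =>
    ⟨sepFin K q n i, sepFin_mem ι₀ (Nat.le_of_lt_succ i.2)⟩
  have hes : ∀ i i' : Fin (n + 1), IsGauss π (φ i' (e i)) (sepVal n i' (1 : kˣ) q i) :=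
      fun i i' => by
    rw [branch_sepFin ι hq hqL (hζ i') (hprim i') (hφ i') ι₀ (Nat.le_of_lt_succ i.2)]
    exact isGauss_sepVal (hζ i')
  -- residues
  let top : Fin (n + 1) → ℕ := fun i => if 2 * (i : ℕ) ≤ n then n else 0
  have htop : ∀ i, top i ≤ n := fun i => by simp only [top]; split_ifs <;> omega
  let T : Fin (n + 1) → modField K (L * q ^ n) := fun i =>
    ⟨genSer K (⟨q ^ top i, pow_pos hq.pos _, (pow_dvd_pow q (htop i)).trans (dvd_mul_left _ _)⟩ :
      DivIdx (L * q ^ n)), genSer_mem _⟩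
  have hT : ∀ i : Fin (n + 1),
      IsGauss π (φ i (T i)) (qExpand k (q ^ min n (2 * (i : ℕ))) (genSer k (oneIdx L))) := by
    intro i
    rw [(hφ i).gen, branchVal_eq hq hqL _ _ (oneIdx L) (k := top i) (one_mul _).symm]
    have h := isGauss_branchTerm (π := π) (n := n) (i := i) (hζ i) (top i) (genSer ℤ (oneIdx L))
    rw [coeffMap_genSer, coeffMap_genSer, branchTerm_one] at h
    convert h using 1
    refine qExpand_congr ?_ _
    congr 1
    simp only [top]
    split_ifs <;> omega
  let J : Fin (n + 1) → Type := fun i => Fin (q ^ (n - 2 * (i : ℕ))) ⊕ PLift (i = i₀)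
  let c : (i : Fin (n + 1)) → J i → modField K (L * q ^ n) := fun i =>
    Sum.elim (fun l => T i ^ (l : ℕ)) fun _ => x
  let rc : (i : Fin (n + 1)) → J i → LaurentSeries k := fun i =>
    Sum.elim (fun l => qExpand k (q ^ min n (2 * (i : ℕ))) (genSer k (oneIdx L) ^ (l : ℕ))) fun _ => R
  have hmain := sum_mul_card_le (π := π) φE φ
    (fun i => (q ^ min (i : ℕ) (n - i)).totient) J hπ hcomp hE hF
    ((q : ℕ) : modField K (L * q ^ n)) (q : ℕ) (map_natCast _ _)
    (Nat.cast_ne_zero.mpr hq.ne_zero) hgq ?_ p e c rc hp hpE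
    (fun i => ⟨_, (isUnit_sepVal_one (Nat.le_of_lt_succ i.2)).ne_zero, hes i i⟩)
    (fun i i' hne => ?_) (fun i l => ?_) (fun i lam rl hrl hsum => ?_)
  · rw [hfin, ← sum_ram_mul_res hq n hn,
      ← Fin.sum_univ_eq_sum_range fun i => (q ^ min i (n - i)).totient * q ^ (n - 2 * i)] at hmain
    simp only [J, Fintype.card_sum, Fintype.card_fin, mul_add, Finset.sum_add_distrib] at hmain
    have h1 := Finset.single_le_sum
      (f := fun i : Fin (n + 1) =>
        (q ^ min (i : ℕ) (n - i)).totient * Fintype.card (PLift (i = i₀)))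
      (fun _ _ => Nat.zero_le _) (Finset.mem_univ i₀)
    have h2 : 0 < (q ^ min (i₀ : ℕ) (n - i₀)).totient * Fintype.card (PLift (i₀ = i₀)) :=
      Nat.mul_pos (Nat.totient_pos.mpr (pow_pos hq.pos _))
        (Fintype.card_pos_iff.mpr ⟨⟨rfl⟩⟩)
    omega
  · intro z hz
    rw [← hcomp (Fin.last n)] at hz
    obtain ⟨r, hr⟩ := isGauss_mul_pow_div (π := π) hA hπ hq hqL hAq hqO
      (Nat.le_of_lt_succ (Fin.last n).2) (hζ _) (hprim _) (hφ _) hz hz
    refine ⟨r, ?_⟩
    simp only [Fin.val_last, Nat.sub_self, Nat.min_zero, pow_zero, Nat.totient_one, mul_one] at hr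
    rwa [← hcomp (Fin.last n), map_div₀ (algebraMap (modField K L) _), map_natCast]
  · have h := hes i i'
    rwa [sepVal_one_of_ne (Nat.le_of_lt_succ i'.2) (Fin.val_ne_of_ne hne)] at h
  · rcases l with l | ⟨⟨rfl⟩⟩
    · show IsGauss π (φ i (T i ^ (l : ℕ))) (qExpand k _ (genSer k (oneIdx L) ^ (l : ℕ)))
      rw [map_pow, map_pow]
      exact (hT i).pow _
    · exact hx
  -- independence
  have hs : ∀ l, ∃ s ∈ modularFunctionFieldFullC k L, rl l = qExpand k (q ^ n) s := fun l => by
    obtain ⟨s, hs1, hs2⟩ := exists_isGauss_of_qExpand hπ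
      ((isSubst_baseEmb κ L).mem_fracSeries (fun d => genSer_mem_fracSeries O d) _) (hrl l)
    exact ⟨s, isGauss_baseEmb_mem A hA hsurj hL hs1, hs2⟩
  choose s hsC hsr using hs
  set m := min n (2 * (i : ℕ)) with hm
  set f := n - 2 * (i : ℕ) with hf
  have hrl' : ∀ l, rl l = qExpand k (q ^ m) (qExpand k (q ^ f) (s l)) := fun l => by
    rw [hsr l, qExpand_qExpand]
    exact qExpand_congr (by rw [← _root_.pow_add]; congr 1; omega) _
  set y := genSer k (oneIdx L) with hy
  have hyC : y ∈ modularFunctionFieldFullC k L := by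
    rw [hy, show genSer k (oneIdx L) = qExpand k 1 (jqModC k) from rfl]
    exact jqModCd_mem_full k L (one_dvd L)
  rw [Fintype.sum_sum_type] at hsum
  simp only [rc, Sum.elim_inl, Sum.elim_inr, hrl', ← hm, ← hy, ← map_mul, ← map_sum] at hsum
  have hextra : ∀ u : PLift (i = i₀), s (.inr u) = 0 := by
    rintro ⟨rfl⟩
    by_contra hne
    have hne' : qExpand k (q ^ f) (s (.inr ⟨rfl⟩)) ≠ 0 :=
      (_root_.map_ne_zero_iff _ (qExpand_injective (R := k) (N := q ^ f))).mpr hne
    refine hR _ (neg_mem (div_mem (sum_mem fun l (_ : l ∈ Finset.univ) =>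
      mul_mem (qExpand_pow_mem_fullC f (hsC (.inl l))) (pow_mem hyC (l : ℕ)))
        (qExpand_pow_mem_fullC f (hsC (.inr ⟨rfl⟩))))) ?_
    rw [Fintype.sum_subsingleton (_ : PLift (i = i) → LaurentSeries k) ⟨rfl⟩] at hsum
    rw [map_neg, map_div₀, ← neg_div, eq_div_iff ((_root_.map_ne_zero_iff _
      (qExpand_injective (R := k) (N := q ^ m))).mpr hne'), mul_comm]
    exact eq_neg_of_add_eq_zero_right hsum
  have hrest : ∀ u : PLift (i = i₀), qExpand k (q ^ m) (qExpand k (q ^ f) (s (.inr u))) * R = 0 :=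
    fun u => by rw [hextra u, map_zero, map_zero, zero_mul]
  rw [Finset.sum_eq_zero (s := (Finset.univ : Finset (PLift (i = i₀)))) fun u _ => hrest u,
    add_zero, map_eq_zero_iff _ (qExpand_injective (R := k) (N := q ^ m))] at hsum
  have hz := eq_zero_of_sum_qExpand_mul_pow hasLead_one_idx (fun l => s (.inl l)) hsum
  rintro (l | u)
  · rw [hrl', congrFun hz l, Pi.zero_apply, map_zero, map_zero]
  · rw [hrl', hextra u, map_zero, map_zero]

end Level

end Fermat.Agent.CarayolHigh
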