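/-
The branches of `X₀(qⁿ L)` at a place over `q`: valuation rings, residue maps into the function field
of level `L` in characteristic `q`, normalised orders and separators.
-/
import Fermat.Agent.CarayolHigh.Chart
import Fermat.Agent.CarayolHigh.Residues
import Fermat.Agent.Carayol.BranchData

set_option autoImplicit false
set_option linter.unusedSectionVars false
set_option linter.style.haveILetI false

noncomputable section

open HahnSeries ModularCurve
open Fermat.Agent.Igusa Fermat.Agent.RED.Spec Fermat.Agent.HK.Corr Fermat.Agent.Carayol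

namespace Fermat.Agent.CarayolHigh

/-- An integer valued homomorphism with a positive value, normalised to be surjective. -/
theorem exists_normalised {F : Type} [Field F] (z : F → ℤ)
    (hz : ∀ a b, a ≠ 0 → b ≠ 0 → z (a * b) = z a + z b) {a₀ : F} (h₀ : a₀ ≠ 0) (h₀' : 0 < z a₀) :
    ∃ (d : ℤ) (ord : F → ℤ) (p : F), 0 < d ∧ p ≠ 0 ∧ z p = d ∧ ord p = 1 ∧
      (∀ a, a ≠ 0 → z a = d * ord a) ∧
      ∀ a b, a ≠ 0 → b ≠ 0 → ord (a * b) = ord a + ord b := by
  classical
  have hex : ∃ m : ℕ, 0 < m ∧ ∃ p : F, p ≠ 0 ∧ z p = m :=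
    ⟨(z a₀).toNat, by omega, a₀, h₀, (Int.toNat_of_nonneg h₀'.le).symm⟩
  obtain ⟨hd, p, hp, hzp⟩ := Nat.find_spec hex
  set d : ℕ := Nat.find hex with hd'
  have hone : z 1 = 0 := by
    have := hz 1 1 one_ne_zero one_ne_zero
    rw [mul_one] at this
    omega
  have hpow : ∀ t : ℤ, z (p ^ t) = t * z p := by
    intro t
    induction t with
    | zero => simp [hone]
    | succ i ih => rw [zpow_add_one₀ hp, hz _ _ (zpow_ne_zero _ hp) hp, ih]; ring
    | pred i ih =>
      have h := hz (p ^ (-(i : ℤ) - 1)) p (zpow_ne_zero _ hp) hp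
      rw [← zpow_add_one₀ hp, sub_add_cancel, ih] at h
      linarith
  have hdvd : ∀ a : F, a ≠ 0 → (d : ℤ) ∣ z a := fun a ha => by
    by_contra hnd
    have hd0 : (d : ℤ) ≠ 0 := by exact_mod_cast hd.ne'
    have hr0 : 0 < z a % d := lt_of_le_of_ne (Int.emod_nonneg _ hd0) fun h =>
      hnd (Int.dvd_of_emod_eq_zero h.symm)
    have hb : z (a * p ^ (-(z a / d))) = z a % d := by
      rw [hz _ _ ha (zpow_ne_zero _ hp), hpow, hzp, Int.emod_def]
      ring
    have hlt := Int.emod_lt_of_pos (z a) (show (0 : ℤ) < d by exact_mod_cast hd)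
    have := Nat.find_min' hex (m := (z a % d).toNat) ⟨by omega, _,
      mul_ne_zero ha (zpow_ne_zero _ hp), hb.trans (Int.toNat_of_nonneg hr0.le).symm⟩
    omega
  have hd0 : (d : ℤ) ≠ 0 := by exact_mod_cast hd.ne'
  refine ⟨d, fun a => z a / d, p, by exact_mod_cast hd, hp, hzp,
    by show z p / (d : ℤ) = 1; rw [hzp, Int.ediv_self hd0],
    fun a ha => (Int.mul_ediv_cancel' (hdvd a ha)).symm,
    fun a b ha hb => ?_⟩
  show z (a * b) / (d : ℤ) = _
  rw [hz a b ha hb, Int.add_ediv_of_dvd_left (hdvd a ha)]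

variable {K : Type} [Field K] [Algebra ℚ K] {K' : Type} [Field K'] [Algebra ℚ K']
  {O : ValuationSubring K'} {k : Type} [Field k] {π : O →+* k}
variable {L₀ q n : ℕ} [NeZero L₀] [NeZero q] {hq : q.Prime} {hqL : ¬ q ∣ L₀} {κ : K →+* K'}
  {η : K'ˣ} {A : ValuationSubring K}

/-- **The branches exist**: embeddings, valuation rings and residue maps forming a `ChartData`. -/
theorem exists_chartData (ι : K' →+* ℂ) (ι₀ : K →+* ℂ) (hn : 0 < n)
    (hπ : ∀ c, π c = 0 ↔ ¬IsUnit c) (hdvr : IsDiscreteValuationRing O)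
    (hdvrA : IsDiscreteValuationRing A) (hchar : CharP k q) (hA : ∀ a ∈ A, κ a ∈ O)
    (hAO : ∀ a, κ a ∈ O → a ∈ A) (hAπ : ∀ a : A, π ⟨κ a, hA a a.2⟩ = 0 ↔ ¬IsUnit a)
    (hsurj : ∀ y : k, ∃ (a : K) (ha : a ∈ A), π ⟨κ a, hA a ha⟩ = y)
    (hL : (L₀ : k) ≠ 0) (hη : IsPrimitiveRoot η (q ^ n)) (hirr : Irreducible (q : A))
    (hσ : ∀ u : ℕ, u.Coprime q → ∃ (σ : K' →+* K') (hσ : ∀ c ∈ O, σ c ∈ O),
      σ.comp κ = κ ∧ σ (η : K') = (η : K') ^ u ∧ ∀ c : O, π ⟨σ c, hσ c c.2⟩ = π c) :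
    ∃ (φ : BranchIdx q n → modField K (L₀ * q ^ n) →+* LaurentSeries K')
      (Br : Branches (modField K (L₀ * q ^ n)) (Fin (n + 1))
        (fun _ => modularFunctionFieldFullC k L₀)),
      ChartData hq hqL π κ η A φ (branchRep hq) Br
        (modularFunctionFieldFullC k L₀).val.toRingHom := by
  classical
  haveI := Fact.mk hq
  haveI := hchar
  haveI := hdvr
  obtain ⟨φ, hφ⟩ := exists_branchFamily (L := L₀) κ ι hq hqL hη
  let ψ : Fin (n + 1) → modField K (L₀ * q ^ n) →+* LaurentSeries K' := fun i => φ (branchRep hq i)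
  let G : Fin (n + 1) → GaussBranch O k (modField K (L₀ * q ^ n)) := fun i =>
    { π := π
      π_eq_zero := hπ
      ψ := ψ i
      frac := family_mem_fracSeries hη hφ π (branchRep hq i) }
  have hAq : ∀ a : A, π (constMap hA a) = 0 → (q : A) ∣ a := fun a ha => by
    haveI := hdvrA
    rw [← Ideal.mem_span_singleton, ← hirr.maximalIdeal_eq]
    exact (hAπ a).mp ha
  have hmem : ∀ i (a : modField K (L₀ * q ^ n)) (R : LaurentSeries k), IsGauss π (ψ i a) R →
      ∃ r ∈ modularFunctionFieldFullC k L₀, R = qExpand k (q ^ lowExp n i) r := fun i a R h =>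
    residue_mem_fullC (i₀ := i) ι ι₀ hπ hA hsurj hAq hL hq hqL hn
      (fun i => η ^ rootExp (branchRep hq i))
      (fun i => (rootExp_spec hq hη _).1)
      (fun i h0 h1 => (rootExp_spec hq hη _).2 (by rwa [branchOf_branchRep])
        (by rwa [branchOf_branchRep]))
      ψ (fun i => branchOf_branchRep hq i ▸ hφ (branchRep hq i)) h
  have hres : ∀ i (a : (G i).V), IsGauss π (ψ i a) ((G i).res a) := fun i a => by
    obtain ⟨x, y, hxy⟩ := (G i).mem_V_iff.mp a.2
    exact ⟨x, y, hxy.1, hxy.2, (G i).res_eq a.2 hxy⟩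
  choose r hrC hr using fun i (a : (G i).V) => hmem i _ _ (hres i a)
  have hinj : ∀ (i : Fin (n + 1)) (u v : modularFunctionFieldFullC k L₀),
      qExpand k (q ^ lowExp n i) (u : LaurentSeries k) = qExpand k (q ^ lowExp n i) v → u = v :=
    fun i u v h => Subtype.ext (qExpand_injective (R := k) (N := q ^ lowExp n i) h)
  let res : ∀ i, (G i).V →+* modularFunctionFieldFullC k L₀ := fun i =>
    { toFun := fun a => ⟨r i a, hrC i a⟩
      map_one' := hinj i _ _ (by rw [← hr, map_one]; simp)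
      map_zero' := hinj i _ _ (by rw [← hr, map_zero]; simp)
      map_mul' := fun a b => hinj i _ _ (by
        rw [← hr, map_mul ((G i).res), hr i a, hr i b, ← map_mul]
        rfl)
      map_add' := fun a b => hinj i _ _ (by
        rw [← hr, map_add ((G i).res), hr i a, hr i b, ← map_add]
        rfl) }
  let Br : Branches (modField K (L₀ * q ^ n)) (Fin (n + 1))
      (fun _ => modularFunctionFieldFullC k L₀) :=
    { V := fun i => (G i).V
      res := res
      res_eq_zero := fun i a => by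
        rw [← (G i).res_eq_zero a, hr i a]
        exact ⟨fun h => by rw [show r i a = 0 from congrArg Subtype.val h, map_zero],
          fun h => Subtype.ext ((map_eq_zero_iff _ (qExpand_injective (R := k) (N := q ^ lowExp n i))).mp h)⟩ }
  refine ⟨φ, Br, ⟨hn, hπ, hdvr, hdvrA, hchar, hA, hAO, hAπ, hsurj, hL, hη, hφ,
    fun i => branchOf_branchRep hq i, hσ, fun i a s => ⟨fun h => ?_, ?_⟩⟩⟩
  · obtain ⟨x, y, hy, he, hxy⟩ := id h
    have hV : a ∈ (G i).V := (G i).mem_V_iff.mpr ⟨x, y, hy, he⟩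
    refine ⟨hV, qExpand_injective (R := k) (N := q ^ lowExp n i) ?_⟩
    show qExpand k _ (r i ⟨a, hV⟩) = qExpand k _ s
    rw [← hr]
    exact (hres i ⟨a, hV⟩).unique h
  · rintro ⟨hV, rfl⟩
    show IsGauss π (ψ i a) (qExpand k _ (r i ⟨a, hV⟩))
    rw [← hr]
    exact hres i ⟨a, hV⟩

variable {φ : BranchIdx q n → modField K (L₀ * q ^ n) →+* LaurentSeries K'}
  {rep : Fin (n + 1) → BranchIdx q n} {C : Type} [Field C]
  {Br : Branches (modField K (L₀ * q ^ n)) (Fin (n + 1)) (fun _ => C)}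
  {ev : C →+* LaurentSeries k} (D : ChartData hq hqL π κ η A φ rep Br ev)

include D

/-- Every nonzero function has an order on every embedding. -/
theorem ChartData.exists_gaussOrd {ϖ : O} (hϖ : Irreducible ϖ) (x : BranchIdx q n)
    {a : modField K (L₀ * q ^ n)} (ha : a ≠ 0) :
    ∃ m : ℤ, HasGaussOrd π (ϖ : K') (φ x a) m := by
  haveI := D.dvr
  let G : GaussBranch O k (modField K (L₀ * q ^ n)) :=
    { π := π
      π_eq_zero := D.hπ
      ψ := φ x
      frac := D.mem_fracSeries x }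
  obtain ⟨m, u, v, hu, hv, he⟩ := G.exists_scaled hϖ ha
  have hp : (ϖ : K') ≠ 0 := by simpa [ZeroMemClass.coe_eq_zero] using hϖ.ne_zero
  refine ⟨m, coeffMap π u / coeffMap π v, div_ne_zero hu hv, u, v, hv, ?_, rfl⟩
  rw [mul_assoc, show φ x a * intSeries _ v = _ from he, ← mul_assoc, ← map_mul,
    ← zpow_add₀ hp, neg_add_cancel, zpow_zero, map_one, one_mul]

/-- Inertia keeps a uniformiser up to a unit. -/
theorem ChartData.exists_sigma_unit {ϖ : O} (hϖ : Irreducible ϖ) (σ : K' →+* K')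
    (hσ : ∀ c ∈ O, σ c ∈ O) :
    ∃ v : Oˣ, σ ϖ = ((v : O) : K') * ϖ := by
  haveI := D.dvr
  let σO : O →+* O := (σ.comp O.subtype).codRestrict O fun c => hσ c c.2
  have hinj : Function.Injective σO := fun a b h =>
    Subtype.ext (σ.injective (congrArg Subtype.val h))
  have hσv : ∀ v : O, IsUnit v → IsUnit (σO v) := fun v hv => hv.map σO
  obtain ⟨e, v, hv⟩ := IsDiscreteValuationRing.eq_unit_mul_pow_irreducible
    (x := σO ϖ) ((map_ne_zero_iff σO hinj).mpr hϖ.ne_zero) hϖ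
  have hq0 : (q : O) ≠ 0 := by
    have : CharZero K' := charZero_of_injective_algebraMap (algebraMap ℚ K').injective
    exact fun h => Nat.cast_ne_zero.mpr hq.ne_zero
      (show ((q : ℕ) : K') = 0 by simpa using congrArg O.subtype h)
  obtain ⟨f, w, hw⟩ := IsDiscreteValuationRing.eq_unit_mul_pow_irreducible hq0 hϖ
  have hf : f ≠ 0 := by
    rintro rfl
    rw [pow_zero, mul_one] at hw
    haveI := D.charP
    exact (D.hπ (q : O)).mp (by rw [map_natCast, CharP.cast_eq_zero]) (hw ▸ w.isUnit)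
  have h1 : σO (q : O) = (q : O) := map_natCast σO q
  rw [hw, map_mul, map_pow, hv, mul_pow, ← pow_mul, ← mul_assoc] at h1
  obtain ⟨w', hw'⟩ := (hσv _ w.isUnit).mul (v.isUnit.pow f)
  rw [← hw'] at h1
  have he : e * f = f := by
    have := congrArg (IsDiscreteValuationRing.addVal O) h1
    rw [IsDiscreteValuationRing.addVal_mul, IsDiscreteValuationRing.addVal_mul,
      IsDiscreteValuationRing.addVal_eq_zero_of_unit, IsDiscreteValuationRing.addVal_eq_zero_of_unit,
      IsDiscreteValuationRing.addVal_pow, IsDiscreteValuationRing.addVal_pow,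
      IsDiscreteValuationRing.addVal_uniformizer hϖ] at this
    simp at this
    exact_mod_cast this
  obtain rfl : e = 1 := by simpa [hf] using he
  exact ⟨v, by simpa [σO] using congrArg Subtype.val hv⟩

/-- The order does not depend on the embedding inside a branch. -/
theorem ChartData.hasGaussOrd_conj {ϖ : O} (hϖ : Irreducible ϖ)
    {x y : BranchIdx q n} (h : branchOf x = branchOf y) {a : modField K (L₀ * q ^ n)} {m : ℤ}
    (hy : HasGaussOrd π (ϖ : K') (φ y a) m) : HasGaussOrd π (ϖ : K') (φ x a) m := by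
  haveI := Fact.mk hq
  haveI := D.charP
  obtain ⟨σ, hσO, u, -, hσπ, hu, he⟩ := family_exists_conj D.hη D.hφ D.sigma h
  obtain ⟨v, hv⟩ := D.exists_sigma_unit hϖ σ hσO
  rw [he]
  exact (hy.coeffMap_sigma D.hπ (by simpa [ZeroMemClass.coe_eq_zero] using hϖ.ne_zero) σ hσO hσπ
    hv).qScale_root hu

/-- **Normalised orders**: surjective, compatible with the branches, in a fixed multiple of the
Gauss order, with `q` a uniformiser of the branches `0` and `n`. -/
theorem ChartData.exists_ord {ϖ : O} (hϖ : Irreducible ϖ) (hirr : Irreducible (q : A)) :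
    ∃ (ord : Fin (n + 1) → modField K (L₀ * q ^ n) → ℤ) (d : Fin (n + 1) → ℤ),
      (∀ i, 0 < d i) ∧
      (∀ (x : BranchIdx q n) a, a ≠ 0 →
        HasGaussOrd π (ϖ : K') (φ x a) (d (branchFin x) * ord (branchFin x) a)) ∧
      (∀ i a b, a ≠ 0 → b ≠ 0 → ord i (a * b) = ord i a + ord i b) ∧
      (∀ i a, a ≠ 0 → (a ∈ Br.V i ↔ 0 ≤ ord i a)) ∧
      (∀ i a (h : a ∈ Br.V i), a ≠ 0 → (Br.res i ⟨a, h⟩ = 0 ↔ 0 < ord i a)) ∧
      (∀ i, ∃ p, p ≠ 0 ∧ ord i p = 1) ∧
      ord 0 ((q : ℕ) : modField K (L₀ * q ^ n)) = 1 ∧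
      ord (Fin.last n) ((q : ℕ) : modField K (L₀ * q ^ n)) = 1 := by
  classical
  haveI := D.dvr
  haveI := D.dvrA
  haveI := D.charP
  haveI := Fact.mk hq
  haveI : CharZero K' := charZero_of_injective_algebraMap (algebraMap ℚ K').injective
  haveI : CharZero K := charZero_of_injective_algebraMap (algebraMap ℚ K).injective
  haveI : CharZero (modField K (L₀ * q ^ n)) :=
    charZero_of_injective_algebraMap (algebraMap K _).injective
  have hp : (ϖ : K') ≠ 0 := by simpa [ZeroMemClass.coe_eq_zero] using hϖ.ne_zero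
  have hp0 : π ϖ = 0 := (D.hπ ϖ).mpr hϖ.not_isUnit
  have hqF : ((q : ℕ) : modField K (L₀ * q ^ n)) ≠ 0 := Nat.cast_ne_zero.mpr hq.ne_zero
  let z : Fin (n + 1) → modField K (L₀ * q ^ n) → ℤ := fun i a =>
    if ha : a = 0 then 0 else (D.exists_gaussOrd hϖ (rep i) ha).choose
  have hz : ∀ i a, a ≠ 0 → HasGaussOrd π (ϖ : K') (φ (rep i) a) (z i a) := fun i a ha => by
    simp only [z, dif_neg ha]
    exact (D.exists_gaussOrd hϖ (rep i) ha).choose_spec
  have hzmul : ∀ i a b, a ≠ 0 → b ≠ 0 → z i (a * b) = z i a + z i b := fun i a b ha hb => by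
    refine (hz i _ (mul_ne_zero ha hb)).unique hp hp0 ?_
    rw [map_mul]
    exact (hz i a ha).mul hp (hz i b hb)
  have hq0g : ∀ i, IsGauss π (φ (rep i) ((q : ℕ) : modField K (L₀ * q ^ n))) 0 := fun i => by
    have h := isGauss_int (π := π) (HahnSeries.C (q : O))
    rwa [coeffMap_C', show π (q : O) = 0 by rw [map_natCast, CharP.cast_eq_zero], map_zero,
      map_natCast, map_natCast, ← map_natCast (φ (rep i))] at h
  have hzq : ∀ i, 0 < z i (q : ℕ) := fun i =>
    ((hz i _ hqF).nonneg_of_isGauss hp hp0 (hq0g i)).2.1 rfl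
  choose d ord p hd hpne hzp hop hzd hmul using fun i =>
    exists_normalised (z i) (hzmul i) hqF (hzq i)
  have hqO : (q : O) ≠ 0 := fun h => Nat.cast_ne_zero.mpr hq.ne_zero
    (show ((q : ℕ) : K') = 0 by simpa using congrArg O.subtype h)
  -- `q` is a uniformiser of the outer branches
  have houter : ∀ i : Fin (n + 1), min (i : ℕ) (n - i) = 0 → ord i (q : ℕ) = 1 := fun i hi => by
    have hgp : IsGauss π (φ (rep i) (p i)) 0 := by
      obtain ⟨r, hr⟩ := (hz i _ (hpne i)).exists_isGauss hp (by rw [hzp]; exact (hd i).le)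
      have h3 := ((hz i _ (hpne i)).nonneg_of_isGauss hp hp0 hr).2.2
      rcases eq_or_ne r 0 with rfl | hr0
      · exact hr
      · exact absurd (h3 hr0) (by rw [hzp]; exact (hd i).ne')
    have hζ := rootExp_spec hq D.hη (rep i)
    obtain ⟨r, hr⟩ := isGauss_mul_pow_div (π := π) D.hA D.hπ hq hqL
      (fun a ha => by
        rw [← Ideal.mem_span_singleton, ← hirr.maximalIdeal_eq]
        exact (D.hAπ a).mp ha)
      hqO (Nat.le_of_lt_succ i.2) hζ.1
      (fun h0 h1 => hζ.2 (by rwa [D.hrep]) (by rwa [D.hrep]))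
      (D.hrep i ▸ D.hφ (rep i)) hgp hgp
    simp only [hi, pow_zero, Nat.totient_one, Nat.sub_self, mul_one] at hr
    have hne : p i / ((q : ℕ) : modField K (L₀ * q ^ n)) ≠ 0 := div_ne_zero (hpne i) hqF
    have h0 := ((hz i _ hne).nonneg_of_isGauss hp hp0 hr).1
    have h1 := hzmul i _ _ hne hqF
    rw [div_mul_cancel₀ _ hqF, hzp] at h1
    have h2 := hzd i _ hqF
    have h3 := hzq i
    have hd' := hd i
    have h5 : 0 < ord i (q : ℕ) := by nlinarith
    have h4 : ord i (q : ℕ) ≤ 1 := by nlinarith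
    omega
  refine ⟨ord, d, hd, fun x a ha => ?_, hmul, fun i a ha => ?_, fun i a h ha => ?_,
    fun i => ⟨p i, hpne i, hop i⟩, houter 0 (by simp), houter (Fin.last n) (by simp)⟩
  · rw [← hzd _ a ha]
    exact D.hasGaussOrd_conj hϖ (D.hrep (branchFin x)).symm (hz _ a ha)
  · have hd' := hd i
    refine ⟨fun h => ?_, fun h => ?_⟩
    · have := ((hz i a ha).nonneg_of_isGauss hp hp0 (D.isGauss_all (D.hrep i) h)).1
      rw [hzd i a ha] at this
      exact nonneg_of_mul_nonneg_right this hd'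
    · obtain ⟨r, hr⟩ := (hz i a ha).exists_isGauss hp
        (by rw [hzd i a ha]; exact mul_nonneg hd'.le h)
      exact (D.mem_of_isGauss (D.hrep i) hr).1
  · have hd' := hd i
    obtain ⟨-, h2, h3⟩ := (hz i a ha).nonneg_of_isGauss hp hp0 (D.isGauss_all (D.hrep i) h)
    rw [hzd i a ha] at h2 h3
    have hiff : qExpand k (q ^ lowExp n i) (ev (Br.res i ⟨a, h⟩)) = 0 ↔ Br.res i ⟨a, h⟩ = 0 := by
      rw [map_eq_zero_iff _ (qExpand_injective (R := k) (N := q ^ lowExp n i)), map_eq_zero ev]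
    refine ⟨fun h0 => pos_of_mul_pos_right (h2 (hiff.mpr h0)) hd'.le, fun hpos => ?_⟩
    by_contra h0
    rcases mul_eq_zero.mp (h3 (mt hiff.mp h0)) with h4 | h4 <;> omega

/-- A separator of every branch, in the residue maps. -/
theorem ChartData.exists_sep_res (ι : K' →+* ℂ) (ι₀ : K →+* ℂ) (i : Fin (n + 1)) :
    ∃ e : modField K (L₀ * q ^ n), e ≠ 0 ∧ (∃ h : e ∈ Br.V i, Br.res i ⟨e, h⟩ ≠ 0) ∧
      ∀ j, j ≠ i → ∃ h : e ∈ Br.V j, Br.res j ⟨e, h⟩ = 0 := by
  haveI := D.dvr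
  haveI := D.charP
  haveI := Fact.mk hq
  let e : modField K (L₀ * q ^ n) :=
    ⟨sepFin K q n i, sepFin_mem ι₀ (Nat.le_of_lt_succ i.2)⟩
  have hes : ∀ j : Fin (n + 1),
      IsGauss π (φ (rep j) e) (sepVal n j (1 : kˣ) q i) := fun j => by
    have hζ := rootExp_spec hq D.hη (rep j)
    rw [branch_sepFin ι hq hqL hζ.1 hζ.2 (D.hφ (rep j)) ι₀ (Nat.le_of_lt_succ i.2), D.hrep]
    exact isGauss_sepVal hζ.1
  obtain ⟨hV, hVe⟩ := D.mem_of_isGauss (D.hrep i) (hes i)
  have hne : Br.res i ⟨e, hV⟩ ≠ 0 := fun h0 => by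
    rw [h0, map_zero, map_zero] at hVe
    exact (isUnit_sepVal_one (Nat.le_of_lt_succ i.2)).ne_zero hVe
  refine ⟨e, fun h => hne ?_, ⟨hV, hne⟩, fun j hj => ?_⟩
  · rw [show (⟨e, hV⟩ : Br.V i) = 0 from Subtype.ext h, map_zero]
  · have h := hes j
    rw [sepVal_one_of_ne (Nat.le_of_lt_succ j.2) (Fin.val_ne_of_ne hj)] at h
    exact D.res_eq_zero_iff_isGauss.mp h

/-- The `Model` field `exists_sep`. -/
theorem ChartData.exists_sep (ι : K' →+* ℂ) (ι₀ : K →+* ℂ)
    {ord : Fin (n + 1) → modField K (L₀ * q ^ n) → ℤ}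
    (hiff : ∀ i a (h : a ∈ Br.V i), a ≠ 0 → (Br.res i ⟨a, h⟩ = 0 ↔ 0 < ord i a))
    (hmem : ∀ i a, a ≠ 0 → (a ∈ Br.V i ↔ 0 ≤ ord i a)) (i : Fin (n + 1)) :
    ∃ e : modField K (L₀ * q ^ n), e ≠ 0 ∧ ord i e = 0 ∧ ∀ j, j ≠ i → 0 < ord j e := by
  obtain ⟨e, he, ⟨hV, hne⟩, hoff⟩ := D.exists_sep_res ι ι₀ i
  refine ⟨e, he, ?_, fun j hj => ?_⟩
  · have h1 := (hmem i e he).mp hV
    have h2 := mt (hiff i e hV he).mpr hne
    omega
  · obtain ⟨h, h0⟩ := hoff j hj
    exact (hiff j e h he).mp h0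

omit D in
/-- The `Model` field `res_const`. -/
theorem ChartData.res_const
    {Br : Branches (modField K (L₀ * q ^ n)) (Fin (n + 1))
      (fun _ => modularFunctionFieldFullC k L₀)}
    (D : ChartData hq hqL π κ η A φ rep Br (modularFunctionFieldFullC k L₀).val.toRingHom)
    (i : Fin (n + 1)) (w : A) :
    ∃ h : algebraMap K (modField K (L₀ * q ^ n)) (w : K) ∈ Br.V i,
      Br.res i ⟨_, h⟩ = algebraMap k (modularFunctionFieldFullC k L₀) (π ⟨κ w, D.hA w w.2⟩) := by
  obtain ⟨h, he⟩ := D.ev_res_const i w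
  refine ⟨h, Subtype.ext ?_⟩
  show ((modularFunctionFieldFullC k L₀).val.toRingHom (Br.res i ⟨_, h⟩)) = _
  rw [he, HahnSeries.C_apply, ← algebraMap_laurentSeries_eq_single]
  rfl

end Fermat.Agent.CarayolHigh
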