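import Mathlib
import Fermat.Agent.Carayol.TwoDimUFD

/-!
Local algebra at the points of the special fibre of `X₀(qⁿ L)`: the maximal ideal is generated by
two elements. The coordinates `t_j = t (q^j τ)` satisfy `Φ (t_j, t_{j+1}) = 0` with
`Φ (X, Y) = (X - Y^q) (X^q - Y) + q U (X, Y)`.
-/

set_option autoImplicit false

namespace Fermat.Agent.CarayolHigh

open Ideal IsLocalRing

variable {R : Type*} [CommRing R]

/-- `a^(q-1) + a^(q-2) c + ⋯ + c^(q-1)`. -/
def powQuot (a c : R) (q : ℕ) : R := ∑ i ∈ Finset.range q, a ^ i * c ^ (q - 1 - i)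

theorem powQuot_mul_sub (a c : R) (q : ℕ) : powQuot a c q * (a - c) = a ^ q - c ^ q :=
  geom_sum₂_mul a c q

/-- Dividing `Φ(b, c) - Φ(b, a) = 0` by `c - a`. -/
theorem turn_relation [IsDomain R] {q : ℕ} {a b c : R} {U : Polynomial R} (hac : a ≠ c)
    (ha : (b - a ^ q) * (b ^ q - a) + q * U.eval a = 0)
    (hc : (b - c ^ q) * (b ^ q - c) + q * U.eval c = 0) :
    ∃ V : R, (b - a ^ q) + (b ^ q - c) * powQuot a c q = q * V := by
  obtain ⟨V, hV⟩ := U.sub_dvd_eval_sub c a
  refine ⟨V, mul_left_cancel₀ (sub_ne_zero.mpr (Ne.symm hac)) ?_⟩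
  linear_combination ha - hc - (b ^ q - c) * powQuot_mul_sub a c q + (q : R) * hV

variable [IsLocalRing R]

/-- At a supersingular point `q ∈ 𝔪²`. -/
theorem natCast_mem_sq {q : ℕ} {f g u : R} (hf : f ∈ maximalIdeal R) (hg : g ∈ maximalIdeal R)
    (hu : IsUnit u) (h : f * g + q * u = 0) : (q : R) ∈ maximalIdeal R ^ 2 := by
  refine (Ideal.unit_mul_mem_iff_mem _ hu).mp ?_
  rw [show u * (q : R) = -(f * g) by linear_combination h, sq]
  exact neg_mem (Ideal.mul_mem_mul hf hg)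

/-- `a^(q-1) + ⋯ + c^(q-1) ∈ 𝔪` when `a ≡ c` and `q ∈ 𝔪`. -/
theorem powQuot_mem {q : ℕ} {a c : R} (hac : c - a ∈ maximalIdeal R)
    (hq : (q : R) ∈ maximalIdeal R) : powQuot a c q ∈ maximalIdeal R := by
  let π := IsLocalRing.residue R
  have hc : π c = π a := sub_eq_zero.mp (by rw [← map_sub]; exact Ideal.Quotient.eq_zero_iff_mem.mpr hac)
  have hq' : π (q : R) = 0 := Ideal.Quotient.eq_zero_iff_mem.mpr hq
  rw [← Ideal.Quotient.eq_zero_iff_mem]
  change π _ = 0
  have : π (powQuot a c q) = π (q : R) * π a ^ (q - 1) := by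
    rw [powQuot, map_sum]
    trans ∑ _i ∈ Finset.range q, π a ^ (q - 1)
    · refine Finset.sum_congr rfl fun i hi => ?_
      rw [map_mul, map_pow, map_pow, hc, ← pow_add]
      congr 1
      have := Finset.mem_range.mp hi
      omega
    · simp
  rw [this, hq', zero_mul]

/-- A `q`-th power is constant modulo `(q) + 𝔪^q`. -/
theorem pow_sub_pow_mem_sq {q : ℕ} {a α : R} (hα : a - α ∈ maximalIdeal R)
    (hq : (q : R) ∈ maximalIdeal R) : a ^ q - α ^ q ∈ maximalIdeal R ^ 2 := by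
  rw [← powQuot_mul_sub a α q, sq]
  exact Ideal.mul_mem_mul (powQuot_mem (by simpa using neg_mem hα) hq) hα

/-- At a supersingular point an interior coordinate `b` is constant modulo `𝔪²`. -/
theorem turn_mem_sq [IsDomain R] {q : ℕ} {a b c α : R} {U : Polynomial R} (hac : a ≠ c)
    (ha : (b - a ^ q) * (b ^ q - a) + q * U.eval a = 0)
    (hc : (b - c ^ q) * (b ^ q - c) + q * U.eval c = 0)
    (hq : (q : R) ∈ maximalIdeal R ^ 2) (hca : c - a ∈ maximalIdeal R)
    (hbc : b ^ q - c ∈ maximalIdeal R) (hα : a - α ∈ maximalIdeal R) :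
    b - α ^ q ∈ maximalIdeal R ^ 2 := by
  obtain ⟨V, hV⟩ := turn_relation hac ha hc
  have hqm : (q : R) ∈ maximalIdeal R := Ideal.pow_le_self two_ne_zero hq
  have h1 : b - a ^ q ∈ maximalIdeal R ^ 2 := by
    rw [show b - a ^ q = q * V - (b ^ q - c) * powQuot a c q by linear_combination hV]
    refine sub_mem (Ideal.mul_mem_right _ _ hq) ?_
    rw [sq]
    exact Ideal.mul_mem_mul hbc (powQuot_mem hca hqm)
  rw [show b - α ^ q = (b - a ^ q) + (a ^ q - α ^ q) by ring]
  exact add_mem h1 (pow_sub_pow_mem_sq hα hqm)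

omit [IsLocalRing R] in
/-- The ordinary tower: `d_{j-1} = d_j^q + q d_j u_j`, `d_0 = 0`. Then `q ∈ (d_i)` and every
`d_j` with `j ≤ i` is in `(d_i)`. -/
theorem tower_dvd [IsDomain R] {q : ℕ} (hq : 2 ≤ q) {d u : ℕ → R} {i : ℕ} (h0 : d 0 = 0)
    (h1 : d 1 ≠ 0) (hu : IsUnit (u 1))
    (hrel : ∀ j < i, d j = d (j + 1) ^ q + q * d (j + 1) * u (j + 1)) (hi : 1 ≤ i) :
    d i ∣ (q : R) ∧ ∀ j ≤ i, d i ∣ d j := by
  have hdvd : ∀ j ≤ i, d i ∣ d j := by
    intro j hj
    induction h : i - j generalizing j with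
    | zero => rw [show j = i by omega]
    | succ k ih =>
      refine (ih (j + 1) (by omega) (by omega)).trans ?_
      rw [hrel j (by omega)]
      exact dvd_add (dvd_pow_self _ (by omega)) ((dvd_mul_left _ _).mul_right _)
  refine ⟨?_, hdvd⟩
  have h2 := hrel 0 (by omega)
  rw [h0, zero_add] at h2
  have h3 : d 1 ^ (q - 1) + q * u 1 = 0 := by
    refine mul_left_cancel₀ h1 ?_
    rw [mul_zero, mul_add, mul_pow_sub_one (by omega)]
    linear_combination -h2
  refine (hdvd 1 hi).trans ((IsUnit.dvd_mul_right hu).mp ?_)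
  rw [eq_neg_of_add_eq_zero_right h3]
  exact (dvd_pow_self _ (by omega)).neg_right

/-- Nakayama: a maximal ideal generated by elements of `(x, y) + 𝔪²` is `(x, y)`. -/
theorem maximalIdeal_eq_pair [IsNoetherianRing R] {S : Set R} {x y : R}
    (hx : x ∈ maximalIdeal R) (hy : y ∈ maximalIdeal R) (hS : maximalIdeal R ≤ span S)
    (h : ∀ s ∈ S, s ∈ span ({x, y} : Set R) ⊔ maximalIdeal R ^ 2) :
    maximalIdeal R = span {x, y} := by
  refine le_antisymm ?_ (span_le.mpr (Set.insert_subset hx (Set.singleton_subset_iff.mpr hy)))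
  refine Submodule.le_of_le_smul_of_le_jacobson_bot (I := maximalIdeal R)
    (IsNoetherian.noetherian _) (maximalIdeal_le_jacobson _) ?_
  rw [smul_eq_mul, ← sq]
  exact hS.trans (span_le.mpr h)

/-- Supersingular point: the maximal ideal is generated by the two extreme coordinates. -/
theorem maximalIdeal_eq_supersingular [IsNoetherianRing R] [IsDomain R] {q n : ℕ} (hn : 1 ≤ n)
    {t c : ℕ → R} {U : ℕ → Polynomial R}
    (hgen : maximalIdeal R ≤ span (insert (q : R) ((fun j => t j - c j) '' Set.Iic n)))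
    (ht : ∀ j ≤ n, t j - c j ∈ maximalIdeal R)
    (hne : ∀ j, 1 ≤ j → j < n → t (j - 1) ≠ t (j + 1))
    (hca : ∀ j, 1 ≤ j → j < n → c (j + 1) - c (j - 1) ∈ maximalIdeal R)
    (hcq : ∀ j, 1 ≤ j → j < n → c (j - 1) ^ q = c j ∧ c j ^ q - c (j + 1) ∈ maximalIdeal R)
    (hleft : ∀ j, 1 ≤ j → j < n →
      (t j - t (j - 1) ^ q) * (t j ^ q - t (j - 1)) + q * (U j).eval (t (j - 1)) = 0)
    (hright : ∀ j, 1 ≤ j → j < n →
      (t j - t (j + 1) ^ q) * (t j ^ q - t (j + 1)) + q * (U j).eval (t (j + 1)) = 0)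
    (hq : (q : R) ∈ maximalIdeal R ^ 2) :
    maximalIdeal R = span {t 0 - c 0, t n - c n} := by
  refine maximalIdeal_eq_pair (ht 0 (Nat.zero_le _)) (ht n le_rfl) hgen ?_
  rintro s (rfl | ⟨j, hj, rfl⟩)
  · exact Submodule.mem_sup_right hq
  rcases Nat.eq_zero_or_pos j with rfl | hj0
  · exact Submodule.mem_sup_left (subset_span (Set.mem_insert _ _))
  rcases eq_or_lt_of_le (show j ≤ n from hj) with rfl | hjn
  · exact Submodule.mem_sup_left (subset_span (Set.mem_insert_of_mem _ rfl))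
  refine Submodule.mem_sup_right ?_
  have hprev := ht (j - 1) (by omega)
  have hnext := ht (j + 1) (by omega)
  have hqm : (q : R) ∈ maximalIdeal R := Ideal.pow_le_self two_ne_zero hq
  have hbc : t j ^ q - t (j + 1) ∈ maximalIdeal R := by
    rw [show t j ^ q - t (j + 1) =
      (t j ^ q - c j ^ q) + (c j ^ q - c (j + 1)) - (t (j + 1) - c (j + 1)) by ring]
    exact sub_mem (add_mem (Ideal.pow_le_self two_ne_zero (pow_sub_pow_mem_sq (ht j hj) hqm))
      (hcq j hj0 hjn).2) hnext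
  have hac : t (j + 1) - t (j - 1) ∈ maximalIdeal R := by
    rw [show t (j + 1) - t (j - 1) =
      (t (j + 1) - c (j + 1)) + (c (j + 1) - c (j - 1)) - (t (j - 1) - c (j - 1)) by ring]
    exact sub_mem (add_mem hnext (hca j hj0 hjn)) hprev
  have h := turn_mem_sq (hne j hj0 hjn) (hleft j hj0 hjn) (hright j hj0 hjn) hq hac hbc hprev
  rwa [(hcq j hj0 hjn).1] at h

/-- Ordinary point of the component turning at `i` (`1 ≤ i`, `2 i ≤ n`): the maximal ideal is
generated by the last coordinate and `t_{2i} - t_0`. Coordinates `≥ i` are constant modulo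
`(t_n - c_n, q)`, and `t_{i-k} = t_{i+k} - d_k`. -/
theorem maximalIdeal_eq_ordinary [IsNoetherianRing R] [IsDomain R] {q n i : ℕ} (hq : 2 ≤ q)
    (hi : 1 ≤ i) (hin : 2 * i ≤ n) {t c d u : ℕ → R}
    (hgen : maximalIdeal R ≤ span (insert (q : R) ((fun j => t j - c j) '' Set.Iic n)))
    (htn : t n - c n ∈ maximalIdeal R)
    (hd : ∀ k ≤ i, d k = t (i + k) - t (i - k)) (hdm : d i ∈ maximalIdeal R)
    (hc : ∀ k ≤ i, c (i + k) = c (i - k))
    (hright : ∀ j, i ≤ j → j ≤ n → t j - c j ∈ span ({t n - c n, (q : R)} : Set R))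
    (h1 : d 1 ≠ 0) (hu : IsUnit (u 1))
    (hrel : ∀ k < i, d k = d (k + 1) ^ q + q * d (k + 1) * u (k + 1)) :
    maximalIdeal R = span {t n - c n, d i} := by
  have h0 : d 0 = 0 := by rw [hd 0 (Nat.zero_le _)]; simp
  obtain ⟨hq', hdd⟩ := tower_dvd hq h0 h1 hu hrel hi
  have hle : span ({t n - c n, (q : R)} : Set R) ≤ span {t n - c n, d i} := by
    rw [span_le]
    rintro x (rfl | rfl)
    · exact subset_span (Set.mem_insert _ _)
    · exact Ideal.mem_of_dvd _ hq' (subset_span (Set.mem_insert_of_mem _ rfl))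
  refine maximalIdeal_eq_pair htn hdm hgen ?_
  rintro s (rfl | ⟨j, hj, rfl⟩)
  · exact Submodule.mem_sup_left (hle (subset_span (Set.mem_insert_of_mem _ rfl)))
  refine Submodule.mem_sup_left ?_
  by_cases hij : i ≤ j
  · exact hle (hright j hij hj)
  have hk : i - j ≤ i := Nat.sub_le _ _
  have e := hd (i - j) hk
  rw [show i - (i - j) = j by omega] at e
  have e' := hc (i - j) hk
  rw [show i - (i - j) = j by omega] at e'
  change t j - c j ∈ _
  rw [show t j - c j = (t (i + (i - j)) - c (i + (i - j))) - d (i - j) by rw [e, e']; ring]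
  refine sub_mem (hle (hright _ (Nat.le_add_right _ _) (by omega))) ?_
  exact Ideal.mem_of_dvd _ (hdd _ hk) (subset_span (Set.mem_insert_of_mem _ rfl))

/-- Regularity gives factoriality. -/
theorem ufm_of_pair [IsNoetherianRing R] [IsDomain R] {x y : R}
    (hm : maximalIdeal R = span {x, y}) (hx0 : x ≠ 0) {P : Ideal R} [P.IsPrime] (hP0 : P ≠ ⊥)
    (hPm : P ≠ maximalIdeal R) : UniqueFactorizationMonoid R :=
  Carayol.ufm_of_two_gen hm hx0 hP0 hPm

end Fermat.Agent.CarayolHigh
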