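import Fermat.Agent.Carayol.Supersingular
import Fermat.Agent.CarayolHigh.Local
import Mathlib.FieldTheory.Perfect

/-!
Supersingular points of the finite chart of `X₀(qⁿ L)` at `q`.

`R` is the chart, `B` the chart of level `L` with its embeddings `ι j` (`τ ↦ qʲ τ`, `j ≤ n`), `Bb`
its reduction, `r i` the reductions along the branches `i ≤ n`. Every branch passes through every
supersingular point, where the local ring is factorial with maximal ideal generated by the two
extreme coordinates.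
-/

set_option autoImplicit false

namespace Fermat.Agent.CarayolHigh

open Polynomial Carayol

/-- `τ ↦ qʲ τ` seen on the branch `i` of level `qⁿ`: the power of Frobenius. -/
def chainDepth (n i j : ℕ) : ℕ := max i (n - i) - ((i - j) + (j - i))

theorem chainDepth_zero_left {n j : ℕ} (hj : j ≤ n) : chainDepth n 0 j = n - j := by
  unfold chainDepth; omega

theorem chainDepth_parity {n i a b : ℕ} (hi : i ≤ n) (ha : a ≤ n) (hb : b ≤ n) :
    (chainDepth n i a + a) % 2 = (chainDepth n i b + b) % 2 := by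
  unfold chainDepth; omega

/-- Points lift along an integral injective endomorphism. -/
theorem exists_point_comp_eq {k Bb : Type*} [Field k] [IsAlgClosed k] [CommRing Bb] [Algebra k Bb]
    (σ : Bb →ₐ[k] Bb) (hinj : Function.Injective σ) (hint : σ.toRingHom.IsIntegral)
    (π : Bb →ₐ[k] k) : ∃ π' : Bb →ₐ[k] k, π'.comp σ = π := by
  have hsurj : Function.Surjective π := fun c => ⟨algebraMap k Bb c, π.commutes c⟩
  let P := RingHom.ker π.toRingHom
  have : P.IsMaximal := RingHom.ker_isMaximal_of_surjective π.toRingHom hsurj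
  let : Algebra Bb Bb := σ.toRingHom.toAlgebra
  have : Algebra.IsIntegral Bb Bb := ⟨hint⟩
  obtain ⟨Q, hQ, hQP⟩ := Ideal.exists_ideal_over_maximal_of_isIntegral (R := Bb) (S := Bb) P
    (by rw [(RingHom.injective_iff_ker_eq_bot (algebraMap Bb Bb)).mp hinj]; exact bot_le)
  let φ : k →+* Bb ⧸ Q := (Ideal.Quotient.mk Q).comp (algebraMap k Bb)
  have : IsDomain (Bb ⧸ Q) := Ideal.Quotient.isDomain Q
  have hint' : Algebra.IsIntegral k (Bb ⧸ Q) := ⟨fun y => by
    obtain ⟨b, rfl⟩ := Ideal.Quotient.mk_surjective y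
    obtain ⟨p, hp, hroot⟩ := hint b
    refine ⟨p.map π.toRingHom, hp.map _, ?_⟩
    rw [eval₂_map]
    have h : (algebraMap k (Bb ⧸ Q)).comp π.toRingHom = (Ideal.Quotient.mk Q).comp σ.toRingHom := by
      ext z
      change Ideal.Quotient.mk Q (algebraMap k Bb (π z)) = Ideal.Quotient.mk Q (σ z)
      rw [← σ.commutes, Ideal.Quotient.eq, ← map_sub]
      change algebraMap k Bb (π z) - z ∈ Q.comap (algebraMap Bb Bb)
      rw [hQP]
      change π _ = 0
      simp
    rw [h, ← hom_eval₂, hroot, map_zero]⟩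
  have hbij : Function.Bijective (algebraMap k (Bb ⧸ Q)) :=
    IsAlgClosed.algebraMap_bijective_of_isIntegral
  let e := AlgEquiv.ofBijective (Algebra.ofId k (Bb ⧸ Q)) hbij
  refine ⟨e.symm.toAlgHom.comp (Ideal.Quotient.mkₐ k Q), AlgHom.ext fun z => ?_⟩
  apply e.injective
  change e (e.symm (Ideal.Quotient.mk Q (σ z))) = algebraMap k (Bb ⧸ Q) (π z)
  rw [e.apply_symm_apply]
  change Ideal.Quotient.mk Q (σ z) = Ideal.Quotient.mk Q (algebraMap k Bb (π z))
  rw [← σ.commutes, Ideal.Quotient.eq, ← map_sub]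
  change z - algebraMap k Bb (π z) ∈ Q.comap (algebraMap Bb Bb)
  rw [hQP]
  change π _ = 0
  simp

variable (W k R B Bb : Type) [CommRing W] [Field k] [CommRing R] [CommRing B] [CommRing Bb]
  [Algebra W R] [Algebra W B] [Algebra k Bb]

/-- The branches `i ≤ n` and the modular equations on the finite chart. -/
structure SSChain (n : ℕ) where
  q : ℕ
  ρ : W →+* k
  r : ℕ → R →+* Bb
  r_const : ∀ i (w : W), r i (algebraMap W R w) = algebraMap k Bb (ρ w)
  ι : ℕ → B →ₐ[W] R
  red : B →+* Bb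
  red_surjective : Function.Surjective red
  σ : Bb →ₐ[k] Bb
  r_ι : ∀ i ≤ n, ∀ j ≤ n, ∀ b, r i (ι j b) = σ^[chainDepth n i j] (red b)
  t : B
  σ_t : σ (red t) = red t ^ q
  D : ℤ[X]
  e : ℕ
  U : Polynomial ℤ[X]
  /-- `Φ (t_j, t_{j+1}) = 0` -/
  rel : ∀ j < n, evalZ (ι j t) D ^ e *
    ((ι j t - ι (j + 1) t ^ q) * (ι j t ^ q - ι (j + 1) t)) +
      q * bieval (ι j t) (ι (j + 1) t) U = 0
  /-- `Φ (t_{j+1}, t_j) = 0` -/
  rel' : ∀ j < n, evalZ (ι (j + 1) t) D ^ e *
    ((ι (j + 1) t - ι j t ^ q) * (ι (j + 1) t ^ q - ι j t)) +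
      q * bieval (ι (j + 1) t) (ι j t) U = 0
  /-- what vanishes on the branch `0`, times `(t₀^q - t₁)/q`, is in the chart -/
  div : ∀ a, r 0 a = 0 → ∃ a', (q : R) * a' = a * (ι 0 t ^ q - ι 1 t)
  q_ne_zero : (q : R) ≠ 0

variable {W k R B Bb} {n : ℕ}

namespace SSChain

variable (S : SSChain W k R B Bb n)

/-- The value of `t`. -/
def x (π : Bb →ₐ[k] k) : k := π (S.red S.t)

/-- A supersingular point: `x ∈ 𝔽_(q²)` is not a cusp and `Ū (x, x^q) ≠ 0`. -/
def IsSS (π : Bb →ₐ[k] k) : Prop :=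
  (evalZ (S.x π) S.D : k) ≠ 0 ∧ S.x π ^ (S.q ^ 2) = S.x π ∧
    bieval (S.x π) (S.x π ^ S.q) S.U ≠ 0

/-- The point on the branch `i`. -/
def point (π : Bb →ₐ[k] k) (i : ℕ) : R →+* k := π.toRingHom.comp (S.r i)

theorem point_apply (π : Bb →ₐ[k] k) (i : ℕ) (a : R) : S.point π i a = π (S.r i a) := rfl

/-- The point composed with `σ^m`. -/
def sigmaPt : ℕ → (Bb →ₐ[k] k) → (Bb →ₐ[k] k)
  | 0, π => π
  | m + 1, π => (sigmaPt m π).comp S.σ

theorem sigmaPt_apply : ∀ (m : ℕ) (π : Bb →ₐ[k] k) (z : Bb), S.sigmaPt m π z = π (S.σ^[m] z)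
  | 0, _, _ => rfl
  | m + 1, π, z => by
    rw [Function.iterate_succ_apply]
    exact sigmaPt_apply m π _

theorem σ_iterate_t : ∀ m, S.σ^[m] (S.red S.t) = S.red S.t ^ (S.q ^ m)
  | 0 => by simp
  | m + 1 => by
    rw [Function.iterate_succ_apply', σ_iterate_t m, map_pow, S.σ_t, ← pow_mul, pow_succ']

theorem x_sigmaPt (m : ℕ) (π : Bb →ₐ[k] k) : S.x (S.sigmaPt m π) = S.x π ^ (S.q ^ m) := by
  rw [x, sigmaPt_apply, S.σ_iterate_t, map_pow]; rfl

theorem point_ι_t (π : Bb →ₐ[k] k) {i j : ℕ} (hi : i ≤ n) (hj : j ≤ n) :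
    S.point π i (S.ι j S.t) = S.x π ^ (S.q ^ chainDepth n i j) := by
  rw [point_apply, S.r_ι i hi j hj, S.σ_iterate_t, map_pow]; rfl

variable {π : Bb →ₐ[k] k}

/-- Only the parity of the power of Frobenius matters. -/
theorem pow_congr (hπ : S.IsSS π) {a b : ℕ} (h : a % 2 = b % 2) :
    S.x π ^ (S.q ^ a) = S.x π ^ (S.q ^ b) := by
  have key : ∀ m r, S.x π ^ (S.q ^ (2 * m + r)) = S.x π ^ (S.q ^ r) := by
    intro m
    induction m with
    | zero => simp
    | succ m ih =>
      intro r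
      rw [show 2 * (m + 1) + r = 2 + (2 * m + r) by ring, pow_add, pow_mul, hπ.2.1, ih]
  rw [← Nat.div_add_mod a 2, ← Nat.div_add_mod b 2, key, key, h]

variable [Fact S.q.Prime] [CharP k S.q]

theorem evalZ_D_frob (hπ : S.IsSS π) (m : ℕ) : (evalZ (S.x π ^ (S.q ^ m)) S.D : k) ≠ 0 := by
  rw [← iterateFrobenius_def S.q m (S.x π), ← map_evalZ (iterateFrobenius k S.q m)]
  exact (_root_.map_ne_zero _).mpr hπ.1

theorem bieval_U_frob (hπ : S.IsSS π) (m : ℕ) :
    bieval (S.x π ^ (S.q ^ m)) ((S.x π ^ (S.q ^ m)) ^ S.q) S.U ≠ 0 := by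
  rw [← pow_mul, mul_comm, pow_mul, ← iterateFrobenius_def S.q m (S.x π),
    ← iterateFrobenius_def S.q m (S.x π ^ S.q), ← map_bieval (iterateFrobenius k S.q m)]
  exact (_root_.map_ne_zero _).mpr hπ.2.2

theorem IsSS.sigma (hπ : S.IsSS π) (m : ℕ) : S.IsSS (S.sigmaPt m π) := by
  refine ⟨?_, ?_, ?_⟩ <;> rw [S.x_sigmaPt]
  · exact S.evalZ_D_frob hπ m
  · rw [← pow_mul, ← pow_add]
    exact S.pow_congr hπ (by omega)
  · exact S.bieval_U_frob hπ m

omit [Fact S.q.Prime] [CharP k S.q] in
theorem exists_sigmaPt_eq (hσ : ∀ π : Bb →ₐ[k] k, ∃ π', AlgHom.comp π' S.σ = π) :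
    ∀ (m : ℕ) (π : Bb →ₐ[k] k), ∃ π', S.sigmaPt m π' = π
  | 0, π => ⟨π, rfl⟩
  | m + 1, π => by
    obtain ⟨π₁, h₁⟩ := exists_sigmaPt_eq hσ m π
    obtain ⟨π₂, h₂⟩ := hσ π₁
    refine ⟨π₂, AlgHom.ext fun z => ?_⟩
    rw [S.sigmaPt_apply, Function.iterate_succ_apply', ← h₁, S.sigmaPt_apply, ← h₂]
    rfl

theorem IsSS.of_sigma {m : ℕ} (hπ : S.IsSS (S.sigmaPt m π)) : S.IsSS π := by
  obtain ⟨h1, h2, h3⟩ := hπ
  rw [S.x_sigmaPt] at h1 h2 h3
  refine ⟨?_, iterateFrobenius_inj k S.q m ?_, ?_⟩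
  · rw [← iterateFrobenius_def S.q m (S.x π), ← map_evalZ (iterateFrobenius k S.q m)] at h1
    exact fun h => h1 (by rw [h, map_zero])
  · rw [iterateFrobenius_def, iterateFrobenius_def, ← pow_mul, mul_comm, pow_mul]
    exact h2
  · rw [← pow_mul, mul_comm, pow_mul, ← iterateFrobenius_def S.q m (S.x π),
      ← iterateFrobenius_def S.q m (S.x π ^ S.q), ← map_bieval (iterateFrobenius k S.q m)] at h3
    exact fun h => h3 (by rw [h, map_zero])

variable [IsDomain R] (hn : 1 ≤ n) (hπ : S.IsSS π)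
include hn hπ

/-- What vanishes on the branch `0` vanishes at the supersingular points of every branch. -/
theorem point_eq_zero {i : ℕ} (hi : i ≤ n) {a : R} (ha : S.r 0 a = 0) : S.point π i a = 0 := by
  obtain ⟨a', ha'⟩ := S.div a ha
  have h : a' * (evalZ (S.ι 0 S.t) S.D ^ S.e * (S.ι 0 S.t - S.ι 1 S.t ^ S.q)) =
      -(a * bieval (S.ι 0 S.t) (S.ι 1 S.t) S.U) := by
    refine mul_left_cancel₀ S.q_ne_zero ?_
    linear_combination (evalZ (S.ι 0 S.t) S.D ^ S.e * (S.ι 0 S.t - S.ι 1 S.t ^ S.q)) * ha'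
      + a * S.rel 0 hn
  have hpar := chainDepth_parity (b := 1) hi (Nat.zero_le n) hn
  have h1 : S.x π ^ (S.q ^ chainDepth n i 1) = (S.x π ^ (S.q ^ chainDepth n i 0)) ^ S.q := by
    rw [← pow_mul, ← pow_succ]
    exact S.pow_congr hπ (by omega)
  have h2 : (S.x π ^ (S.q ^ chainDepth n i 1)) ^ S.q = S.x π ^ (S.q ^ chainDepth n i 0) := by
    rw [← pow_mul, ← pow_succ]
    exact S.pow_congr hπ (by omega)
  have h' := congrArg (S.point π i) h
  simp only [map_mul, map_sub, map_neg, map_pow, map_bieval, S.point_ι_t π hi (Nat.zero_le n),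
    S.point_ι_t π hi hn, h2, sub_self, mul_zero] at h'
  rw [h1] at h'
  exact (mul_eq_zero.mp (neg_eq_zero.mp h'.symm)).resolve_right (S.bieval_U_frob hπ _)

/-- **A supersingular point of any branch is a point of the branch `0`.** -/
theorem point_eq {i : ℕ} (hi : i ≤ n) :
    S.point π i = S.point (S.sigmaPt (chainDepth n i n) π) 0 := by
  refine RingHom.ext fun a => ?_
  obtain ⟨b, hb⟩ := S.red_surjective (S.r 0 a)
  have hz : S.r 0 (a - S.ι n b) = 0 := by
    rw [map_sub, S.r_ι 0 (Nat.zero_le n) n le_rfl, chainDepth_zero_left le_rfl, Nat.sub_self,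
      Function.iterate_zero_apply, hb, sub_self]
  have h := S.point_eq_zero hn hπ hi hz
  rw [map_sub, sub_eq_zero, point_apply, point_apply, S.r_ι i hi n le_rfl] at h
  rw [point_apply, point_apply, h, S.sigmaPt_apply, hb]

/-- All branches pass through a supersingular point. -/
theorem point_eq_zero_of_r_eq_zero (hσ : ∀ π : Bb →ₐ[k] k, ∃ π', AlgHom.comp π' S.σ = π) {i : ℕ}
    (hi : i ≤ n) {a : R} (h : S.r i a = 0) : S.point π 0 a = 0 := by
  obtain ⟨π', hπ'⟩ := S.exists_sigmaPt_eq hσ (chainDepth n i n) π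
  have hSS : S.IsSS π' := IsSS.of_sigma S (m := chainDepth n i n) (by rw [hπ']; exact hπ)
  rw [← hπ', ← S.point_eq hn hSS hi, point_apply, h, map_zero]

omit [Fact S.q.Prime] [CharP k S.q] [IsDomain R] hn hπ in
/-- The subalgebra generated by the images of the level `L` chart. -/
def gens : Subalgebra W R := Algebra.adjoin W (⋃ j ∈ Set.Iic n, Set.range (S.ι j))

omit [Fact S.q.Prime] [CharP k S.q] [IsDomain R] hn hπ in
theorem ι_mem (j : ℕ) (b : B) : S.ι (min j n) b ∈ S.gens :=
  Algebra.subset_adjoin (Set.mem_iUnion₂_of_mem (Set.mem_Iic.mpr (min_le_right j n)) ⟨b, rfl⟩)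

omit [Fact S.q.Prime] [CharP k S.q] [IsDomain R] hn hπ in
/-- `ι j` into the generated subalgebra. -/
noncomputable def gι (j : ℕ) : B →ₐ[W] S.gens :=
  (S.ι (min j n)).codRestrict S.gens (S.ι_mem j)

omit [Fact S.q.Prime] [CharP k S.q] [IsDomain R] hn hπ in
theorem coe_gι {j : ℕ} (hj : j ≤ n) (b : B) : ((S.gι j b : S.gens) : R) = S.ι j b :=
  congrArg (fun i => S.ι i b) (min_eq_left hj)

/-- The point, restricted to the generated subalgebra. -/
noncomputable def gensPoint : S.gens →+* k := (S.point π 0).comp S.gens.val.toRingHom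

instance isPrime_gensPoint : (RingHom.ker (S.gensPoint (π := π))).IsPrime :=
  RingHom.ker_isPrime _

omit [Fact S.q.Prime] [CharP k S.q] [IsDomain R] hn hπ in
theorem gensPoint_algebraMap (u : W) :
    S.gensPoint (π := π) (algebraMap W S.gens u) = S.ρ u := by
  change π (S.r 0 (algebraMap W R u)) = _
  rw [S.r_const, AlgHom.commutes]; rfl

omit [Fact S.q.Prime] [CharP k S.q] [IsDomain R] hn hπ in
theorem gensPoint_gι_t (j : ℕ) :
    S.gensPoint (π := π) (S.gι j S.t) = S.x π ^ (S.q ^ chainDepth n 0 (min j n)) :=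
  S.point_ι_t π (Nat.zero_le n) (min_le_right j n)

section Local

variable (hρ : Function.Surjective S.ρ)
  (hker : ∀ w, S.ρ w = 0 → (S.q : W) ∣ w)
  (het : ∀ π' : Bb →ₐ[k] k, (evalZ (π' (S.red S.t)) S.D : k) ≠ 0 →
    ∀ w, S.ρ w = π' (S.red S.t) → ∀ b, π' (S.red b) = 0 →
      ∃ s, π' (S.red s) ≠ 0 ∧ s * b ∈ Ideal.span {(S.q : B), S.t - algebraMap W B w})
  [IsNoetherianRing S.gens]
  (hne : ∀ j, 1 ≤ j → j < n → S.ι (j - 1) S.t ≠ S.ι (j + 1) S.t)
  (htr : ∀ c : k, S.red S.t ≠ algebraMap k Bb c) [IsDomain Bb]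

local notation "Lss" => Localization.AtPrime (RingHom.ker (SSChain.gensPoint S (π := π)))

omit [IsDomain R] [IsNoetherianRing S.gens] [IsDomain Bb] hn in
include hρ hker het in
/-- `q` and the coordinates generate the maximal ideal. -/
theorem maximalIdeal_le {w : ℕ → W}
    (hw : ∀ j ≤ n, S.ρ (w j) = S.x π ^ (S.q ^ chainDepth n 0 j)) :
    IsLocalRing.maximalIdeal Lss ≤ Ideal.span (insert (S.q : Lss)
      ((fun j => algebraMap S.gens Lss (S.gι j S.t - algebraMap W S.gens (w j))) '' Set.Iic n)) := by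
  set I := RingHom.ker (S.gensPoint (π := π))
  set J := Ideal.span (insert (S.q : Lss)
    ((fun j => algebraMap S.gens Lss (S.gι j S.t - algebraMap W S.gens (w j))) '' Set.Iic n))
  have hqJ : (S.q : Lss) ∈ J := Ideal.subset_span (Set.mem_insert _ _)
  have hbase : ∀ j ≤ n, ∀ b : B, S.point π 0 (S.ι j b) = 0 →
      algebraMap S.gens Lss (S.gι j b) ∈ J := by
    intro j hj b hb
    let π' := S.sigmaPt (chainDepth n 0 j) π
    have hp : ∀ b, π' (S.red b) = S.point π 0 (S.ι j b) := fun b => by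
      rw [S.sigmaPt_apply, point_apply, S.r_ι 0 (Nat.zero_le n) j hj]
    have hxj : π' (S.red S.t) = S.x π ^ (S.q ^ chainDepth n 0 j) := S.x_sigmaPt _ π
    obtain ⟨s, hs, hsb⟩ := het π' (by rw [hxj]; exact S.evalZ_D_frob hπ _) (w j)
      (by rw [hw j hj, hxj]) b (by rw [hp]; exact hb)
    let f : B →+* Lss := (algebraMap S.gens Lss).comp (S.gι j).toRingHom
    have hf : f (s * b) ∈ J := by
      refine (Ideal.map_le_iff_le_comap.mpr ?_) (Ideal.mem_map_of_mem f hsb)
      rw [Ideal.span_le]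
      rintro _ (rfl | rfl)
      · simp [hqJ]
      · refine Ideal.mem_comap.mpr (Ideal.subset_span (Set.mem_insert_of_mem _ ⟨j, hj, ?_⟩))
        simp [f]
    rw [map_mul] at hf
    refine (Ideal.unit_mul_mem_iff_mem _ ?_).mp hf
    refine IsLocalization.map_units Lss (⟨S.gι j s, ?_⟩ : I.primeCompl)
    change S.point π 0 (S.gι j s : R) ≠ 0
    rw [S.coe_gι hj, ← hp]
    exact hs
  have hcst : ∀ u : W, S.ρ u = 0 → algebraMap S.gens Lss (algebraMap W S.gens u) ∈ J := by
    intro u hu
    obtain ⟨v, rfl⟩ := hker u hu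
    rw [map_mul, map_mul, map_natCast, map_natCast]
    exact J.mul_mem_right _ hqJ
  have hgen : ∀ z : S.gens, ∀ u : W, S.gensPoint (π := π) z = S.ρ u →
      algebraMap S.gens Lss (z - algebraMap W S.gens u) ∈ J := by
    rintro ⟨z, hz⟩
    induction hz using Algebra.adjoin_induction with
    | mem z hz =>
      intro u hu
      obtain ⟨j, hj, b, rfl⟩ := Set.mem_iUnion₂.mp hz
      have := hbase j hj (b - algebraMap W B u) (by
        rw [map_sub, AlgHom.commutes, map_sub, point_apply _ _ _ (algebraMap W R u), S.r_const,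
          AlgHom.commutes, sub_eq_zero]
        exact hu)
      rw [map_sub (S.gι j), AlgHom.commutes] at this
      convert this using 3
      exact Subtype.ext (S.coe_gι hj b).symm
    | algebraMap v =>
      intro u hu
      have := hcst (v - u) (by
        rw [map_sub, ← S.gensPoint_algebraMap (π := π) v, ← hu, sub_eq_zero]; rfl)
      rw [map_sub (algebraMap W S.gens)] at this
      exact this
    | add a b ha hb iha ihb =>
      intro u hu
      obtain ⟨ua, hua⟩ := hρ (S.gensPoint (π := π) ⟨a, ha⟩)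
      obtain ⟨ub, hub⟩ := hρ (S.gensPoint (π := π) ⟨b, hb⟩)
      have h0 := hcst (ua + ub - u) (by
        rw [map_sub, map_add, hua, hub, ← hu, ← map_add, sub_eq_zero]; rfl)
      have := J.add_mem (J.add_mem (iha ua hua.symm) (ihb ub hub.symm)) h0
      convert this using 1
      rw [show (⟨a + b, _⟩ : S.gens) = ⟨a, ha⟩ + ⟨b, hb⟩ from rfl]
      simp only [map_add, map_sub]
      ring
    | mul a b ha hb iha ihb =>
      intro u hu
      obtain ⟨ua, hua⟩ := hρ (S.gensPoint (π := π) ⟨a, ha⟩)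
      obtain ⟨ub, hub⟩ := hρ (S.gensPoint (π := π) ⟨b, hb⟩)
      have h0 := hcst (ua * ub - u) (by
        rw [map_sub, map_mul, hua, hub, ← hu, ← map_mul, sub_eq_zero]; rfl)
      have := J.add_mem (J.add_mem
        (J.mul_mem_right (algebraMap S.gens Lss ⟨b, hb⟩) (iha ua hua.symm))
        (J.mul_mem_left (algebraMap S.gens Lss (algebraMap W S.gens ua)) (ihb ub hub.symm))) h0
      convert this using 1
      rw [show (⟨a * b, _⟩ : S.gens) = ⟨a, ha⟩ * ⟨b, hb⟩ from rfl]
      simp only [map_mul, map_sub]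
      ring
  rw [← IsLocalization.AtPrime.map_eq_maximalIdeal I Lss, Ideal.map_le_iff_le_comap]
  intro z hz
  have := hgen z 0 (by rw [map_zero]; exact hz)
  simpa using this

include hρ hker het hne htr in
/-- The local ring of the generated subalgebra at a supersingular point is factorial. -/
theorem ufm_gens : UniqueFactorizationMonoid Lss := by
  set I := RingHom.ker (S.gensPoint (π := π))
  obtain ⟨w₀, hw₀⟩ := hρ (S.x π ^ (S.q ^ n))
  let w : ℕ → W := fun j => w₀ ^ (S.q ^ j)
  have hwv : ∀ j, S.ρ (w j) = S.x π ^ (S.q ^ (n + j)) := by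
    intro j; simp only [w, map_pow, hw₀, ← pow_mul, ← pow_add]
  have hw : ∀ j ≤ n, S.ρ (w j) = S.x π ^ (S.q ^ chainDepth n 0 j) := fun j hj => by
    rw [hwv, chainDepth_zero_left hj]
    exact S.pow_congr hπ (by omega)
  let f := algebraMap S.gens Lss
  let T : ℕ → Lss := fun j => f (S.gι j S.t)
  let c : ℕ → Lss := fun j => f (algebraMap W S.gens (w j))
  have hle : I.primeCompl ≤ nonZeroDivisors S.gens :=
    le_nonZeroDivisors_of_noZeroDivisors fun h0 => h0 (Submodule.zero_mem _)
  have : IsDomain Lss := IsLocalization.isDomain_of_le_nonZeroDivisors Lss hle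
  have hinj : Function.Injective f := IsLocalization.injective Lss hle
  have hunit : ∀ s : S.gens, S.gensPoint (π := π) s ≠ 0 → IsUnit (f s) :=
    fun s hs => IsLocalization.map_units Lss (⟨s, hs⟩ : I.primeCompl)
  have hmax : ∀ s : S.gens, S.gensPoint (π := π) s = 0 → f s ∈ IsLocalRing.maximalIdeal Lss :=
    fun s hs => (IsLocalization.AtPrime.to_map_mem_maximal_iff Lss I s).mpr hs
  have hTc : ∀ j ≤ n, T j - c j ∈ IsLocalRing.maximalIdeal Lss := by
    intro j hj
    rw [← map_sub]
    exact hmax _ (by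
      rw [map_sub, S.gensPoint_gι_t, min_eq_left hj, S.gensPoint_algebraMap, hw j hj, sub_self])
  -- the values of the modular equations
  have hmap : ∀ {i j : ℕ}, i ≤ n → j ≤ n → evalZ (S.ι i S.t) S.D ^ S.e *
      ((S.ι i S.t - S.ι j S.t ^ S.q) * (S.ι i S.t ^ S.q - S.ι j S.t)) +
        S.q * bieval (S.ι i S.t) (S.ι j S.t) S.U = 0 →
      evalZ (T i) S.D ^ S.e * ((T i - T j ^ S.q) * (T i ^ S.q - T j)) +
        S.q * bieval (T i) (T j) S.U = 0 := fun {i j} hi hj h => by
    have hg : evalZ (S.gι i S.t) S.D ^ S.e *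
        ((S.gι i S.t - S.gι j S.t ^ S.q) * (S.gι i S.t ^ S.q - S.gι j S.t)) +
          S.q * bieval (S.gι i S.t) (S.gι j S.t) S.U = 0 := by
      have hv : Function.Injective S.gens.val.toRingHom := Subtype.val_injective
      apply hv
      simp only [map_add, map_mul, map_pow, map_sub, map_natCast, map_bieval, map_evalZ, map_zero]
      simp only [AlgHom.toRingHom_eq_coe, RingHom.coe_coe, Subalgebra.coe_val, S.coe_gι hi,
        S.coe_gι hj]
      exact h
    have h2 := congrArg f hg
    simpa only [map_add, map_mul, map_pow, map_sub, map_natCast, map_bieval, map_evalZ,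
      map_zero] using h2
  have hu : ∀ j, IsUnit (evalZ (T j) S.D ^ S.e) := by
    intro j
    refine IsUnit.pow _ ?_
    rw [show evalZ (T j) S.D = f (evalZ (S.gι j S.t) S.D) from (map_evalZ f _ _).symm]
    refine hunit _ ?_
    rw [map_evalZ, S.gensPoint_gι_t]
    exact S.evalZ_D_frob hπ _
  choose v hv using fun j => (hu j).exists_left_inv
  have hrel : ∀ i j : ℕ, i ≤ n → j ≤ n → evalZ (S.ι i S.t) S.D ^ S.e *
      ((S.ι i S.t - S.ι j S.t ^ S.q) * (S.ι i S.t ^ S.q - S.ι j S.t)) +
        S.q * bieval (S.ι i S.t) (S.ι j S.t) S.U = 0 →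
      (T i - T j ^ S.q) * (T i ^ S.q - T j) + (S.q : Lss) *
        (C (v i) * S.U.map (eval₂RingHom (Int.castRingHom Lss) (T i))).eval (T j) = 0 := by
    intro i j hi hj h
    have h2 := hmap hi hj h
    rw [bieval] at h2
    rw [eval_mul, eval_C, eval_map]
    linear_combination (v i) * h2 - ((T i - T j ^ S.q) * (T i ^ S.q - T j)) * (hv i)
  have hqsq : (S.q : Lss) ∈ IsLocalRing.maximalIdeal Lss ^ 2 := by
    have h2 := hmap (Nat.zero_le n) hn (S.rel 0 hn)
    rw [← mul_assoc] at h2
    refine natCast_mem_sq (Ideal.mul_mem_left _ _ ?_) ?_ ?_ h2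
    · simp only [T, ← map_pow, ← map_sub]
      refine hmax _ ?_
      simp only [map_sub, map_pow, S.gensPoint_gι_t, min_eq_left hn, Nat.zero_min,
        chainDepth_zero_left hn, chainDepth_zero_left (Nat.zero_le n), ← pow_mul, ← pow_succ,
        sub_eq_zero]
      exact S.pow_congr hπ (by omega)
    · simp only [T, ← map_pow, ← map_sub]
      refine hmax _ ?_
      simp only [map_sub, map_pow, S.gensPoint_gι_t, min_eq_left hn, Nat.zero_min,
        chainDepth_zero_left hn, chainDepth_zero_left (Nat.zero_le n), ← pow_mul, ← pow_succ,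
        sub_eq_zero]
      exact S.pow_congr hπ (by omega)
    · simp only [T, ← map_bieval]
      refine hunit _ ?_
      rw [map_bieval, S.gensPoint_gι_t, S.gensPoint_gι_t, min_eq_left hn, Nat.zero_min,
        chainDepth_zero_left hn, chainDepth_zero_left (Nat.zero_le n), Nat.sub_zero,
        show S.x π ^ (S.q ^ (n - 1)) = (S.x π ^ (S.q ^ n)) ^ S.q by
          rw [← pow_mul, ← pow_succ]; exact S.pow_congr hπ (by omega)]
      exact S.bieval_U_frob hπ n
  have hpair : IsLocalRing.maximalIdeal Lss = Ideal.span {T n - c n, T 0 - c 0} := by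
    rw [Set.pair_comm]
    refine maximalIdeal_eq_supersingular (q := S.q) hn
      (U := fun i => C (v i) * S.U.map (eval₂RingHom (Int.castRingHom Lss) (T i)))
      ?_ hTc ?_ ?_ ?_ ?_ ?_ hqsq
    · refine (S.maximalIdeal_le hπ hρ hker het hw).trans (le_of_eq ?_)
      congr 2
      refine Set.image_congr fun j _ => ?_
      simp only [T, c, map_sub, f]
    · intro j h1 h2 h
      refine hne j h1 h2 ?_
      have h3 := congrArg Subtype.val (hinj h)
      rwa [S.coe_gι (by omega), S.coe_gι (by omega)] at h3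
    · intro j h1 h2
      simp only [c, ← map_sub]
      refine hmax _ ?_
      rw [S.gensPoint_algebraMap, map_sub, hwv, hwv, sub_eq_zero]
      exact S.pow_congr hπ (by omega)
    · intro j h1 h2
      have e1 : ∀ m, c m ^ S.q = c (m + 1) := fun m => by
        simp only [c, w, ← map_pow, ← pow_mul, ← pow_succ]
      refine ⟨?_, ?_⟩
      · rw [e1, Nat.sub_add_cancel h1]
      · rw [e1, sub_self]
        exact Submodule.zero_mem _
    · intro j h1 h2
      have h := S.rel' (j - 1) (by omega)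
      rw [Nat.sub_add_cancel h1] at h
      exact hrel j (j - 1) (by omega) (by omega) h
    · intro j h1 h2
      exact hrel j (j + 1) (by omega) (by omega) (S.rel j h2)
  -- dimension two: the branch `0` is a prime strictly between
  let P := RingHom.ker ((S.r 0).comp S.gens.val.toRingHom)
  have hPle : P ≤ I := fun z hz => by
    change π (S.r 0 (z : R)) = 0
    rw [show S.r 0 (z : R) = 0 from hz, map_zero]
  have hdisj : Disjoint (I.primeCompl : Set S.gens) P :=
    Set.disjoint_left.mpr fun z hz hz' => hz (hPle hz')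
  have : P.IsPrime := RingHom.ker_isPrime _
  have hPL := IsLocalization.isPrime_of_isPrime_disjoint I.primeCompl Lss P ‹_› hdisj
  have hrq : S.r 0 (S.q : R) = 0 := by
    rw [← map_natCast (algebraMap W R), S.r_const, map_natCast, CharP.cast_eq_zero, map_zero]
  have hr0 : S.r 0 (S.ι n S.t - algebraMap W R (w n)) ≠ 0 := by
    rw [map_sub, S.r_ι 0 (Nat.zero_le n) n le_rfl, chainDepth_zero_left le_rfl, Nat.sub_self,
      S.r_const, sub_ne_zero]
    exact htr _
  have hcoe : ((S.gι n S.t - algebraMap W S.gens (w n) : S.gens) : R) =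
      S.ι n S.t - algebraMap W R (w n) := by
    rw [AddSubgroupClass.coe_sub, S.coe_gι le_rfl]; rfl
  have hcomap : (P.map f).comap f = P :=
    IsLocalization.under_map_of_isPrime_disjoint I.primeCompl Lss ‹_› hdisj
  refine ufm_of_pair hpair (fun h => ?_) (P := P.map f) ?_ ?_
  · rw [← map_sub, ← map_zero f] at h
    exact hr0 (by rw [← hcoe, hinj h, ZeroMemClass.coe_zero, map_zero])
  · intro h
    have hmem : f (S.q : S.gens) ∈ P.map f :=
      Ideal.mem_map_of_mem _ (by simpa [P] using hrq)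
    rw [h, Ideal.mem_bot, ← map_zero f] at hmem
    exact S.q_ne_zero (by simpa using congrArg Subtype.val (hinj hmem))
  · intro h
    have h0 := hTc n le_rfl
    rw [← h, ← map_sub, ← Ideal.mem_comap, hcomap] at h0
    refine hr0 ?_
    rw [← hcoe]
    exact h0

variable (hint : ∀ a : R, IsIntegral S.gens a)
  (hfrac : ∀ a : R, ∃ s z : S.gens, (s : R) ≠ 0 ∧ a * s = z)
include hρ hker het hne htr hint hfrac

/-- The generated subalgebra already gives the local ring of the chart. -/
theorem exists_mul_mem (a : R) :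
    ∃ s z : S.gens, S.gensPoint (π := π) s ≠ 0 ∧ a * s = z := by
  set I := RingHom.ker (S.gensPoint (π := π))
  have : UniqueFactorizationMonoid Lss := S.ufm_gens hn hπ hρ hker het hne htr
  have hle : I.primeCompl ≤ nonZeroDivisors S.gens :=
    le_nonZeroDivisors_of_noZeroDivisors fun h0 => h0 (Submodule.zero_mem _)
  have : IsDomain Lss := IsLocalization.isDomain_of_le_nonZeroDivisors Lss hle
  have hinj : Function.Injective (algebraMap S.gens Lss) := IsLocalization.injective Lss hle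
  obtain ⟨s₀, z₀, hs₀, hz₀⟩ := hfrac a
  obtain ⟨p, hp, hp0⟩ := hint a
  have h0 : (p.scaleRoots s₀).eval z₀ = 0 := by
    have hv : Function.Injective S.gens.val.toRingHom := Subtype.val_injective
    apply hv
    rw [map_zero, ← eval₂_at_apply, show S.gens.val.toRingHom z₀ = algebraMap S.gens R s₀ * a by
      rw [mul_comm]; exact hz₀.symm]
    exact scaleRoots_eval₂_eq_zero _ hp0
  have hs : algebraMap S.gens Lss s₀ ≠ 0 := fun h => hs₀ (by
    rw [← map_zero (algebraMap S.gens Lss)] at h; exact congrArg Subtype.val (hinj h))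
  obtain ⟨y, hy⟩ := exists_eq_mul_of_scaleRoots (algebraMap S.gens Lss) hp hs h0
  obtain ⟨z, u, rfl⟩ := IsLocalization.exists_mk'_eq I.primeCompl y
  refine ⟨u, z, u.2, mul_right_cancel₀ hs₀ ?_⟩
  have h2 : algebraMap S.gens Lss z₀ * algebraMap S.gens Lss u =
      algebraMap S.gens Lss z * algebraMap S.gens Lss s₀ := by
    rw [hy, ← IsLocalization.mk'_spec Lss z u]
    ring
  rw [← map_mul, ← map_mul] at h2
  rw [mul_right_comm, hz₀]
  exact congrArg Subtype.val (hinj h2)

/-- **The local ring at a supersingular point is factorial.** -/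
theorem ufm :
    haveI : (RingHom.ker (S.point π 0)).IsPrime := RingHom.ker_isPrime _
    UniqueFactorizationMonoid (Localization.AtPrime (RingHom.ker (S.point π 0))) := by
  have : (RingHom.ker (S.point π 0)).IsPrime := RingHom.ker_isPrime _
  set I := RingHom.ker (S.gensPoint (π := π))
  set J := RingHom.ker (S.point π 0)
  have hJ : I = J.comap S.gens.val.toRingHom := rfl
  let f := Localization.localRingHom I J S.gens.val.toRingHom hJ
  have hR : J.primeCompl ≤ nonZeroDivisors R :=
    le_nonZeroDivisors_of_noZeroDivisors fun h0 => h0 (Submodule.zero_mem _)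
  have hf : Function.Bijective f := by
    constructor
    · rw [injective_iff_map_eq_zero]
      intro y hy
      obtain ⟨z, u, rfl⟩ := IsLocalization.exists_mk'_eq I.primeCompl y
      rw [Localization.localRingHom_mk', IsLocalization.mk'_eq_zero_iff] at hy
      obtain ⟨m, hm⟩ := hy
      rw [show z = 0 from Subtype.ext ((mul_eq_zero.mp hm).resolve_left
        (fun h0 => m.2 (by rw [h0]; exact Submodule.zero_mem _))), IsLocalization.mk'_zero]
    · intro y
      obtain ⟨a, b, rfl⟩ := IsLocalization.exists_mk'_eq J.primeCompl y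
      obtain ⟨s, z, hs, hz⟩ := S.exists_mul_mem hn hπ hρ hker het hne htr hint hfrac a
      obtain ⟨s', z', hs', hz'⟩ := S.exists_mul_mem hn hπ hρ hker het hne htr hint hfrac (b : R)
      have hb : S.gensPoint (π := π) z' ≠ 0 := by
        change S.point π 0 (z' : R) ≠ 0
        rw [← hz', map_mul]
        exact mul_ne_zero b.2 hs'
      refine ⟨IsLocalization.mk' _ (z * s') (⟨z' * s, mul_mem (s := I.primeCompl) hb hs⟩ :
        I.primeCompl), ?_⟩
      rw [Localization.localRingHom_mk', IsLocalization.mk'_eq_iff_eq]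
      congr 1
      change (b : R) * ((z : R) * (s' : R)) = ((z' : R) * (s : R)) * a
      rw [← hz, ← hz']
      ring
  exact (RingEquiv.ofBijective f hf).toMulEquiv.uniqueFactorizationMonoid
    (S.ufm_gens hn hπ hρ hker het hne htr)

end Local

end SSChain

end Fermat.Agent.CarayolHigh
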