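import Fermat.Agent.CarayolHigh.ChartData
import Fermat.Agent.CarayolHigh.Residues
import Fermat.Agent.CarayolHigh.Supersingular
import Fermat.Agent.Carayol.EtaleChart
import Fermat.Agent.Carayol.BranchBase
import Fermat.Agent.MF.Coeff.IntegralJN

/-!
The finite chart of `X₀(qⁿ L)` seen from level `L`: the maps `τ ↦ q^j τ` from the chart of `j` at
level `L`, their residues on the branches, and the reductions of the chart along the branches into
the coordinate ring of `j̄` in characteristic `q`, with its Frobenius `x ↦ x^q`.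
-/

set_option autoImplicit false
set_option linter.unusedSectionVars false
set_option synthInstance.maxHeartbeats 100000

noncomputable section

open Polynomial HahnSeries ModularCurve AlgebraicCurve
open Fermat.Agent.Igusa Fermat.Agent.RED Fermat.Agent.RED.Spec Fermat.Agent.HK.Corr
open Fermat.Agent.Carayol

namespace Fermat.Agent.CarayolHigh

section Transfer

variable {W E F : Type} [CommRing W] [Field E] [Field F] [Algebra W E] [Algebra W F]

/-- A chart maps into the chart of any element over which the image of its coordinate is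
integral. -/
theorem map_mem_chartRing (f : E →ₐ[W] F) {x : E} {y : F} (hy : f x ∈ Carayol.chartRing W y)
    {a : E} (ha : a ∈ Carayol.chartRing W x) : f a ∈ Carayol.chartRing W y := by
  obtain ⟨g, hg, hga⟩ := mem_chartRing_iff_isIntegralElem.mp ha
  let e : W[X] →+* Carayol.chartRing W y :=
    (aeval (⟨f x, hy⟩ : Carayol.chartRing W y)).toRingHom
  refine chartRing_closed _ _ ⟨g.map e, hg.map _, ?_⟩
  have hcomp : (algebraMap (Carayol.chartRing W y) F).comp e =
      f.toRingHom.comp (aeval (R := W) x).toRingHom := by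
    refine Polynomial.ringHom_ext (fun w => ?_) ?_
    · simp [e, RingHom.comp_apply]
    · simp [e, RingHom.comp_apply]
  rw [eval₂_map, hcomp]
  exact (hom_eval₂ g _ f.toRingHom a).symm.trans (by rw [hga, map_zero])

end Transfer

section Integral

variable (K : Type) [Field K] [Algebra ℚ K]

/-- `j (dτ)` is integral over `ℤ[j]`. -/
theorem isIntegralElem_jqNModC (d : ℕ) [NeZero d] :
    (eval₂RingHom (Int.castRingHom (LaurentSeries K)) (jqModC K)).IsIntegralElem
      (jqNModC K d) := by
  obtain ⟨Q, hQ, hQ0⟩ := MF.Coeff.isIntegralElem_jqN_all d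
  let f : LaurentSeries ℚ →+* LaurentSeries K := coeffMap (algebraMap ℚ K)
  refine ⟨Q, hQ, ?_⟩
  have hcomp : f.comp evalAtJ = eval₂RingHom (Int.castRingHom (LaurentSeries K)) (jqModC K) :=
    Polynomial.ringHom_ext' (RingHom.ext_int _ _) (by
      rw [RingHom.comp_apply, evalAtJ_X, coe_eval₂RingHom, eval₂_X]
      exact coeffMap_jqModC _)
  have h := congrArg f hQ0
  rw [map_zero, hom_eval₂, hcomp, show f (jqN d) = jqNModC K d from coeffMap_jqNModC _ d] at h
  exact h

variable {K} (A : ValuationSubring K) {L N : ℕ} [NeZero L] [NeZero N]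

/-- The chart of `j` at level `L` maps into that of level `N` along `τ ↦ d τ`. -/
theorem degen_mem_chart {d : ℕ} [NeZero d] (h : L * d ∣ N) {b : modField K L}
    (hb : b ∈ Carayol.chartRing A (MF.Coeff.jElem K L)) :
    degenMap K d h b ∈ Carayol.chartRing A (MF.Coeff.jElem K N) := by
  have := isScalarTower_valuationSubring (E := modField K L) A
  have := isScalarTower_valuationSubring (E := modField K N) A
  refine map_mem_chartRing ((degenMap K d h).restrictScalars A) ?_ hb
  refine mem_chartRing_of_intEval ?_
  show (eval₂RingHom (Int.castRingHom (LaurentSeries K)) (jqModC K)).IsIntegralElem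
    (qExpand K d (jqModC K))
  exact isIntegralElem_jqNModC K d

/-- `τ ↦ d τ` on the charts of `j`. -/
def chartDegen {d : ℕ} [NeZero d] (h : L * d ∣ N) :
    Carayol.chartRing A (MF.Coeff.jElem K L) →ₐ[A] Carayol.chartRing A (MF.Coeff.jElem K N) where
  toFun b := ⟨degenMap K d h b, degen_mem_chart A h b.2⟩
  map_one' := Subtype.ext (map_one _)
  map_mul' _ _ := Subtype.ext (map_mul (degenMap K d h) _ _)
  map_zero' := Subtype.ext (map_zero _)
  map_add' _ _ := Subtype.ext (map_add (degenMap K d h) _ _)
  commutes' c := Subtype.ext ((degenMap K d h).commutes (c : K))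

theorem coe_chartDegen {d : ℕ} [NeZero d] (h : L * d ∣ N)
    (b : Carayol.chartRing A (MF.Coeff.jElem K L)) :
    (chartDegen A h b : modField K N) = degenMap K d h b := rfl

end Integral

section Branch

variable {K : Type} [Field K] [Algebra ℚ K] {K' : Type} [Field K'] [Algebra ℚ K']
  {O : ValuationSubring K'} {k : Type} [Field k]
variable {L q n : ℕ} [NeZero L] [NeZero q] {κ : K →+* K'} {π : O →+* k}

theorem pow_dvd_level' {j : ℕ} (hj : j ≤ n) : L * q ^ j ∣ L * q ^ n :=
  mul_dvd_mul_left L (pow_dvd_pow q hj)

/-- `τ ↦ q^j τ` from level `L` on the branch `i`. -/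
theorem branch_degen {hq : q.Prime} {hqL : ¬ q ∣ L} {i : ℕ} {ζ : K'ˣ}
    {φ : modField K (L * q ^ n) →+* LaurentSeries K'} (hφ : IsSubst κ φ (branchVal hq hqL i ζ))
    {j : ℕ} (hj : j ≤ n) (e : modField K L) :
    φ (degenMap K (q ^ j) (pow_dvd_level' hj) e) = branchTerm n i ζ q j (baseEmb κ L e) := by
  let ψ : modField K L →+* LaurentSeries K' :=
    if j ≤ i then (qExpand K' (q ^ (n + j))).comp (baseEmb κ L)
    else (qExpand K' (q ^ (n + 2 * i - j))).comp
      ((qScale (ζ ^ q ^ (n - (j - i)))).comp (baseEmb κ L))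
  have hψ : ∀ x, ψ x = branchTerm n i ζ q j (baseEmb κ L x) := fun x => by
    simp only [ψ, branchTerm]
    split_ifs <;> rfl
  rw [← hψ]
  refine DFunLike.congr_fun (f := φ.comp
    (degenMap K (q ^ j) (pow_dvd_level' hj : L * q ^ j ∣ L * q ^ n)).toRingHom) ?_ e
  have hs : IsSubst κ ψ fun d => branchTerm n i ζ q j (genSer K' d) := by
    simp only [ψ, branchTerm]
    split_ifs
    · exact (isSubst_baseEmb κ L).qExpand_comp _
    · exact ((isSubst_baseEmb κ L).qScale_comp _).qExpand_comp _
  refine (hφ.comp_degen (q ^ j) (pow_dvd_level' hj)).ext hs fun d => ?_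
  exact branchVal_eq hq hqL _ _ d (k := j) (by rw [coe_mulIdx, mul_comm])

/-- Its residue. -/
theorem isGauss_branch_degen [Fact q.Prime] [CharP k q] {hq : q.Prime} {hqL : ¬ q ∣ L} {i : ℕ}
    (hi : i ≤ n) {ζ : K'ˣ} (hζ : ζ ^ q ^ n = 1)
    {φ : modField K (L * q ^ n) →+* LaurentSeries K'} (hφ : IsSubst κ φ (branchVal hq hqL i ζ))
    {j : ℕ} (hj : j ≤ n) {e : modField K L} {r : LaurentSeries k}
    (h : IsGauss π (baseEmb κ L e) r) :
    IsGauss π (φ (degenMap K (q ^ j) (pow_dvd_level' hj) e))
      (qExpand k (q ^ lowExp n i) (qExpand k (q ^ chainDepth n i j) r)) := by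
  rw [branch_degen hφ hj, branchTerm, qExpand_qExpand]
  split_ifs with hji
  · convert h.qExpand (q ^ (n + j)) using 1
    exact qExpand_congr (by
      rw [← _root_.pow_add]; congr 1; simp only [lowExp, chainDepth]; omega) _
  · have hu : (ζ ^ q ^ (n - (j - i))) ^ q ^ n = 1 := by
      rw [← pow_mul, mul_comm, pow_mul, hζ, one_pow]
    convert (h.qScale_root hu).qExpand (q ^ (n + 2 * i - j)) using 1
    exact qExpand_congr (by
      rw [← _root_.pow_add]; congr 1; simp only [lowExp, chainDepth]; omega) _

end Branch

section Sigma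

variable {k : Type} [Field k] (L q : ℕ) [NeZero q] [Fact q.Prime] [CharP k q]

/-- `x ↦ x^q` for the variable, on the function field in characteristic `q`. -/
def fullFrob : modularFunctionFieldFullC k L →ₐ[k] modularFunctionFieldFullC k L :=
  ((qExpandAlgHomC k q).comp (modularFunctionFieldFullC k L).val).codRestrict
    (modularFunctionFieldFullC k L).toSubalgebra fun x => by
      have h := qExpand_pow_mem_fullC (k := k) (q := q) 1 x.2
      rwa [qExpand_congr (pow_one q)] at h

theorem coe_fullFrob (x : modularFunctionFieldFullC k L) :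
    (fullFrob L q x : LaurentSeries k) = qExpand k q (x : LaurentSeries k) := rfl

theorem fullFrob_jSpecial [NeZero L] :
    fullFrob L q (jSpecial (k := k) L) = jSpecial L ^ q := Subtype.ext (by
  rw [coe_fullFrob, SubmonoidClass.coe_pow, coe_jSpecial, laurentSeries_pow_char q (jqModC k),
    coeffMap_jqModC])

variable [NeZero L]

theorem fullFrob_mem_coordRing {x : modularFunctionFieldFullC k L}
    (hx : x ∈ coordRing k (jSpecial (k := k) L)) :
    fullFrob L q x ∈ coordRing k (jSpecial (k := k) L) := by
  obtain ⟨p, hp, hp0⟩ := hx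
  refine ⟨p.map (aeval (X ^ q : k[X])).toRingHom, hp.map _, ?_⟩
  rw [eval₂_map]
  have hcomp : (coordEval k (jSpecial (k := k) L)).comp (aeval (X ^ q : k[X])).toRingHom =
      (fullFrob L q).toRingHom.comp (coordEval k (jSpecial (k := k) L)) :=
    Polynomial.ringHom_ext (fun c => by simp) (by simp [fullFrob_jSpecial])
  rw [hcomp]
  exact (hom_eval₂ p _ (fullFrob L q).toRingHom x).symm.trans (by rw [hp0, map_zero])

/-- `x ↦ x^q` for the variable, on the coordinate ring of `j̄`. -/
def chartFrob : coordRing k (jSpecial (k := k) L) →ₐ[k] coordRing k (jSpecial (k := k) L) :=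
  ((fullFrob L q).comp (coordRing k (jSpecial (k := k) L)).val).codRestrict
    (coordRing k (jSpecial (k := k) L)) fun x => fullFrob_mem_coordRing L q x.2

theorem coe_chartFrob_iterate (m : ℕ) (x : coordRing k (jSpecial (k := k) L)) :
    (((chartFrob L q)^[m] x : modularFunctionFieldFullC k L) : LaurentSeries k) =
      qExpand k (q ^ m) ((x : modularFunctionFieldFullC k L) : LaurentSeries k) := by
  induction m with
  | zero => rw [qExpand_congr (pow_zero q), qExpand_one_apply]; rfl
  | succ m ih =>
    rw [Function.iterate_succ_apply', qExpand_congr (pow_succ' q m), ← qExpand_qExpand, ← ih]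
    rfl

theorem chartFrob_injective : Function.Injective (chartFrob (k := k) L q) := fun a b h => by
  refine Subtype.ext (Subtype.ext (qExpand_injective (R := k) (N := q) ?_))
  exact congrArg (fun z : coordRing k (jSpecial (k := k) L) =>
    ((z : modularFunctionFieldFullC k L) : LaurentSeries k)) h

theorem chartFrob_isIntegral : (chartFrob (k := k) L q).toRingHom.IsIntegral := by
  let t : coordRing k (jSpecial (k := k) L) := ⟨jSpecial L, self_mem_coordRing _ _⟩
  let e : k[X] →+* coordRing k (jSpecial (k := k) L) := (aeval t).toRingHom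
  have he : e.IsIntegral := fun b => by
    obtain ⟨p, hp, hp0⟩ := b.2
    refine ⟨p, hp, Subtype.val_injective ?_⟩
    have hcomp : (coordRing k (jSpecial (k := k) L)).toSubring.subtype.comp e =
        coordEval k (jSpecial (k := k) L) :=
      Polynomial.ringHom_ext (fun c => by simp [e, coordEval]; rfl) (by simp [e, t, coordEval]; rfl)
    have h := hom_eval₂ p e (coordRing k (jSpecial (k := k) L)).toSubring.subtype b
    rw [hcomp] at h
    exact h.trans hp0
  let g : k[X] →+* k[X] := (aeval (X ^ q : k[X])).toRingHom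
  have hg : g.IsIntegral := fun p => by
    induction p using Polynomial.induction_on' with
    | add a b ha hb => exact RingHom.IsIntegralElem.add g ha hb
    | monomial m c =>
      rw [← C_mul_X_pow_eq_monomial]
      refine RingHom.IsIntegralElem.mul g ?_ ?_
      · rw [show (Polynomial.C c : k[X]) = g (Polynomial.C c) from (aeval_C (X ^ q) c).symm]
        exact RingHom.isIntegralElem_map g
      · have hX : g.IsIntegralElem X :=
          ⟨(X : k[X][X]) ^ q - Polynomial.C X, monic_X_pow_sub_C _ (NeZero.ne q), by
            simp [g]⟩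
        induction m with
        | zero => rw [pow_zero]; exact RingHom.isIntegralElem_one g
        | succ m ih => rw [pow_succ]; exact RingHom.IsIntegralElem.mul g ih hX
  refine RingHom.IsIntegral.tower_top e (chartFrob (k := k) L q).toRingHom ?_
  have hcomp : (chartFrob (k := k) L q).toRingHom.comp e = e.comp g :=
    Polynomial.ringHom_ext (fun c => by simp [e, g]) (by
      simp only [e, g, RingHom.comp_apply, AlgHom.toRingHom_eq_coe, RingHom.coe_coe, aeval_X,
        map_pow]
      exact Subtype.ext (fullFrob_jSpecial L q))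
  rw [hcomp]
  exact RingHom.IsIntegral.trans g e hg he

end Sigma

namespace ChartData

variable {K : Type} [Field K] [Algebra ℚ K] {K' : Type} [Field K'] [Algebra ℚ K']
  {O : ValuationSubring K'} {k : Type} [Field k]
variable {L₀ q n : ℕ} [NeZero L₀] [NeZero q]
variable {hq : q.Prime} {hqL : ¬ q ∣ L₀} {π : O →+* k} {κ : K →+* K'} {η : K'ˣ}
  {A : ValuationSubring K} {φ : BranchIdx q n → modField K (L₀ * q ^ n) →+* LaurentSeries K'}
  {rep : Fin (n + 1) → BranchIdx q n}
  {Br : Branches (modField K (L₀ * q ^ n)) (Fin (n + 1))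
    (fun _ => modularFunctionFieldFullC k L₀)}
  (D : ChartData hq hqL π κ η A φ rep Br (modularFunctionFieldFullC k L₀).val.toRingHom)

include D

theorem residueA_surjective : Function.Surjective (residueA π κ A D.hA) := fun y => by
  obtain ⟨a, ha, hy⟩ := D.hsurj y
  exact ⟨⟨a, ha⟩, hy⟩

/-- The reduction of the chart of level `L`. -/
def baseRed : Carayol.chartRing A (MF.Coeff.jElem K L₀) →+* coordRing k (jSpecial (k := k) L₀) :=
  (Etale.chartRedOf (levelRed (A := A) L₀ D.residueA_surjective D.hL)
      (X := (good_x0 A (residueA π κ A D.hA) L₀ D.residueA_surjective D.hL).paramX)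
      (toE_jPair A (residueA π κ A D.hA) L₀)).codRestrict
    (coordRing k (jSpecial (k := k) L₀)) fun b => by
      have hj : (levelRed (A := A) L₀ D.residueA_surjective D.hL).red
          (good_x0 A (residueA π κ A D.hA) L₀ D.residueA_surjective D.hL).paramX = jSpecial L₀ :=
        (good_x0 A (residueA π κ A D.hA) L₀ D.residueA_surjective D.hL).red_paramX.trans
          (toEb_jPair A (residueA π κ A D.hA) L₀)
      rw [← hj]
      exact Etale.chartRedOf_mem _ _
        (good_x0 A (residueA π κ A D.hA) L₀ D.residueA_surjective D.hL).param b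

/-- It is the Gauss residue. -/
theorem isGauss_baseRed (b : Carayol.chartRing A (MF.Coeff.jElem K L₀)) :
    IsGauss π (baseEmb κ L₀ (b : modField K L₀))
      ((D.baseRed b : modularFunctionFieldFullC k L₀) : LaurentSeries k) := by
  have hW : (b : modField K L₀) ∈
      (levelRed (A := A) L₀ D.residueA_surjective D.hL).W :=
    LiftBase.chartRing_mem_W (levelRed (A := A) L₀ D.residueA_surjective D.hL)
      (good_x0 A (residueA π κ A D.hA) L₀ D.residueA_surjective D.hL).paramX
      (b.2 |> (congrArg (fun x => (b : modField K L₀) ∈ Carayol.chartRing A x)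
        (toE_jPair A (residueA π κ A D.hA) L₀)).mpr)
  have := D.dvr
  obtain ⟨a, c, hc, hac, hr⟩ := exists_levelFrac O π κ D.hA (fun _ => rfl) L₀ 1
    D.residueA_surjective D.hL ⟨_, hW⟩
  refine ⟨a, c, hc, ?_, ?_⟩
  · rw [← hac]
    congr 1
    exact (qExpand_one_apply _).symm
  · rw [hr, qExpand_one_apply]
    exact congrArg (fun z : modularFunctionFieldFullC k L₀ => (z : LaurentSeries k))
      (Etale.chartRedOf_apply (levelRed (A := A) L₀ D.residueA_surjective D.hL)
        (toE_jPair A (residueA π κ A D.hA) L₀) b hW)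

variable (hR : IsChart Br (q : A) (Carayol.chartRing A (MF.Coeff.jElem K (L₀ * q ^ n))))

/-- The residue of a constant. -/
theorem chartRes_algebraMap (i : Fin (n + 1)) (w : A) :
    chartRes Br hR i (algebraMap A _ w) =
      algebraMap k (modularFunctionFieldFullC k L₀) (residueA π κ A D.hA w) := by
  obtain ⟨_, h⟩ := (D.isGauss_iff i _ (HahnSeries.C (residueA π κ A D.hA w))).mp (by
    rw [qExpand_C]
    exact D.isGauss_const _ w)
  refine Subtype.ext (h.trans ?_)
  show HahnSeries.C _ = algebraMap k (LaurentSeries k) _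
  rw [algebraMap_laurentSeries_eq_single]
  rfl

/-- `τ ↦ q^j τ` on the branch `i`. -/
theorem chartRes_chartDegen (i : Fin (n + 1)) {j : ℕ} (hj : j ≤ n) (b : Carayol.chartRing A (MF.Coeff.jElem K L₀)) :
    ((chartRes Br hR i (chartDegen A (pow_dvd_level' hj) b) : modularFunctionFieldFullC k L₀) :
        LaurentSeries k) =
      qExpand k (q ^ chainDepth n i j)
        ((D.baseRed b : modularFunctionFieldFullC k L₀) : LaurentSeries k) := by
  have := Fact.mk hq
  have := D.charP
  have h := isGauss_branch_degen (Nat.le_of_lt_succ i.2) (pow_pow_rootExp D.hη (rep i))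
    (D.hrep i ▸ D.hφ (rep i)) hj (D.isGauss_baseRed b)
  obtain ⟨_, he⟩ := (D.isGauss_iff i _ _).mp h
  exact he

/-- Residues of the chart are integral over `k[j̄]`. -/
theorem chartRes_mem_coordRing (i : Fin (n + 1))
    (a : Carayol.chartRing A (MF.Coeff.jElem K (L₀ * q ^ n))) :
    chartRes Br hR i a ∈ coordRing k (jSpecial (k := k) L₀) := by
  have := Fact.mk hq
  have := D.charP
  obtain ⟨g, hg, hga⟩ := mem_chartRing_iff_isIntegralElem.mp a.2
  set jt : Carayol.chartRing A (MF.Coeff.jElem K (L₀ * q ^ n)) :=
    ⟨MF.Coeff.jElem K (L₀ * q ^ n), self_mem_chartRing _⟩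
  have hjt : chartRes Br hR i jt = jSpecial L₀ ^ q ^ chainDepth n i 0 := by
    obtain ⟨_, he⟩ := (D.isGauss_iff i _ (qExpand k (q ^ chainDepth n i 0) (jqModC k))).mp
      (show IsGauss π (φ (rep i) (MF.Coeff.jElem K (L₀ * q ^ n))) _ from by
        have h := isGauss_branch_degen (π := π) (Nat.le_of_lt_succ i.2)
          (pow_pow_rootExp D.hη (rep i)) (D.hrep i ▸ D.hφ (rep i)) (Nat.zero_le n)
          (e := MF.Coeff.jElem K L₀) (r := jqModC k) (by
            show IsGauss π (coeffMap κ (jqModC K)) _
            rw [coeffMap_jqModC, ← coeffMap_jqModC (Int.castRingHom K'),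
              ← coeffMap_jqModC (Int.castRingHom k)]
            exact isGauss_intCast _)
        convert h using 2
        exact Subtype.ext (((coe_degenMap (q ^ 0) (pow_dvd_level' (Nat.zero_le n))
          (MF.Coeff.jElem K L₀)).trans
            ((qExpand_congr (pow_zero q) _).trans (qExpand_one_apply _))).symm))
    refine Subtype.ext (he.trans ?_)
    rw [SubmonoidClass.coe_pow, coe_jSpecial]
    induction chainDepth n i 0 with
    | zero =>
      rw [qExpand_congr (pow_zero q), qExpand_one_apply]
      exact ((congrArg (jqModC k ^ ·) (pow_zero q)).trans (pow_one _)).symm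
    | succ m ih =>
      conv_rhs => rw [pow_succ q m, pow_mul, ← ih, ← map_pow, laurentSeries_pow_char q (jqModC k),
        coeffMap_jqModC, qExpand_qExpand]
      exact qExpand_congr (pow_succ q m) _
  let e : (A : Type)[X] →+* k[X] :=
    eval₂RingHom (Polynomial.C.comp (residueA π κ A D.hA)) (X ^ q ^ chainDepth n i 0)
  refine ⟨g.map e, hg.map _, ?_⟩
  rw [eval₂_map]
  have hcomp : (coordEval k (jSpecial (k := k) L₀)).comp e =
      (chartRes Br hR i).comp (aeval (R := (A : Type)) jt).toRingHom :=
    Polynomial.ringHom_ext (fun w => by simp [e, D.chartRes_algebraMap hR i])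
      (by simp [e, hjt])
  rw [hcomp]
  refine (hom_eval₂ g _ (chartRes Br hR i) a).symm.trans ?_
  rw [show eval₂ (aeval (R := (A : Type)) jt).toRingHom a g = 0 from ?_, map_zero]
  apply Subtype.val_injective
  have h := hom_eval₂ g (aeval (R := (A : Type)) jt).toRingHom
    (Carayol.chartRing A (MF.Coeff.jElem K (L₀ * q ^ n))).val.toRingHom a
  refine h.trans (Eq.trans ?_ hga)
  congr 1
  exact Polynomial.ringHom_ext (fun w => by simp) (by simp [jt])

/-- The reduction of the chart along the branch `i`. -/
def branchRed (i : Fin (n + 1)) :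
    Carayol.chartRing A (MF.Coeff.jElem K (L₀ * q ^ n)) →+* coordRing k (jSpecial (k := k) L₀) :=
  (chartRes Br hR i).codRestrict (coordRing k (jSpecial (k := k) L₀)) (D.chartRes_mem_coordRing hR i)

theorem coe_branchRed (i : Fin (n + 1))
    (a : Carayol.chartRing A (MF.Coeff.jElem K (L₀ * q ^ n))) :
    (D.branchRed hR i a : modularFunctionFieldFullC k L₀) = chartRes Br hR i a := rfl

theorem branchRed_algebraMap (i : Fin (n + 1)) (w : A) :
    D.branchRed hR i (algebraMap A _ w) =
      algebraMap k (coordRing k (jSpecial (k := k) L₀)) (residueA π κ A D.hA w) :=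
  Subtype.ext (D.chartRes_algebraMap hR i w)

theorem branchRed_chartDegen [Fact q.Prime] [CharP k q] (i : Fin (n + 1)) {j : ℕ} (hj : j ≤ n)
    (b : Carayol.chartRing A (MF.Coeff.jElem K L₀)) :
    D.branchRed hR i (chartDegen A (pow_dvd_level' hj) b) =
      (chartFrob L₀ q)^[chainDepth n i j] (D.baseRed b) :=
  Subtype.ext (Subtype.ext ((D.chartRes_chartDegen hR i hj b).trans
    (coe_chartFrob_iterate L₀ q _ _).symm))

/-- Each branch maps onto the coordinate ring of `j̄`. -/
theorem branchRed_surjective (hred : Function.Surjective D.baseRed) (i : Fin (n + 1)) :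
    Function.Surjective (D.branchRed hR i) := by
  have := Fact.mk hq
  have := D.charP
  intro z
  obtain ⟨b, rfl⟩ := hred z
  obtain ⟨j, hj, h0⟩ : ∃ j ≤ n, chainDepth n i j = 0 := by
    rcases le_or_gt (2 * (i : ℕ)) n with h | h
    · exact ⟨n, le_rfl, by simp only [chainDepth]; omega⟩
    · exact ⟨0, Nat.zero_le n, by have := i.2; simp only [chainDepth]; omega⟩
  exact ⟨_, by rw [D.branchRed_chartDegen hR i hj, h0, Function.iterate_zero_apply]⟩

end ChartData

end Fermat.Agent.CarayolHigh
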