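/-
The place of the reduced curve of level `L₀` at a cusp point on a branch of the special fibre of the
model of `X₀(qⁿ L₀)`. On the branch `i` the functions of level `L₀` enter along `τ ↦ q^degExp τ`,
`degExp = 0` for `n ≤ 2 i` and `n` otherwise; there their residues are their reductions.
-/
import Fermat.Agent.CarayolHigh.ChartData
import Fermat.Agent.CarayolHigh.Chart
import Fermat.Agent.CarayolHigh.Setting
import Fermat.Agent.Carayol.OrdinaryPlace
import Fermat.Agent.Carayol.BranchUnits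

set_option autoImplicit false
set_option linter.unusedSectionVars false
set_option linter.style.haveILetI false
set_option maxHeartbeats 1600000

noncomputable section

open Polynomial IntermediateField ModularCurve AlgebraicCurve
open Fermat.Agent.Igusa Fermat.Agent.RED.Spec Fermat.Agent.HK.Corr Fermat.Agent.Carayol

namespace Fermat.Agent.CarayolHigh

open Fermat.Agent.RED

local notation "Qb" => AlgebraicClosure ℚ

/-- The exponent of the degeneracy map read on the branch `i`. -/
def degExp (n i : ℕ) : ℕ := if n ≤ 2 * i then 0 else n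

theorem degExp_le (n i : ℕ) : degExp n i ≤ n := by unfold degExp; split_ifs <;> omega

theorem degExp_dvd (L q n i : ℕ) : L * q ^ degExp n i ∣ L * q ^ n :=
  mul_dvd_mul_left L (pow_dvd_pow q (degExp_le n i))

section Setting

variable {A₀ : ValuationSubring Qb} {K K' k : Type} [Field K] [Algebra ℚ K] [Algebra K Qb]
  [Field K'] [Algebra ℚ K'] [Field k] {L₀ q n : ℕ} [NeZero L₀] [NeZero q]
  {hq : q.Prime} {hqL : ¬ q ∣ L₀} {π₀ : A₀ →+* k} {κ : K →+* K'} {ι : K' →+* Qb} {η ω : K'ˣ} {N : ℕ}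
  {φ : BranchIdx q n → modField K (L₀ * q ^ n) →+* LaurentSeries K'}
  {rep : Fin (n + 1) → BranchIdx q n}
  {Br : Branches (modField K (L₀ * q ^ n)) (Fin (n + 1))
    (fun _ => modularFunctionFieldFullC k L₀)}

namespace ChartData

variable (hC : Consts A₀ q N π₀ κ ι ω)
  (D : ChartData hq hqL (constRes π₀ ι) κ η (constA A₀ K) φ rep Br
    (modularFunctionFieldFullC k L₀).val.toRingHom)

include hC in
theorem constRes_algebraMap (w : constA A₀ K) (h : κ (w : K) ∈ constO A₀ ι) :
    constRes π₀ ι ⟨κ (w : K), h⟩ = constRes π₀ (algebraMap K Qb) w :=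
  congrArg π₀ (Subtype.ext (RingHom.congr_fun hC.comp (w : K)))

include hC D in
/-- Constants on the branches. -/
theorem res_constRes (i : Fin (n + 1)) (w : constA A₀ K) :
    ∃ h : algebraMap K (modField K (L₀ * q ^ n)) (w : K) ∈ Br.V i,
      Br.res i ⟨_, h⟩ = algebraMap k (modularFunctionFieldFullC k L₀)
        (constRes π₀ (algebraMap K Qb) w) := by
  obtain ⟨h, he⟩ := D.mem_of_isGauss (D.hrep i) (D.isGauss_const (rep i) w)
  refine ⟨h, Subtype.ext (qExpand_injective (R := k) (N := q ^ lowExp n i) ?_)⟩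
  rw [← constRes_algebraMap hC w (D.hA w w.2)]
  refine he.symm.trans ?_
  show _ = qExpand k _ (algebraMap k (LaurentSeries k) _)
  rw [algebraMap_laurentSeries_eq_single, qExpand_single, mul_zero, HahnSeries.C_apply]

include D in
/-- Each branch restricts to the expansion at infinity on level `L₀`, in its variable. -/
theorem exists_branch_degen (i : Fin (n + 1)) : ∃ u : K'ˣ, u ^ q ^ n = 1 ∧ ∀ b,
    φ (rep i) (degenMap K (q ^ degExp n i) (degExp_dvd L₀ q n i) b) =
      qExpand K' (q ^ lowExp n i) (qScale u (baseEmb κ L₀ b)) := by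
  let u : K'ˣ := if n ≤ 2 * (i : ℕ) then 1 else (η ^ rootExp (rep i)) ^ q ^ (i : ℕ)
  refine ⟨u, ?_, fun b => DFunLike.congr_fun
    (((D.hφ (rep i)).comp_degen (q ^ degExp n i) (degExp_dvd L₀ q n i)).ext
      (((isSubst_baseEmb κ L₀).qScale_comp u).qExpand_comp (q ^ lowExp n i)) fun d => ?_) b⟩
  · simp only [u]
    split_ifs
    · exact one_pow _
    · rw [← pow_mul, mul_comm, pow_mul, pow_pow_rootExp D.hη, one_pow]
  rw [branchVal_eq hq hqL _ _ d (k := degExp n i) (by rw [coe_mulIdx, mul_comm]), branchTerm,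
    D.hrep i]
  have hi := Nat.le_of_lt_succ i.2
  by_cases h : n ≤ 2 * (i : ℕ)
  · rw [show u = 1 from if_pos h, qScale_one, RingHom.id_apply,
      if_pos (by simp [degExp, h])]
    exact qExpand_congr (by simp [degExp, lowExp, h]) _
  · have hd : degExp n i = n := if_neg h
    rw [show u = _ from if_neg h, hd, if_neg (by omega),
      show n - (n - (i : ℕ)) = i by omega]
    exact qExpand_congr (by rw [lowExp]; congr 1; omega) _

include hC D in
/-- On each branch the functions of level `L₀` have their reductions as residues. -/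
theorem res_degen (i : Fin (n + 1)) (w : (LiftBase.baseConstRed L₀ (constRes π₀ (algebraMap K Qb) :
      constA A₀ K →+* k) hC.surj D.hL).W) :
    ∃ h : degenMap K (q ^ degExp n i) (degExp_dvd L₀ q n i) (w : modField K L₀) ∈ Br.V i,
      Br.res i ⟨_, h⟩ = (LiftBase.baseConstRed L₀ (constRes π₀ (algebraMap K Qb) :
        constA A₀ K →+* k) hC.surj D.hL).red w := by
  haveI := D.dvr
  haveI := D.charP
  haveI : Fact q.Prime := ⟨hq⟩
  obtain ⟨a, b, hb, hab, hr⟩ := exists_levelFrac (constO A₀ ι) (constRes π₀ ι) κ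
    D.hA (fun a => congrArg π₀ (Subtype.ext (RingHom.congr_fun hC.comp (a : K))))
    L₀ 1 hC.surj D.hL w
  have hg : IsGauss (constRes π₀ ι) (baseEmb κ L₀ (w : modField K L₀))
      (((LiftBase.baseConstRed L₀ (constRes π₀ (algebraMap K Qb) :
        constA A₀ K →+* k) hC.surj D.hL).red w : modularFunctionFieldFullC k L₀) :
        LaurentSeries k) := by
    refine ⟨a, b, hb, ?_, ?_⟩
    · refine Eq.trans ?_ hab
      show coeffMap κ _ * _ = qExpand K' 1 (coeffMap κ _) * _
      rw [qExpand_one_apply]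
    · rw [hr, qExpand_one_apply]
      rfl
  obtain ⟨u, hu, he⟩ := D.exists_branch_degen i
  have hg' : IsGauss (constRes π₀ ι) (φ (rep i) (degenMap K (q ^ degExp n i)
      (degExp_dvd L₀ q n i) (w : modField K L₀))) (qExpand k (q ^ lowExp n i)
      (((LiftBase.baseConstRed L₀ (constRes π₀ (algebraMap K Qb) :
        constA A₀ K →+* k) hC.surj D.hL).red w : modularFunctionFieldFullC k L₀) :
        LaurentSeries k)) := by
    rw [he]
    exact (hg.qScale_root (m := n) hu).qExpand _
  obtain ⟨h, hres⟩ := (D.isGauss_iff i _ _).mp hg'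
  exact ⟨h, Subtype.ext hres⟩

/-! ### The two parameters -/

variable (A₀) in
/-- The chart of `x` over the place of the constants. -/
abbrev chartN (x : modField K (L₀ * q ^ n)) :
    Subalgebra (constA A₀ K) (modField K (L₀ * q ^ n)) :=
  chartRing (constA A₀ K) x

/-- An integral relation between series puts an element in a chart. -/
theorem mem_chartN_of_series {T S : modField K (L₀ * q ^ n)}
    (h : (eval₂RingHom (Int.castRingHom (LaurentSeries K))
      (T : LaurentSeries K)).IsIntegralElem (S : LaurentSeries K)) :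
    S ∈ chartN A₀ T :=
  mem_chartRing_of_intEval h

/-- `j (q^m τ)` in the function field of level `L₀ qⁿ`. -/
def jPow (K : Type) [Field K] [Algebra ℚ K] (L₀ q n : ℕ) [NeZero L₀] [NeZero q] (m : ℕ)
    (hm : m ≤ n) : modField K (L₀ * q ^ n) :=
  ⟨qExpand K (q ^ m) (jSer K),
    qExpand_jSer_mem (dvd_mul_of_dvd_right (pow_dvd_pow q hm) L₀)⟩

theorem jPow_zero (h : 0 ≤ n) : jPow K L₀ q n 0 h = (jLevel K L₀ q n) :=
  Subtype.ext (by
    show qExpand K (q ^ 0) (jSer K) = _
    rw [MF.Coeff.coe_jElem, qExpand_congr (pow_zero q), qExpand_one_apply]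
    exact RED.Spec.jSer_eq_jqModC)

theorem jPow_mem_jPow (hq : q.Prime) (c : K →+* ℂ) (m : ℕ) (hm : m + 1 ≤ n) :
    jPow K L₀ q n m (by omega) ∈ chartN A₀ (jPow K L₀ q n (m + 1) hm) := by
  obtain ⟨Q, hQ, hQ0⟩ := isIntegralElem_jSer_qExpand (K := K) c q hq
  refine mem_chartN_of_series ⟨Q, hQ, ?_⟩
  have := congrArg (qExpand K (q ^ m)) hQ0
  rw [map_zero, hom_eval₂, show (qExpand K (q ^ m)).comp
      (eval₂RingHom (Int.castRingHom (LaurentSeries K)) (qExpand K q (jSer K))) =
    eval₂RingHom (Int.castRingHom (LaurentSeries K)) (qExpand K (q ^ (m + 1)) (jSer K)) from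
    ringHom_ext (fun c => by simp) (by
      simp only [RingHom.comp_apply, coe_eval₂RingHom, eval₂_X, qExpand_qExpand]
      exact qExpand_congr (pow_succ q m).symm _)] at this
  exact this

theorem jElem_mem_jPow (hq : q.Prime) (c : K →+* ℂ) : ∀ (m : ℕ) (hm : m ≤ n),
    (jLevel K L₀ q n) ∈ chartN A₀ (jPow K L₀ q n m hm)
  | 0, hm => by rw [jPow_zero hm]; exact self_mem_chartRing _
  | m + 1, hm =>
    chartRing_le_of_mem (jPow_mem_jPow hq c m hm) (jElem_mem_jPow hq c m (by omega))

theorem jPow_mem_jElem (m : ℕ) (hm : m ≤ n) :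
    jPow K L₀ q n m hm ∈ chartN A₀ (jLevel K L₀ q n) := by
  refine mem_chartN_of_series ?_
  rw [MF.Coeff.coe_jElem, ← RED.Spec.jSer_eq_jqModC]
  exact isIntegralElem_qExpand_jSer _

theorem degenMap_jElem (m : ℕ) (hm : m ≤ n) (h : L₀ * q ^ m ∣ L₀ * q ^ n) :
    (degenMap K (q ^ m) h : modField K L₀ →+* modField K (L₀ * q ^ n)) (MF.Coeff.jElem K L₀) =
      jPow K L₀ q n m hm :=
  Subtype.ext (by
    show ((degenMap K (q ^ m) h (MF.Coeff.jElem K L₀) : modField K (L₀ * q ^ n)) :
      LaurentSeries K) = qExpand K (q ^ m) (jSer K)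
    rw [coe_degenMap, MF.Coeff.coe_jElem, RED.Spec.jSer_eq_jqModC])

theorem algebraMap_degenN {e : ℕ} [NeZero e] (h : L₀ * e ∣ L₀ * q ^ n) (w : constA A₀ K) :
    (degenMap K e h : modField K L₀ →+* modField K (L₀ * q ^ n))
      (algebraMap (constA A₀ K) (modField K L₀) w) =
      algebraMap (constA A₀ K) (modField K (L₀ * q ^ n)) w :=
  (degenMap K e h).commutes (w : K)

theorem jElem_ne_zero' : (jLevel K L₀ q n) ≠ 0 := fun h =>
  MF.Coeff.transcendental_jElem K (L₀ * q ^ n) (by rw [show MF.Coeff.jElem K (L₀ * q ^ n) = 0 from h]; exact isAlgebraic_zero)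

/-! ### The place -/

/-- A place of the reduced curve inside the localised image of a point on a branch. -/
def HasPlace {x : modField K (L₀ * q ^ n)}
    (hR : IsChart Br (q : constA A₀ K) (chartN A₀ x)) (y : Ideal (chartN A₀ x)) (i : Fin (n + 1))
    (v : Place k (modularFunctionFieldFullC k L₀)) : Prop :=
  (∀ z ∈ v.toValuationSubring, ∃ a r : chartN A₀ x, r ∉ y ∧
      z * chartRes Br hR i r = chartRes Br hR i a) ∧
    ∃ a ∈ y, chartRes Br hR i a ≠ 0

include hC D in
/-- The place, from lifts of the reduced chart ring. -/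
theorem exists_place {x : modField K (L₀ * q ^ n)}
    (hR : IsChart Br (q : constA A₀ K) (chartN A₀ x)) {xb : modularFunctionFieldFullC k L₀}
    (hxb : Transcendental k xb) [FiniteDimensional k⟮xb⟯ (modularFunctionFieldFullC k L₀)]
    (y : Ideal (chartN A₀ x)) [y.IsMaximal]
    (hqy : (⟨algebraMap (constA A₀ K) _ (q : constA A₀ K), (chartN A₀ x).algebraMap_mem _⟩ :
      chartN A₀ x) ∈ y)
    {i : Fin (n + 1)} (hi : LiesOnBranch Br (chartN A₀ x) y i)
    (hlift : ∀ g ∈ coordRing k xb, ∃ (w : (LiftBase.baseConstRed L₀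
        (constRes π₀ (algebraMap K Qb) : constA A₀ K →+* k) hC.surj D.hL).W)
        (a r : chartN A₀ x), r ∉ y ∧
      degenMap K (q ^ degExp n i) (degExp_dvd L₀ q n i) (w : modField K L₀) * r = a ∧
      (LiftBase.baseConstRed L₀ (constRes π₀ (algebraMap K Qb) : constA A₀ K →+* k)
        hC.surj D.hL).red w = g) :
    ∃ v : Place k (modularFunctionFieldFullC k L₀),
      xb ∈ v.toValuationSubring ∧ HasPlace hR y i v := by
  haveI := hC.algClosed
  haveI := hC.dvrA
  have hker : RingHom.ker (chartRes Br hR i) ≤ y := fun a ha => hi a _ (RingHom.mem_ker.mp ha)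
  have hπ : ∀ w : constA A₀ K, (constRes π₀ (algebraMap K Qb) : constA A₀ K →+* k) w = 0 →
      algebraMap (constA A₀ K) (chartN A₀ x) w ∈ y := by
    intro w hw
    have hnu : ¬ IsUnit w := fun hu => (hu.map (constRes π₀ (algebraMap K Qb))).ne_zero hw
    obtain ⟨c, rfl⟩ : (q : constA A₀ K) ∣ w := by
      rw [← Ideal.mem_span_singleton, ← hC.irreducible_q.maximalIdeal_eq]
      exact hnu
    rw [map_mul]
    exact y.mul_mem_right _ hqy
  have hresW : ∀ w : constA A₀ K,
      chartRes Br hR i (algebraMap (constA A₀ K) (chartN A₀ x) w) =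
        algebraMap k _ (constRes π₀ (algebraMap K Qb) w) := fun w =>
    (D.res_constRes hC i w).snd
  refine exists_branch_place (chartRes Br hR i) y hxb hker (fun c => ?_) (fun a => ?_)
    (fun g hg => ?_)
  · obtain ⟨w, rfl⟩ := hC.surj c
    exact ⟨_, hresW w⟩
  · obtain ⟨w, hw⟩ := exists_algebraMap_sub_mem _ hC.surj y hπ a
    exact ⟨_, _, hresW w, hw⟩
  · obtain ⟨w, a, r, hr, ha, rfl⟩ := hlift g hg
    obtain ⟨h, hres⟩ := D.res_degen hC i w
    refine ⟨a, r, hr, ?_⟩
    rw [← hres]
    show Br.res i ⟨_, h⟩ * Br.res i ⟨(r : modField K (L₀ * q ^ n)), hR.mem_V r r.2 i⟩ =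
      Br.res i ⟨(a : modField K (L₀ * q ^ n)), hR.mem_V a a.2 i⟩
    rw [← map_mul]
    exact congrArg (Br.res i) (Subtype.ext ha)

include hC D in
/-- **The place at a cusp point on a branch.** -/
theorem exists_place_inv (c : K →+* ℂ)
    (hnormalInv : (RED.good_x0 A₀ π₀ L₀ hC.π₀_surj D.hL).constRed.Normal
      ((RED.good_x0 A₀ π₀ L₀ hC.π₀_surj D.hL).constRed.invParam
        (RED.good_x0 A₀ π₀ L₀ hC.π₀_surj D.hL).param))
    (hR : IsChart Br (q : constA A₀ K) (chartN A₀ (jLevel K L₀ q n)⁻¹))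
    (y : Ideal (chartN A₀ (jLevel K L₀ q n)⁻¹)) [y.IsMaximal]
    (hqy : (⟨algebraMap (constA A₀ K) _ (q : constA A₀ K),
      (chartN A₀ (jLevel K L₀ q n)⁻¹).algebraMap_mem _⟩ :
        chartN A₀ (jLevel K L₀ q n)⁻¹) ∈ y)
    (hxy : (⟨(jLevel K L₀ q n)⁻¹, self_mem_chartRing _⟩ :
      chartN A₀ (jLevel K L₀ q n)⁻¹) ∈ y)
    {i : Fin (n + 1)} (hi : LiesOnBranch Br (chartN A₀ (jLevel K L₀ q n)⁻¹) y i) :
    ∃ v : Place k (modularFunctionFieldFullC k L₀),
      0 < v.ord (jSpecial L₀)⁻¹ ∧ HasPlace hR y i v := by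
  haveI := hC.galois
  haveI := hC.dvrA
  haveI := isFunctionField_special (k := k) L₀ D.hL
  set xb : modularFunctionFieldFullC k L₀ := (jSpecial L₀)⁻¹ with hxbdef
  have hxb : Transcendental k xb := fun h =>
    transcendental_jSpecial L₀ (by simpa [xb] using h.inv)
  haveI := FF.finiteDimensional_adjoin hxb
  set T := jPow K L₀ q n (degExp n i) (degExp_le n i) with hTdef
  have hTdeg : (degenMap K (q ^ degExp n i) (degExp_dvd L₀ q n i) :
      modField K L₀ →+* modField K (L₀ * q ^ n)) (MF.Coeff.jElem K L₀) = T :=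
    degenMap_jElem _ (degExp_le n i) _
  have hT : T ≠ 0 := by
    rw [← hTdeg, _root_.map_ne_zero]
    exact fun h => MF.Coeff.transcendental_jElem K L₀ (by rw [h]; exact isAlgebraic_zero)
  have hjT : (jLevel K L₀ q n) ∈ chartN A₀ T := jElem_mem_jPow hq c _ _
  have hden : ∀ (b : modField K L₀), b ∈ chartRing (constA A₀ K) (MF.Coeff.jElem K L₀)⁻¹ →
      ∃ a r : chartN A₀ (jLevel K L₀ q n)⁻¹, r ∉ y ∧
        (degenMap K (q ^ degExp n i) (degExp_dvd L₀ q n i) :
          modField K L₀ →+* modField K (L₀ * q ^ n)) b * r = a := by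
    intro b hb
    have h1 : (degenMap K (q ^ degExp n i) (degExp_dvd L₀ q n i) :
        modField K L₀ →+* modField K (L₀ * q ^ n)) b ∈ chartRing (constA A₀ K) T⁻¹ := by
      have := map_mem_chartRing
        (degenMap K (q ^ degExp n i) (degExp_dvd L₀ q n i) :
          modField K L₀ →+* modField K (L₀ * q ^ n))
        (fun w => algebraMap_degenN (degExp_dvd L₀ q n i) w) hb
      rwa [map_inv₀, hTdeg] at this
    refine exists_cusp_denominator (inv_ne_zero jElem_ne_zero') (inv_ne_zero hT) ?_ y hxy h1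
    rw [inv_inv, inv_inv]
    exact hjT
  have hred : (LiftBase.baseConstRed L₀ (constRes π₀ (algebraMap K Qb) : constA A₀ K →+* k)
      hC.surj D.hL).red (LiftBase.baseParamInv _ hC.surj D.hL) = xb :=
    ((LiftBase.baseConstRed L₀ _ hC.surj D.hL).red_invParam _).trans
      (congrArg (·⁻¹) (LiftBase.red_baseParam _ hC.surj D.hL))
  have hcoe : ((LiftBase.baseParamInv (constRes π₀ (algebraMap K Qb) : constA A₀ K →+* k) hC.surj
      D.hL : (LiftBase.baseConstRed L₀ _ hC.surj D.hL).W) :
        modField K L₀) = (MF.Coeff.jElem K L₀)⁻¹ :=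
    congrArg (·⁻¹) (LiftBase.coe_baseParam _ hC.surj D.hL)
  obtain ⟨v, hxv, hv⟩ := D.exists_place hC hR hxb y hqy hi fun g hg => by
    obtain ⟨a, ha⟩ := LiftBase.exists_chartRed_eq_jParamInv π₀
      (constRes π₀ (algebraMap K Qb) : constA A₀ K →+* k) hC.π₀_surj hC.surj D.hL
      (fun w => w.2) (fun _ => rfl) hnormalInv hg
    obtain ⟨b, r, hr, hb⟩ := hden (a : modField K L₀) ((congrArg
      (fun z : modField K L₀ => (a : modField K L₀) ∈ chartRing (constA A₀ K) z) hcoe).mp a.2)
    exact ⟨⟨_, LiftBase.chartRing_mem_W _ _ a.2⟩, b, r, hr, hb, ha⟩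
  refine ⟨v, ?_, hv⟩
  -- the coordinate vanishes at the place
  obtain ⟨a, r, hr, har⟩ := hden (MF.Coeff.jElem K L₀)⁻¹ (self_mem_chartRing _)
  have hay : a ∈ y := by
    by_contra hay
    obtain ⟨N, hN⟩ := exists_mul_inv_pow_mem_chartRing hT hjT
    have hc : (a : modField K (L₀ * q ^ n)) ^ N * (jLevel K L₀ q n) ∈ chartN A₀ (jLevel K L₀ q n)⁻¹ := by
      refine mem_chartRing_of_forall_valuation fun V hW hxV => ?_
      rcases V.mem_or_inv_mem T with h | h
      · exact mul_mem (pow_mem (chartRing_mem_valuationSubring hW hxV a.2) N)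
          (chartRing_mem_valuationSubring hW h hjT)
      · have e1 : (a : modField K (L₀ * q ^ n)) ^ N * (jLevel K L₀ q n) =
            (jLevel K L₀ q n) * T⁻¹ ^ N * (r : modField K (L₀ * q ^ n)) ^ N := by
          rw [← har, map_inv₀, hTdeg, mul_pow]
          ring
        rw [e1]
        exact mul_mem (chartRing_mem_valuationSubring hW h hN)
          (pow_mem (chartRing_mem_valuationSubring hW hxV r.2) N)
    refine hay ((inferInstance : y.IsPrime).mem_of_pow_mem N ?_)
    rw [show a ^ N = ⟨_, hc⟩ * (⟨(jLevel K L₀ q n)⁻¹, self_mem_chartRing _⟩ : chartN A₀ (jLevel K L₀ q n)⁻¹) from Subtype.ext (by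
      show (a : modField K (L₀ * q ^ n)) ^ N = (a : modField K (L₀ * q ^ n)) ^ N * (jLevel K L₀ q n) * (jLevel K L₀ q n)⁻¹
      rw [mul_inv_cancel_right₀ jElem_ne_zero'])]
    exact y.mul_mem_left _ hxy
  obtain ⟨h, hres⟩ := D.res_degen hC i (LiftBase.baseParamInv _ hC.surj D.hL)
  rw [hred] at hres
  have e2 : xb * chartRes Br hR i r = chartRes Br hR i a := by
    rw [← hres]
    show Br.res i ⟨_, h⟩ * Br.res i ⟨(r : modField K (L₀ * q ^ n)), hR.mem_V r r.2 i⟩ =
      Br.res i ⟨(a : modField K (L₀ * q ^ n)), hR.mem_V a a.2 i⟩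
    rw [← map_mul]
    exact congrArg (Br.res i) (Subtype.ext (by
      refine Eq.trans ?_ har
      rw [← hcoe]
      rfl))
  obtain ⟨hmem, hiff⟩ := branch_image (chartRes Br hR i) v.toValuationSubring
    (fun b hb => hi b _ (RingHom.mem_ker.mp hb)) hv.1 hv.2
  refine place_ord_pos_of_mem_nonunits v
    (fun h0 => hxb (by rw [h0]; exact isAlgebraic_zero)) ?_
  by_contra hnu
  have hr' : chartRes Br hR i r ∉ v.toValuationSubring.nonunits := fun h' => hr ((hiff r).mpr h')
  have hane : chartRes Br hR i a ≠ 0 := by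
    rw [← e2]
    exact mul_ne_zero (fun h0 => hxb (by rw [h0]; exact isAlgebraic_zero))
      fun h0 => hr (hi r _ h0)
  refine (notMem_nonunits_of_ord_eq_zero v hane ?_) ((hiff a).mp hay)
  rw [← e2, v.ord_mul (fun h0 => hxb (by rw [h0]; exact isAlgebraic_zero))
    (fun h0 : chartRes Br hR i r = 0 => hr (hi r _ h0)),
    ord_eq_zero_of_notMem_nonunits v hxv hnu,
    ord_eq_zero_of_notMem_nonunits v (hmem r) hr', add_zero]

end ChartData

end Setting

end Fermat.Agent.CarayolHigh
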