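/-
The separators and the uniformisers of the branches on the chart at infinity of `X₀(qⁿ L₀)`, with
their residues. These residues are rational in `j` with nonzero constant term, so units at the cusps.

The uniformiser of the branch `0 < i < n` is `(j(q^a τ) - j(q^b τ)) j^(-q^b) e^(q^(2n))`,
`a = min n (2i)`, `b = 2i - n`, with `e` the separator; that of the branches `0`, `n` is `q`.
-/
import Fermat.Agent.CarayolHigh.CuspPlace
import Fermat.Agent.CarayolHigh.Residues

set_option autoImplicit false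
set_option linter.unusedSectionVars false
set_option linter.style.haveILetI false
set_option maxHeartbeats 800000

noncomputable section

open Polynomial HahnSeries ModularCurve AlgebraicCurve
open Fermat.Agent.Igusa Fermat.Agent.RED.Spec Fermat.Agent.HK.Corr Fermat.Agent.Carayol
open Fermat.Agent.MF (thetaL)

namespace Fermat.Agent.CarayolHigh

/-! ### Residues -/

section Series

variable (k : Type) [Field k]

/-- `θj / j`. -/
def turnRes : LaurentSeries k := thetaL (jqModC k) * jInvSeries k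

theorem hasLead_turnRes : HasLead (turnRes k) 0 (-1) := by
  simpa [turnRes, midInfResBase, wRes, dRes] using hasLead_midInfResBase k 1

variable {k} {q : ℕ}

theorem turnRes_pow_mem (hw : wRes k q ∈ modularFunctionFieldFullC k 1)
    (hm : -midInfResBase k q ^ (q - 1) ∈ modularFunctionFieldFullC k 1) :
    turnRes k ^ (q - 1) ∈ modularFunctionFieldFullC k 1 := by
  have h : turnRes k ^ (q - 1) = midInfResBase k q ^ (q - 1) / (wRes k q ^ 2) ^ (q - 1) := by
    rw [eq_div_iff (pow_ne_zero _ (pow_ne_zero _ (wRes_ne_zero k q))), ← mul_pow]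
    rfl
  rw [h]
  refine div_mem ?_ (pow_mem (pow_mem hw _) _)
  simpa using neg_mem hm

variable [Fact q.Prime] [NeZero q] [CharP k q]

/-- The separator on its own branch, in the variable of the branch. -/
theorem exists_sepVal_inf_res {n i : ℕ} (hi : i ≤ n)
    (hw : wRes k q ∈ modularFunctionFieldFullC k 1) :
    ∃ s ∈ modularFunctionFieldFullC k 1, HasLead s 0 1 ∧
      sepVal n i (1 : kˣ) q i * qExpand k (q ^ n) (jInvSeries k) ^ sepExp q n i =
        qExpand k (q ^ lowExp n i) s := by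
  set e := lowExp n i with he
  have hwe : (deltaInvSeries k * jInvSeries k) ^ (q - 1) = wRes k q := by
    rw [wRes, dRes, mul_pow]
  have hpart : ∀ m, e ≤ m → ∃ s ∈ modularFunctionFieldFullC k 1, HasLead s 0 1 ∧
      qExpand k (q ^ m) ((deltaInvSeries k * jInvSeries k) ^ (q - 1)) = qExpand k (q ^ e) s := by
    intro m hm
    refine ⟨qExpand k (q ^ (m - e)) (wRes k q), qExpand_pow_mem_fullC _ hw, ?_, ?_⟩
    · simpa using (hasLead_wRes k q).qExpand (q ^ (m - e))
    · rw [hwe, qExpand_qExpand]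
      exact qExpand_congr (by rw [← _root_.pow_add]; congr 1; omega) _
  obtain ⟨s₁, hs₁, hl₁, e₁⟩ : ∃ s ∈ modularFunctionFieldFullC k 1, HasLead s 0 1 ∧
      (if i = 0 then 1 else unitVVal n i (1 : kˣ) q (i - 1) (i - 1 + 1)) *
        qExpand k (q ^ n) (jInvSeries k) ^ (if i = 0 then 0 else q ^ (i - 1) * (q - 1)) =
          qExpand k (q ^ e) s := by
    by_cases h0 : i = 0
    · exact ⟨1, one_mem _, hasLead_one, by rw [if_pos h0, if_pos h0, pow_zero, mul_one, map_one]⟩
    · rw [if_neg h0, if_neg h0, unitVVal_one_mul_jInv (by omega)]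
      exact hpart _ (by rw [he, lowExp]; omega)
  obtain ⟨s₂, hs₂, hl₂, e₂⟩ : ∃ s ∈ modularFunctionFieldFullC k 1, HasLead s 0 1 ∧
      (if i = n then 1 else unitUVal n i (1 : kˣ) q i (i + 1) ^ q) *
        qExpand k (q ^ n) (jInvSeries k) ^ (if i = n then 0 else q ^ i * (q - 1)) =
          qExpand k (q ^ e) s := by
    by_cases hn : i = n
    · exact ⟨1, one_mem _, hasLead_one, by rw [if_pos hn, if_pos hn, pow_zero, mul_one, map_one]⟩
    · rw [if_neg hn, if_neg hn, unitUVal_one_pow_mul_jInv_self (by omega)]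
      exact hpart _ (by rw [he, lowExp]; omega)
  refine ⟨s₁ * s₂, mul_mem hs₁ hs₂, by simpa using hl₁.mul hl₂, ?_⟩
  rw [sepVal, sepExp, _root_.pow_add, mul_mul_mul_comm, e₁, e₂, map_mul]

end Series

/-! ### Integrality of the terms of the uniformiser -/

section Integral

variable {q n : ℕ} [NeZero q] {K : Type} [Field K] (ι : K →+* ℂ)

include ι

/-- `j(q^k τ) e^N / j^M` is integral over `ℤ[1/j]`: at the cusps of the branch `a + 1` the pole of
`j(q^k τ)` is no bigger than that of `j^(q^b)`, at the others `e` has a zero. -/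
theorem isIntegralElem_turn_inf (hq : q.Prime) {a b k : ℕ} (ha : a + 2 ≤ n) (hk : k ≤ n)
    (hkb : 2 * min k (a + 1) ≤ b + k) :
    (Polynomial.eval₂RingHom (Int.castRingHom (LaurentSeries K)) (jInvSeries K)).IsIntegralElem
      (qExpand K (q ^ k) (jqModC K) *
          (pairV K (q ^ a) (q ^ (a + 1)) * pairU K (q ^ (a + 1)) (q ^ (a + 2)) ^ q) ^ q ^ (2 * n) *
        jInvSeries K ^ (q ^ b + (q ^ a * (q - 1) + q ^ (a + 1) * (q - 1)) * q ^ (2 * n))) := by
  have hd1 : q ^ a ∣ q ^ (a + 1) := pow_dvd_pow q (by omega)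
  have hd2 : q ^ (a + 1) ∣ q ^ (a + 2) := pow_dvd_pow q (by omega)
  have l1 : q ^ (a + 1) ∣ 1 * q ^ n := pow_dvd_level (by omega)
  have l2 : q ^ (a + 2) ∣ 1 * q ^ n := pow_dvd_level ha
  have lk : q ^ k ∣ 1 * q ^ n := pow_dvd_level hk
  have hjc := conjugable_jdFun lk
  have hcV := conjugable_vPair hd1 l1
  have hcU := Conjugable.pow' (conjugable_uPair hd2 l2) q
  have hcE := Conjugable.pow' (Conjugable.mul' hcV hcU) (q ^ (2 * n))
  refine isIntegralElem_div_j_pow (Conjugable.mul' hjc hcE) ι ?_ _ fun c ↦ ?_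
  · rw [map_mul, map_pow, map_mul, map_pow, coeffMap_pairV, coeffMap_pairU]
    refine HasExp.mul ?_ (hasExp_pow ((hasExp_vPair _ _).mul (hasExp_pow (hasExp_uPair _ _) q)) _)
    have h := hasExp_genFun (M := q ^ k) ⟨q ^ k, Nat.pos_of_ne_zero (NeZero.ne _), dvd_rfl⟩
    rw [coeffMap_qExpand, ModularCurve.coeffMap_jqModC]
    exact h
  obtain ⟨x, hx⟩ := exists_hasLead_vPairSer (tri c (hd1.trans l1)) (tri c l1)
  obtain ⟨y, hy⟩ := exists_hasLead_uPairSer (tri c (hd2.trans l2)) (tri c l2)
  refine ⟨_, _, by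
    rw [expHom_conj_mul hjc hcE, expHom_conj_pow (Conjugable.mul' hcV hcU),
      expHom_conj_mul hcV hcU, expHom_conj_pow (conjugable_uPair hd2 l2),
      expHom_conj_vPair hd1 l1, expHom_conj_uPair hd2 l2, expHom_conj_jdFun lk]
    exact (TriData.hasLead_jSer _ _).mul (HasLead.pow' (hx.mul (HasLead.pow' hy q)) _), ?_⟩
  obtain ⟨m, hm, hr⟩ := r_pow_cases hq c
  rw [hr hk, hr (show a ≤ n by omega), hr (show a + 1 ≤ n by omega), hr ha]
  have hq2 : (2 : ℤ) ≤ q := by exact_mod_cast hq.two_le
  have hq0 : (0 : ℤ) ≤ q := by positivity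
  push_cast [Nat.cast_sub hq.one_le]
  set s : ℤ := ((q : ℤ) ^ (n + 2 * min a m - a) - (q : ℤ) ^ (n + 2 * min (a + 1) m - (a + 1))) +
    q * ((q : ℤ) ^ (n + 2 * min (a + 2) m - (a + 2)) -
      (q : ℤ) ^ (n + 2 * min (a + 1) m - (a + 1))) +
    ((q : ℤ) ^ a * (q - 1) + (q : ℤ) ^ (a + 1) * (q - 1)) * (q : ℤ) ^ n with hs
  set R : ℤ := (q : ℤ) ^ (n + 2 * min k m - k) with hR
  set N : ℤ := (q : ℤ) ^ (2 * n) with hN
  have hN0 : 0 ≤ N := by positivity
  suffices hsum : R ≤ (q : ℤ) ^ b * (q : ℤ) ^ n + N * s by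
    rw [hs] at hsum
    linear_combination hsum
  have hP : ∀ t : ℕ, (1 : ℤ) ≤ (q : ℤ) ^ t := fun t => one_le_pow₀ (by linarith)
  have hb : (0 : ℤ) ≤ (q : ℤ) ^ b * (q : ℤ) ^ n := by positivity
  have hRN : R ≤ N := pow_le_pow_right₀ (by linarith) (by omega)
  rcases lt_trichotomy m (a + 1) with h | h | h
  · -- left of the branch
    have h1 : 1 ≤ s := by
      obtain ⟨t, ht⟩ := Nat.exists_eq_add_of_le (show a + 2 ≤ n + 2 * m by omega)
      rw [hs, show n + 2 * min a m - a = t + 2 by omega,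
        show n + 2 * min (a + 1) m - (a + 1) = t + 1 by omega,
        show n + 2 * min (a + 2) m - (a + 2) = t by omega]
      have hle : (q : ℤ) ^ (t + 1) ≤ (q : ℤ) ^ (a + 1 + n) :=
        pow_le_pow_right₀ (by linarith) (by omega)
      simp only [_root_.pow_add, pow_one] at hle ⊢
      nlinarith [mul_nonneg (sub_nonneg.mpr hle) (show (0 : ℤ) ≤ (q : ℤ) - 1 by linarith),
        one_le_mul_of_one_le_of_one_le (hP t)
          (one_le_mul_of_one_le_of_one_le (show (1 : ℤ) ≤ q by linarith)
            (show (1 : ℤ) ≤ (q : ℤ) - 1 by linarith)),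
        mul_nonneg (mul_nonneg (le_trans zero_le_one (hP a)) (le_trans zero_le_one (hP n)))
          (show (0 : ℤ) ≤ (q : ℤ) - 1 by linarith)]
    nlinarith [mul_le_mul_of_nonneg_left h1 hN0]
  · -- the branch itself
    subst h
    have h0 : s = 0 := by
      rw [hs, show n + 2 * min a (a + 1) - a = n + a by omega,
        show n + 2 * min (a + 1) (a + 1) - (a + 1) = n + a + 1 by omega,
        show n + 2 * min (a + 2) (a + 1) - (a + 2) = n + a by omega]
      simp only [_root_.pow_add, pow_one]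
      ring
    have h2 : R ≤ (q : ℤ) ^ b * (q : ℤ) ^ n := by
      rw [hR, ← _root_.pow_add]
      exact pow_le_pow_right₀ (by linarith) (by omega)
    rw [h0, mul_zero, add_zero]
    exact h2
  · -- right of the branch
    have h1 : 1 ≤ s := by
      rw [hs, show n + 2 * min a m - a = n + a by omega,
        show n + 2 * min (a + 1) m - (a + 1) = n + a + 1 by omega,
        show n + 2 * min (a + 2) m - (a + 2) = n + a + 2 by omega]
      simp only [_root_.pow_add, pow_one]
      nlinarith [one_le_mul_of_one_le_of_one_le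
          (one_le_mul_of_one_le_of_one_le (hP n) (hP a))
          (one_le_mul_of_one_le_of_one_le
            (one_le_mul_of_one_le_of_one_le (show (1 : ℤ) ≤ q by linarith)
              (show (1 : ℤ) ≤ q by linarith))
            (show (1 : ℤ) ≤ (q : ℤ) - 1 by linarith)),
        mul_nonneg (mul_nonneg (le_trans zero_le_one (hP n)) (le_trans zero_le_one (hP a)))
          (mul_nonneg hq0 (show (0 : ℤ) ≤ (q : ℤ) - 1 by linarith))]
    nlinarith [mul_le_mul_of_nonneg_left h1 hN0]

end Integral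

end Fermat.Agent.CarayolHigh
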