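import Fermat.Agent.Carayol.Points

/-!
The points of the special fibre of a chart of `X₀(qⁿ L)`, abstract part. As `Carayol.PointProps`,
but at a supersingular point the values are compared along a relation `P` between the branches only
(`i + 1 = n` and `n` for the model: their points of the reduced curve are equal, those of the other
pairs differ by powers of Frobenius). At a point on one branch `i` the kernel of the branch is
generated by any `p` with `p^E / q` of residue nonzero at the point, if residue zero forces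
`a p^(E-1) / q` to be integral on `i`.
-/

set_option autoImplicit false

noncomputable section

namespace Fermat.Agent.CarayolHigh

open Carayol

variable {W F C : Type} [CommRing W] [IsDomain W] [IsDiscreteValuationRing W] [Field F]
  [Algebra W F] [Field C] {ι : Type} (Br : Branches F ι (fun _ => C))

/-- The values of a function on the branches `i`, `j` through the point agree. -/
def ValueCongrAt (R : Subalgebra W F) (y : Ideal R) (i j : ι) : Prop :=
  ∀ a r : R, r ∉ y → ∀ (ha : (a : F) ∈ Br.V i) (hr : (r : F) ∈ Br.V i),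
    ∃ a' r' : R, r' ∉ y ∧ a * r' - a' * r ∈ y ∧
      ∀ (ha' : (a' : F) ∈ Br.V j) (hr' : (r' : F) ∈ Br.V j),
        Br.res i ⟨a, ha⟩ * Br.res j ⟨r', hr'⟩ = Br.res j ⟨a', ha'⟩ * Br.res i ⟨r, hr⟩

/-- All that is claimed about one point of the special fibre. -/
structure ChartPoint (R : Subalgebra W F) (P : ι → ι → Prop) (y : Ideal R) [y.IsPrime] : Prop where
  ufm : UniqueFactorizationMonoid (Localization.AtPrime y)
  branchRing : ∀ i, LiesOnBranch Br R y i → ∃ O, IsBranchRing Br R y i O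
  dichotomy : (∃ i, ∀ j, j ≠ i → ∃ (a : R) (h : (a : F) ∈ Br.V j),
      Br.res j ⟨a, h⟩ = 0 ∧ a ∉ y) ∨
    ((∀ i, LiesOnBranch Br R y i) ∧ ∀ i j, P i j → ValueCongrAt Br R y i j)

variable {Br} {R : Subalgebra W F} {P : ι → ι → Prop} {π : W}

/-- The field `branchValue` of `Model` at this point. -/
theorem ChartPoint.branchValue {y : Ideal R} [y.IsPrime] (h : ChartPoint Br R P y) (i : ι)
    (hi : ∀ (a : R) (h : (a : F) ∈ Br.V i), Br.res i ⟨a, h⟩ = 0 → a ∈ y) :
    ∃ O : ValuationSubring C,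
      (∀ (a : R) (h : (a : F) ∈ Br.V i), Br.res i ⟨a, h⟩ ∈ O) ∧
      ∀ z ∈ O, ∃ a r : R, r ∉ y ∧ ∀ (ha : (a : F) ∈ Br.V i) (hr : (r : F) ∈ Br.V i),
        z * Br.res i ⟨r, hr⟩ = Br.res i ⟨a, ha⟩ := by
  obtain ⟨O, h1, h2⟩ := h.branchRing i hi
  refine ⟨O, fun a ha => ?_, h2⟩
  have h3 := h1 a 1 one_notMem_of_isPrime ha (one_mem _)
  rwa [show Br.res i ⟨((1 : R) : F), one_mem _⟩ = 1 from map_one (Br.res i), div_one] at h3

/-- An ordinary point: the separator of `i` does not vanish. -/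
theorem chartPoint_of_ordinary (hR : IsChart Br π R) {y : Ideal R} [y.IsMaximal]
    (hπy : (⟨algebraMap W F π, R.algebraMap_mem π⟩ : R) ∈ y) {i : ι} {e : R}
    (he : ∀ j, j ≠ i → chartRes Br hR j e = 0) (hey : e ∉ y)
    (hp : ∃ p : R, p ≠ 0 ∧ chartRes Br hR i p = 0 ∧
      ∀ a : R, chartRes Br hR i a = 0 → ∃ b r : R, r ∉ y ∧ r * a = p * b)
    (hO : ∃ O : ValuationSubring C, IsDiscreteValuationRing O ∧
      (∀ z ∈ O, ∃ a r : R, r ∉ y ∧ z * chartRes Br hR i r = chartRes Br hR i a) ∧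
      ∃ a ∈ y, chartRes Br hR i a ≠ 0) :
    ChartPoint Br R P y := by
  have h := pointProps_of_ordinary hR hπy he hey hp hO
  exact ⟨h.ufm, h.branchRing, Or.inl ⟨i, fun j hj => ⟨e, hR.mem_V e e.2 j, he j hj, hey⟩⟩⟩

/-- A point on all branches. -/
theorem chartPoint_of_supersingular (hR : IsChart Br π R) {y : Ideal R} [y.IsPrime]
    (hufm : UniqueFactorizationMonoid (Localization.AtPrime y))
    (hon : ∀ i, LiesOnBranch Br R y i)
    (hO : ∀ i, ∃ O : ValuationSubring C, IsDiscreteValuationRing O ∧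
      (∀ z ∈ O, ∃ a r : R, r ∉ y ∧ z * chartRes Br hR i r = chartRes Br hR i a) ∧
      ∃ a ∈ y, chartRes Br hR i a ≠ 0)
    (hcongr : ∀ i j, P i j → ValueCongrAt Br R y i j) : ChartPoint Br R P y :=
  ⟨hufm, fun i hi => exists_isBranchRing hR hi (hO i), Or.inr ⟨hon, hcongr⟩⟩

/-- `a ∈ R` where every branch is integral and `π a ∈ R`. -/
def DivCriterion (Br : Branches F ι (fun _ => C)) (π : W) (R : Subalgebra W F) : Prop :=
  ∀ a : F, algebraMap W F π * a ∈ R → (∀ j, a ∈ Br.V j) → a ∈ R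

/-- **The kernel of the branch `i` is generated by `p`** at a point where the separator `e` and the
residue `c` of `e^N p^E / π` do not vanish. -/
theorem exists_gen_of_turn (hR : IsChart Br π R) (hπ : algebraMap W F π ≠ 0)
    (hcrit : DivCriterion Br π R) {y : Ideal R} {i : ι} {p e : R} {N E : ℕ} (hE : E ≠ 0)
    (heN : ∀ j, j ≠ i → (e : F) ^ N / algebraMap W F π ∈ Br.V j)
    (hdiv : ∀ a : F, ∀ h : a ∈ Br.V i, Br.res i ⟨a, h⟩ = 0 →
      a * (p : F) ^ (E - 1) / algebraMap W F π ∈ Br.V i)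
    (hw : (p : F) ^ E / algebraMap W F π ∈ Br.V i)
    (hu : ∀ u : R, chartRes Br hR i u = chartRes Br hR i e ^ N * Br.res i ⟨_, hw⟩ → u ∉ y) :
    ∀ a : R, chartRes Br hR i a = 0 → ∃ b r : R, r ∉ y ∧ r * a = p * b := by
  classical
  have hmem : ∀ (a : R) (m : ℕ), (a : F) * (p : F) ^ m / algebraMap W F π ∈ Br.V i →
      (a : F) * (p : F) ^ m * ((e : F) ^ N / algebraMap W F π) ∈ R := by
    intro a m hi
    refine hcrit _ ?_ fun j => ?_
    · rw [mul_left_comm, mul_div_cancel₀ _ hπ]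
      exact (a * p ^ m * e ^ N : R).2
    · by_cases hj : j = i
      · subst hj
        rw [← mul_div_assoc, mul_div_right_comm]
        exact mul_mem hi (pow_mem (hR.mem_V e e.2 j) N)
      · exact mul_mem (hR.mem_V _ (a * p ^ m : R).2 j) (heN j hj)
  have hu' : (p : F) ^ E / algebraMap W F π * (e : F) ^ N ∈ R := by
    have h := hmem 1 E (by rw [OneMemClass.coe_one, one_mul]; exact hw)
    rwa [OneMemClass.coe_one, one_mul, ← mul_div_assoc, mul_div_right_comm] at h
  refine exists_mul_eq_of_chart_key hR hπ (e := e) (u := ⟨_, hu'⟩) (N := N) hE (hu _ ?_)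
    (fun a ha => ?_) ?_
  · rw [← map_pow]
    show Br.res i ⟨_, _⟩ = Br.res i ⟨_, _⟩ * Br.res i ⟨_, _⟩
    rw [← map_mul]
    exact congrArg (Br.res i) (Subtype.ext (mul_comm _ _))
  · refine ⟨⟨_, hmem a (E - 1) (hdiv a (hR.mem_V a a.2 i) ha)⟩, ?_⟩
    show _ = algebraMap W F π * ((a : F) * (p : F) ^ (E - 1) * ((e : F) ^ N / algebraMap W F π))
    field_simp
  · show _ = algebraMap W F π * ((p : F) ^ E / algebraMap W F π * (e : F) ^ N)
    field_simp

section Transfer

variable {R' : Subalgebra W F} {y : Ideal R} [y.IsPrime] {y' : Ideal R'} [y'.IsPrime]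

theorem valueCongrAt_congr (hR : IsChart Br π R) (_hR' : IsChart Br π R')
    (h : locRing R y = locRing R' y') {i j : ι} (hi : LiesOnBranch Br R y i)
    (hj : LiesOnBranch Br R y j) (hcongr : ValueCongrAt Br R y i j) :
    ValueCongrAt Br R' y' i j := by
  intro a r hr ha hr''
  obtain ⟨a₀, r₀, hr₀, he⟩ := exists_cross_of_locRing_eq h.symm a r hr
  obtain ⟨b₀, s₀, hs₀, hd, hres⟩ := hcongr a₀ r₀ hr₀ (hR.mem_V a₀ a₀.2 i) (hR.mem_V r₀ r₀.2 i)
  obtain ⟨b, s, hs, he'⟩ := exists_cross_of_locRing_eq h b₀ s₀ hs₀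
  refine ⟨b, s, hs, ?_, fun hb hs' => ?_⟩
  · have hu : r₀ * s₀ ∉ y := fun h' =>
      ((inferInstance : y.IsPrime).mem_or_mem h').elim hr₀ hs₀
    obtain ⟨u, t, ht, heu⟩ := exists_cross_of_locRing_eq h (r₀ * s₀) 1 one_notMem_of_isPrime
    obtain ⟨v, t', ht', hev⟩ :=
      exists_cross_of_locRing_eq h (a₀ * s₀ - b₀ * r₀) 1 one_notMem_of_isPrime
    rw [OneMemClass.coe_one, mul_one] at heu hev
    have hu' : u ∉ y' := fun h' => hu ((mem_iff_of_mul_eq h ht heu).mpr h')
    have hv' : v ∈ y' := (mem_iff_of_mul_eq h ht' hev).mp hd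
    have key : (a * s - b * r) * (u * t') = r * s * (v * t) := by
      apply Subtype.ext
      push_cast at heu hev ⊢
      rw [← heu, ← hev]
      linear_combination ((s : F) * s₀ * t * t') * he + ((r : F) * r₀ * t * t') * he'
    have h1 : (a * s - b * r) * (u * t') ∈ y' := by
      rw [key]
      exact y'.mul_mem_left _ (y'.mul_mem_right _ hv')
    exact ((inferInstance : y'.IsPrime).mem_or_mem h1).resolve_right fun h2 =>
      ((inferInstance : y'.IsPrime).mem_or_mem h2).elim hu' ht'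
  · have h1 := res_mul_eq (Br := Br) ha (hR.mem_V r₀ r₀.2 i) (hR.mem_V a₀ a₀.2 i) hr'' he
    have h2 := res_mul_eq (Br := Br) (hR.mem_V b₀ b₀.2 j) hs' hb (hR.mem_V s₀ s₀.2 j) he'
    have h3 := hres (hR.mem_V b₀ b₀.2 j) (hR.mem_V s₀ s₀.2 j)
    have hne : Br.res i ⟨r₀, hR.mem_V r₀ r₀.2 i⟩ * Br.res j ⟨s₀, hR.mem_V s₀ s₀.2 j⟩ ≠ 0 :=
      mul_ne_zero (res_ne_zero_of_notMem hi hr₀ _) (res_ne_zero_of_notMem hj hs₀ _)
    refine mul_right_cancel₀ hne ?_
    linear_combination (Br.res j ⟨s, hs'⟩ * Br.res j ⟨s₀, hR.mem_V s₀ s₀.2 j⟩) * h1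
      + (Br.res j ⟨s, hs'⟩ * Br.res i ⟨r, hr''⟩) * h3
      + (Br.res i ⟨r, hr''⟩ * Br.res i ⟨r₀, hR.mem_V r₀ r₀.2 i⟩) * h2

/-- The properties of a point depend only on its local ring. -/
theorem ChartPoint.congr (hR : IsChart Br π R) (hR' : IsChart Br π R')
    (h : locRing R y = locRing R' y') (hy : ChartPoint Br R P y) : ChartPoint Br R' P y' := by
  rcases hy.dichotomy with hd | ⟨hon, hcongr⟩
  · have hp : PointProps Br R y := ⟨hy.ufm, hy.branchRing, Or.inl hd⟩
    have hp' := hp.congr hR hR' h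
    rcases hp'.dichotomy with hd' | ⟨hon', hc'⟩
    · exact ⟨hp'.ufm, hp'.branchRing, Or.inl hd'⟩
    · exact ⟨hp'.ufm, hp'.branchRing, Or.inr ⟨hon', fun i j _ => hc' i j⟩⟩
  · have := hy.ufm
    refine ⟨ufm_congr h, fun i hi => ?_, Or.inr ⟨fun i => liesOnBranch_congr hR h hR' (hon i),
      fun i j hP => valueCongrAt_congr hR hR' h (hon i) (hon j) (hcongr i j hP)⟩⟩
    obtain ⟨O, h1, h2⟩ := hy.branchRing i (hon i)
    refine ⟨O, fun a' r' hr' ha hr => ?_, fun z hz => ?_⟩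
    · obtain ⟨a, r, hr0, he⟩ := exists_cross_of_locRing_eq h.symm a' r' hr'
      have h3 := res_mul_eq (Br := Br) ha (hR.mem_V r r.2 i) (hR.mem_V a a.2 i) hr he
      rw [(div_eq_div_iff (res_ne_zero_of_notMem hi hr' hr)
        (res_ne_zero_of_notMem (hon i) hr0 (hR.mem_V r r.2 i))).mpr h3]
      exact h1 a r hr0 _ _
    · obtain ⟨a, r, hr, hz⟩ := h2 z hz
      obtain ⟨a', r', hr', he⟩ := exists_cross_of_locRing_eq h a r hr
      refine ⟨a', r', hr', fun ha' hr'' => ?_⟩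
      have hne : Br.res i ⟨r, hR.mem_V r r.2 i⟩ ≠ 0 := res_ne_zero_of_notMem (hon i) hr _
      refine mul_right_cancel₀ hne ?_
      rw [mul_right_comm, hz (hR.mem_V a a.2 i) (hR.mem_V r r.2 i)]
      exact res_mul_eq _ _ _ _ he

end Transfer

/-- The points of the chart `R'` where `x⁻¹` does not vanish inherit their properties from `R`. -/
theorem chartPoint_of_other_chart {R' : Subalgebra W F} (hπ : Irreducible π)
    (hR : IsChart Br π R) (hR' : IsChart Br π R') (x : F) (hx : x ∈ R) (hx' : x⁻¹ ∈ R')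
    (hglue₀ : ∀ a ∈ R, ∃ N : ℕ, a * x⁻¹ ^ N ∈ R') (hglue₁ : ∀ a ∈ R', ∃ N : ℕ, a * x ^ N ∈ R)
    (hint : ∀ a ∈ R', IsIntegral (Algebra.adjoin W {x⁻¹}) a)
    (hprops : ∀ (y : Ideal R) [y.IsMaximal],
      (⟨algebraMap W F π, R.algebraMap_mem π⟩ : R) ∈ y → ChartPoint Br R P y)
    (y : Ideal R') [y.IsMaximal]
    (hπy : (⟨algebraMap W F π, R'.algebraMap_mem π⟩ : R') ∈ y)
    (hxy : (⟨x⁻¹, hx'⟩ : R') ∉ y) : ChartPoint Br R' P y := by
  have hW : (y.comap (algebraMap W R')).IsMaximal := by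
    have hp : (y.comap (algebraMap W R')).IsPrime := Ideal.IsPrime.comap _
    refine hp.isMaximal fun h0 => hπ.ne_zero ?_
    rw [← Ideal.mem_bot, ← h0]
    exact hπy
  obtain ⟨y₀, hy₀, hloc, hπ₀⟩ := exists_chart_point x hx hx' hglue₀ hglue₁ hint y hxy hW
  exact (hprops y₀ (hπ₀ π hπy)).congr hR hR' hloc

end Fermat.Agent.CarayolHigh
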