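import Fermat.Agent.CarayolHigh.ChartZero
import Fermat.Agent.CarayolHigh.Chart
import Fermat.Agent.CarayolHigh.Points
import Fermat.Agent.Carayol.OrdinaryAux
import Fermat.Agent.Carayol.SSBase

/-!
The ordinary points of the finite chart of `X₀(qⁿ L)` at `q`: where the separator of the branch `i`
does not vanish the branch has for image a local ring of the reduced curve of level `L`, and its
kernel is generated by `q` for the outer branches and, for `0 < i < n`, by the difference of the two
coordinates `t (q^a τ)` placed symmetrically about `i`, `t` a Hauptmodul.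
-/

set_option autoImplicit false
set_option linter.unusedSectionVars false
set_option maxHeartbeats 800000
set_option synthInstance.maxHeartbeats 400000

noncomputable section

open ModularCurve AlgebraicCurve IntermediateField
open Fermat.Agent.Igusa Fermat.Agent.RED Fermat.Agent.RED.Spec Fermat.Agent.HK.Corr
open Fermat.Agent.Carayol Fermat.Agent.MF

namespace Fermat.Agent.CarayolHigh

/-- The depth of `Δ^(1-q)` in the residue of the separator of the branch `i`. -/
def sepDepth (n i : ℕ) : ℕ := max i (n - i) - 1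

/-- The power of `Δ^(1-q)` in the residue of the separator of the branch `i`. -/
def sepPow (q n i : ℕ) : ℕ := (if i = 0 then 0 else 1) + (if i = n then 0 else q)

theorem sepPow_ne_zero {q n i : ℕ} (hq : q ≠ 0) (hn : 0 < n) : sepPow q n i ≠ 0 := by
  unfold sepPow
  split_ifs <;> omega

/-- The residue of the separator on its branch. -/
theorem sepVal_one_self {k : Type} [Field k] {q n i : ℕ} [NeZero q] [Fact q.Prime] [CharP k q]
    (hn : 0 < n) (hi : i ≤ n) :
    sepVal n i (1 : kˣ) q i =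
      qExpand k (q ^ lowExp n i) (qExpand k (q ^ sepDepth n i)
        ((deltaInvSeries k ^ (q - 1)) ^ sepPow q n i)) := by
  rw [qExpand_qExpand, map_pow, sepVal, sepPow, _root_.pow_add]
  congr 1
  · split_ifs with h
    · rw [pow_zero]
    · rw [pow_one, unitVVal_one_of_lt (by omega)]
      exact qExpand_congr (by
        rw [← _root_.pow_add]; congr 1; simp only [lowExp, sepDepth]; omega) _
  · split_ifs with h
    · rw [pow_zero]
    · rw [unitUVal_one_of_le le_rfl (by omega)]
      exact congrArg (· ^ q) (qExpand_congr (by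
        rw [← _root_.pow_add]; congr 1; simp only [lowExp, sepDepth]; omega) _)

namespace ChartData

variable {K : Type} [Field K] [Algebra ℚ K] {K' : Type} [Field K'] [Algebra ℚ K']
  {O : ValuationSubring K'} {k : Type} [Field k]
variable {L₀ q n : ℕ} [NeZero L₀] [NeZero q]
variable {hq : q.Prime} {hqL : ¬ q ∣ L₀} {π : O →+* k} {κ : K →+* K'} {η : K'ˣ}
  {A : ValuationSubring K} {φ : BranchIdx q n → modField K (L₀ * q ^ n) →+* LaurentSeries K'}
  {rep : Fin (n + 1) → BranchIdx q n}
  {Br : Branches (modField K (L₀ * q ^ n)) (Fin (n + 1))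
    (fun _ => modularFunctionFieldFullC k L₀)}
  (D : ChartData hq hqL π κ η A φ rep Br (modularFunctionFieldFullC k L₀).val.toRingHom)

include D

theorem isSubst_rep (i : Fin (n + 1)) :
    IsSubst κ (φ (rep i)) (branchVal hq hqL (i : ℕ) (η ^ rootExp (rep i))) :=
  D.hrep i ▸ D.hφ (rep i)

theorem isPrimitiveRoot_rep (i : Fin (n + 1)) (h0 : 0 < (i : ℕ)) (hn : (i : ℕ) < n) :
    IsPrimitiveRoot (η ^ rootExp (rep i)) (q ^ n) :=
  D.hη.pow_of_coprime _ (Nat.Coprime.pow_right n
    (coprime_rootExp hq (rep i) (by rw [D.hrep]; exact h0) (by rw [D.hrep]; exact hn)))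

theorem q_dvd_of_residue (hAq : Irreducible (q : A)) (a : A) (h : residueA π κ A D.hA a = 0) :
    (q : A) ∣ a := by
  have := D.dvrA
  rw [← Ideal.mem_span_singleton, ← hAq.maximalIdeal_eq]
  exact (D.hAπ a).mp h

/-- Functions with a Gauss residue on the branch `i`, seen in the residue field. -/
theorem res_eq_of_isGauss_rep {i : Fin (n + 1)} {a : modField K (L₀ * q ^ n)} {r : LaurentSeries k}
    (h : IsGauss π (φ (rep i) a) (qExpand k (q ^ lowExp n i) r)) :
    ∃ hV : a ∈ Br.V i, ((Br.res i ⟨a, hV⟩ : modularFunctionFieldFullC k L₀) : LaurentSeries k) = r :=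
  (D.isGauss_iff i a r).mp h

/-- The finite chart is a chart. -/
theorem isChart_finite (hAq : Irreducible (q : A)) :
    IsChart Br (q : A) (Carayol.chartRing A (MF.Coeff.jElem K (L₀ * q ^ n))) := by
  simpa using (D.chart false hAq).1

/-- A function bounded on all branches whose multiple by `q` is in the chart is in the chart. -/
theorem divCriterion_finite (hAq : Irreducible (q : A)) :
    DivCriterion Br (q : A) (Carayol.chartRing A (MF.Coeff.jElem K (L₀ * q ^ n))) := by
  intro a ha hV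
  have h : ∀ z, z ∈ Carayol.chartRing A (MF.Coeff.jElem K (L₀ * q ^ n)) ↔
      z ∈ coordRing K (MF.Coeff.jElem K (L₀ * q ^ n)) ∧ ∀ i, z ∈ Br.V i := fun z => by
    simpa using (D.chart false hAq).2 z
  refine (h a).mpr ⟨?_, hV⟩
  have : CharZero K := charZero_of_injective_algebraMap (algebraMap ℚ K).injective
  have h1 := mul_mem ((coordRing K (MF.Coeff.jElem K (L₀ * q ^ n))).algebraMap_mem
    ((q : K)⁻¹)) ((h _).mp ha).1
  rwa [map_natCast (algebraMap A _), ← map_natCast (algebraMap K (modField K (L₀ * q ^ n))),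
    ← mul_assoc, ← map_mul, inv_mul_cancel₀ (Nat.cast_ne_zero.mpr hq.ne_zero), map_one,
    one_mul] at h1

variable (hR : IsChart Br (q : A) (Carayol.chartRing A (MF.Coeff.jElem K (L₀ * q ^ n))))

/-! ### The separators -/

omit D in
/-- The separator of the branch `i` in the chart. -/
def sepElt (ι₀ : K →+* ℂ) (i : Fin (n + 1)) :
    Carayol.chartRing A (MF.Coeff.jElem K (L₀ * q ^ n)) :=
  ⟨⟨sepFin K q n i, sepFin_mem ι₀ (Nat.le_of_lt_succ i.2)⟩,
    mem_chartRing_of_intEval (isIntegralElem_sepFin ι₀)⟩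

variable (ι : K' →+* ℂ) (ι₀ : K →+* ℂ)

include ι

theorem isGauss_sepElt (i i' : Fin (n + 1)) :
    IsGauss π (φ (rep i') (sepElt (A := A) (L₀ := L₀) (q := q) ι₀ i :
        modField K (L₀ * q ^ n))) (sepVal n i' (1 : kˣ) q i) := by
  have := Fact.mk hq
  have := D.charP
  show IsGauss π (φ (rep i') ⟨sepFin K q n i, _⟩) _
  rw [branch_sepFin ι hq hqL (pow_pow_rootExp D.hη (rep i')) (D.isPrimitiveRoot_rep i')
    (D.isSubst_rep i') ι₀ (Nat.le_of_lt_succ i.2)]
  have := D.dvr
  exact isGauss_sepVal (pow_pow_rootExp D.hη (rep i'))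

theorem isGauss_sepElt_zero {i i' : Fin (n + 1)} (h : i' ≠ i) :
    IsGauss π (φ (rep i') (sepElt (A := A) (L₀ := L₀) (q := q) ι₀ i :
        modField K (L₀ * q ^ n))) 0 := by
  have := Fact.mk hq
  have := D.charP
  have h' := D.isGauss_sepElt ι ι₀ i i'
  rwa [sepVal_one_of_ne (Nat.le_of_lt_succ i'.2) (Fin.val_ne_of_ne h)] at h'

theorem chartRes_sepElt_of_ne {i i' : Fin (n + 1)} (h : i' ≠ i) :
    chartRes Br hR i' (sepElt ι₀ i) = 0 := by
  obtain ⟨_, hr⟩ := D.res_eq_zero_iff_isGauss.mp (D.isGauss_sepElt_zero ι ι₀ h)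
  exact hr

include ι₀ hR in
/-- `Δ^(1-q)` is in the coordinate ring of `j̄`. -/
theorem exists_delta :
    ∃ d : coordRing k (jSpecial (k := k) L₀),
      ((d : modularFunctionFieldFullC k L₀) : LaurentSeries k) = deltaInvSeries k ^ (q - 1) := by
  have := Fact.mk hq
  have := D.charP
  have := D.dvr
  let a : Carayol.chartRing A (MF.Coeff.jElem K (L₀ * q ^ n)) :=
    ⟨⟨pairV K (q ^ 0) (q ^ 1), pairV_pow_mem ι₀ (Nat.zero_le 1) D.n_pos⟩,
      mem_chartRing_of_intEval (isIntegralElem_pairV_pow ι₀ (Nat.zero_le 1))⟩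
  refine ⟨D.branchRed hR (Fin.last n) a, ?_⟩
  set ζ := η ^ rootExp (rep (Fin.last n))
  have hζ : ζ ^ q ^ n = 1 := pow_pow_rootExp D.hη _
  have hg : IsGauss π (φ (rep (Fin.last n)) (a : modField K (L₀ * q ^ n)))
      (unitVVal n (Fin.last n : ℕ) (1 : kˣ) q 0 1) := by
    rw [show φ (rep (Fin.last n)) (a : modField K (L₀ * q ^ n)) =
      unitVVal n (Fin.last n : ℕ) ζ q 0 1 from (branch_pair ι hq hqL hζ
        (D.isPrimitiveRoot_rep _) (D.isSubst_rep _) (Nat.zero_le 1) D.n_pos
        (pairU_pow_mem ι₀ (Nat.zero_le 1) D.n_pos) _).2]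
    obtain ⟨v, hv, hv1⟩ := exists_unit_res_one (π := π) hζ
    have h := isGauss_int (π := π) (unitVVal n (Fin.last n : ℕ) v q 0 1)
    rwa [intSeries, coeffMap_unitVVal, coeffMap_unitVVal,
      show Units.map O.subtype.toMonoidHom v = ζ from Units.ext hv,
      show Units.map π.toMonoidHom v = 1 from Units.ext hv1] at h
  rw [show unitVVal n (Fin.last n : ℕ) (1 : kˣ) q 0 (0 + 1) =
    qExpand k (q ^ lowExp n (Fin.last n : ℕ)) (deltaInvSeries k ^ (q - 1)) from
      (unitVVal_one_of_lt (by simpa using D.n_pos)).trans (qExpand_congr (by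
        congr 1; simp [lowExp]; omega) _)] at hg
  obtain ⟨_, hr⟩ := D.res_eq_of_isGauss_rep hg
  exact hr

theorem branchRed_sepElt [Fact q.Prime] [CharP k q] (i : Fin (n + 1))
    {d : coordRing k (jSpecial (k := k) L₀)}
    (hd : ((d : modularFunctionFieldFullC k L₀) : LaurentSeries k) =
      deltaInvSeries k ^ (q - 1)) :
    D.branchRed hR i (sepElt ι₀ i) = (chartFrob L₀ q)^[sepDepth n i] d ^ sepPow q n i := by
  have hg := D.isGauss_sepElt ι ι₀ i i
  rw [sepVal_one_self D.n_pos (Nat.le_of_lt_succ i.2)] at hg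
  obtain ⟨_, hr⟩ := D.res_eq_of_isGauss_rep hg
  refine Subtype.ext (Subtype.ext (hr.trans ?_))
  rw [SubmonoidClass.coe_pow, SubmonoidClass.coe_pow, coe_chartFrob_iterate, hd, ← map_pow]

omit ι

/-! ### The points -/

variable [IsAlgClosed k]

/-- A point on the branch `i` is a point of the reduced curve. -/
theorem exists_point (hAq : Irreducible (q : A)) (hred : Function.Surjective D.baseRed)
    (y : Ideal (Carayol.chartRing A (MF.Coeff.jElem K (L₀ * q ^ n)))) [y.IsMaximal]
    (hqy : (⟨algebraMap A _ (q : A), Subalgebra.algebraMap_mem _ _⟩ :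
      Carayol.chartRing A (MF.Coeff.jElem K (L₀ * q ^ n))) ∈ y)
    {i : Fin (n + 1)} (hi : LiesOnBranch Br _ y i) :
    ∃ χ : coordRing k (jSpecial (k := k) L₀) →ₐ[k] k,
      ∀ a, a ∈ y ↔ χ (D.branchRed hR i a) = 0 := by
  set f := D.branchRed hR i with hf
  have hsurj : Function.Surjective f := D.branchRed_surjective hR hred i
  set M := y.map f
  have hker : RingHom.ker f ≤ y := fun a ha =>
    hi a (hR.mem_V a a.2 i) (congrArg Subtype.val (RingHom.mem_ker.mp ha))
  have hcomap : M.comap f = y := by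
    rw [Ideal.comap_map_of_surjective f hsurj, sup_eq_left]
    exact hker
  have hM : M ≠ ⊤ := fun h => (inferInstance : y.IsMaximal).ne_top (by
    rw [← hcomap, h, Ideal.comap_top])
  have hy0 : ∀ w : A, residueA π κ A D.hA w = 0 →
      algebraMap A (Carayol.chartRing A (MF.Coeff.jElem K (L₀ * q ^ n))) w ∈ y := fun w hw => by
    obtain ⟨c, rfl⟩ := D.q_dvd_of_residue hAq w hw
    rw [map_mul]
    exact y.mul_mem_right _ hqy
  have : Nontrivial (coordRing k (jSpecial (k := k) L₀) ⧸ M) :=
    Ideal.Quotient.nontrivial_iff.mpr hM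
  have hbij : Function.Bijective (Algebra.ofId k (coordRing k (jSpecial (k := k) L₀) ⧸ M)) := by
    refine ⟨(algebraMap k (coordRing k (jSpecial (k := k) L₀) ⧸ M)).injective, fun z => ?_⟩
    obtain ⟨z, rfl⟩ := Ideal.Quotient.mk_surjective z
    obtain ⟨a, rfl⟩ := hsurj z
    obtain ⟨w, hw⟩ := exists_algebraMap_sub_mem _ D.residueA_surjective y hy0 a
    refine ⟨residueA π κ A D.hA w, (Ideal.Quotient.eq.mpr ?_).symm⟩
    rw [← D.branchRed_algebraMap hR i w, ← map_sub]
    exact Ideal.mem_map_of_mem f hw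
  let e := AlgEquiv.ofBijective (Algebra.ofId k (coordRing k (jSpecial (k := k) L₀) ⧸ M)) hbij
  refine ⟨e.symm.toAlgHom.comp (Ideal.Quotient.mkₐ k M), fun a => ?_⟩
  rw [AlgHom.comp_apply, ← hcomap, Ideal.mem_comap]
  show _ ↔ e.symm (Ideal.Quotient.mk M (f a)) = 0
  rw [EmbeddingLike.map_eq_zero_iff, Ideal.Quotient.eq_zero_iff_mem]

/-- The local ring of the reduced curve inside the localised image of a branch. -/
theorem exists_dvr (hAq : Irreducible (q : A)) (hred : Function.Surjective D.baseRed)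
    (y : Ideal (Carayol.chartRing A (MF.Coeff.jElem K (L₀ * q ^ n)))) [y.IsMaximal]
    (hqy : (⟨algebraMap A _ (q : A), Subalgebra.algebraMap_mem _ _⟩ :
      Carayol.chartRing A (MF.Coeff.jElem K (L₀ * q ^ n))) ∈ y)
    {i : Fin (n + 1)} (hi : LiesOnBranch Br _ y i) :
    ∃ O : ValuationSubring (modularFunctionFieldFullC k L₀), IsDiscreteValuationRing O ∧
      (∀ z ∈ O, ∃ a r, r ∉ y ∧ z * chartRes Br hR i r = chartRes Br hR i a) ∧
      ∃ a ∈ y, chartRes Br hR i a ≠ 0 := by
  have := D.dvrA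
  have := isFunctionField_special (k := k) L₀ D.hL
  have := FF.finiteDimensional_adjoin (transcendental_jSpecial (k := k) L₀)
  have hy0 : ∀ w : A, residueA π κ A D.hA w = 0 →
      algebraMap A (Carayol.chartRing A (MF.Coeff.jElem K (L₀ * q ^ n))) w ∈ y := fun w hw => by
    obtain ⟨c, rfl⟩ := D.q_dvd_of_residue hAq w hw
    rw [map_mul]
    exact y.mul_mem_right _ hqy
  obtain ⟨v, -, hv⟩ := exists_branch_place (chartRes Br hR i) y (transcendental_jSpecial L₀)
    (fun a ha => hi a _ (RingHom.mem_ker.mp ha))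
    (fun c => by
      obtain ⟨w, rfl⟩ := D.residueA_surjective c
      exact ⟨_, D.chartRes_algebraMap hR i w⟩)
    (fun a => by
      obtain ⟨w, hw⟩ := exists_algebraMap_sub_mem _ D.residueA_surjective y hy0 a
      exact ⟨_, _, D.chartRes_algebraMap hR i w, hw⟩)
    (fun g hg => by
      obtain ⟨a, ha⟩ := D.branchRed_surjective hR hred i ⟨g, hg⟩
      exact ⟨a, 1, Carayol.one_notMem_of_isPrime, by
        rw [map_one, mul_one]; exact (congrArg Subtype.val ha).symm⟩)
  exact ⟨v.toValuationSubring, inferInstance, hv⟩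

/-! ### The Hauptmodul -/

variable {N₀ : ℕ} (H : Haupt N₀) {tB : Carayol.chartRing A (MF.Coeff.jElem K L₀)}
  (htB : ((tB : modField K L₀) : LaurentSeries K) = coeffMap (Int.castRingHom K) H.tZ)

include htB

theorem baseEmb_haupt :
    baseEmb κ L₀ (tB : modField K L₀) = coeffMap (Int.castRingHom K') H.tZ := by
  show coeffMap κ ((tB : modField K L₀) : LaurentSeries K) = _
  rw [htB, coeffMap_coeffMap, RingHom.ext_int (κ.comp _) (Int.castRingHom K')]

theorem coe_baseRed_haupt :
    ((D.baseRed tB : modularFunctionFieldFullC k L₀) : LaurentSeries k) = H.tBar k := by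
  refine (D.isGauss_baseRed tB).unique ?_
  rw [D.baseEmb_haupt H htB]
  exact isGauss_intCast _

/-- Off the cusps `D (t)` does not vanish. -/
theorem evalZ_D_ne_zero (hqN : ¬ q ∣ N₀) (χ : coordRing k (jSpecial (k := k) L₀) →ₐ[k] k) :
    evalZ (χ (D.baseRed tB)) H.D ≠ 0 := by
  have := D.charP
  let ψ := (modularFunctionFieldFullC k L₀).val.comp (coordRing k (jSpecial (k := k) L₀)).val
  have hψ : Function.Injective ψ.toRingHom := Subtype.val_injective.comp Subtype.val_injective
  refine H.D_eval_ne_zero k χ.toRingHom (t := D.baseRed tB)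
    (j := ⟨jSpecial L₀, self_mem_coordRing _ _⟩) hq hqN (hψ ?_)
  rw [map_mul, map_pow, map_evalZ, map_evalZ,
    show ψ.toRingHom (D.baseRed tB) = H.tBar k from D.coe_baseRed_haupt H htB,
    show ψ.toRingHom ⟨jSpecial L₀, self_mem_coordRing _ _⟩ = jqModC k from coe_jSpecial L₀]
  have h := congrArg (coeffMap (Int.castRingHom k)) H.j_eq
  rw [map_mul, map_pow, coeffMap_jqModC] at h
  rwa [Haupt.tBar, ← map_evalZ (coeffMap (Int.castRingHom k)),
    ← map_evalZ (coeffMap (Int.castRingHom k))]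

/-- **The turning difference of an interior branch.** -/
theorem exists_turn_haupt {i : Fin (n + 1)} (h0 : 0 < (i : ℕ)) (hin : (i : ℕ) < n) :
    ∃ p : Carayol.chartRing A (MF.Coeff.jElem K (L₀ * q ^ n)),
      chartRes Br hR i p = 0 ∧
      ∃ (hw : (p : modField K (L₀ * q ^ n)) ^ (q ^ min (i : ℕ) (n - i)).totient /
          algebraMap A _ (q : A) ∈ Br.V i) (c : k) (M : ℕ), c ≠ 0 ∧
        ((Br.res i ⟨_, hw⟩ : modularFunctionFieldFullC k L₀) : LaurentSeries k) =
          algebraMap k (LaurentSeries k) c * thetaL (H.tBar k) ^ ((q - 1) * M) := by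
  have := Fact.mk hq
  have := D.charP
  set ζ := η ^ rootExp (rep i) with hζdef
  have hζ' : IsPrimitiveRoot (ζ : K') (q ^ n) :=
    IsPrimitiveRoot.coe_units_iff.mpr (D.isPrimitiveRoot_rep i h0 hin)
  set T := coeffMap (Int.castRingHom K') H.tZ with hT
  have hJ : ∀ a (ha : a ≤ n),
      φ (rep i) ((chartDegen A (pow_dvd_level' ha : L₀ * q ^ a ∣ L₀ * q ^ n) tB :
          Carayol.chartRing A (MF.Coeff.jElem K (L₀ * q ^ n))) : modField K (L₀ * q ^ n)) =
        branchTerm n i ζ q a T := fun a ha => by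
    rw [coe_chartDegen, branch_degen (D.isSubst_rep i) ha, D.baseEmb_haupt H htB]
  obtain ⟨r, g, μ, p, hrs, hμ, hp⟩ : ∃ (r g : ℕ) (μ : K'ˣ)
      (p : Carayol.chartRing A (MF.Coeff.jElem K (L₀ * q ^ n))),
      min (i : ℕ) (n - i) = r + 1 ∧ IsPrimitiveRoot (μ : K') (q ^ (r + 1)) ∧
        φ (rep i) (p : modField K (L₀ * q ^ n)) =
          qExpand K' (q ^ (lowExp n i + g)) (qScale μ T - T) := by
    rcases le_or_gt (2 * (i : ℕ)) n with h | h
    · refine ⟨(i : ℕ) - 1, n - 2 * i, ζ ^ q ^ (n - (i : ℕ)),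
        chartDegen A (pow_dvd_level' h) tB - chartDegen A (pow_dvd_level' (Nat.zero_le n)) tB,
        by omega, ?_, ?_⟩
      · rw [show (i : ℕ) - 1 + 1 = i by omega]
        exact isPrimitiveRoot_turn (by omega) hζ'
      · rw [AddSubgroupClass.coe_sub, map_sub, hJ _ h, hJ _ (Nat.zero_le n),
          branchTerm_turn_low h0 h]
        exact qExpand_congr (by congr 1; simp only [lowExp]; omega) _
    · refine ⟨n - i - 1, 2 * i - n, ζ ^ q ^ (i : ℕ),
        chartDegen A (pow_dvd_level' le_rfl) tB -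
          chartDegen A (pow_dvd_level' (show 2 * (i : ℕ) - n ≤ n by omega)) tB,
        by omega, ?_, ?_⟩
      · rw [show n - (i : ℕ) - 1 + 1 = n - i by omega]
        have h' := isPrimitiveRoot_turn (r := n - (i : ℕ)) (Nat.sub_le n i) hζ'
        rwa [show n - (n - (i : ℕ)) = i by omega] at h'
      · rw [AddSubgroupClass.coe_sub, map_sub, hJ _ le_rfl,
          hJ _ (show 2 * (i : ℕ) - n ≤ n by omega), branchTerm_turn_high h.le hin]
        exact qExpand_congr (by congr 1; simp only [lowExp]; omega) _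
  have hμ1 : μ ^ q ^ (r + 1) = 1 :=
    Units.ext (by rw [Units.val_pow_eq_pow_val, hμ.pow_eq_one, Units.val_one])
  obtain ⟨μ', hμ', hμres⟩ := exists_unit_res_one (π := π) hμ1
  have hμO : IsPrimitiveRoot (μ' : O) (q ^ (r + 1)) :=
    IsPrimitiveRoot.of_map_of_injective (f := O.subtype) (by rw [← hμ'] at hμ; exact hμ)
      Subtype.val_injective
  set N := q ^ (lowExp n i + g) with hN
  set x := coeffMap (Int.castRingHom O) H.tZ with hx
  have hxK : coeffMap O.subtype x = T := by
    rw [coeffMap_coeffMap, RingHom.ext_int (O.subtype.comp _) (Int.castRingHom K')]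
  have hxk : coeffMap π x = H.tBar k := by
    rw [coeffMap_coeffMap, RingHom.ext_int (π.comp _) (Int.castRingHom k)]; rfl
  obtain ⟨v, w, hv, hvw, hw⟩ := exists_turn_pow π hμO N x
  have hint : intSeries O (qExpand O N (qScale μ' x - x)) =
      φ (rep i) (p : modField K (L₀ * q ^ n)) := by
    rw [hp, intSeries, coeffMap_qExpand, map_sub, coeffMap_qScale, hxK,
      show Units.map O.subtype.toMonoidHom μ' = μ from Units.ext hμ']
  have hp0 : IsGauss π (φ (rep i) (p : modField K (L₀ * q ^ n))) 0 := by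
    have h := isGauss_int (π := π) (qExpand O N (qScale μ' x - x))
    rwa [hint, coeffMap_qExpand, map_sub, coeffMap_qScale,
      show Units.map π.toMonoidHom μ' = 1 from Units.ext hμres, qScale_one, RingHom.id_apply,
      sub_self, map_zero] at h
  obtain ⟨v', hv'⟩ :=
    (not_not.mp fun h => hv ((D.hπ _).mpr h) : IsUnit v).exists_right_inv
  have hc : π v' ≠ 0 := fun h => by
    have := congrArg π hv'
    rw [map_mul, h, mul_zero, map_one] at this
    exact zero_ne_one this
  set E := (q ^ (r + 1)).totient with hE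
  have hres : coeffMap π (HahnSeries.C v' * w) = qExpand k (q ^ lowExp n i)
      (algebraMap k (LaurentSeries k) (π v') *
        thetaL (H.tBar k) ^ ((q - 1) * (q ^ r * q ^ g))) := by
    rw [map_mul, coeffMap_C', hw, hxk, map_mul,
      algebraMap_laurentSeries_eq_single, qExpand_single, mul_zero, HahnSeries.C_apply]
    congr 1
    rw [qExpand_congr (_root_.pow_add q (lowExp n i) g), ← qExpand_qExpand]
    congr 1
    rw [map_pow, show thetaL (H.tBar k) = coeffMap (Int.castRingHom k) (thetaL H.tZ) from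
      (coeffMap_thetaL _ _).symm, SS.qExpand_int_eq_pow, ← pow_mul, hE,
      Nat.totient_prime_pow_succ hq]
    congr 1
    ring
  have hq0 : ((q : ℕ) : LaurentSeries K') ≠ 0 := by
    have : CharZero K' := charZero_of_injective_algebraMap (algebraMap ℚ K').injective
    rw [← map_natCast HahnSeries.C]
    exact HahnSeries.C_ne_zero (Nat.cast_ne_zero.mpr hq.ne_zero)
  have hgw : IsGauss π (φ (rep i) ((p : modField K (L₀ * q ^ n)) ^
      (q ^ min (i : ℕ) (n - i)).totient / algebraMap A _ (q : A)))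
      (coeffMap π (HahnSeries.C v' * w)) := by
    convert isGauss_int (π := π) (HahnSeries.C v' * w) using 1
    rw [map_natCast (algebraMap A _), map_div₀, map_natCast, map_pow, hrs, ← hint, ← map_pow,
      div_eq_iff hq0, ← map_natCast (intSeries O), ← map_mul]
    refine congrArg _ ?_
    rw [← map_natCast HahnSeries.C, mul_right_comm, mul_assoc (HahnSeries.C v'), ← hvw,
      ← mul_assoc, ← map_mul, mul_comm v' v, hv', map_one, one_mul]
  rw [hres] at hgw
  obtain ⟨hV, hval⟩ := D.res_eq_of_isGauss_rep hgw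
  obtain ⟨_, hp'⟩ := D.res_eq_zero_iff_isGauss.mp hp0
  exact ⟨p, hp', hV, π v', q ^ r * q ^ g, hc, hval⟩

variable (hcrit : DivCriterion Br (q : A)
  (Carayol.chartRing A (MF.Coeff.jElem K (L₀ * q ^ n))))

include hcrit ι hR

/-- **Ordinary points**: the separator of `i` does not vanish. -/
theorem chartPoint_of_sep (hqN : ¬ q ∣ N₀) (hAq : Irreducible (q : A))
    (hred : Function.Surjective D.baseRed) (P : Fin (n + 1) → Fin (n + 1) → Prop)
    (y : Ideal (Carayol.chartRing A (MF.Coeff.jElem K (L₀ * q ^ n)))) [y.IsMaximal]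
    (hqy : (⟨algebraMap A _ (q : A), Subalgebra.algebraMap_mem _ _⟩ :
      Carayol.chartRing A (MF.Coeff.jElem K (L₀ * q ^ n))) ∈ y)
    {i : Fin (n + 1)} (hey : sepElt ι₀ i ∉ y) :
    ChartPoint Br (Carayol.chartRing A (MF.Coeff.jElem K (L₀ * q ^ n))) P y := by
  classical
  have := Fact.mk hq
  have := D.charP
  have := D.dvr
  have := D.dvrA
  have : CharZero K := charZero_of_injective_algebraMap (algebraMap ℚ K).injective
  have : CharZero K' := charZero_of_injective_algebraMap (algebraMap ℚ K').injective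
  have : CharZero (modField K (L₀ * q ^ n)) :=
    charZero_of_injective_algebraMap (algebraMap K (modField K (L₀ * q ^ n))).injective
  set e := sepElt (A := A) (L₀ := L₀) (q := q) ι₀ i with hedef
  have he : ∀ j, j ≠ i → chartRes Br hR j e = 0 := fun j hj => D.chartRes_sepElt_of_ne hR ι ι₀ hj
  have hon : LiesOnBranch Br _ y i := liesOnBranch_of_sep hR hqy he hey
  obtain ⟨χ, hχ⟩ := D.exists_point hR hAq hred y hqy hon
  have hqF : algebraMap A (modField K (L₀ * q ^ n)) (q : A) ≠ 0 := by
    rw [map_natCast]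
    exact Nat.cast_ne_zero.mpr hq.ne_zero
  obtain ⟨N, hN⟩ : ∃ N : ℕ, ∀ j, j ≠ i →
      (e : modField K (L₀ * q ^ n)) ^ N / algebraMap A _ (q : A) ∈ Br.V j := by
    have h : ∀ j, ∃ N₀, ∀ N, N₀ ≤ N → j ≠ i →
        (e : modField K (L₀ * q ^ n)) ^ N / algebraMap A _ (q : A) ∈ Br.V j := by
      intro j
      by_cases hj : j = i
      · exact ⟨0, fun _ _ h => absurd hj h⟩
      obtain ⟨N₀, hN₀⟩ := exists_pow_mul_isGauss_zero (π := π) D.hπ
        (D.isGauss_sepElt_zero ι ι₀ hj)
        (D.mem_fracSeries (rep j) (algebraMap A (modField K (L₀ * q ^ n)) (q : A))⁻¹)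
      refine ⟨N₀, fun N hN _ => ?_⟩
      have h1 := hN₀ N hN
      rw [← map_pow, ← map_mul, ← div_eq_mul_inv] at h1
      exact (D.mem_of_isGauss (D.hrep j) h1).1
    choose N₁ hN₁ using h
    exact ⟨Finset.univ.sup N₁, fun j hj =>
      hN₁ j _ (Finset.le_sup (Finset.mem_univ j)) hj⟩
  set E := (q ^ min (i : ℕ) (n - i)).totient with hE
  have hE0 : E ≠ 0 := (Nat.totient_pos.mpr (pow_pos hq.pos _)).ne'
  have hs : χ (D.branchRed hR i e ^ N) ≠ 0 := by
    rw [map_pow]
    exact pow_ne_zero _ fun h => hey ((hχ e).mpr h)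
  obtain ⟨p, hp, hw, hu⟩ : ∃ p : Carayol.chartRing A (MF.Coeff.jElem K (L₀ * q ^ n)),
      chartRes Br hR i p = 0 ∧
      ∃ hw : (p : modField K (L₀ * q ^ n)) ^ E / algebraMap A _ (q : A) ∈ Br.V i,
        ∀ u, chartRes Br hR i u = chartRes Br hR i e ^ N * Br.res i ⟨_, hw⟩ → u ∉ y := by
    by_cases h : 0 < (i : ℕ) ∧ (i : ℕ) < n
    · obtain ⟨p, hp, hw, c, M, hc, hval⟩ := D.exists_turn_haupt hR H htB h.1 h.2
      refine ⟨p, hp, hw, fun u hu huy => ?_⟩
      obtain ⟨d, hd⟩ := D.exists_delta hR ι ι₀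
      refine apply_ne_zero_of_theta_pow (q := q) H
        ((modularFunctionFieldFullC k L₀).val.comp (coordRing k (jSpecial (k := k) L₀)).val)
        (Subtype.val_injective.comp Subtype.val_injective) (D.baseRed tB) d
        (D.coe_baseRed_haupt H htB) ?_ hc (M := M) (a := D.branchRed hR i u)
        (s := D.branchRed hR i e ^ N) ?_ χ (D.evalZ_D_ne_zero H htB hqN χ) hs ((hχ u).mp huy)
      · show ((d : modularFunctionFieldFullC k L₀) : LaurentSeries k) * _ = 1
        rw [hd, ← mul_pow, mul_comm,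
          show Carayol.deltaSeries k = Igusa.deltaSeries k from rfl, deltaSeries_mul_inv, one_pow]
      · show ((chartRes Br hR i u : modularFunctionFieldFullC k L₀) : LaurentSeries k) = _
        rw [hu, MulMemClass.coe_mul, hval, SubmonoidClass.coe_pow, ← mul_assoc]
        rfl
    · have hE1 : E = 1 := by
        rw [hE, show min (i : ℕ) (n - i) = 0 by have := i.2; omega, pow_zero, Nat.totient_one]
      let pq : Carayol.chartRing A (MF.Coeff.jElem K (L₀ * q ^ n)) := algebraMap A _ (q : A)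
      have hone : (pq : modField K (L₀ * q ^ n)) ^ E / algebraMap A _ (q : A) = 1 := by
        rw [hE1, pow_one]
        exact div_self hqF
      refine ⟨pq, hR.res_π i _, hone ▸ one_mem _, fun u hu huy => hs ?_⟩
      have h1 : D.branchRed hR i u = D.branchRed hR i e ^ N := by
        refine Subtype.ext (hu.trans ?_)
        rw [SubmonoidClass.coe_pow, show Br.res i ⟨_, hone ▸ one_mem _⟩ = 1 from
          (congrArg (Br.res i) (Subtype.ext hone)).trans (map_one (Br.res i)), mul_one]
        rfl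
      rw [← h1]
      exact (hχ u).mp huy
  have hdiv : ∀ a : modField K (L₀ * q ^ n), ∀ h : a ∈ Br.V i, Br.res i ⟨a, h⟩ = 0 →
      a * (p : modField K (L₀ * q ^ n)) ^ (E - 1) / algebraMap A _ (q : A) ∈ Br.V i := by
    intro a ha h0
    obtain ⟨r, hr⟩ := isGauss_mul_pow_div (π := π) D.hA D.hπ hq hqL (D.q_dvd_of_residue hAq)
      (fun h => Nat.cast_ne_zero.mpr hq.ne_zero
        (show ((q : ℕ) : K') = 0 by simpa using congrArg O.subtype h))
      (Nat.le_of_lt_succ i.2) (pow_pow_rootExp D.hη (rep i)) (D.isPrimitiveRoot_rep i)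
      (D.isSubst_rep i) (D.res_eq_zero_iff_isGauss.mpr ⟨ha, h0⟩)
      (D.res_eq_zero_iff_isGauss.mpr ⟨hR.mem_V p p.2 i, hp⟩)
    rw [map_natCast]
    exact (D.mem_of_isGauss (D.hrep i) hr).1
  have hp0 : p ≠ 0 := by
    rintro rfl
    refine hu 0 ?_ y.zero_mem
    rw [map_zero]
    refine (mul_eq_zero_of_right _ ?_).symm
    rw [← map_zero (Br.res i)]
    exact congrArg (Br.res i) (Subtype.ext (by simp [zero_pow hE0]))
  exact chartPoint_of_ordinary hR hqy he hey
    ⟨p, hp0, hp, exists_gen_of_turn hR hqF hcrit hE0 hN hdiv hw hu⟩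
    (D.exists_dvr hR hAq hred y hqy hon)

end ChartData

end Fermat.Agent.CarayolHigh
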