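/-
The cusp points of the special fibre of the model of `X₀(qⁿ L₀)`: at a point over `q` of the chart
of `1/j` where `1/j` vanishes the separator of the branch through the point does not vanish, and the
kernel of that branch is generated by its uniformiser. So points on all branches have `1/j ≠ 0`.
-/
import Fermat.Agent.CarayolHigh.CuspElements
import Fermat.Agent.CarayolHigh.Points
import Fermat.Agent.CarayolHigh.OrdinaryPoints

set_option autoImplicit false
set_option linter.unusedSectionVars false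
set_option linter.style.haveILetI false
set_option maxHeartbeats 1600000

noncomputable section

open Polynomial IntermediateField ModularCurve AlgebraicCurve
open Fermat.Agent.Igusa Fermat.Agent.RED.Spec Fermat.Agent.HK.Corr Fermat.Agent.Carayol
open Fermat.Agent.MF (thetaL)

namespace Fermat.Agent.CarayolHigh

open Fermat.Agent.RED

local notation "Qb" => AlgebraicClosure ℚ

section Setting

variable {A₀ : ValuationSubring Qb} {K K' k : Type} [Field K] [Algebra ℚ K] [Algebra K Qb]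
  [Field K'] [Algebra ℚ K'] [Field k] {L₀ q n : ℕ} [NeZero L₀] [NeZero q]
  {hq : q.Prime} {hqL : ¬ q ∣ L₀} {π₀ : A₀ →+* k} {κ : K →+* K'} {ι : K' →+* Qb} {η ω : K'ˣ} {N : ℕ}
  {φ : BranchIdx q n → modField K (L₀ * q ^ n) →+* LaurentSeries K'}
  {rep : Fin (n + 1) → BranchIdx q n}
  {Br : Branches (modField K (L₀ * q ^ n)) (Fin (n + 1))
    (fun _ => modularFunctionFieldFullC k L₀)}

variable (L₀) in
/-- A function on the reduced curve without zero or pole at the cusps. -/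
def IsCuspUnit (r : modularFunctionFieldFullC k L₀) : Prop :=
  ∀ v : Place k (modularFunctionFieldFullC k L₀), 0 < v.ord (jSpecial L₀)⁻¹ → r ≠ 0 ∧ v.ord r = 0

/-- The separator of the branch `i` on the chart at infinity. -/
def eInf (c : K →+* ℂ) (L₀ q n : ℕ) [NeZero L₀] [NeZero q] (i : Fin (n + 1)) :
    modField K (L₀ * q ^ n) :=
  ⟨sepFin K q n i, sepFin_mem c (Nat.le_of_lt_succ i.2)⟩ * (jLevel K L₀ q n)⁻¹ ^ sepExp q n i

theorem coe_jN_inv :
    (((jLevel K L₀ q n)⁻¹ : modField K (L₀ * q ^ n)) : LaurentSeries K) = jInvSeries K := by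
  rw [IntermediateField.coe_inv, MF.Coeff.coe_jElem]
  exact inv_eq_of_mul_eq_one_right (jqModC_mul_inv K)

theorem jInvSeries_mem_modField : jInvSeries K ∈ modField K (L₀ * q ^ n) :=
  coe_jN_inv (K := K) (L₀ := L₀) (q := q) (n := n) ▸ ((jLevel K L₀ q n)⁻¹).2

theorem coe_eInf (c : K →+* ℂ) (i : Fin (n + 1)) :
    (eInf c L₀ q n i : LaurentSeries K) = sepInf K q n i := by
  rw [eInf, sepInf, MulMemClass.coe_mul, SubmonoidClass.coe_pow, coe_jN_inv]

/-- The separator of an interior branch. -/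
theorem sepInf_succ {R : Type} [CommRing R] {a : ℕ} (ha : a + 1 ≠ n) :
    sepInf R q n (a + 1) =
      pairV R (q ^ a) (q ^ (a + 1)) * pairU R (q ^ (a + 1)) (q ^ (a + 2)) ^ q *
        jInvSeries R ^ (q ^ a * (q - 1) + q ^ (a + 1) * (q - 1)) := by
  rw [sepInf, sepFin, sepExp, if_neg (Nat.succ_ne_zero a), if_neg ha,
    if_neg (Nat.succ_ne_zero a), if_neg ha]
  rfl

namespace ChartData

theorem eInf_mem (hq : q.Prime) (c : K →+* ℂ) (i : Fin (n + 1)) :
    eInf c L₀ q n i ∈ chartN A₀ (jLevel K L₀ q n)⁻¹ := by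
  refine mem_chartN_of_series ?_
  rw [coe_eInf, coe_jN_inv]
  exact isIntegralElem_sepInf c hq

variable (hC : Consts A₀ q N π₀ κ ι ω)
  (D : ChartData hq hqL (constRes π₀ ι) κ η (constA A₀ K) φ rep Br
    (modularFunctionFieldFullC k L₀).val.toRingHom) (cK' : K' →+* ℂ) (hn : 2 ≤ n)

/-- The residue of `1/j`. -/
theorem isGauss_jInv :
    IsGauss (constRes π₀ ι) (qExpand K' (q ^ n) (jInvSeries K'))
      (qExpand k (q ^ n) (jInvSeries k)) := by
  have h := isGauss_int (π := constRes π₀ ι) (jInvSeries (constO A₀ ι))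
  rw [intSeries, Igusa.coeffMap_jInvSeries, Igusa.coeffMap_jInvSeries] at h
  exact h.qExpand _

include D cK' in
/-- The separators on the branches. -/
theorem isGauss_eInf (i i' : Fin (n + 1)) :
    IsGauss (constRes π₀ ι) (φ (rep i') (eInf (cK'.comp κ) L₀ q n i))
      (sepVal n i' (1 : kˣ) q i * qExpand k (q ^ n) (jInvSeries k) ^ sepExp q n i) := by
  haveI := D.charP
  haveI := D.dvr
  haveI : Fact q.Prime := ⟨hq⟩
  have hζ := pow_pow_rootExp D.hη (rep i')
  rw [eInf, map_mul, map_pow,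
    show (jLevel K L₀ q n)⁻¹ = ⟨_, jInvSeries_mem_modField⟩ from Subtype.ext coe_jN_inv,
    branch_sepFin cK' hq hqL hζ (D.isPrimitiveRoot_rep i') (D.isSubst_rep i') (cK'.comp κ)
      (Nat.le_of_lt_succ i.2),
    branch_jInv hq hqL (D.isSubst_rep i') jInvSeries_mem_modField]
  exact (isGauss_sepVal hζ).mul (isGauss_jInv.pow _)

include D cK' in
/-- Off its branch the separator has residue zero. -/
theorem res_eInf_ne (hR : IsChart Br (q : constA A₀ K) (chartN A₀ (jLevel K L₀ q n)⁻¹))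
    (i j : Fin (n + 1)) (h : j ≠ i) :
    chartRes Br hR j ⟨_, eInf_mem hq (cK'.comp κ) i⟩ = 0 := by
  haveI := D.charP
  haveI : Fact q.Prime := ⟨hq⟩
  have hg := D.isGauss_eInf cK' i j
  rw [sepVal_one_of_ne (Nat.le_of_lt_succ j.2) (Fin.val_ne_of_ne h), zero_mul] at hg
  obtain ⟨_, he⟩ := D.res_eq_zero_iff_isGauss.mp hg
  exact he

include D cK' hn in
/-- `Δ^(1-q)/j^(q-1)` and `(θj/j)^(q-1)` are rational functions of `j`. -/
theorem residues_mem : wRes k q ∈ modularFunctionFieldFullC k 1 ∧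
    turnRes k ^ (q - 1) ∈ modularFunctionFieldFullC k 1 := by
  haveI := D.charP
  haveI := D.dvr
  haveI : Fact q.Prime := ⟨hq⟩
  have hη2 : IsPrimitiveRoot (η ^ q ^ (n - 2)) (q ^ 2) :=
    D.hη.pow (pow_pos hq.pos n) (by rw [← _root_.pow_add, Nat.sub_add_cancel hn])
  have hw := wRes_mem_fullC_one cK' D.hπ (κ := κ) (constA A₀ K) D.hA D.hsurj hη2
  exact ⟨hw, turnRes_pow_mem hw
    (residues_mem_fullC_one cK' D.hπ (κ := κ) (constA A₀ K) D.hA D.hsurj hη2).2.2⟩

include D in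
/-- A residue rational in `j` with nonzero constant term is a unit at the cusps. -/
theorem isCuspUnit_of_isGauss {i : Fin (n + 1)} {a : modField K (L₀ * q ^ n)} {s : LaurentSeries k}
    {c : k} (hs : s ∈ modularFunctionFieldFullC k 1) (hl : HasLead s 0 c) (hc : c ≠ 0)
    (h : IsGauss (constRes π₀ ι) (φ (rep i) a) (qExpand k (q ^ lowExp n i) s)) :
    ∃ h : a ∈ Br.V i, IsCuspUnit L₀ (Br.res i ⟨a, h⟩) := by
  obtain ⟨hV, he⟩ := (D.isGauss_iff i a s).mp h
  refine ⟨hV, fun v hv => ord_eq_zero_of_rational hs hl hc (x := (jSpecial L₀)⁻¹) he ?_ v hv⟩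
  rw [IntermediateField.coe_inv]
  exact inv_eq_of_mul_eq_one_right (jqModC_mul_inv k)

include D cK' hn in
/-- On its branch the separator is a unit at the cusps. -/
theorem res_eInf_self (hR : IsChart Br (q : constA A₀ K) (chartN A₀ (jLevel K L₀ q n)⁻¹))
    (i : Fin (n + 1)) :
    IsCuspUnit L₀ (chartRes Br hR i ⟨_, eInf_mem hq (cK'.comp κ) i⟩) := by
  haveI := D.charP
  haveI : Fact q.Prime := ⟨hq⟩
  obtain ⟨s, hs, hl, he⟩ := exists_sepVal_inf_res (n := n) (Nat.le_of_lt_succ i.2)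
    (D.residues_mem cK' hn).1
  have hg := D.isGauss_eInf cK' i i
  rw [he] at hg
  obtain ⟨h, hu⟩ := D.isCuspUnit_of_isGauss hs hl one_ne_zero hg
  exact hu

include D cK' in
/-- A term of the uniformiser. -/
theorem turn_term_mem (i : Fin (n + 1)) (h0 : 0 < (i : ℕ)) (hi : (i : ℕ) < n) {b m : ℕ}
    (hm : m ≤ n) (hmb : 2 * min m i ≤ b + m) :
    jPow K L₀ q n m hm * (jLevel K L₀ q n)⁻¹ ^ q ^ b * eInf (cK'.comp κ) L₀ q n i ^ q ^ (2 * n) ∈
      chartN A₀ (jLevel K L₀ q n)⁻¹ := by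
  obtain ⟨a, ha⟩ : ∃ a, (i : ℕ) = a + 1 := ⟨(i : ℕ) - 1, by omega⟩
  refine mem_chartN_of_series ?_
  rw [coe_jN_inv]
  convert isIntegralElem_turn_inf (cK'.comp κ) hq (a := a) (b := b) (k := m) (n := n) (by omega) hm
    (by rw [← ha]; exact hmb) using 1
  rw [MulMemClass.coe_mul, MulMemClass.coe_mul, SubmonoidClass.coe_pow, SubmonoidClass.coe_pow,
    coe_jN_inv, coe_eInf, ha, sepInf_succ (by omega), mul_pow _ (jInvSeries K ^ _), ← pow_mul,
    show (jPow K L₀ q n m hm : LaurentSeries K) = qExpand K (q ^ m) (jSer K) from rfl,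
    RED.Spec.jSer_eq_jqModC, _root_.pow_add (jInvSeries K)]
  ring

include D cK' hn in
/-- **The uniformiser of a branch on the chart at infinity**, with a unit at the cusps as residue
of its power over `q`. -/
theorem exists_cusp_unif (i : Fin (n + 1)) :
    ∃ p, p ∈ chartN A₀ (jLevel K L₀ q n)⁻¹ ∧ IsGauss (constRes π₀ ι) (φ (rep i) p) 0 ∧
      ∃ s ∈ modularFunctionFieldFullC k 1, ∃ c : k, c ≠ 0 ∧ HasLead s 0 c ∧
        IsGauss (constRes π₀ ι) (φ (rep i) (p ^ (q ^ min (i : ℕ) (n - i)).totient / (q : ℕ)))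
          (qExpand k (q ^ lowExp n i) s) := by
  classical
  haveI := D.charP
  haveI := D.dvr
  haveI : Fact q.Prime := ⟨hq⟩
  have : CharZero K' := charZero_of_injective_algebraMap (algebraMap ℚ K').injective
  have : CharZero (modField K (L₀ * q ^ n)) := by
    have : CharZero K := charZero_of_injective_algebraMap (algebraMap ℚ K).injective
    exact charZero_of_injective_algebraMap (algebraMap K (modField K (L₀ * q ^ n))).injective
  by_cases hint : 0 < (i : ℕ) ∧ (i : ℕ) < n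
  swap
  · refine ⟨(q : ℕ), natCast_mem _ q, ?_, 1, one_mem _, 1, one_ne_zero, hasLead_one, ?_⟩
    · have h := isGauss_int (π := constRes π₀ ι) (HahnSeries.C (q : constO A₀ ι))
      rwa [coeffMap_C', show constRes π₀ ι (q : constO A₀ ι) = 0 by
        rw [map_natCast, CharP.cast_eq_zero], map_zero, map_natCast, map_natCast,
        ← map_natCast (φ (rep i))] at h
    · rw [show min (i : ℕ) (n - i) = 0 by have := i.2; omega, pow_zero, Nat.totient_one, pow_one,
        div_self (Nat.cast_ne_zero.mpr hq.ne_zero), map_one, map_one]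
      exact isGauss_one
  obtain ⟨h0, hin⟩ := hint
  set r := min (i : ℕ) (n - i) - 1 with hr
  have hrs : min (i : ℕ) (n - i) = r + 1 := by omega
  set a := lowExp n i with ha
  set b := 2 * (i : ℕ) - n with hb
  have han : a ≤ n := lowExp_le n i
  have hbn : b ≤ n := by omega
  let ζ : K'ˣ := η ^ rootExp (rep i)
  have hφi : IsSubst κ (φ (rep i)) (branchVal hq hqL i ζ) := D.isSubst_rep i
  have hprim : IsPrimitiveRoot (ζ : K') (q ^ n) :=
    IsPrimitiveRoot.coe_units_iff.mpr (D.isPrimitiveRoot_rep i h0 hin)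
  have hJ : ∀ m (hm : m ≤ n), φ (rep i) (jPow K L₀ q n m hm) =
      branchTerm n i ζ q m (genSer K' (oneIdx L₀)) := fun m hm => by
    rw [show jPow K L₀ q n m hm = ⟨genSer K (⟨q ^ m, pow_pos hq.pos m, pow_dvd_level hm⟩ :
        DivIdx (L₀ * q ^ n)), genSer_mem _⟩ from Subtype.ext (by
          show qExpand K (q ^ m) (jSer K) = qExpand K (q ^ m) (jqModC K)
          rw [RED.Spec.jSer_eq_jqModC]),
      hφi.gen, branchVal_eq hq hqL _ _ (oneIdx L₀) (k := m) (one_mul _).symm]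
  let μ : K'ˣ := ζ ^ q ^ (n - (r + 1))
  have hμ : IsPrimitiveRoot (μ : K') (q ^ (r + 1)) := isPrimitiveRoot_turn (by omega) hprim
  have hturn : φ (rep i) (jPow K L₀ q n a han - jPow K L₀ q n b hbn) =
      qExpand K' (q ^ (n + b)) (qScale μ (genSer K' (oneIdx L₀)) - genSer K' (oneIdx L₀)) := by
    rw [map_sub, hJ a han, hJ b hbn]
    rcases le_or_gt (2 * (i : ℕ)) n with h | h
    · rw [show a = 2 * (i : ℕ) by rw [ha, lowExp]; omega, show b = 0 by omega,
        branchTerm_turn_low h0 h, qExpand_pow_congr (show n + 0 = n from rfl)]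
      simp only [μ, show n - (r + 1) = n - i by omega]
    · rw [show a = n by rw [ha, lowExp]; omega, hb, branchTerm_turn_high h.le hin,
        qExpand_pow_congr (show n + (2 * (i : ℕ) - n) = 2 * i by omega)]
      simp only [μ, show n - (r + 1) = (i : ℕ) by omega]
  -- `E`-th power over `q`
  have hμ1 : μ ^ q ^ (r + 1) = 1 :=
    Units.ext (by rw [Units.val_pow_eq_pow_val, hμ.pow_eq_one, Units.val_one])
  obtain ⟨μ', hμ', hμres⟩ := exists_unit_res_one (π := constRes π₀ ι) hμ1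
  have hμO : IsPrimitiveRoot (μ' : constO A₀ ι) (q ^ (r + 1)) :=
    IsPrimitiveRoot.of_map_of_injective (f := (constO A₀ ι).subtype)
      (by rw [← hμ'] at hμ; exact hμ) Subtype.val_injective
  obtain ⟨v, w, hv, hvw, hw⟩ :=
    exists_turn_pow (constRes π₀ ι) hμO (q ^ (n + b)) (genSer (constO A₀ ι) (oneIdx L₀))
  obtain ⟨v', hv'⟩ :=
    (not_not.mp fun h => hv ((D.hπ _).mpr h) : IsUnit v).exists_right_inv
  have hint : intSeries (constO A₀ ι) (qExpand (constO A₀ ι) (q ^ (n + b))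
      (qScale μ' (genSer (constO A₀ ι) (oneIdx L₀)) - genSer (constO A₀ ι) (oneIdx L₀))) =
      φ (rep i) (jPow K L₀ q n a han - jPow K L₀ q n b hbn) := by
    rw [hturn, intSeries, coeffMap_qExpand, map_sub, coeffMap_qScale, coeffMap_genSer,
      show Units.map (constO A₀ ι).subtype.toMonoidHom μ' = μ from Units.ext hμ']
  set X := jPow K L₀ q n a han - jPow K L₀ q n b hbn with hX
  set U := (jLevel K L₀ q n)⁻¹ ^ q ^ b with hU
  set V := eInf (cK'.comp κ) L₀ q n i ^ q ^ (2 * n) with hVdef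
  have hg0 : IsGauss (constRes π₀ ι) (φ (rep i) X) 0 := by
    have h := isGauss_int (π := constRes π₀ ι) (qExpand (constO A₀ ι) (q ^ (n + b))
      (qScale μ' (genSer (constO A₀ ι) (oneIdx L₀)) - genSer (constO A₀ ι) (oneIdx L₀)))
    rwa [hint, coeffMap_qExpand, map_sub (coeffMap (constRes π₀ ι)), coeffMap_qScale,
      show Units.map (constRes π₀ ι).toMonoidHom μ' = 1 from Units.ext hμres, qScale_one,
      RingHom.id_apply, sub_self, map_zero] at h
  set E := (q ^ (r + 1)).totient with hE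
  have hXE : IsGauss (constRes π₀ ι) (φ (rep i) X ^ E / (q : ℕ))
      (coeffMap (constRes π₀ ι) (HahnSeries.C v' * w)) := by
    have hq0 : ((q : ℕ) : LaurentSeries K') ≠ 0 := by
      rw [← map_natCast HahnSeries.C]
      exact HahnSeries.C_ne_zero (Nat.cast_ne_zero.mpr hq.ne_zero)
    convert isGauss_int (π := constRes π₀ ι) (HahnSeries.C v' * w) using 1
    rw [← hint, ← map_pow, div_eq_iff hq0, ← map_natCast (intSeries (constO A₀ ι)), ← map_mul]
    refine congrArg _ ?_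
    rw [← map_natCast HahnSeries.C, mul_right_comm, mul_assoc (HahnSeries.C v'), ← hvw,
      ← mul_assoc, ← map_mul, mul_comm v' v, hv', map_one, one_mul]
  have hju : IsGauss (constRes π₀ ι) (φ (rep i) (jLevel K L₀ q n)⁻¹)
      (qExpand k (q ^ n) (jInvSeries k)) := by
    rw [show (jLevel K L₀ q n)⁻¹ = ⟨_, jInvSeries_mem_modField⟩ from Subtype.ext coe_jN_inv,
      branch_jInv hq hqL hφi jInvSeries_mem_modField]
    exact isGauss_jInv
  obtain ⟨s, hs, hl, hse⟩ := exists_sepVal_inf_res (n := n) (Nat.le_of_lt_succ i.2)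
    (D.residues_mem cK' hn).1
  have hge := D.isGauss_eInf cK' i i
  rw [hse] at hge
  refine ⟨X * U * V, ?_, ?_, ?_⟩
  · rw [hX, sub_mul, sub_mul]
    refine sub_mem (D.turn_term_mem cK' i h0 hin han ?_) (D.turn_term_mem cK' i h0 hin hbn ?_)
    · rw [ha, lowExp]; omega
    · omega
  · rw [map_mul, map_mul, hU, hVdef, map_pow, map_pow]
    have h := (hg0.mul (hju.pow (q ^ b))).mul (hge.pow (q ^ (2 * n)))
    rwa [zero_mul, zero_mul] at h
  have hcv : constRes π₀ ι v' ≠ 0 := fun h => by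
    have := congrArg (constRes π₀ ι) hv'
    rw [map_mul, h, mul_zero, map_one] at this
    exact zero_ne_one this
  have hE' : E = (q - 1) * q ^ r := by rw [hE, Nat.totient_prime_pow_succ hq, mul_comm]
  obtain ⟨cs, hcs, hls⟩ : ∃ c : k, c ≠ 0 ∧ HasLead (qExpand k (q ^ (n + b - a)) (turnRes k ^ E)) 0 c :=
    ⟨(-1) ^ E, pow_ne_zero _ (neg_ne_zero.mpr one_ne_zero), by
      simpa using (HasLead.pow' (hasLead_turnRes k) E).qExpand (q ^ (n + b - a))⟩
  refine ⟨HahnSeries.C (constRes π₀ ι v') * qExpand k (q ^ (n + b - a)) (turnRes k ^ E) *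
      s ^ (q ^ (2 * n) * E), mul_mem (mul_mem ?_ ?_) (pow_mem hs _),
    constRes π₀ ι v' * cs * 1 ^ (q ^ (2 * n) * E),
    mul_ne_zero (mul_ne_zero hcv hcs) (pow_ne_zero _ one_ne_zero), ?_, ?_⟩
  · rw [HahnSeries.C_apply, ← algebraMap_laurentSeries_eq_single]
    exact IntermediateField.algebraMap_mem _ _
  · refine qExpand_pow_mem_fullC _ ?_
    rw [hE', pow_mul]
    exact pow_mem (D.residues_mem cK' hn).2 _
  · simpa using ((hasLead_C (constRes π₀ ι v')).mul hls).mul
      (HasLead.pow' hl (q ^ (2 * n) * E))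
  · rw [hrs]
    have hval : φ (rep i) ((X * U * V) ^ E / (q : ℕ)) =
        φ (rep i) X ^ E / (q : ℕ) * φ (rep i) (jLevel K L₀ q n)⁻¹ ^ (q ^ b * E) *
          φ (rep i) (eInf (cK'.comp κ) L₀ q n i) ^ (q ^ (2 * n) * E) := by
      rw [map_div₀, map_natCast, map_pow, map_mul, map_mul, hU, hVdef, map_pow, map_pow, mul_pow,
        mul_pow, ← pow_mul, ← pow_mul, mul_div_right_comm, mul_div_right_comm]
    rw [hval]
    have h := (hXE.mul (hju.pow (q ^ b * E))).mul (hge.pow (q ^ (2 * n) * E))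
    convert h using 1
    have hg1 : genSer k (oneIdx L₀) = jqModC k := qExpand_one_apply _
    have e1 : qExpand k (q ^ n) (jInvSeries k) ^ (q ^ b * E) =
        qExpand k (q ^ (n + b)) (jInvSeries k ^ E) := by
      rw [pow_mul, ← map_pow _ _ (q ^ b), jInv_pow_char, qExpand_qExpand, ← map_pow]
      exact qExpand_congr (_root_.pow_add q n b).symm _
    have e2 : qExpand k (q ^ a) (qExpand k (q ^ (n + b - a)) (turnRes k ^ E)) =
        qExpand k (q ^ (n + b)) (turnRes k ^ E) := by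
      rw [qExpand_qExpand]
      exact qExpand_congr (by rw [← _root_.pow_add]; congr 1; omega) _
    rw [map_mul (coeffMap (constRes π₀ ι)), coeffMap_C', hw, coeffMap_genSer, hg1, e1,
      map_mul, map_mul, qExpand_C, e2, map_pow (qExpand k (q ^ a)) s, turnRes, mul_pow,
      map_mul (qExpand k (q ^ (n + b)))]
    simp only [ha]
    ring

include hC D cK' hn in
/-- **The cusp points**: at a point of the chart of `1/j` over `q` where `1/j` vanishes, the
separator of the branch through it does not vanish. -/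
theorem exists_cusp_branch
    (hnormalInv : (RED.good_x0 A₀ π₀ L₀ hC.π₀_surj D.hL).constRed.Normal
      ((RED.good_x0 A₀ π₀ L₀ hC.π₀_surj D.hL).constRed.invParam
        (RED.good_x0 A₀ π₀ L₀ hC.π₀_surj D.hL).param))
    (hR : IsChart Br (q : constA A₀ K) (chartN A₀ (jLevel K L₀ q n)⁻¹))
    (y : Ideal (chartN A₀ (jLevel K L₀ q n)⁻¹)) [y.IsMaximal]
    (hqy : (⟨algebraMap (constA A₀ K) _ (q : constA A₀ K),
      (chartN A₀ (jLevel K L₀ q n)⁻¹).algebraMap_mem _⟩ : chartN A₀ (jLevel K L₀ q n)⁻¹) ∈ y)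
    (hxy : (⟨(jLevel K L₀ q n)⁻¹, self_mem_chartRing _⟩ : chartN A₀ (jLevel K L₀ q n)⁻¹) ∈ y) :
    ∃ (i : Fin (n + 1)) (v : Place k (modularFunctionFieldFullC k L₀)),
      0 < v.ord (jSpecial L₀)⁻¹ ∧ HasPlace hR y i v ∧
      (∀ a, a ∈ y ↔ chartRes Br hR i a ∈ v.toValuationSubring.nonunits) ∧
      (⟨_, eInf_mem hq (cK'.comp κ) i⟩ : chartN A₀ (jLevel K L₀ q n)⁻¹) ∉ y := by
  haveI := hC.dvrA
  obtain ⟨i, hon⟩ := exists_liesOnBranch hR hqy
  obtain ⟨v, hxv, hv⟩ := D.exists_place_inv hC (cK'.comp κ) hnormalInv hR y hqy hxy hon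
  obtain ⟨-, hiff⟩ := branch_image (chartRes Br hR i) v.toValuationSubring
    (fun b hb => hon b _ (RingHom.mem_ker.mp hb)) hv.1 hv.2
  obtain ⟨hne, hord⟩ := D.res_eInf_self cK' hn hR i v hxv
  exact ⟨i, v, hxv, hv, hiff, fun h =>
    notMem_nonunits_of_ord_eq_zero v hne hord ((hiff _).mp h)⟩

include hC D cK' hn in
/-- A point on all branches of the chart of `1/j` is not a cusp. -/
theorem notMem_of_onAllBranches
    (hnormalInv : (RED.good_x0 A₀ π₀ L₀ hC.π₀_surj D.hL).constRed.Normal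
      ((RED.good_x0 A₀ π₀ L₀ hC.π₀_surj D.hL).constRed.invParam
        (RED.good_x0 A₀ π₀ L₀ hC.π₀_surj D.hL).param))
    (hR : IsChart Br (q : constA A₀ K) (chartN A₀ (jLevel K L₀ q n)⁻¹))
    (y : Ideal (chartN A₀ (jLevel K L₀ q n)⁻¹)) [y.IsMaximal]
    (hqy : (⟨algebraMap (constA A₀ K) _ (q : constA A₀ K),
      (chartN A₀ (jLevel K L₀ q n)⁻¹).algebraMap_mem _⟩ : chartN A₀ (jLevel K L₀ q n)⁻¹) ∈ y)
    (hall : ∀ i, LiesOnBranch Br (chartN A₀ (jLevel K L₀ q n)⁻¹) y i) :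
    (⟨(jLevel K L₀ q n)⁻¹, self_mem_chartRing _⟩ : chartN A₀ (jLevel K L₀ q n)⁻¹) ∉ y := by
  intro hxy
  obtain ⟨i, -, -, -, -, he⟩ := D.exists_cusp_branch hC cK' hn hnormalInv hR y hqy hxy
  have : Nontrivial (Fin (n + 1)) := Fin.nontrivial_iff_two_le.mpr (by omega)
  obtain ⟨j, hj⟩ := exists_ne i
  exact he (hall j _ _ (D.res_eInf_ne cK' hR i j hj))

include hC D cK' hn in
/-- **All that is claimed about the cusp points.** -/
theorem chartPoint_cusp
    (hnormalInv : (RED.good_x0 A₀ π₀ L₀ hC.π₀_surj D.hL).constRed.Normal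
      ((RED.good_x0 A₀ π₀ L₀ hC.π₀_surj D.hL).constRed.invParam
        (RED.good_x0 A₀ π₀ L₀ hC.π₀_surj D.hL).param))
    (hR : IsChart Br (q : constA A₀ K) (chartN A₀ (jLevel K L₀ q n)⁻¹))
    (hcrit : DivCriterion Br (q : constA A₀ K) (chartN A₀ (jLevel K L₀ q n)⁻¹))
    (P : Fin (n + 1) → Fin (n + 1) → Prop)
    (y : Ideal (chartN A₀ (jLevel K L₀ q n)⁻¹)) [y.IsMaximal]
    (hqy : (⟨algebraMap (constA A₀ K) _ (q : constA A₀ K),
      (chartN A₀ (jLevel K L₀ q n)⁻¹).algebraMap_mem _⟩ : chartN A₀ (jLevel K L₀ q n)⁻¹) ∈ y)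
    (hxy : (⟨(jLevel K L₀ q n)⁻¹, self_mem_chartRing _⟩ : chartN A₀ (jLevel K L₀ q n)⁻¹) ∈ y) :
    ChartPoint Br (chartN A₀ (jLevel K L₀ q n)⁻¹) P y := by
  haveI := hC.dvrA
  haveI := D.charP
  haveI := D.dvr
  haveI : Fact q.Prime := ⟨hq⟩
  have : CharZero K := charZero_of_injective_algebraMap (algebraMap ℚ K).injective
  have : CharZero K' := charZero_of_injective_algebraMap (algebraMap ℚ K').injective
  obtain ⟨i, v, hxv, hv, hiff, he⟩ := D.exists_cusp_branch hC cK' hn hnormalInv hR y hqy hxy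
  set e : chartN A₀ (jLevel K L₀ q n)⁻¹ := ⟨_, eInf_mem hq (cK'.comp κ) i⟩ with hedef
  have hoff := fun j hj => D.res_eInf_ne cK' hR i j hj
  refine chartPoint_of_ordinary hR hqy hoff he ?_
    ⟨v.toValuationSubring, inferInstance, hv.1, hv.2⟩
  have hAq : ∀ a : constA A₀ K, constRes π₀ ι (constMap D.hA a) = 0 → (q : constA A₀ K) ∣ a := by
    intro a ha
    rw [← Ideal.mem_span_singleton, ← hC.irreducible_q.maximalIdeal_eq]
    exact (D.hAπ a).mp ha
  have hq0 : (q : constO A₀ ι) ≠ 0 := fun h => Nat.cast_ne_zero.mpr hq.ne_zero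
    (show ((q : ℕ) : K') = 0 by simpa using congrArg (constO A₀ ι).subtype h)
  have hqF : algebraMap (constA A₀ K) (modField K (L₀ * q ^ n)) (q : constA A₀ K) =
      ((q : ℕ) : modField K (L₀ * q ^ n)) := map_natCast _ q
  have hqF0 : ((q : ℕ) : modField K (L₀ * q ^ n)) ≠ 0 := by
    have : CharZero (modField K (L₀ * q ^ n)) :=
      charZero_of_injective_algebraMap (algebraMap K (modField K (L₀ * q ^ n))).injective
    exact Nat.cast_ne_zero.mpr hq.ne_zero
  have hE0 : ∀ j : Fin (n + 1), (q ^ min (j : ℕ) (n - j)).totient ≠ 0 := fun j =>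
    (Nat.totient_pos.mpr (pow_pos hq.pos _)).ne'
  -- residue zero on a branch twice
  have hdiv : ∀ (j : Fin (n + 1)) {a b : modField K (L₀ * q ^ n)},
      IsGauss (constRes π₀ ι) (φ (rep j) a) 0 → IsGauss (constRes π₀ ι) (φ (rep j) b) 0 →
      a * b ^ ((q ^ min (j : ℕ) (n - j)).totient - 1) /
        algebraMap (constA A₀ K) _ (q : constA A₀ K) ∈ Br.V j := by
    intro j a b ha hb
    obtain ⟨r, hr⟩ := isGauss_mul_pow_div (constRes π₀ ι) D.hA D.hπ hq hqL hAq hq0
      (Nat.le_of_lt_succ j.2) (pow_pow_rootExp D.hη (rep j)) (D.isPrimitiveRoot_rep j)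
      (D.isSubst_rep j) ha hb
    obtain ⟨h, -⟩ := D.mem_of_isGauss (D.hrep j) hr
    rwa [hqF]
  obtain ⟨p, hpR, hp0, s, hs, c, hc, hl, hpE⟩ := D.exists_cusp_unif cK' hn i
  obtain ⟨hV0, hres0⟩ := D.res_eq_zero_iff_isGauss.mp hp0
  obtain ⟨hw, hwu⟩ := D.isCuspUnit_of_isGauss hs hl hc hpE
  refine ⟨⟨p, hpR⟩, fun h => ?_, hres0, ?_⟩
  · have hp : p = 0 := congrArg Subtype.val h
    obtain ⟨hne, -⟩ := hwu v hxv
    refine hne ((congrArg (Br.res i) (Subtype.ext ?_)).trans (map_zero (Br.res i)))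
    show p ^ _ / ((q : ℕ) : modField K (L₀ * q ^ n)) = 0
    rw [hp, zero_pow (hE0 i), zero_div]
  refine exists_gen_of_turn hR (by rw [hqF]; exact hqF0) hcrit (p := ⟨p, hpR⟩) (e := e)
    (N := q ^ n) (hE0 i) (fun j hj => ?_) (fun a ha hres => ?_) (by rw [hqF]; exact hw) ?_
  · -- off the branch
    obtain ⟨d, hd⟩ := Nat.exists_eq_add_of_le
      ((Nat.totient_le (q ^ min (j : ℕ) (n - j))).trans
        (Nat.pow_le_pow_right hq.pos (show min (j : ℕ) (n - j) ≤ n by omega)))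
    have hej : IsGauss (constRes π₀ ι) (φ (rep j) (e : modField K (L₀ * q ^ n))) 0 :=
      D.res_eq_zero_iff_isGauss.mpr ⟨_, hoff j hj⟩
    have h1 := mul_mem (hdiv j hej hej) (pow_mem (hR.mem_V e e.2 j) d)
    rw [← pow_succ', Nat.sub_add_cancel (Nat.one_le_iff_ne_zero.mpr (hE0 j)),
      div_mul_eq_mul_div, ← _root_.pow_add, ← hd] at h1
    exact h1
  · exact hdiv i (D.res_eq_zero_iff_isGauss.mpr ⟨ha, hres⟩) hp0
  · intro u hu
    obtain ⟨hne, hord⟩ := D.res_eInf_self cK' hn hR i v hxv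
    obtain ⟨hwne, hword⟩ := hwu v hxv
    have hwe : ∀ (h' : p ^ (q ^ min (i : ℕ) (n - i)).totient /
        algebraMap (constA A₀ K) _ (q : constA A₀ K) ∈ Br.V i),
        Br.res i ⟨_, h'⟩ = Br.res i ⟨_, hw⟩ := fun h' =>
      congrArg (Br.res i) (Subtype.ext (by simp only [hqF]))
    rw [hwe] at hu
    refine fun h => notMem_nonunits_of_ord_eq_zero v ?_ ?_ ((hiff u).mp h) <;> rw [hu]
    · exact mul_ne_zero (pow_ne_zero _ hne) hwne
    · rw [v.ord_mul (pow_ne_zero _ hne) hwne, FF.ord_pow, hord, hword, mul_zero, add_zero]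

include hC D cK' hn in
/-- **The chart of `1/j`**, given the finite chart. -/
theorem chartPoint_inv
    (hnormalInv : (RED.good_x0 A₀ π₀ L₀ hC.π₀_surj D.hL).constRed.Normal
      ((RED.good_x0 A₀ π₀ L₀ hC.π₀_surj D.hL).constRed.invParam
        (RED.good_x0 A₀ π₀ L₀ hC.π₀_surj D.hL).param))
    (hR₀ : IsChart Br (q : constA A₀ K) (chartN A₀ (jLevel K L₀ q n)))
    (hR : IsChart Br (q : constA A₀ K) (chartN A₀ (jLevel K L₀ q n)⁻¹))
    (hcrit : DivCriterion Br (q : constA A₀ K) (chartN A₀ (jLevel K L₀ q n)⁻¹))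
    {P : Fin (n + 1) → Fin (n + 1) → Prop}
    (hfinite : ∀ (y : Ideal (chartN A₀ (jLevel K L₀ q n))) [y.IsMaximal],
      (⟨algebraMap (constA A₀ K) _ (q : constA A₀ K),
        (chartN A₀ (jLevel K L₀ q n)).algebraMap_mem _⟩ : chartN A₀ (jLevel K L₀ q n)) ∈ y →
      ChartPoint Br (chartN A₀ (jLevel K L₀ q n)) P y)
    (y : Ideal (chartN A₀ (jLevel K L₀ q n)⁻¹)) [y.IsMaximal]
    (hqy : (⟨algebraMap (constA A₀ K) _ (q : constA A₀ K),
      (chartN A₀ (jLevel K L₀ q n)⁻¹).algebraMap_mem _⟩ : chartN A₀ (jLevel K L₀ q n)⁻¹) ∈ y) :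
    ChartPoint Br (chartN A₀ (jLevel K L₀ q n)⁻¹) P y := by
  haveI := hC.dvrA
  by_cases hxy : (⟨(jLevel K L₀ q n)⁻¹, self_mem_chartRing _⟩ : chartN A₀ (jLevel K L₀ q n)⁻¹) ∈ y
  · exact D.chartPoint_cusp hC cK' hn hnormalInv hR hcrit P y hqy hxy
  · exact chartPoint_of_other_chart hC.irreducible_q hR₀ hR (jLevel K L₀ q n) (self_mem_chartRing _)
      (self_mem_chartRing _) (fun a ha => exists_mul_inv_pow_mem_chartRing jElem_ne_zero' ha)
      (fun a ha => by simpa using exists_mul_inv_pow_mem_chartRing (inv_ne_zero jElem_ne_zero') ha)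
      (fun a ha => ha) hfinite y hqy hxy

end ChartData

end Setting

end Fermat.Agent.CarayolHigh
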