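/-
The norms from level `L qᵐ⁺¹` to level `L qᵐ` along `τ ↦ τ` and `τ ↦ q τ`, pulled back, and their
values on the branches.

Along `τ ↦ τ` the embeddings over the image of a branch `i < m` are `q` embeddings of the same
branch, and over the image of the branch `m + 1` they are that branch and `q - 1` embeddings of the
branch `m`. Along `τ ↦ q τ` the embeddings over the image of a branch `i ≥ 2` are `q` twists of
embeddings of the same branch by powers of a primitive `q^(m+2)`-th root of unity.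
-/
import Fermat.Agent.Carayol.Norms
import Fermat.Agent.CarayolHigh.BranchEmb

set_option autoImplicit false
set_option synthInstance.maxHeartbeats 100000
set_option linter.style.haveILetI false
set_option linter.unusedSectionVars false

noncomputable section

open Polynomial HahnSeries ModularCurve AlgebraicCurve
open Fermat.Agent.Igusa Fermat.Agent.RED.Spec Fermat.Agent.HK.Corr Fermat.Agent.Carayol

namespace Fermat.Agent.CarayolHigh

/-! ### Restricting a complete family to an intermediate field -/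

section Abstract

variable {F₀ F' F Ω ι : Type*} [Field F₀] [Field F'] [Field F] [Field Ω] [Fintype ι]
  [Algebra F₀ F] [Algebra F' F] [CharZero F₀] [CharZero F'] {ψ : F₀ →+* Ω} {φ : ι → F →+* Ω}

open Classical in
/-- The members of a complete family over the image of one of them are complete over an
intermediate field. -/
theorem completeEmb_restrict (h : CompleteEmb ψ φ) (g : F₀ →+* F')
    (hg : ∀ y, algebraMap F' F (g y) = algebraMap F₀ F y) (i₀ : ι) :
    CompleteEmb ((φ i₀).comp (algebraMap F' F))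
      (fun i : {i // ∀ y, φ i (algebraMap F' F y) = φ i₀ (algebraMap F' F y)} => φ i) := by
  haveI := h.finiteDimensional
  letI : Algebra F₀ F' := g.toAlgebra
  haveI : IsScalarTower F₀ F' F := IsScalarTower.of_algebraMap_eq fun y => (hg y).symm
  haveI : FiniteDimensional F' F := Module.Finite.of_restrictScalars_finite F₀ F' F
  refine ⟨fun i y => i.2 y, fun i j hij => Subtype.ext (h.inj hij), ?_, ⟨⟨i₀, fun _ => rfl⟩⟩⟩
  letI : Algebra F' (AlgebraicClosure Ω) :=
    ((algebraMap Ω (AlgebraicClosure Ω)).comp ((φ i₀).comp (algebraMap F' F))).toAlgebra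
  let σ : {i // ∀ y, φ i (algebraMap F' F y) = φ i₀ (algebraMap F' F y)} →
      (F →ₐ[F'] AlgebraicClosure Ω) := fun i =>
    { (algebraMap Ω (AlgebraicClosure Ω)).comp (φ i) with
      commutes' := fun y => congrArg (algebraMap Ω (AlgebraicClosure Ω)) (i.2 y) }
  have hσ : Function.Bijective σ := by
    refine ⟨fun i j hij => Subtype.ext (h.inj (RingHom.ext fun a =>
      (algebraMap Ω (AlgebraicClosure Ω)).injective (DFunLike.congr_fun hij a))), fun s => ?_⟩
    obtain ⟨i, hi⟩ := h.exists_eq s.toRingHom fun x => by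
      rw [← hg x, ← h.comp i₀ x, ← hg x]
      exact s.commutes (g x)
    have hi' : ∀ y, φ i (algebraMap F' F y) = φ i₀ (algebraMap F' F y) := fun y =>
      (algebraMap Ω (AlgebraicClosure Ω)).injective ((hi _).symm.trans (s.commutes y))
    exact ⟨⟨i, hi'⟩, AlgHom.ext fun a => (hi a).symm⟩
  exact (Fintype.card_of_bijective hσ).trans (AlgHom.card F' F (AlgebraicClosure Ω))

end Abstract

/-! ### Indices and values -/

section Values

variable {L q n : ℕ} [NeZero q]

/-- The index `q^k`. -/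
def powIdx (L q n k : ℕ) [NeZero q] (h : k ≤ n) : DivIdx (L * q ^ n) :=
  ⟨q ^ k, pow_pos (Nat.pos_of_ne_zero (NeZero.ne q)) k,
    (pow_dvd_pow q h).trans (dvd_mul_left _ _)⟩

variable {R : Type*} [CommRing R]

/-- Only `ζ ^ qⁱ` matters on the branch `i`. -/
theorem branchVal_congr (hq : q.Prime) (hqL : ¬ q ∣ L) {i : ℕ} {ζ ζ' : Rˣ}
    (h : i < n → ζ ^ q ^ i = ζ' ^ q ^ i) (d : DivIdx (L * q ^ n)) :
    branchVal hq hqL i ζ d = branchVal hq hqL i ζ' d := by
  have hk := (qFreeN_spec hq hqL d).2.1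
  unfold branchVal branchTerm
  split_ifs with hki
  · rfl
  · have he : n - (qExpN hq d - i) = i + (n - qExpN hq d) := by omega
    rw [he, _root_.pow_add, pow_mul, pow_mul, h (by omega)]

theorem qScale_mul' (u v : Rˣ) (x : LaurentSeries R) :
    qScale u (qScale v x) = qScale (u * v) x := by
  ext n
  rw [qScale_coeff, qScale_coeff, qScale_coeff, mul_zpow, Units.val_mul, mul_assoc]

variable {K' : Type*} [Field K']

/-- The leading exponent of `q^k` on the branch `i`. -/
theorem hasLead_branchVal_powIdx [NeZero L] (hq : q.Prime) (hqL : ¬ q ∣ L) (i : ℕ) (ζ : K'ˣ)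
    {k : ℕ} (hk : k ≤ n) :
    ∃ c : K', c ≠ 0 ∧ HasLead (branchVal hq hqL i ζ (powIdx L q n k hk))
      (((q ^ (if k ≤ i then n + k else n + 2 * i - k) : ℕ) : ℤ) * (-1)) c := by
  rw [branchVal_eq hq hqL i ζ (oneIdx L) (k := k) (one_mul _).symm, branchTerm]
  split_ifs
  · exact ⟨1, one_ne_zero, hasLead_one_idx.qExpand _⟩
  · exact ⟨_, Units.ne_zero _, (hasLead_qScale_one _).qExpand _⟩

omit [NeZero q] in
theorem pow_exp_inj (hq : q.Prime) {a b : ℕ}
    (h : ((q ^ a : ℕ) : ℤ) * (-1) = ((q ^ b : ℕ) : ℤ) * (-1)) : a = b :=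
  Nat.pow_right_injective hq.two_le (Int.ofNat_inj.mp
    (mul_right_cancel₀ (by norm_num : (-1 : ℤ) ≠ 0) h))

end Values

/-! ### The norms -/

section Norms

variable (K : Type) [Field K] [Algebra ℚ K]

theorem alphaDvdN (L q m : ℕ) : L * q ^ m * 1 ∣ L * q ^ (m + 1) :=
  ⟨q, by ring⟩

theorem betaDvdN (L q m : ℕ) : L * q ^ m * q ∣ L * q ^ (m + 1) :=
  ⟨1, by ring⟩

/-- The pullback of the norm along `τ ↦ τ` to level `L qᵐ`. -/
def normAlphaN (L q m : ℕ) [NeZero L] [NeZero q] :
    modField K (L * q ^ (m + 1)) →* modField K (L * q ^ (m + 1)) :=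
  normDegen 1 (alphaDvdN L q m)

/-- The pullback of the norm along `τ ↦ q τ` to level `L qᵐ`. -/
def normBetaN (L q m : ℕ) [NeZero L] [NeZero q] :
    modField K (L * q ^ (m + 1)) →* modField K (L * q ^ (m + 1)) :=
  normDegen q (betaDvdN L q m)

variable {K} {L q m : ℕ} [NeZero L] [NeZero q]

theorem normAlphaN_ne_zero {a : modField K (L * q ^ (m + 1))} (ha : a ≠ 0) :
    normAlphaN K L q m a ≠ 0 :=
  normDegen_ne_zero 1 (alphaDvdN L q m) ha

theorem normBetaN_ne_zero {a : modField K (L * q ^ (m + 1))} (ha : a ≠ 0) :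
    normBetaN K L q m a ≠ 0 :=
  normDegen_ne_zero q (betaDvdN L q m) ha

/-- Both degeneracy maps have degree `q`. -/
theorem finrank_degenN (hq : q.Prime) (hm : 0 < m) (e : ℕ) [NeZero e]
    (h : L * q ^ m * e ∣ L * q ^ (m + 1)) :
    finrankAlong K (degenMap K e h : modField K (L * q ^ m) →ₐ[K] modField K (L * q ^ (m + 1))) =
      q := by
  have h1 := finrankAlong_degenMap (degreeInput K) e h (MF.Coeff.functionFieldGeneration e)
  have h2 : dedekindPsi (L * q ^ (m + 1)) = dedekindPsi (L * q ^ m) * q := by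
    rw [pow_succ, ← mul_assoc, psi_mul_prime_of_dvd hq
      (Dvd.dvd.mul_left (dvd_pow_self q hm.ne') L), mul_comm q]
  rw [h2] at h1
  exact Nat.eq_of_mul_eq_mul_left (psi_pos _) h1

theorem normAlphaN_const (hq : q.Prime) (hm : 0 < m) (c : K) :
    normAlphaN K L q m (algebraMap K _ c) =
      algebraMap K (modField K (L * q ^ (m + 1))) c ^ q := by
  rw [normAlphaN, normDegen_const, finrank_degenN hq hm]

theorem normBetaN_const (hq : q.Prime) (hm : 0 < m) (c : K) :
    normBetaN K L q m (algebraMap K _ c) =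
      algebraMap K (modField K (L * q ^ (m + 1))) c ^ q := by
  rw [normBetaN, normDegen_const, finrank_degenN hq hm]

variable {K' : Type} [Field K'] [Algebra ℚ K'] {κ : K →+* K'} {hq : q.Prime} {hqL : ¬ q ∣ L}
  {η : K'ˣ} (hη : IsPrimitiveRoot η (q ^ (m + 1)))
  {φ : BranchIdx q (m + 1) → modField K (L * q ^ (m + 1)) →+* LaurentSeries K'}
  (hφ : ∀ x, IsSubst κ (φ x) (branchVal hq hqL (branchOf x) (η ^ rootExp x)))

omit [NeZero L] [NeZero q] [Algebra ℚ K] [Algebra ℚ K'] in
theorem branchOf_eq_top {x : BranchIdx q (m + 1)} (hx : branchOf x = m + 1) : x = Sum.inl () := by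
  rcases x with u | b | ⟨i, u⟩
  · rfl
  · exact absurd hx (by simp [branchOf])
  · have := i.2
    simp only [branchOf, Sum.elim_inr] at hx
    omega

/-! ### Along `τ ↦ τ` -/

include hφ in
/-- Embeddings with the same image in level `L qᵐ` are on branches with the same image. -/
theorem min_branchOf_eq {x x₀ : BranchIdx q (m + 1)}
    (h : ∀ y, φ x (degenMap K 1 (alphaDvdN L q m) y) = φ x₀ (degenMap K 1 (alphaDvdN L q m) y)) :
    min (branchOf x) m = min (branchOf x₀) m := by
  have hd : (mulIdx 1 (alphaDvdN L q m) (powIdx L q m m le_rfl)).1 =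
      (powIdx L q (m + 1) m m.le_succ).1 := by rw [coe_mulIdx, one_mul]; rfl
  have e : ∀ z, φ z (degenMap K 1 (alphaDvdN L q m)
      ⟨genSer K (powIdx L q m m le_rfl), genSer_mem _⟩) =
      branchVal hq hqL (branchOf z) (η ^ rootExp z) (powIdx L q (m + 1) m m.le_succ) := fun z => by
    rw [degenMap_genSer 1 (alphaDvdN L q m) _ (genSer_mem _) (genSer_mem _), (hφ z).gen]
    exact congrArg _ (Subtype.ext hd)
  obtain ⟨c, hc, hl⟩ := hasLead_branchVal_powIdx hq hqL (branchOf x) (η ^ rootExp x) m.le_succ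
  obtain ⟨c', hc', hl'⟩ :=
    hasLead_branchVal_powIdx hq hqL (branchOf x₀) (η ^ rootExp x₀) m.le_succ
  rw [← e] at hl hl'
  rw [h] at hl
  have := pow_exp_inj hq (hl.ext hl' hc hc').1
  split_ifs at this <;> omega

include hη hφ in
/-- The embeddings over the image of `φ x₀` are complete over level `L qᵐ`. -/
theorem complete_alpha (hm : 0 < m) (x₀ : BranchIdx q (m + 1)) :
    ∃ (S : Finset (BranchIdx q (m + 1))), x₀ ∈ S ∧ S.card = q ∧
      (∀ x, x ∈ S ↔ ∀ y, φ x (degenMap K 1 (alphaDvdN L q m) y) =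
        φ x₀ (degenMap K 1 (alphaDvdN L q m) y)) ∧
      ∀ a, φ x₀ (normAlphaN K L q m a) = ∏ x ∈ S, φ x a := by
  classical
  have h0 : L * 1 ∣ L * q ^ (m + 1) := mul_dvd_mul_left L (one_dvd _)
  have h1 : L * 1 ∣ L * q ^ m := mul_dvd_mul_left L (one_dvd _)
  letI : Algebra (modField K L) (modField K (L * q ^ (m + 1))) := algebraAlong (degenMap K 1 h0)
  letI : Algebra (modField K (L * q ^ m)) (modField K (L * q ^ (m + 1))) :=
    algebraAlong (degenMap K 1 (alphaDvdN L q m))
  have : CharZero K := charZero_of_injective_algebraMap (algebraMap ℚ K).injective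
  have : CharZero (modField K L) :=
    charZero_of_injective_algebraMap (algebraMap K (modField K L)).injective
  have : CharZero (modField K (L * q ^ m)) :=
    charZero_of_injective_algebraMap (algebraMap K (modField K (L * q ^ m))).injective
  have hC := completeEmb_restrict (complete_branches hq hqL m.succ_pos hη φ hφ h0)
    (degenMap K 1 h1 : modField K L →+* modField K (L * q ^ m)) (fun y => Subtype.ext (by
      show qExpand K 1 (qExpand K 1 (y : LaurentSeries K)) = qExpand K 1 (y : LaurentSeries K)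
      rw [qExpand_one_apply, qExpand_one_apply])) x₀
  refine ⟨Finset.univ.filter fun x => ∀ y, φ x (degenMap K 1 (alphaDvdN L q m) y) =
    φ x₀ (degenMap K 1 (alphaDvdN L q m) y), by simp, ?_, by simp, fun a => ?_⟩
  · rw [← Fintype.card_subtype]
    exact hC.card.trans (finrank_degenN hq hm 1 (alphaDvdN L q m))
  · rw [Finset.prod_subtype (p := fun x : BranchIdx q (m + 1) =>
      ∀ y, φ x (degenMap K 1 (alphaDvdN L q m) y) = φ x₀ (degenMap K 1 (alphaDvdN L q m) y))
      _ (fun x => by rw [Finset.mem_filter]; exact and_iff_right (Finset.mem_univ x))]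
    exact hC.map_norm a

include hη hφ in
/-- Below the branch `m` only one branch occurs. -/
theorem map_normAlphaN (hm : 0 < m) {x₀ : BranchIdx q (m + 1)} (hx₀ : branchOf x₀ < m) :
    ∃ S : Finset (BranchIdx q (m + 1)), S.card = q ∧ (∀ x ∈ S, branchOf x = branchOf x₀) ∧
      ∀ a, φ x₀ (normAlphaN K L q m a) = ∏ x ∈ S, φ x a := by
  obtain ⟨S, -, hcard, hS, hN⟩ := complete_alpha hη hφ hm x₀
  refine ⟨S, hcard, fun x hx => ?_, hN⟩
  have := min_branchOf_eq hφ ((hS x).mp hx)
  omega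

include hη hφ in
/-- Over the branch `m + 1`: itself and `q - 1` embeddings of the branch `m`. -/
theorem map_normAlphaN_top (hm : 0 < m) :
    ∃ S : Finset (BranchIdx q (m + 1)), S.card = q - 1 ∧ (∀ x ∈ S, branchOf x = m) ∧
      ∀ a, φ (Sum.inl ()) (normAlphaN K L q m a) = φ (Sum.inl ()) a * ∏ x ∈ S, φ x a := by
  classical
  obtain ⟨S, hmem, hcard, hS, hN⟩ := complete_alpha hη hφ hm (Sum.inl ())
  refine ⟨S.erase (Sum.inl ()), by rw [Finset.card_erase_of_mem hmem, hcard], fun x hx => ?_,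
    fun a => by rw [hN, Finset.mul_prod_erase S (fun x => φ x a) hmem]⟩
  obtain ⟨hne, hxS⟩ := Finset.mem_erase.mp hx
  have h := min_branchOf_eq hφ ((hS x).mp hxS)
  have hle := branchOf_le x
  have htop : branchOf x ≠ m + 1 := fun e => hne (branchOf_eq_top e)
  simp only [branchOf, Sum.elim_inl] at h htop hle ⊢
  omega

/-! ### Along `τ ↦ q τ` -/

omit [NeZero L] [Algebra ℚ K] [Algebra ℚ K'] in
include hη in
/-- Every admissible exponent is that of an index. -/
theorem exists_idx (hq : q.Prime) (hqL : ¬ q ∣ L) {i e : ℕ} (hi0 : 0 < i) (hi : i ≤ m + 1)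
    (he : i ≤ m → e.Coprime q) :
    ∃ x : BranchIdx q (m + 1), branchOf x = i ∧ ∀ d : DivIdx (L * q ^ (m + 1)),
      branchVal hq hqL i (η ^ rootExp x) d = branchVal hq hqL i (η ^ e) d := by
  rcases eq_or_lt_of_le hi with rfl | hlt
  · exact ⟨Sum.inl (), rfl, fun d => branchVal_congr hq hqL (fun h => absurd h (lt_irrefl _)) d⟩
  have hi' : i - 1 < m + 1 - 1 := by omega
  let u : (ZMod (q ^ (m + 1 - 1 - (i - 1))))ˣ :=
    ZMod.unitOfCoprime e ((he (by omega)).pow_right _)
  refine ⟨Sum.inr (Sum.inr ⟨⟨i - 1, hi'⟩, u⟩), by simp [branchOf]; omega,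
    fun d => branchVal_congr hq hqL (fun _ => ?_) d⟩
  have hv : rootExp (Sum.inr (Sum.inr ⟨⟨i - 1, hi'⟩, u⟩) : BranchIdx q (m + 1)) ≡ e
      [MOD q ^ (m + 1 - 1 - (i - 1))] := by
    show (u : ZMod (q ^ (m + 1 - 1 - (i - 1)))).val ≡ e [MOD _]
    rw [← ZMod.natCast_eq_natCast_iff, ZMod.natCast_zmod_val]
    exact (ZMod.coe_unitOfCoprime e _).trans rfl
  rw [← pow_mul, ← pow_mul]
  rw [pow_eq_pow_iff_modEq, ← hη.eq_orderOf]
  have := hv.mul_right' (q ^ i)
  rwa [← _root_.pow_add, show m + 1 - 1 - (i - 1) + i = m + 1 by omega] at this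

variable {ω : K'ˣ} (hω : IsPrimitiveRoot ω (q ^ (m + 2))) (hωη : ω ^ q = η)

include hη hφ hω hωη in
/-- Over a branch `i ≥ 2` along `τ ↦ q τ`: `q` twists of the same branch. -/
theorem map_normBetaN (hm : 0 < m) {x₀ : BranchIdx q (m + 1)} (hx₀ : 2 ≤ branchOf x₀) :
    ∃ (xs : Fin q → BranchIdx q (m + 1)), (∀ b, branchOf (xs b) = branchOf x₀) ∧
      ∀ a, φ x₀ (normBetaN K L q m a) = ∏ b : Fin q, qScale (ω ^ (b : ℕ)) (φ (xs b) a) := by
  set i := branchOf x₀ with hi
  set e₀ := rootExp x₀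
  have hile : i ≤ m + 1 := branchOf_le x₀
  have hcop : i ≤ m → e₀.Coprime q := fun him => by
    have h := (rootExp_spec hq hη x₀).2 (by omega) (by omega)
    rw [hη.pow_iff_coprime (Nat.pos_of_ne_zero (NeZero.ne _)),
      Nat.coprime_pow_right_iff m.succ_pos] at h
    exact h
  choose xs hxs hval using fun b : Fin q =>
    exists_idx (L := L) hη hq hqL (i := i)
      (e := e₀ + (b : ℕ) * (q ^ (m + 1) - 1) * q ^ (i - 1)) (by omega) hile fun him => by
        refine (Nat.coprime_add_mul_right_left e₀ q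
          ((b : ℕ) * (q ^ (m + 1) - 1) * q ^ (i - 2))).mpr (hcop him) |> fun h => ?_
        rwa [mul_assoc (_ * _), ← pow_succ, show i - 2 + 1 = i - 1 by omega] at h
  refine ⟨xs, hxs, fun a => ?_⟩
  have hs : ∀ b : Fin q, IsSubst κ ((qScale (ω ^ (b : ℕ))).comp (φ (xs b)))
      fun d => qScale (ω ^ (b : ℕ)) (branchVal hq hqL i
        (η ^ (e₀ + (b : ℕ) * (q ^ (m + 1) - 1) * q ^ (i - 1))) d) := fun b =>
    ((hφ (xs b)).qScale_comp _).congr_val (funext fun d => by rw [hxs b, hval b])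
  have hω1 : ∀ b t : ℕ, m + 2 ≤ t → (ω ^ b) ^ q ^ t = 1 := fun b t ht =>
    unit_pow_pow_eq_one hω b (pow_dvd_pow q ht)
  have hkey : ∀ (b : Fin q) (d : DivIdx (L * q ^ m)),
      qScale (ω ^ (b : ℕ)) (branchVal hq hqL i
        (η ^ (e₀ + (b : ℕ) * (q ^ (m + 1) - 1) * q ^ (i - 1)))
          (mulIdx q (betaDvdN L q m) d)) =
        branchVal hq hqL i (η ^ e₀) (mulIdx q (betaDvdN L q m) d) := by
    intro b d
    obtain ⟨hd, hk, -, -⟩ := qFreeN_spec hq hqL d
    have hd' : (mulIdx q (betaDvdN L q m) d).1 =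
        (freeIdxN hq hqL d).1 * q ^ (qExpN hq d + 1) := by
      rw [coe_mulIdx]; conv_lhs => rw [hd]
      rw [freeIdxN, pow_succ]; ring
    rw [branchVal_eq hq hqL i _ _ hd', branchVal_eq hq hqL i _ _ hd', branchTerm, branchTerm]
    set k := qExpN hq d
    split_ifs with hki
    · rw [qScale_qExpand, hω1 _ _ (by omega), qScale_one, RingHom.id_apply]
    · rw [qScale_qExpand, qScale_mul']
      refine congrArg _ (congrArg (fun u => qScale u _) ?_)
      rw [show (ω ^ (b : ℕ)) ^ q ^ (m + 1 + 2 * i - (k + 1)) =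
          η ^ ((b : ℕ) * q ^ (m + 2 * i - (k + 1))) by
        rw [← hωη, ← pow_mul, ← pow_mul]
        congr 1
        rw [show m + 1 + 2 * i - (k + 1) = m + 2 * i - (k + 1) + 1 by omega, pow_succ]
        ring, ← pow_mul, ← pow_mul, ← _root_.pow_add, pow_eq_pow_iff_modEq, ← hη.eq_orderOf,
        show m + 2 * i - (k + 1) = i - 1 + (m + 1 - (k + 1 - i)) by omega,
        _root_.pow_add q (i - 1)]
      obtain ⟨T, hT⟩ : ∃ T, q ^ (m + 1) = T + 1 :=
        ⟨_, (Nat.succ_pred_eq_of_ne_zero (NeZero.ne _)).symm⟩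
      rw [hT, Nat.add_sub_cancel]
      refine (Nat.modEq_iff_dvd.mpr ⟨-((b : ℤ) * (q : ℤ) ^ (i - 1) *
        (q : ℤ) ^ (m + 1 - (k + 1 - i))), ?_⟩)
      push_cast
      ring
  letI : Algebra (modField K (L * q ^ m)) (modField K (L * q ^ (m + 1))) :=
    algebraAlong (degenMap K q (betaDvdN L q m))
  have : CharZero K := charZero_of_injective_algebraMap (algebraMap ℚ K).injective
  have : CharZero (modField K (L * q ^ m)) :=
    charZero_of_injective_algebraMap (algebraMap K (modField K (L * q ^ m))).injective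
  have hC : CompleteEmb ((φ x₀).comp (degenMap K q (betaDvdN L q m) :
      modField K (L * q ^ m) →+* modField K (L * q ^ (m + 1))))
      (fun b : Fin q => (qScale (ω ^ (b : ℕ))).comp (φ (xs b))) := by
    refine ⟨fun b y => DFunLike.congr_fun (f := ((qScale (ω ^ (b : ℕ))).comp (φ (xs b))).comp
      (degenMap K q (betaDvdN L q m) :
        modField K (L * q ^ m) →+* modField K (L * q ^ (m + 1)))) ?_ y, ?_, ?_,
      ⟨⟨0, hq.pos⟩⟩⟩
    · exact ((hs b).comp_degen q _).ext ((hφ x₀).comp_degen q _) (hkey b)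
    · refine injective_of_hasLead _ ⟨genSer K (powIdx L q (m + 1) 0 (Nat.zero_le _)), genSer_mem _⟩
        (fun _ => ((q ^ (m + 1) : ℕ) : ℤ) * (-1))
        (fun b => ((((η ^ ((b : ℕ) * q ^ m)) ^ (-1 : ℤ) : K'ˣ)) : K')) (fun b => ?_)
        (fun b => Units.ne_zero _) fun b c _ e => ?_
      · show HasLead (qScale _ (φ (xs b) _)) _ _
        have h' := (hs b).gen (powIdx L q (m + 1) 0 (Nat.zero_le _)) (genSer_mem _)
        rw [RingHom.comp_apply] at h'
        rw [h', branchVal_eq hq hqL i _ (oneIdx L) (k := 0) (one_mul _).symm, branchTerm,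
          if_pos (Nat.zero_le _), qScale_qExpand, show (ω ^ (b : ℕ)) ^ q ^ (m + 1 + 0) =
            η ^ ((b : ℕ) * q ^ m) by
          rw [← hωη, ← pow_mul, ← pow_mul, add_zero, pow_succ]; congr 1; ring]
        simpa using (hasLead_qScale_one (η ^ ((b : ℕ) * q ^ m))).qExpand (q ^ (m + 1 + 0))
      · have hlt : ∀ t : Fin q, (t : ℕ) * q ^ m < q ^ (m + 1) := fun t => by
          rw [pow_succ']; exact Nat.mul_lt_mul_of_pos_right t.2 (pow_pos hq.pos _)
        exact Fin.ext (Nat.eq_of_mul_eq_mul_right (pow_pos hq.pos _)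
          (unit_pow_inj hη (hlt b) (hlt c) (.inr rfl) e))
    · exact (Fintype.card_fin q).trans (finrank_degenN hq hm q (betaDvdN L q m)).symm
  exact hC.map_norm a

/-! ### Gauss residues and orders -/

variable {O : ValuationSubring K'} {k : Type} [Field k] {π : O →+* k} [Fact q.Prime] [CharP k q]

include hη hφ in
/-- Residues of `normAlphaN` below the branch `m`. -/
theorem isGauss_normAlphaN (hm : 0 < m) {x₀ : BranchIdx q (m + 1)} (hx₀ : branchOf x₀ < m)
    {a : modField K (L * q ^ (m + 1))} {r : LaurentSeries k}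
    (h : ∀ x, branchOf x = branchOf x₀ → IsGauss π (φ x a) r) :
    IsGauss π (φ x₀ (normAlphaN K L q m a)) (r ^ q) := by
  obtain ⟨S, hcard, hS, hN⟩ := map_normAlphaN hη hφ hm hx₀
  rw [hN, show r ^ q = ∏ _x ∈ S, r by rw [Finset.prod_const, hcard]]
  exact IsGauss.prod S fun x hx => h x (hS x hx)

include hη hφ in
/-- Residues of `normAlphaN` on the last branch. -/
theorem isGauss_normAlphaN_top (hm : 0 < m) {a : modField K (L * q ^ (m + 1))}
    {rl r : LaurentSeries k} (hl : IsGauss π (φ (Sum.inl ()) a) rl)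
    (h : ∀ x, branchOf x = m → IsGauss π (φ x a) r) :
    IsGauss π (φ (Sum.inl ()) (normAlphaN K L q m a)) (rl * r ^ (q - 1)) := by
  obtain ⟨S, hcard, hS, hN⟩ := map_normAlphaN_top hη hφ hm
  rw [hN, show r ^ (q - 1) = ∏ _x ∈ S, r by rw [Finset.prod_const, hcard]]
  exact hl.mul (IsGauss.prod S fun x hx => h x (hS x hx))

include hη hφ hω hωη in
/-- Residues of `normBetaN` from the branch `2` on. -/
theorem isGauss_normBetaN (hm : 0 < m) {x₀ : BranchIdx q (m + 1)} (hx₀ : 2 ≤ branchOf x₀)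
    {a : modField K (L * q ^ (m + 1))} {r : LaurentSeries k}
    (h : ∀ x, branchOf x = branchOf x₀ → IsGauss π (φ x a) r) :
    IsGauss π (φ x₀ (normBetaN K L q m a)) (r ^ q) := by
  obtain ⟨xs, hxs, hN⟩ := map_normBetaN hη hφ hω hωη hm hx₀
  rw [hN]
  simpa using IsGauss.prod Finset.univ fun (b : Fin q) _ =>
    (h _ (hxs b)).qScale_root (u := ω ^ (b : ℕ)) (m := m + 2)
      (unit_pow_pow_eq_one hω b dvd_rfl)

variable {ϖ : K'} (hϖ : ϖ ≠ 0)

include hη hφ hϖ in
/-- Orders of `normAlphaN` below the branch `m`, in units of `ϖ`. -/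
theorem hasGaussOrd_normAlphaN (hm : 0 < m) {x₀ : BranchIdx q (m + 1)} (hx₀ : branchOf x₀ < m)
    {a : modField K (L * q ^ (m + 1))} {N : ℤ}
    (h : ∀ x, branchOf x = branchOf x₀ → HasGaussOrd π ϖ (φ x a) N) :
    HasGaussOrd π ϖ (φ x₀ (normAlphaN K L q m a)) (q * N) := by
  obtain ⟨S, hcard, hS, hN⟩ := map_normAlphaN hη hφ hm hx₀
  rw [hN, show (q : ℤ) * N = ∑ _x ∈ S, N by rw [Finset.sum_const, hcard, nsmul_eq_mul]]
  exact HasGaussOrd.prod hϖ S fun x hx => h x (hS x hx)

include hη hφ hϖ in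
/-- Orders of `normAlphaN` on the last branch. -/
theorem hasGaussOrd_normAlphaN_top (hm : 0 < m) {a : modField K (L * q ^ (m + 1))}
    {Nl N : ℤ} (hl : HasGaussOrd π ϖ (φ (Sum.inl ()) a) Nl)
    (h : ∀ x, branchOf x = m → HasGaussOrd π ϖ (φ x a) N) :
    HasGaussOrd π ϖ (φ (Sum.inl ()) (normAlphaN K L q m a)) (Nl + ((q - 1 : ℕ) : ℤ) * N) := by
  obtain ⟨S, hcard, hS, hN⟩ := map_normAlphaN_top hη hφ hm
  rw [hN, show ((q - 1 : ℕ) : ℤ) * N = ∑ _x ∈ S, N by rw [Finset.sum_const, hcard, nsmul_eq_mul]]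
  exact hl.mul hϖ (HasGaussOrd.prod hϖ S fun x hx => h x (hS x hx))

include hη hφ hω hωη hϖ in
/-- Orders of `normBetaN` from the branch `2` on. -/
theorem hasGaussOrd_normBetaN (hm : 0 < m) {x₀ : BranchIdx q (m + 1)} (hx₀ : 2 ≤ branchOf x₀)
    {a : modField K (L * q ^ (m + 1))} {N : ℤ}
    (h : ∀ x, branchOf x = branchOf x₀ → HasGaussOrd π ϖ (φ x a) N) :
    HasGaussOrd π ϖ (φ x₀ (normBetaN K L q m a)) (q * N) := by
  obtain ⟨xs, hxs, hN⟩ := map_normBetaN hη hφ hω hωη hm hx₀
  rw [hN]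
  simpa using HasGaussOrd.prod hϖ Finset.univ fun (b : Fin q) _ =>
    (h _ (hxs b)).qScale_root (u := ω ^ (b : ℕ)) (m := m + 2)
      (unit_pow_pow_eq_one hω b dvd_rfl)

end Norms

end Fermat.Agent.CarayolHigh
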