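/-
The pulled back norms and the two charts. The norm along `τ ↦ τ` preserves both charts, the norm
along `τ ↦ q τ` preserves the chart where `j` is finite; on the chart where `1/j` is finite it does
so near the points over `q` where `j` is finite, by the Kronecker congruence.
-/
import Fermat.Agent.CarayolHigh.Norms
import Fermat.Agent.RED.Specialization.Kronecker

set_option autoImplicit false
set_option synthInstance.maxHeartbeats 100000
set_option linter.style.haveILetI false
set_option linter.unusedSectionVars false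

noncomputable section

open Polynomial ModularCurve AlgebraicCurve
open Fermat.Agent.Igusa Fermat.Agent.RED.Spec Fermat.Agent.HK.Corr Fermat.Agent.Carayol

namespace Fermat.Agent.CarayolHigh

/-! ### The congruence over `ZMod q` -/

/-- The Kronecker congruence over the prime field. -/
theorem modPoly_map_zmod (q : ℕ) [Fact q.Prime] :
    (modPoly q).map (mapRingHom (Int.castRingHom (ZMod q))) =
      (X - C (X ^ q)) * (X ^ q - C X) := by
  have hq : q.Prime := Fact.out
  haveI : NeZero q := ⟨hq.ne_zero⟩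
  obtain ⟨A, hA⟩ := Galois.exists_liesOverPrime (L := AlgebraicClosure ℚ) hq
  haveI := Galois.place_charP_residueField hA hq
  obtain ⟨z, hz⟩ := HasEnoughRootsOfUnity.exists_primitiveRoot (AlgebraicClosure ℚ) q
  have hζ : IsPrimitiveRoot (hz.isUnit hq.ne_zero).unit q := hz.isUnit_unit hq.ne_zero
  have hzA : ((hz.isUnit hq.ne_zero).unit : AlgebraicClosure ℚ) ∈ A := by
    refine (A.mem_or_inv_mem _).elim id fun h => ?_
    have : (hz.isUnit hq.ne_zero).unit⁻¹ ^ (q - 1) = (hz.isUnit hq.ne_zero).unit := by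
      rw [inv_pow, inv_eq_iff_mul_eq_one, ← pow_succ, Nat.sub_add_cancel hq.one_le, hζ.pow_eq_one]
    rw [← this, Units.val_pow_eq_pow_val, Units.val_inv_eq_inv_val]
    exact pow_mem h _
  haveI : Algebra.IsAlgebraic ℚ (AlgebraicClosure ℚ) := AlgebraicClosure.isAlgebraic ℚ
  have h := modPoly_map_charP q A (IsAlgClosed.lift : AlgebraicClosure ℚ →ₐ[ℚ] ℂ).toRingHom hζ hzA
    (IsLocalRing.residue A)
  have hinj : Function.Injective
      (ZMod.castHom (dvd_refl q) (IsLocalRing.ResidueField A)) := RingHom.injective _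
  refine Polynomial.map_injective (mapRingHom (ZMod.castHom (dvd_refl q) (IsLocalRing.ResidueField A)))
    (Polynomial.map_injective _ hinj) ?_
  rw [Polynomial.map_map, mapRingHom_comp,
    Subsingleton.elim ((ZMod.castHom (dvd_refl q) (IsLocalRing.ResidueField A)).comp
      (Int.castRingHom (ZMod q))) (Int.castRingHom _), h]
  simp

/-- At a root `(a, b)` of the modular polynomial in characteristic `q` with `b ≠ 0`, the constant
coefficient does not vanish. -/
theorem modPoly_coeff_zero_ne {q : ℕ} [Fact q.Prime] {k : Type*} [Field k] [CharP k q] {a b : k}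
    (h : (modPoly q).eval₂ (evZ a) b = 0) (hb : b ≠ 0) : evZ a ((modPoly q).coeff 0) ≠ 0 := by
  have hq : q.Prime := Fact.out
  let f : (ZMod q)[X] →+* k := eval₂RingHom (ZMod.castHom (dvd_refl q) k) a
  have hf : f.comp (mapRingHom (Int.castRingHom (ZMod q))) = evZ a :=
    evZ_eq (by simp [f])
  rw [← hf, RingHom.comp_apply, ← coeff_map,
    modPoly_map_zmod, coeff_zero_eq_eval_zero]
  rw [← hf, ← eval₂_map, modPoly_map_zmod] at h
  simp only [eval₂_mul, eval₂_sub, eval₂_X, eval₂_C, eval_mul, eval_sub, eval_X,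
    eval_C, eval_pow, eval₂_pow, zero_pow hq.ne_zero, zero_sub, map_mul, map_neg, map_pow, f,
    coe_eval₂RingHom] at h ⊢
  have ha : a ≠ 0 := by
    intro ha
    rw [ha, zero_pow hq.ne_zero, sub_zero, sub_zero] at h
    exact hb (by simpa [hq.ne_zero] using h)
  simpa [hq.ne_zero] using ha

/-! ### Near a point where `x` is finite -/

/-- A multiplicative map preserving the chart of `x`, with `Φ (x', x) = 0`, is regular on the chart
of `1/x` near the points over `q` where `x` is finite. -/
theorem exists_mul_norm_mem {W F : Type} [CommRing W] [Field F] [Algebra W F] (q : ℕ)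
    [Fact q.Prime] {x x' : F} (h1 : x' ∈ chartRing W x)
    (hrel : (modPoly q).eval₂ (evZ x') x = 0) (N : F →* F)
    (hNmem : ∀ z ∈ chartRing W x, N z ∈ chartRing W x)
    (hNc : ∀ p : ℤ[X], ∃ d : ℕ, N (evZ x' p) = evZ x' p ^ d)
    (y : Ideal (chartRing W x⁻¹)) [y.IsMaximal]
    (hqy : (⟨algebraMap W F (q : W), Subalgebra.algebraMap_mem _ _⟩ : chartRing W x⁻¹) ∈ y)
    (hx : (⟨x⁻¹, self_mem_chartRing _⟩ : chartRing W x⁻¹) ∉ y) {a : F}
    (ha : a ∈ chartRing W x⁻¹) :
    ∃ r : chartRing W x⁻¹, r ∉ y ∧ (r : F) * N a ∈ chartRing W x⁻¹ := by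
  have hq : q.Prime := Fact.out
  set u : chartRing W x⁻¹ := ⟨x⁻¹, self_mem_chartRing _⟩ with hu
  have hx0 : x ≠ 0 := fun e => hx <| by
    rw [show u = 0 from Subtype.ext (by simp [hu, e])]
    exact y.zero_mem
  set c : F := evZ x' ((modPoly q).coeff 0) with hc
  set G : F := (modPoly q).divX.eval₂ (evZ x') x
  have hxG : x * G = evZ x' (-(modPoly q).coeff 0) := by
    have := congrArg (eval₂ (evZ x') x) (divX_mul_X_add (modPoly q))
    rw [eval₂_add, eval₂_mul, eval₂_X, eval₂_C, hrel, ← hc] at this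
    rw [map_neg, ← hc]
    linear_combination this
  have hev : ∀ p : ℤ[X], evZ x' p ∈ chartRing W x := fun p => by
    rw [evZ, coe_eval₂RingHom, eval₂_eq_sum_range]
    exact sum_mem fun i _ => mul_mem (intCast_mem _ _) (pow_mem h1 i)
  have hG : G ∈ chartRing W x := by
    rw [show G = ∑ i ∈ Finset.range ((modPoly q).divX.natDegree + 1),
      evZ x' ((modPoly q).divX.coeff i) * x ^ i from eval₂_eq_sum_range _ _]
    exact sum_mem fun i _ => mul_mem (hev _) (pow_mem (self_mem_chartRing _) i)
  obtain ⟨d, hd⟩ := hNc (-(modPoly q).coeff 0)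
  have hN : N x * N G = (-c) ^ d := by
    rw [← map_mul, hxG, hd, map_neg]
  -- `a` in terms of the finite chart
  obtain ⟨M, hM⟩ := exists_mul_inv_pow_mem_chartRing (inv_ne_zero hx0) ha
  rw [inv_inv] at hM
  set b : F := N (a * x ^ M) * N G ^ M with hbdef
  have hb : b ∈ chartRing W x := mul_mem (hNmem _ hM) (pow_mem (hNmem _ hG) M)
  have hab : N a * (-c) ^ (d * M) = b := by
    rw [pow_mul, ← hN, mul_pow, hbdef, map_mul, map_pow, mul_assoc]
  -- the residue of `c`
  have hyne : y ≠ ⊤ := Ideal.IsMaximal.ne_top ‹_›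
  obtain ⟨B, hRB, hyB⟩ := Ideal.image_subset_nonunits_valuationSubring
    (A := (chartRing W x⁻¹).toSubring) y hyne
  have hne : ∀ r : chartRing W x⁻¹, r ∉ y →
      IsLocalRing.residue B ⟨r, hRB r.2⟩ ≠ 0 := by
    intro r hr h0
    obtain ⟨s, hs⟩ := Ideal.IsMaximal.exists_inv ‹_› hr
    obtain ⟨i, hi, hsi⟩ := hs
    have hi0 : IsLocalRing.residue B ⟨i, hRB i.2⟩ = 0 := by
      have := hyB ⟨i, hi, rfl⟩
      rw [SetLike.mem_coe, ← SetLike.mem_coe, ← B.image_maximalIdeal] at this
      obtain ⟨t, ht, hte⟩ := this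
      rw [IsLocalRing.residue_eq_zero_iff]
      rw [show (⟨i, hRB i.2⟩ : B) = t from Subtype.ext hte.symm]
      exact ht
    have e : (⟨(s : F), hRB s.2⟩ : B) * ⟨r, hRB r.2⟩ + ⟨i, hRB i.2⟩ = 1 :=
      Subtype.ext (show (s : F) * (r : F) + (i : F) = 1 from congrArg Subtype.val hsi)
    have := congrArg (IsLocalRing.residue B) e
    rw [map_add, map_mul, h0, hi0, mul_zero, zero_add, map_one] at this
    exact zero_ne_one this
  have hxB : x ∈ B := by
    rcases B.mem_or_inv_mem x with h | h
    · exact h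
    · have hunit : IsUnit (⟨x⁻¹, h⟩ : B) := by
        by_contra hn
        exact hne u hx ((IsLocalRing.residue_eq_zero_iff _).mpr
          ((IsLocalRing.mem_maximalIdeal _).mpr hn))
      obtain ⟨v, hv⟩ := hunit.exists_right_inv
      have : (v : F) = x := by
        have := congrArg Subtype.val hv
        simpa [inv_mul_eq_iff_eq_mul₀ hx0] using this
      exact this ▸ v.2
  have hR0B : ∀ z ∈ chartRing W x, z ∈ B := fun z hz =>
    chartRing_mem_valuationSubring (fun w => hRB (Subalgebra.algebraMap_mem _ w)) hxB hz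
  haveI : CharP (IsLocalRing.ResidueField B) q := by
    refine (CharP.charP_iff_prime_eq_zero hq).mpr ?_
    have h0 := hyB ⟨_, hqy, rfl⟩
    rw [SetLike.mem_coe, ← SetLike.mem_coe, ← B.image_maximalIdeal] at h0
    obtain ⟨t, ht, hte⟩ := h0
    rw [← map_natCast (IsLocalRing.residue B), IsLocalRing.residue_eq_zero_iff]
    have : (q : B) = t := Subtype.ext (by
      rw [show (t : F) = algebraMap W F (q : W) from hte, map_natCast]
      rfl)
    rw [this]
    exact ht
  have hcB : IsLocalRing.residue B ⟨c, hR0B c (hev _)⟩ ≠ 0 := by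
    let a' : B := ⟨x', hR0B x' h1⟩
    have hce : (⟨c, hR0B c (hev _)⟩ : B) = evZ a' ((modPoly q).coeff 0) :=
      Subtype.ext (by
        show c = B.subtype _
        rw [← RingHom.comp_apply, evZ_comp]
        rfl)
    rw [hce, ← RingHom.comp_apply, evZ_comp]
    refine modPoly_coeff_zero_ne (b := IsLocalRing.residue B ⟨x, hxB⟩) ?_ ?_
    · have h0 : (modPoly q).eval₂ (evZ a') ⟨x, hxB⟩ = 0 := by
        apply B.subtype_injective
        rw [hom_eval₂, evZ_comp, map_zero]
        exact hrel
      rw [← evZ_comp, ← hom_eval₂, h0, map_zero]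
    · intro h0
      have e : (⟨x⁻¹, hRB u.2⟩ : B) * ⟨x, hxB⟩ = 1 := Subtype.ext (inv_mul_cancel₀ hx0)
      have := congrArg (IsLocalRing.residue B) e
      rw [map_mul, h0, mul_zero, map_one] at this
      exact zero_ne_one this
  -- clear the powers of `j`
  obtain ⟨N₁, hN₁⟩ := exists_mul_inv_pow_mem_chartRing hx0 (neg_mem (hev ((modPoly q).coeff 0)))
  obtain ⟨P, hP⟩ := exists_mul_inv_pow_mem_chartRing hx0 hb
  rw [← hc] at hN₁
  set t : chartRing W x⁻¹ := ⟨-c * x⁻¹ ^ N₁, hN₁⟩ with ht
  have hty : t ∉ y := fun hmem => by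
    have h0 := hyB ⟨t, hmem, rfl⟩
    rw [SetLike.mem_coe, ← SetLike.mem_coe, ← B.image_maximalIdeal] at h0
    obtain ⟨s, hs, hse⟩ := h0
    have e : (⟨(t : F), hRB t.2⟩ : B) = -⟨c, hR0B c (hev _)⟩ * ⟨x⁻¹, hRB u.2⟩ ^ N₁ :=
      Subtype.ext (by simp [ht])
    have hz : IsLocalRing.residue B ⟨(t : F), hRB t.2⟩ = 0 := by
      rw [IsLocalRing.residue_eq_zero_iff]
      rw [show (⟨(t : F), hRB t.2⟩ : B) = s from Subtype.ext hse.symm]
      exact hs
    rw [e, map_mul, map_neg, map_pow, mul_eq_zero, neg_eq_zero] at hz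
    rcases hz with hz | hz
    · exact hcB hz
    · exact hne u hx (eq_zero_of_pow_eq_zero hz)
  have hr : t ^ (d * M) * u ^ P ∉ y := fun h =>
    (Ideal.IsMaximal.isPrime' y).mem_or_mem h |>.elim
      (fun h => hty ((Ideal.IsMaximal.isPrime' y).mem_of_pow_mem _ h))
      (fun h => hx ((Ideal.IsMaximal.isPrime' y).mem_of_pow_mem _ h))
  refine ⟨t ^ (d * M) * u ^ P, hr, ?_⟩
  have e : ((t ^ (d * M) * u ^ P : chartRing W x⁻¹) : F) * N a =
      (x⁻¹ ^ N₁) ^ (d * M) * (b * x⁻¹ ^ P) := by
    rw [← hab, Subalgebra.coe_mul, Subalgebra.coe_pow, Subalgebra.coe_pow, ht, hu]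
    simp only [mul_pow]
    ring
  rw [e]
  exact mul_mem (pow_mem (pow_mem (self_mem_chartRing _) _) _) hP


/-! ### The charts -/

section Charts

variable {W : Type} [CommRing W] {K : Type} [Field K] [Algebra ℚ K] [Algebra W K]
  {L q m : ℕ} [NeZero L] [NeZero q]
  [Algebra W (modField K (L * q ^ (m + 1)))] [IsScalarTower W K (modField K (L * q ^ (m + 1)))]
  [Algebra W (modField K (L * q ^ m))] [IsScalarTower W K (modField K (L * q ^ m))]

omit [NeZero L] [NeZero q] in
theorem isScalarTower_degenN (e : ℕ) [NeZero e] (h : L * q ^ m * e ∣ L * q ^ (m + 1)) :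
    letI := algebraAlong (degenMap K e h)
    IsScalarTower W (modField K (L * q ^ m)) (modField K (L * q ^ (m + 1))) := by
  letI := algebraAlong (degenMap K e h)
  refine IsScalarTower.of_algebraMap_eq fun w => ?_
  rw [IsScalarTower.algebraMap_apply W K (modField K (L * q ^ (m + 1))),
    IsScalarTower.algebraMap_apply W K (modField K (L * q ^ m))]
  exact ((degenMap K e h).commutes (algebraMap W K w)).symm

/-- `normAlphaN` preserves both charts. -/
theorem normAlphaN_mem_chartRing {a : modField K (L * q ^ (m + 1))} :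
    (a ∈ chartRing W (jField (L * q ^ (m + 1))) →
      normAlphaN K L q m a ∈ chartRing W (jField (L * q ^ (m + 1)))) ∧
    (a ∈ chartRing W (jField (K := K) (L * q ^ (m + 1)))⁻¹ →
      normAlphaN K L q m a ∈ chartRing W (jField (K := K) (L * q ^ (m + 1)))⁻¹) := by
  letI := algebraAlong (degenMap K 1 (alphaDvdN L q m))
  haveI := isScalarTower_degenN (W := W) (K := K) 1 (alphaDvdN L q m)
  have hj : algebraMap (modField K (L * q ^ m)) (modField K (L * q ^ (m + 1)))
      (jField (L * q ^ m)) = jField (L * q ^ (m + 1)) := Subtype.ext (qExpand_one_apply _)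
  refine ⟨fun ha => ?_, fun ha => ?_⟩
  · rw [← hj] at ha ⊢
    exact algebraMap_norm_mem_chartRing ha
  · rw [← hj, ← map_inv₀] at ha ⊢
    exact algebraMap_norm_mem_chartRing ha

/-- `j (q τ)` at the top level. -/
abbrev jShift (K : Type) [Field K] [Algebra ℚ K] (L q m : ℕ) [NeZero L] [NeZero q] :
    modField K (L * q ^ (m + 1)) :=
  degenMap K q (betaDvdN L q m) (jField (L * q ^ m))

/-- `j` and `j (q τ)` lie in each other's charts. -/
theorem jShift_mem_chartRing (ι : K →+* ℂ) (hq : q.Prime) :
    jShift K L q m ∈ chartRing W (jField (L * q ^ (m + 1))) ∧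
      jField (L * q ^ (m + 1)) ∈ chartRing W (jShift K L q m) := by
  have hco : ∀ T : modField K (L * q ^ (m + 1)),
      (modField K (L * q ^ (m + 1))).val.toRingHom.comp
          (eval₂RingHom (Int.castRingHom (modField K (L * q ^ (m + 1)))) T) =
        eval₂RingHom (Int.castRingHom (LaurentSeries K)) (T : LaurentSeries K) := fun T =>
    ringHom_ext (fun c => by simp) (by simp)
  have hint : ∀ T S : modField K (L * q ^ (m + 1)),
      (eval₂RingHom (Int.castRingHom (LaurentSeries K)) (T : LaurentSeries K)).IsIntegralElem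
        (S : LaurentSeries K) → S ∈ chartRing W T := fun T S h => by
    obtain ⟨Q, hQ, hQ0⟩ := h
    refine mem_chartRing_of_isIntegralElem
      ⟨Q, hQ, (modField K (L * q ^ (m + 1))).val.toRingHom.injective ?_⟩
    rw [map_zero, hom_eval₂, hco]
    exact hQ0
  exact ⟨hint _ _ (isIntegralElem_qExpand_jSer q), hint _ _ (isIntegralElem_jSer_qExpand ι q hq)⟩

/-- `normBetaN` preserves the chart where `j` is finite. -/
theorem normBetaN_mem_chartRing (ι : K →+* ℂ) (hq : q.Prime) {a : modField K (L * q ^ (m + 1))}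
    (ha : a ∈ chartRing W (jField (L * q ^ (m + 1)))) :
    normBetaN K L q m a ∈ chartRing W (jField (L * q ^ (m + 1))) := by
  letI := algebraAlong (degenMap K q (betaDvdN L q m))
  haveI := isScalarTower_degenN (W := W) (K := K) q (betaDvdN L q m)
  obtain ⟨h1, h2⟩ := jShift_mem_chartRing (W := W) (K := K) (L := L) (m := m) ι hq
  refine chartRing_le_of_mem h1 ?_
  exact algebraMap_norm_mem_chartRing (xE := jField (L * q ^ m)) (chartRing_le_of_mem h2 ha)

/-- On the chart where `1/j` is finite `normBetaN` is regular near the points over `q` where `j` is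
finite. -/
theorem exists_mul_normBetaN_mem_chartRing (ι : K →+* ℂ) (hq : q.Prime) (hm : 0 < m)
    (y : Ideal (chartRing W (jField (K := K) (L * q ^ (m + 1)))⁻¹)) [y.IsMaximal]
    (hqy : (⟨algebraMap W _ (q : W), Subalgebra.algebraMap_mem _ _⟩ :
      chartRing W (jField (K := K) (L * q ^ (m + 1)))⁻¹) ∈ y)
    (hx : (⟨(jField (K := K) (L * q ^ (m + 1)))⁻¹, self_mem_chartRing _⟩ :
      chartRing W (jField (K := K) (L * q ^ (m + 1)))⁻¹) ∉ y)
    {a : modField K (L * q ^ (m + 1))}
    (ha : a ∈ chartRing W (jField (K := K) (L * q ^ (m + 1)))⁻¹) :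
    ∃ r : chartRing W (jField (K := K) (L * q ^ (m + 1)))⁻¹, r ∉ y ∧
      (r : modField K (L * q ^ (m + 1))) * normBetaN K L q m a ∈
        chartRing W (jField (K := K) (L * q ^ (m + 1)))⁻¹ := by
  haveI := Fact.mk hq
  obtain ⟨h1, -⟩ := jShift_mem_chartRing (W := W) (K := K) (L := L) (m := m) ι hq
  refine exists_mul_norm_mem q h1 ?_ (normBetaN K L q m)
    (fun z hz => normBetaN_mem_chartRing ι hq hz) ?_ y hqy hx ha
  · apply (modField K (L * q ^ (m + 1))).val.toRingHom.injective
    rw [map_zero, hom_eval₂, evZ_comp]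
    show (modPoly q).eval₂ (evZ (jShift K L q m : LaurentSeries K))
      (jField (K := K) (L * q ^ (m + 1)) : LaurentSeries K) = 0
    rw [show (jShift K L q m : LaurentSeries K) = jqNModC K q from
        congrArg (qExpand K q) (jSer_eq_jqModC (L := K)),
      show (jField (K := K) (L * q ^ (m + 1)) : LaurentSeries K) = jqModC K from
        jSer_eq_jqModC (L := K)]
    exact modPoly_relation_swap q ι
  · intro p
    letI := algebraAlong (degenMap K q (betaDvdN L q m))
    have hp : evZ (jShift K L q m) p =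
        algebraMap (modField K (L * q ^ m)) (modField K (L * q ^ (m + 1)))
          (evZ (jField (L * q ^ m)) p) := by
      rw [← RingHom.comp_apply, evZ_comp]
      rfl
    refine ⟨q, ?_⟩
    rw [hp]
    show degenMap K q (betaDvdN L q m) (Algebra.norm (modField K (L * q ^ m))
      (algebraMap (modField K (L * q ^ m)) (modField K (L * q ^ (m + 1))) _)) = _
    rw [Algebra.norm_algebraMap, show Module.finrank (modField K (L * q ^ m))
      (modField K (L * q ^ (m + 1))) = q from finrank_degenN hq hm q (betaDvdN L q m), map_pow]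
    rfl

end Charts

end Fermat.Agent.CarayolHigh
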