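/-
The fields of `Model` about the two norms, from `ChartData`: charts, constants, residues, orders.
-/
import Fermat.Agent.CarayolHigh.NormMem
import Fermat.Agent.CarayolHigh.ChartData

set_option autoImplicit false
set_option synthInstance.maxHeartbeats 100000
set_option linter.unusedSectionVars false
set_option linter.style.haveILetI false

noncomputable section

open HahnSeries ModularCurve
open Fermat.Agent.Igusa Fermat.Agent.RED.Spec Fermat.Agent.HK.Corr Fermat.Agent.Carayol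

namespace Fermat.Agent.CarayolHigh

/-! ### Additive functions on the nonzero elements of a field -/

section Additive

variable {F : Type*} [Field F] {g : F → ℤ} (hg : ∀ a b, a ≠ 0 → b ≠ 0 → g (a * b) = g a + g b)

include hg in
theorem additive_zpow {a : F} (ha : a ≠ 0) (z : ℤ) : g (a ^ z) = z * g a := by
  have h1 : g 1 = 0 := by
    have := hg 1 1 one_ne_zero one_ne_zero
    rw [mul_one] at this
    omega
  induction z using Int.induction_on with
  | zero => rw [zpow_zero, h1, zero_mul]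
  | succ i ih => rw [zpow_add_one₀ ha, hg _ _ (zpow_ne_zero _ ha) ha, ih]; ring
  | pred i ih =>
    have := hg _ _ (zpow_ne_zero (-(i : ℤ) - 1) ha) ha
    rw [← zpow_add_one₀ ha, sub_add_cancel, ih] at this
    linarith

include hg in
/-- An additive function vanishing on the kernel of a surjective one is a multiple of it. -/
theorem additive_eq_mul {h : F → ℤ} (hh : ∀ a b, a ≠ 0 → b ≠ 0 → h (a * b) = h a + h b) {p : F}
    (hp0 : p ≠ 0) (hp : h p = 1) (hv : ∀ u, u ≠ 0 → h u = 0 → g u = 0) {a : F} (ha : a ≠ 0) :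
    g a = g p * h a := by
  have hpa := zpow_ne_zero (-h a) hp0
  have h0 := hv _ (mul_ne_zero ha hpa) (by rw [hh _ _ ha hpa, additive_zpow hh hp0, hp]; ring)
  rw [hg _ _ ha hpa, additive_zpow hg hp0] at h0
  linarith

end Additive

variable {K : Type} [Field K] [Algebra ℚ K] {K' : Type} [Field K'] [Algebra ℚ K']
  {O : ValuationSubring K'} {k : Type} [Field k] {L₀ q m : ℕ} [NeZero L₀] [NeZero q]
  {hq : q.Prime} {hqL : ¬ q ∣ L₀} {π : O →+* k} {κ : K →+* K'} {η : K'ˣ}
  {A : ValuationSubring K}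
  {φ : BranchIdx q (m + 1) → modField K (L₀ * q ^ (m + 1)) →+* LaurentSeries K'}
  {rep : Fin (m + 1 + 1) → BranchIdx q (m + 1)} {C : Type} [Field C]
  {Br : Branches (modField K (L₀ * q ^ (m + 1))) (Fin (m + 1 + 1)) (fun _ => C)}
  {ev : C →+* LaurentSeries k}
  (D : ChartData hq hqL π κ η A φ rep Br ev)

namespace ChartData

include D

/-! ### Charts and constants -/

theorem normAlphaN_algebraMap (hm : 0 < m) (w : A) :
    normAlphaN K L₀ q m (algebraMap A (modField K (L₀ * q ^ (m + 1))) w) =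
      algebraMap A (modField K (L₀ * q ^ (m + 1))) w ^ q :=
  normAlphaN_const hq hm (w : K)

theorem normBetaN_algebraMap (hm : 0 < m) (w : A) :
    normBetaN K L₀ q m (algebraMap A (modField K (L₀ * q ^ (m + 1))) w) =
      algebraMap A (modField K (L₀ * q ^ (m + 1))) w ^ q :=
  normBetaN_const hq hm (w : K)

omit D in
theorem normAlphaN_mem {a : modField K (L₀ * q ^ (m + 1))} :
    (a ∈ chartRing A (jField (L₀ * q ^ (m + 1))) →
      normAlphaN K L₀ q m a ∈ chartRing A (jField (L₀ * q ^ (m + 1)))) ∧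
    (a ∈ chartRing A (jField (K := K) (L₀ * q ^ (m + 1)))⁻¹ →
      normAlphaN K L₀ q m a ∈ chartRing A (jField (K := K) (L₀ * q ^ (m + 1)))⁻¹) := by
  haveI := isScalarTower_valuationSubring (E := modField K (L₀ * q ^ m)) A
  haveI := isScalarTower_valuationSubring (E := modField K (L₀ * q ^ (m + 1))) A
  exact normAlphaN_mem_chartRing

omit D in
/-- The field `normβ_mem` on the finite chart. -/
theorem normBetaN_mem_zero (ι : K →+* ℂ) (hq : q.Prime)
    (y : Ideal (chartRing A (jField (K := K) (L₀ * q ^ (m + 1))))) [y.IsMaximal]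
    {a : modField K (L₀ * q ^ (m + 1))} (ha : a ∈ chartRing A (jField (L₀ * q ^ (m + 1)))) :
    ∃ r : chartRing A (jField (K := K) (L₀ * q ^ (m + 1))), r ∉ y ∧
      (r : modField K (L₀ * q ^ (m + 1))) * normBetaN K L₀ q m a ∈
        chartRing A (jField (L₀ * q ^ (m + 1))) := by
  haveI := isScalarTower_valuationSubring (E := modField K (L₀ * q ^ m)) A
  haveI := isScalarTower_valuationSubring (E := modField K (L₀ * q ^ (m + 1))) A
  refine ⟨1, fun h => (Ideal.IsMaximal.ne_top ‹_› : y ≠ ⊤) ((Ideal.eq_top_iff_one y).mpr h), ?_⟩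
  rw [OneMemClass.coe_one, one_mul]
  exact normBetaN_mem_chartRing ι hq ha

omit D in
/-- The field `normβ_mem` on the chart at the cusps, at a point where `j` is finite. -/
theorem normBetaN_mem_one (ι : K →+* ℂ) (hq : q.Prime) (hm : 0 < m)
    (y : Ideal (chartRing A (jField (K := K) (L₀ * q ^ (m + 1)))⁻¹)) [y.IsMaximal]
    (hqy : (⟨algebraMap A _ (q : A), Subalgebra.algebraMap_mem _ _⟩ :
      chartRing A (jField (K := K) (L₀ * q ^ (m + 1)))⁻¹) ∈ y)
    (hx : (⟨(jField (K := K) (L₀ * q ^ (m + 1)))⁻¹, self_mem_chartRing _⟩ :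
      chartRing A (jField (K := K) (L₀ * q ^ (m + 1)))⁻¹) ∉ y)
    {a : modField K (L₀ * q ^ (m + 1))}
    (ha : a ∈ chartRing A (jField (K := K) (L₀ * q ^ (m + 1)))⁻¹) :
    ∃ r : chartRing A (jField (K := K) (L₀ * q ^ (m + 1)))⁻¹, r ∉ y ∧
      (r : modField K (L₀ * q ^ (m + 1))) * normBetaN K L₀ q m a ∈
        chartRing A (jField (K := K) (L₀ * q ^ (m + 1)))⁻¹ := by
  haveI := isScalarTower_valuationSubring (E := modField K (L₀ * q ^ m)) A
  haveI := isScalarTower_valuationSubring (E := modField K (L₀ * q ^ (m + 1))) A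
  exact exists_mul_normBetaN_mem_chartRing ι hq hm y hqy hx ha

/-! ### Residues -/

/-- A residue read through an embedding of the branch. -/
theorem res_eq_of_isGauss_branch {i : Fin (m + 1 + 1)} {x : BranchIdx q (m + 1)} (hx : branchOf x = i)
    {a : modField K (L₀ * q ^ (m + 1))} {r : C}
    (h : IsGauss π (φ x a) (qExpand k (q ^ lowExp (m + 1) i) (ev r))) :
    ∃ hV : a ∈ Br.V i, Br.res i ⟨a, hV⟩ = r := by
  obtain ⟨hV, he⟩ := D.mem_of_isGauss hx h
  exact ⟨hV, (ev.injective (qExpand_injective (R := k) (N := q ^ lowExp (m + 1) i) he)).symm⟩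

/-- The residue along all the embeddings of a branch. -/
theorem isGauss_branch (i : Fin (m + 1 + 1)) {a : modField K (L₀ * q ^ (m + 1))} (h : a ∈ Br.V i) :
    ∀ x, branchOf x = (i : ℕ) →
      IsGauss π (φ x a) (qExpand k (q ^ lowExp (m + 1) i) (ev (Br.res i ⟨a, h⟩))) :=
  fun _ hx => D.isGauss_all hx h

/-- The field `res_normα`. -/
theorem res_normAlphaN (hm : 0 < m) {i : Fin (m + 1 + 1)} (hi : (i : ℕ) + 2 ≤ m + 1)
    {a : modField K (L₀ * q ^ (m + 1))} (h : a ∈ Br.V i) :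
    ∃ hN : normAlphaN K L₀ q m a ∈ Br.V i,
      Br.res i ⟨normAlphaN K L₀ q m a, hN⟩ = Br.res i ⟨a, h⟩ ^ q := by
  haveI := Fact.mk hq
  haveI := D.charP
  refine D.res_eq_of_isGauss_branch (D.hrep i) ?_
  rw [map_pow, map_pow]
  exact isGauss_normAlphaN D.hη D.hφ hm (by rw [D.hrep]; omega)
    fun x hx => D.isGauss_branch i h x (hx.trans (D.hrep i))

/-- The field `res_normβ`. -/
theorem res_normBetaN {ω : K'ˣ} (hω : IsPrimitiveRoot ω (q ^ (m + 2))) (hωη : ω ^ q = η)
    (hm : 0 < m) {i : Fin (m + 1 + 1)} (hi : 2 ≤ (i : ℕ))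
    {a : modField K (L₀ * q ^ (m + 1))} (h : a ∈ Br.V i) :
    ∃ hN : normBetaN K L₀ q m a ∈ Br.V i,
      Br.res i ⟨normBetaN K L₀ q m a, hN⟩ = Br.res i ⟨a, h⟩ ^ q := by
  haveI := Fact.mk hq
  haveI := D.charP
  refine D.res_eq_of_isGauss_branch (D.hrep i) ?_
  rw [map_pow, map_pow]
  exact isGauss_normBetaN D.hη D.hφ hω hωη hm (by rw [D.hrep]; omega)
    fun x hx => D.isGauss_branch i h x (hx.trans (D.hrep i))

/-- The field `res_normα_last`. -/
theorem res_normAlphaN_last (hm : 0 < m) {i : Fin (m + 1 + 1)} (hi : (i : ℕ) + 1 = m + 1)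
    {a : modField K (L₀ * q ^ (m + 1))} (hl : a ∈ Br.V (Fin.last (m + 1))) (h : a ∈ Br.V i) :
    ∃ hN : normAlphaN K L₀ q m a ∈ Br.V (Fin.last (m + 1)),
      Br.res (Fin.last (m + 1)) ⟨normAlphaN K L₀ q m a, hN⟩ =
        Br.res (Fin.last (m + 1)) ⟨a, hl⟩ * Br.res i ⟨a, h⟩ ^ (q - 1) := by
  haveI := Fact.mk hq
  haveI := D.charP
  have he : lowExp (m + 1) ((Fin.last (m + 1) : Fin (m + 1 + 1)) : ℕ) = lowExp (m + 1) i := by
    simp only [lowExp, Fin.val_last]; omega
  refine D.res_eq_of_isGauss_branch (x := Sum.inl ()) (by simp [branchOf]) ?_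
  simp only [map_mul, map_pow]
  refine isGauss_normAlphaN_top D.hη D.hφ hm (D.isGauss_branch _ hl _ (by simp [branchOf]))
    fun x hx => ?_
  rw [he]
  exact D.isGauss_branch i h x (by omega)

/-- `N a / a` on the last branch. -/
theorem res_normAlphaN_div (hm : 0 < m) {i : Fin (m + 1 + 1)} (hi : (i : ℕ) + 1 = m + 1)
    {a : modField K (L₀ * q ^ (m + 1))} (ha : a ≠ 0) (h : a ∈ Br.V i) :
    ∃ hN : normAlphaN K L₀ q m a / a ∈ Br.V (Fin.last (m + 1)),
      Br.res (Fin.last (m + 1)) ⟨normAlphaN K L₀ q m a / a, hN⟩ = Br.res i ⟨a, h⟩ ^ (q - 1) := by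
  haveI := Fact.mk hq
  haveI := D.charP
  have he : lowExp (m + 1) ((Fin.last (m + 1) : Fin (m + 1 + 1)) : ℕ) = lowExp (m + 1) i := by
    simp only [lowExp, Fin.val_last]; omega
  refine D.res_eq_of_isGauss_branch (x := Sum.inl ()) (by simp [branchOf]) ?_
  obtain ⟨S, hcard, hS, hN⟩ := map_normAlphaN_top D.hη D.hφ hm
  rw [map_div₀, hN, mul_div_cancel_left₀ _ ((map_ne_zero _).mpr ha), he]
  simp only [map_pow]
  rw [show (qExpand k (q ^ lowExp (m + 1) i) (ev (Br.res i ⟨a, h⟩))) ^ (q - 1) =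
    ∏ _x ∈ S, qExpand k (q ^ lowExp (m + 1) i) (ev (Br.res i ⟨a, h⟩)) by
      rw [Finset.prod_const, hcard]]
  exact IsGauss.prod S fun x hx => D.isGauss_branch i h x ((hS x hx).trans (by omega))

/-- `q` has residue zero on every branch. -/
theorem res_natCast (i : Fin (m + 1 + 1)) :
    ∃ h : algebraMap A (modField K (L₀ * q ^ (m + 1))) (q : A) ∈ Br.V i,
      Br.res i ⟨_, h⟩ = 0 := by
  haveI := D.charP
  refine D.res_eq_of_isGauss_branch (D.hrep i) ?_
  rw [map_zero, map_zero]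
  have h := D.isGauss_const (rep i) (q : A)
  have hz : π ⟨κ ((q : A) : K), D.hA _ (q : A).2⟩ = 0 := by
    rw [show (⟨κ ((q : A) : K), D.hA _ (q : A).2⟩ : O) = (q : O) from Subtype.ext (by
      show κ ((q : A) : K) = ((q : O) : K')
      simp), map_natCast, CharP.cast_eq_zero]
  rw [hz, map_zero] at h
  exact h

/-! ### Orders -/

variable {ord : Fin (m + 1 + 1) → modField K (L₀ * q ^ (m + 1)) → ℤ}
  (hmul : ∀ i a b, a ≠ 0 → b ≠ 0 → ord i (a * b) = ord i a + ord i b)
  (hmem : ∀ i a, a ≠ 0 → (a ∈ Br.V i ↔ 0 ≤ ord i a))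
  (hres0 : ∀ i a (h : a ∈ Br.V i), a ≠ 0 → (Br.res i ⟨a, h⟩ = 0 ↔ 0 < ord i a))
  (hone : ∀ i, ∃ p : modField K (L₀ * q ^ (m + 1)), p ≠ 0 ∧ ord i p = 1)

omit D in
include hmem hres0 in
theorem mem_of_ord_zero {i : Fin (m + 1 + 1)} {u : modField K (L₀ * q ^ (m + 1))} (hu : u ≠ 0)
    (h : ord i u = 0) : ∃ hV : u ∈ Br.V i, Br.res i ⟨u, hV⟩ ≠ 0 := by
  have hV := (hmem i u hu).mpr h.ge
  exact ⟨hV, fun e => ((hres0 i u hV hu).mp e).ne' h⟩

omit D in
include hmem hres0 in
theorem ord_zero_of_res_ne {i : Fin (m + 1 + 1)} {u : modField K (L₀ * q ^ (m + 1))} (hu : u ≠ 0)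
    (hV : u ∈ Br.V i) (h : Br.res i ⟨u, hV⟩ ≠ 0) : ord i u = 0 := by
  have h1 := (hmem i u hu).mp hV
  rw [Ne, hres0 i u hV hu] at h
  omega

include hmul hmem hres0 hone in
theorem ord_map_of_res {i : Fin (m + 1 + 1)}
    (N : modField K (L₀ * q ^ (m + 1)) →* modField K (L₀ * q ^ (m + 1)))
    (hN0 : ∀ a, a ≠ 0 → N a ≠ 0)
    (hNc : ∀ w : A, N (algebraMap A (modField K (L₀ * q ^ (m + 1))) w) =
      algebraMap A (modField K (L₀ * q ^ (m + 1))) w ^ q)
    (hres : ∀ a (h : a ∈ Br.V i), ∃ hN : N a ∈ Br.V i,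
      Br.res i ⟨N a, hN⟩ = Br.res i ⟨a, h⟩ ^ q)
    {a : modField K (L₀ * q ^ (m + 1))} (ha : a ≠ 0) : ord i (N a) = q * ord i a := by
  obtain ⟨p, hp0, hp⟩ := hone i
  have key : ∀ {a}, a ≠ 0 → ord i (N a) = ord i (N p) * ord i a := fun {a} ha =>
    additive_eq_mul (g := fun a => ord i (N a))
      (fun a b ha hb => by rw [map_mul, hmul i _ _ (hN0 a ha) (hN0 b hb)]) (hmul i) hp0 hp
      (fun u hu h0 => by
        obtain ⟨hV, hne⟩ := mem_of_ord_zero hmem hres0 hu h0
        obtain ⟨hN, he⟩ := hres u hV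
        exact ord_zero_of_res_ne hmem hres0 (hN0 u hu) hN (he ▸ pow_ne_zero q hne)) ha
  obtain ⟨hV, hq0⟩ := D.res_natCast i
  set c := algebraMap A (modField K (L₀ * q ^ (m + 1))) (q : A) with hc
  have hc0 : c ≠ 0 := by
    haveI : CharZero K := charZero_of_injective_algebraMap (algebraMap ℚ K).injective
    haveI : CharZero (modField K (L₀ * q ^ (m + 1))) := charZero_of_injective_algebraMap
      (algebraMap K (modField K (L₀ * q ^ (m + 1)))).injective
    rw [hc, map_natCast]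
    exact Nat.cast_ne_zero.mpr hq.ne_zero
  have hpos := (hres0 i c hV hc0).mp hq0
  have h1 := key hc0
  rw [hc, hNc, ← hc, ← zpow_natCast, additive_zpow (hmul i) hc0] at h1
  rw [key ha, ← mul_right_cancel₀ hpos.ne' h1]

include hmul hmem hres0 hone in
/-- The field `ord_normα`. -/
theorem ord_normAlphaN (hm : 0 < m) {i : Fin (m + 1 + 1)} (hi : (i : ℕ) + 2 ≤ m + 1)
    {a : modField K (L₀ * q ^ (m + 1))} (ha : a ≠ 0) :
    ord i (normAlphaN K L₀ q m a) = q * ord i a :=
  D.ord_map_of_res hmul hmem hres0 hone _ (fun _ => normAlphaN_ne_zero)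
    (D.normAlphaN_algebraMap hm) (fun _ h => D.res_normAlphaN hm hi h) ha

include hmul hmem hres0 hone in
/-- The field `ord_normβ`. -/
theorem ord_normBetaN {ω : K'ˣ} (hω : IsPrimitiveRoot ω (q ^ (m + 2))) (hωη : ω ^ q = η)
    (hm : 0 < m) {i : Fin (m + 1 + 1)} (hi : 2 ≤ (i : ℕ))
    {a : modField K (L₀ * q ^ (m + 1))} (ha : a ≠ 0) :
    ord i (normBetaN K L₀ q m a) = q * ord i a :=
  D.ord_map_of_res hmul hmem hres0 hone _ (fun _ => normBetaN_ne_zero)
    (D.normBetaN_algebraMap hm) (fun _ h => D.res_normBetaN hω hωη hm hi h) ha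

include hmul hmem hres0 hone in
/-- The field `ord_normα_last`. -/
theorem ord_normAlphaN_last (hm : 0 < m) :
    ∃ l : ℤ, ∀ i : Fin (m + 1 + 1), (i : ℕ) + 1 = m + 1 → ∀ a, a ≠ 0 →
      ord (Fin.last (m + 1)) (normAlphaN K L₀ q m a) =
        ord (Fin.last (m + 1)) a + l * ord i a := by
  let i₀ : Fin (m + 1 + 1) := ⟨m, by omega⟩
  obtain ⟨p, hp0, hp⟩ := hone i₀
  let g : modField K (L₀ * q ^ (m + 1)) → ℤ := fun a =>
    ord (Fin.last (m + 1)) (normAlphaN K L₀ q m a) - ord (Fin.last (m + 1)) a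
  refine ⟨g p, fun i hi a ha => ?_⟩
  obtain rfl : i = i₀ := Fin.ext (by simp only [i₀]; omega)
  have key := additive_eq_mul (g := g)
    (fun a b ha hb => by
      simp only [g]
      rw [map_mul, hmul _ _ _ (normAlphaN_ne_zero ha) (normAlphaN_ne_zero hb), hmul _ _ _ ha hb]
      ring) (hmul i₀) hp0 hp
    (fun u hu h0 => by
      obtain ⟨hV, hne⟩ := mem_of_ord_zero hmem hres0 hu h0
      obtain ⟨hN, he⟩ := D.res_normAlphaN_div hm hi hu hV
      have h1 := ord_zero_of_res_ne hmem hres0 (div_ne_zero (normAlphaN_ne_zero hu) hu) hN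
        (he ▸ pow_ne_zero _ hne)
      have h2 := hmul (Fin.last (m + 1)) _ _ (div_ne_zero (normAlphaN_ne_zero hu) hu) hu
      rw [div_mul_cancel₀ _ hu, h1, zero_add] at h2
      simp only [g]
      omega) ha
  simp only [g] at key ⊢
  linarith

end ChartData

end Fermat.Agent.CarayolHigh
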