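/-
Assembly of the `Model` of `X₀(qⁿ L)` at a place over `q` from the constants, the embeddings, the
orders on the branches, the separators and the properties of the points.
-/
import Fermat.Agent.CarayolHigh.Chart
import Fermat.Agent.CarayolHigh.NormData
import Fermat.Agent.CarayolHigh.Points
import Fermat.Agent.CarayolHigh.Model
import Fermat.Agent.CarayolHigh.KeyJZero

set_option autoImplicit false
set_option linter.style.haveILetI false
set_option linter.unusedSectionVars false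

noncomputable section

open ModularCurve IsLocalRing
open Fermat.Agent.HK.Corr
open Fermat.Agent.Carayol

namespace Fermat.Agent.CarayolHigh

local notation "Qb" => AlgebraicClosure ℚ

variable {A₀ : ValuationSubring Qb} {K K' k : Type} [Field K] [Algebra ℚ K] [Algebra K Qb]
  [Field K'] [Algebra ℚ K'] [Field k] {L q m : ℕ} [NeZero L] [NeZero q]
  {π₀ : A₀ →+* k} {κ : K →+* K'} {ι : K' →+* Qb} {ω : K'ˣ} {hq : q.Prime} {hqL : ¬ q ∣ L}
  {φ : BranchIdx q (m + 1) → modField K (L * q ^ (m + 1)) →+* LaurentSeries K'}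
  {rep : Fin (m + 1 + 1) → BranchIdx q (m + 1)}
  {Br : Branches (modField K (L * q ^ (m + 1))) (Fin (m + 1 + 1))
    (fun _ => modularFunctionFieldFullC k L)}
  {ord : Fin (m + 1 + 1) → modField K (L * q ^ (m + 1)) → ℤ}

/-- The two charts. -/
def chartsOf (A₀ : ValuationSubring Qb) (K : Type) [Field K] [Algebra ℚ K] [Algebra K Qb]
    (L q n : ℕ) [NeZero L] [NeZero q] :
    Fin 2 → Subalgebra (constA A₀ K) (modField K (L * q ^ n))
  | 0 => chartRing (constA A₀ K) (jLevel K L q n)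
  | 1 => chartRing (constA A₀ K) (jLevel K L q n)⁻¹

/-- `q` at a point of a chart. -/
abbrev qPt (A₀ : ValuationSubring Qb) {K : Type} [Field K] [Algebra ℚ K] [Algebra K Qb]
    {L q n : ℕ} [NeZero L] [NeZero q] (c : Fin 2) : chartsOf A₀ K L q n c :=
  ⟨algebraMap (constA A₀ K) (modField K (L * q ^ n)) (q : constA A₀ K),
    (chartsOf A₀ K L q n c).algebraMap_mem _⟩

/-- The pairs of branches whose values are compared at a point on all branches. -/
def lastPair (n : ℕ) (i j : Fin (n + 1)) : Prop := (i : ℕ) + 1 = n ∧ j = Fin.last n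

/-- The branch fields: orders and separators. -/
structure OrdData (A₀ : ValuationSubring Qb)
    (Br : Branches (modField K (L * q ^ (m + 1))) (Fin (m + 1 + 1))
      (fun _ => modularFunctionFieldFullC k L))
    (ord : Fin (m + 1 + 1) → modField K (L * q ^ (m + 1)) → ℤ) : Prop where
  ord_mul : ∀ i a b, a ≠ 0 → b ≠ 0 → ord i (a * b) = ord i a + ord i b
  mem_iff : ∀ i a, a ≠ 0 → (a ∈ Br.V i ↔ 0 ≤ ord i a)
  res_eq_zero_iff : ∀ i a (h : a ∈ Br.V i), a ≠ 0 → (Br.res i ⟨a, h⟩ = 0 ↔ 0 < ord i a)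
  exists_ord_one : ∀ i, ∃ p : modField K (L * q ^ (m + 1)), p ≠ 0 ∧ ord i p = 1
  ord_zero_q : ord 0 (algebraMap (constA A₀ K) _ (q : constA A₀ K)) = 1
  ord_last_q : ord (Fin.last (m + 1)) (algebraMap (constA A₀ K) _ (q : constA A₀ K)) = 1
  exists_sep : ∀ i, ∃ e : modField K (L * q ^ (m + 1)),
    e ≠ 0 ∧ ord i e = 0 ∧ ∀ j, j ≠ i → 0 < ord j e

/-- The point fields: properties at both charts, and `j` finite where all branches meet. -/
structure PointData (A₀ : ValuationSubring Qb)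
    (Br : Branches (modField K (L * q ^ (m + 1))) (Fin (m + 1 + 1))
      (fun _ => modularFunctionFieldFullC k L)) : Prop where
  points : ∀ c (y : Ideal (chartsOf A₀ K L q (m + 1) c)) [y.IsMaximal], qPt A₀ c ∈ y →
    ChartPoint Br (chartsOf A₀ K L q (m + 1) c) (lastPair (m + 1)) y
  finite : ∀ (y : Ideal (chartsOf A₀ K L q (m + 1) 1)) [y.IsMaximal], qPt A₀ 1 ∈ y →
    (∀ i, LiesOnBranch Br _ y i) →
    (⟨(jLevel K L q (m + 1))⁻¹, self_mem_chartRing _⟩ : chartsOf A₀ K L q (m + 1) 1) ∉ y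

theorem omega_pow (hC : Consts A₀ q (m + 2) π₀ κ ι ω) : IsPrimitiveRoot (ω ^ q) (q ^ (m + 1)) :=
  hC.hη.pow (pow_pos hC.hq.pos _) (pow_succ' q (m + 1))

theorem jLevel_eq_jField (K : Type) [Field K] [Algebra ℚ K] (L q n : ℕ) [NeZero L] [NeZero q] :
    jField (L * q ^ n) = jLevel K L q n :=
  Subtype.ext (MF.Coeff.coeffEmb_jq_eq K)

/-- A complex embedding of the constants. -/
def constEmb (K : Type) [Field K] [Algebra K Qb] : K →+* ℂ :=
  ((IsAlgClosed.lift : Qb →ₐ[ℚ] ℂ) : Qb →+* ℂ).comp (algebraMap K Qb)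

theorem normAlphaN_mem_charts (c : Fin 2) {a : modField K (L * q ^ (m + 1))}
    (ha : a ∈ chartsOf A₀ K L q (m + 1) c) :
    normAlphaN K L q m a ∈ chartsOf A₀ K L q (m + 1) c := by
  have h := ChartData.normAlphaN_mem (K := K) (L₀ := L) (q := q) (m := m) (A := constA A₀ K) (a := a)
  rw [jLevel_eq_jField K L q (m + 1)] at h
  rcases Fin.exists_fin_two.mp ⟨c, rfl⟩ with rfl | rfl
  · exact h.1 ha
  · exact h.2 ha

theorem normBetaN_mem_charts (hC : Consts A₀ q (m + 2) π₀ κ ι ω) (hm : 0 < m)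
    (hfin : ∀ (y : Ideal (chartsOf A₀ K L q (m + 1) 1)) [y.IsMaximal], qPt A₀ 1 ∈ y →
      (∀ i, LiesOnBranch Br _ y i) →
      (⟨(jLevel K L q (m + 1))⁻¹, self_mem_chartRing _⟩ : chartsOf A₀ K L q (m + 1) 1) ∉ y)
    (c : Fin 2) (y : Ideal (chartsOf A₀ K L q (m + 1) c)) [y.IsMaximal] (hy : qPt A₀ c ∈ y)
    (hon : ∀ i, LiesOnBranch Br _ y i) {a : modField K (L * q ^ (m + 1))}
    (ha : a ∈ chartsOf A₀ K L q (m + 1) c) :
    ∃ r : chartsOf A₀ K L q (m + 1) c, r ∉ y ∧
      (r : modField K (L * q ^ (m + 1))) * normBetaN K L q m a ∈ chartsOf A₀ K L q (m + 1) c := by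
  have h0 := @ChartData.normBetaN_mem_zero K _ _ L q m _ _ (constA A₀ K) (constEmb K) hC.hq
  have h1 := @ChartData.normBetaN_mem_one K _ _ L q m _ _ (constA A₀ K) (constEmb K) hC.hq hm
  rw [jLevel_eq_jField K L q (m + 1)] at h0 h1
  rcases Fin.exists_fin_two.mp ⟨c, rfl⟩ with rfl | rfl
  · exact @h0 y ‹_› _ ha
  · exact @h1 y ‹_› hy (hfin y hy hon) _ ha

variable [IsDiscreteValuationRing (constA A₀ K)]

/-- The model. -/
def modelOf (hC : Consts A₀ q (m + 2) π₀ κ ι ω) (hm : 2 ≤ m)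
    (D : ChartData hq hqL (constRes π₀ ι) κ (ω ^ q) (constA A₀ K) φ rep Br
      (modularFunctionFieldFullC k L).val.toRingHom)
    (O : OrdData A₀ Br ord) (P : PointData A₀ Br) :
    Model (constA A₀ K) (modField K (L * q ^ (m + 1))) k (modularFunctionFieldFullC k L) (m + 1)
    where
  q := q
  hq := hq
  n_ge := by omega
  hinj := fun a b h => Subtype.ext ((algebraMap K (modField K (L * q ^ (m + 1)))).injective h)
  irreducible_q := hC.irreducible_q
  ρ := constRes π₀ (algebraMap K Qb)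
  ρ_surjective := fun z => hC.surj z
  algClosed := hC.algClosed
  Br := Br
  res_const := fun i w h => by
    obtain ⟨h', he⟩ := D.ev_res_const i w
    refine Subtype.ext (he.trans ?_)
    have hw : constRes π₀ ι ⟨κ w, D.hA w w.2⟩ = constRes π₀ (algebraMap K Qb) w :=
      congrArg π₀ (Subtype.ext (RingHom.congr_fun hC.comp w))
    rw [hw, IntermediateField.coe_algebraMap_apply]
    rw [algebraMap_laurentSeries_eq_single]
    rfl
  ord := ord
  ord_mul := O.ord_mul
  mem_iff := O.mem_iff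
  res_eq_zero_iff := O.res_eq_zero_iff
  exists_ord_one := O.exists_ord_one
  ord_zero_q := O.ord_zero_q
  ord_last_q := O.ord_last_q
  x := jLevel K L q (m + 1)
  x_ne_zero := fun h => MF.Coeff.transcendental_jElem K (L * q ^ (m + 1)) (by
    rw [show MF.Coeff.jElem K (L * q ^ (m + 1)) = 0 from h]; exact isAlgebraic_zero)
  R := chartsOf A₀ K L q (m + 1)
  chart := Fin.forall_fin_two.mpr
    ⟨(D.chart false hC.irreducible_q).1, (D.chart true hC.irreducible_q).1⟩
  x_mem := self_mem_chartRing _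
  x_inv_mem := self_mem_chartRing _
  finite₀ := D.chart_facts.1
  frac := Fin.forall_fin_two.mpr ⟨D.chart_facts.2.1, D.chart_facts.2.2.1⟩
  glue₀ := D.chart_facts.2.2.2.1
  glue₁ := D.chart_facts.2.2.2.2.1
  const := D.chart_facts.2.2.2.2.2
  exists_sep := O.exists_sep
  ufm := fun c y _ hy => (P.points c y hy).ufm
  branchValue := fun c y _ hy i hi => (P.points c y hy).branchValue i hi
  dichotomy := fun c y _ hy => (P.points c y hy).dichotomy.imp id fun h =>
    ⟨h.1, fun i hi => h.2 i (Fin.last (m + 1)) ⟨hi, rfl⟩⟩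
  normα := normAlphaN K L q m
  normβ := normBetaN K L q m
  normα_ne_zero := fun _ => normAlphaN_ne_zero
  normβ_ne_zero := fun _ => normBetaN_ne_zero
  normα_mem := fun c _ ha => normAlphaN_mem_charts c ha
  normβ_mem := fun c y _ hy hon _ ha => normBetaN_mem_charts hC (by omega) P.finite c y hy hon ha
  normα_const := fun w => D.normAlphaN_algebraMap (by omega) w
  normβ_const := fun w => D.normBetaN_algebraMap (by omega) w
  ord_normα := fun i hi a ha =>
    D.ord_normAlphaN O.ord_mul O.mem_iff O.res_eq_zero_iff O.exists_ord_one (by omega) hi ha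
  ord_normβ := fun i hi a ha =>
    D.ord_normBetaN O.ord_mul O.mem_iff O.res_eq_zero_iff O.exists_ord_one hC.hη rfl (by omega) hi ha
  ord_normα_last :=
    D.ord_normAlphaN_last O.ord_mul O.mem_iff O.res_eq_zero_iff O.exists_ord_one (by omega)
  res_normα := fun i hi _ h _ => (D.res_normAlphaN (by omega) hi h).2
  res_normβ := fun i hi _ h _ => (D.res_normBetaN hC.hη rfl (by omega) hi h).2
  res_normα_last := fun i hi _ hl h _ => (D.res_normAlphaN_last (by omega) hi hl h).2

/-- The data of the model exists. -/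
def ModelDataExists : Prop :=
  ∀ (L q m : ℕ) [NeZero L] [NeZero q] (hq : q.Prime) (hqL : ¬ q ∣ L),
    ((q ≠ 2 ∧ 4 ∣ L) ∨ (q = 2 ∧ 9 ∣ L)) → 2 ≤ m →
    ∀ (A₀ : ValuationSubring Qb) (K K' k : Type) [Field K] [Algebra ℚ K] [Algebra K Qb] [Field K']
      [Algebra ℚ K'] [Field k] (π₀ : A₀ →+* k) (κ : K →+* K') (ι : K' →+* Qb) (ω : K'ˣ),
      Consts A₀ q (m + 2) π₀ κ ι ω →
    ∀ [IsDiscreteValuationRing (constA A₀ K)],
      ∃ (φ : BranchIdx q (m + 1) → modField K (L * q ^ (m + 1)) →+* LaurentSeries K')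
        (rep : Fin (m + 1 + 1) → BranchIdx q (m + 1))
        (Br : Branches (modField K (L * q ^ (m + 1))) (Fin (m + 1 + 1))
          (fun _ => modularFunctionFieldFullC k L))
        (ord : Fin (m + 1 + 1) → modField K (L * q ^ (m + 1)) → ℤ),
        ChartData hq hqL (constRes π₀ ι) κ (ω ^ q) (constA A₀ K) φ rep Br
          (modularFunctionFieldFullC k L).val.toRingHom ∧
        OrdData A₀ Br ord ∧ PointData A₀ Br

theorem modelExists_of_data (H : ModelDataExists) : ModelExists := by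
  intro L q n _ _ _ _ hq hqL hcase hn A₀ K K' k _ _ _ _ _ _ π₀ κ ι η hC _ h1 h2
  obtain ⟨m, rfl⟩ : ∃ m, n = m + 1 := ⟨n - 1, by omega⟩
  obtain ⟨φ, rep, Br, ord, D, O, P⟩ :=
    H L q m hq hqL hcase (by omega) A₀ K K' k π₀ κ ι η hC
  exact ⟨modularFunctionFieldFullC k L, inferInstance, inferInstance, modelOf hC (by omega) D O P,
    rfl, rfl, rfl⟩

end Fermat.Agent.CarayolHigh
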