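/-
The data of the model of `X₀(qⁿ L)` exists, given the properties of the points of the special fibre.
-/
import Fermat.Agent.CarayolHigh.ModelInst
import Fermat.Agent.CarayolHigh.BranchData

set_option autoImplicit false
set_option linter.style.haveILetI false
set_option linter.unusedSectionVars false

noncomputable section

open ModularCurve IsLocalRing
open Fermat.Agent.HK.Corr
open Fermat.Agent.Carayol

namespace Fermat.Agent.CarayolHigh

local notation "Qb" => AlgebraicClosure ℚ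

section Facts

variable {A₀ : ValuationSubring Qb} {K K' k : Type} [Field K] [Algebra ℚ K] [Algebra K Qb]
  [Field K'] [Algebra ℚ K'] [Field k] {q e : ℕ}
  {π₀ : A₀ →+* k} {κ : K →+* K'} {ι : K' →+* Qb} {ω : K'ˣ} (hC : Consts A₀ q e π₀ κ ι ω)

include hC

theorem Consts.mem_constO_iff (a : K) : κ a ∈ constO A₀ ι ↔ a ∈ constA A₀ K := by
  show ι (κ a) ∈ A₀ ↔ algebraMap K Qb a ∈ A₀
  rw [← RingHom.comp_apply, hC.comp]

theorem Consts.constRes_map (a : constA A₀ K) (h : κ (a : K) ∈ constO A₀ ι) :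
    constRes π₀ ι ⟨κ (a : K), h⟩ = constRes π₀ (algebraMap K Qb) a :=
  congrArg π₀ (Subtype.ext (RingHom.congr_fun hC.comp (a : K)))

theorem Consts.constRes_eq_zero_iff (c : constO A₀ ι) : constRes π₀ ι c = 0 ↔ ¬ IsUnit c := by
  show π₀ ⟨ι c, c.2⟩ = 0 ↔ _
  rw [hC.π₀_eq_zero_iff, not_iff_not]
  refine ⟨fun hu => ?_, fun hu => hu.map (Fermat.Agent.Carayol.constIncl A₀ ι)⟩
  obtain ⟨b, hb⟩ := hu.exists_right_inv
  have hb' : ι c * (b : Qb) = 1 := congrArg Subtype.val hb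
  have hc0 : (c : K') ≠ 0 := fun h => by rw [h, map_zero, zero_mul] at hb'; exact zero_ne_one hb'
  have hmem : (c : K')⁻¹ ∈ constO A₀ ι := by
    show ι (c : K')⁻¹ ∈ A₀
    rw [map_inv₀, inv_eq_of_mul_eq_one_right hb']
    exact b.2
  exact IsUnit.of_mul_eq_one (⟨_, hmem⟩ : constO A₀ ι) (Subtype.ext (mul_inv_cancel₀ hc0))

theorem Consts.constRes_map_eq_zero_iff (a : constA A₀ K) :
    constRes π₀ (algebraMap K Qb) a = 0 ↔ ¬ IsUnit a := by
  haveI := hC.dvrA
  haveI := hC.charP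
  refine ⟨fun h hu => (hu.map (constRes π₀ (algebraMap K Qb))).ne_zero h, fun hu => ?_⟩
  obtain ⟨b, rfl⟩ : (q : constA A₀ K) ∣ a := by
    rw [← Ideal.mem_span_singleton, ← hC.irreducible_q.maximalIdeal_eq]
    exact hu
  rw [map_mul, map_natCast, CharP.cast_eq_zero, zero_mul]

theorem Consts.sigma_pow (u : ℕ) (hu : u.Coprime q) :
    ∃ (σ : K' →+* K') (hσ : ∀ c ∈ constO A₀ ι, σ c ∈ constO A₀ ι),
      σ.comp κ = κ ∧ σ ((ω ^ q : K'ˣ) : K') = ((ω ^ q : K'ˣ) : K') ^ u ∧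
        ∀ c : constO A₀ ι, constRes π₀ ι ⟨σ c, hσ c c.2⟩ = constRes π₀ ι c := by
  obtain ⟨σ, hσ, h1, h2, h3⟩ := hC.sigma u hu
  refine ⟨σ, hσ, h1, ?_, h3⟩
  rw [Units.val_pow_eq_pow_val, map_pow, h2, ← pow_mul, ← pow_mul, mul_comm]

end Facts

/-- What remains: the properties of the points, for any branches given by embeddings. -/
def PointsExist : Prop :=
  ∀ (L q m : ℕ) [NeZero L] [NeZero q] (hq : q.Prime) (hqL : ¬ q ∣ L),
    ((q ≠ 2 ∧ 4 ∣ L) ∨ (q = 2 ∧ 9 ∣ L)) → 2 ≤ m →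
    ∀ (A₀ : ValuationSubring Qb) (K K' k : Type) [Field K] [Algebra ℚ K] [Algebra K Qb] [Field K']
      [Algebra ℚ K'] [Field k] (π₀ : A₀ →+* k) (κ : K →+* K') (ι : K' →+* Qb) (ω : K'ˣ),
      Consts A₀ q (m + 2) π₀ κ ι ω →
    ∀ (φ : BranchIdx q (m + 1) → modField K (L * q ^ (m + 1)) →+* LaurentSeries K')
      (Br : Branches (modField K (L * q ^ (m + 1))) (Fin (m + 1 + 1))
        (fun _ => modularFunctionFieldFullC k L)),
      ChartData hq hqL (constRes π₀ ι) κ (ω ^ q) (constA A₀ K) φ (branchRep hq) Br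
        (modularFunctionFieldFullC k L).val.toRingHom →
      PointData A₀ Br

theorem modelDataExists_of_points (H : PointsExist) : ModelDataExists := by
  intro L q m _ _ hq hqL hcase hm A₀ K K' k _ _ _ _ _ _ π₀ κ ι ω hC _
  let ιC : K' →+* ℂ := ((IsAlgClosed.lift : Qb →ₐ[ℚ] ℂ) : Qb →+* ℂ).comp ι
  haveI := hC.dvr
  haveI := hC.charP
  have hA : ∀ a ∈ constA A₀ K, κ a ∈ constO A₀ ι := fun a ha => (hC.mem_constO_iff a).mpr ha
  obtain ⟨φ, Br, D⟩ := exists_chartData (hq := hq) (hqL := hqL) (η := ω ^ q) (n := m + 1)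
    (L₀ := L) (O := constO A₀ ι) (A := constA A₀ K) (π := constRes π₀ ι) (κ := κ)
    ιC (constEmb K) (by omega) hC.constRes_eq_zero_iff hC.dvr hC.dvrA hC.charP hA
    (fun a ha => (hC.mem_constO_iff a).mp ha)
    (fun a => by rw [hC.constRes_map a]; exact hC.constRes_map_eq_zero_iff a)
    (fun y => by
      obtain ⟨a, ha⟩ := hC.surj y
      exact ⟨a, a.2, (hC.constRes_map a _).trans ha⟩)
    (fun h => hqL ((CharP.cast_eq_zero_iff k q L).mp h)) (omega_pow hC) hC.irreducible_q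
    hC.sigma_pow
  obtain ⟨ϖ, hϖ⟩ := IsDiscreteValuationRing.exists_irreducible (constO A₀ ι)
  obtain ⟨ord, _, -, -, hmul, hmem, hres, hone, h0, hn⟩ := D.exists_ord hϖ hC.irreducible_q
  refine ⟨φ, branchRep hq, Br, ord, D, ⟨hmul, hmem, hres, hone, ?_, ?_, fun i =>
    D.exists_sep ιC (constEmb K) hres hmem i⟩,
    H L q m hq hqL hcase hm A₀ K K' k π₀ κ ι ω hC φ Br D⟩
  · rwa [map_natCast]
  · rwa [map_natCast]

theorem modelExists_of_points (H : PointsExist) : ModelExists :=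
  modelExists_of_data (modelDataExists_of_points H)

end Fermat.Agent.CarayolHigh
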