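/-
The point fields of the model of `X₀(qⁿ L)` on the chart of `1/j`, given those on the finite chart.
-/
import Fermat.Agent.CarayolHigh.CuspPoints
import Fermat.Agent.CarayolHigh.ModelExists

set_option autoImplicit false
set_option linter.style.haveILetI false
set_option linter.unusedSectionVars false

noncomputable section

open ModularCurve AlgebraicCurve
open Fermat.Agent.HK.Corr Fermat.Agent.RED
open Fermat.Agent.Carayol

namespace Fermat.Agent.CarayolHigh

local notation "Qb" => AlgebraicClosure ℚ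

variable {A₀ : ValuationSubring Qb} {K K' k : Type} [Field K] [Algebra ℚ K] [Algebra K Qb]
  [Field K'] [Algebra ℚ K'] [Field k] {L q : ℕ} [NeZero L] [NeZero q]
  {π₀ : A₀ →+* k} {κ : K →+* K'} {ι : K' →+* Qb} {hq : q.Prime} {hqL : ¬ q ∣ L}

section Chart

variable {n : ℕ} {η : K'ˣ} {φ : BranchIdx q n → modField K (L * q ^ n) →+* LaurentSeries K'}
  {rep : Fin (n + 1) → BranchIdx q n}
  {Br : Branches (modField K (L * q ^ n)) (Fin (n + 1)) (fun _ => modularFunctionFieldFullC k L)}
  (D : ChartData hq hqL (constRes π₀ ι) κ η (constA A₀ K) φ rep Br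
    (modularFunctionFieldFullC k L).val.toRingHom)

include D

/-- The chart at infinity is a chart. -/
theorem ChartData.isChart_inv (hAq : Irreducible (q : constA A₀ K)) :
    IsChart Br (q : constA A₀ K) (Carayol.chartRing (constA A₀ K) (jLevel K L q n)⁻¹) := by
  simpa using (D.chart true hAq).1

/-- A function bounded on all branches whose multiple by `q` is in the chart is in the chart. -/
theorem ChartData.divCriterion_inv (hAq : Irreducible (q : constA A₀ K)) :
    DivCriterion Br (q : constA A₀ K)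
      (Carayol.chartRing (constA A₀ K) (jLevel K L q n)⁻¹) := by
  intro a ha hV
  have h : ∀ z, z ∈ Carayol.chartRing (constA A₀ K) (jLevel K L q n)⁻¹ ↔
      z ∈ coordRing K (jLevel K L q n)⁻¹ ∧ ∀ i, z ∈ Br.V i := fun z => by
    simpa using (D.chart true hAq).2 z
  refine (h a).mpr ⟨?_, hV⟩
  have : CharZero K := charZero_of_injective_algebraMap (algebraMap ℚ K).injective
  have h1 := mul_mem ((coordRing K (jLevel K L q n)⁻¹).algebraMap_mem ((q : K)⁻¹)) ((h _).mp ha).1
  rwa [map_natCast (algebraMap (constA A₀ K) _), ← map_natCast (algebraMap K (modField K (L * q ^ n))),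
    ← mul_assoc, ← map_mul, inv_mul_cancel₀ (Nat.cast_ne_zero.mpr hq.ne_zero), map_one,
    one_mul] at h1

end Chart

variable {m : ℕ} {ω : K'ˣ} {φ : BranchIdx q (m + 1) → modField K (L * q ^ (m + 1)) →+* LaurentSeries K'}
  {rep : Fin (m + 1 + 1) → BranchIdx q (m + 1)}
  {Br : Branches (modField K (L * q ^ (m + 1))) (Fin (m + 1 + 1))
    (fun _ => modularFunctionFieldFullC k L)}

/-- **The point fields from those of the finite chart.** -/
theorem pointData_of_finite (hC : Consts A₀ q (m + 2) π₀ κ ι ω) (hm : 1 ≤ m)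
    (D : ChartData hq hqL (constRes π₀ ι) κ (ω ^ q) (constA A₀ K) φ rep Br
      (modularFunctionFieldFullC k L).val.toRingHom)
    (h0 : ∀ (y : Ideal (chartsOf A₀ K L q (m + 1) 0)) [y.IsMaximal], qPt A₀ 0 ∈ y →
      ChartPoint Br (chartsOf A₀ K L q (m + 1) 0) (lastPair (m + 1)) y) :
    PointData A₀ Br := by
  have := hC.dvrA
  let cK' : K' →+* ℂ := ((IsAlgClosed.lift : Qb →ₐ[ℚ] ℂ) : Qb →+* ℂ).comp ι
  have hnI := hC.normalInv L D.hL hqL
  have hR₀ : IsChart Br (q : constA A₀ K)
      (Carayol.chartRing (constA A₀ K) (jLevel K L q (m + 1))) :=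
    D.isChart_finite hC.irreducible_q
  have h1 : ∀ (y : Ideal (ChartData.chartN A₀ (jLevel K L q (m + 1))⁻¹)) [y.IsMaximal],
      (⟨algebraMap (constA A₀ K) _ (q : constA A₀ K), Subalgebra.algebraMap_mem _ _⟩ :
        ChartData.chartN A₀ (jLevel K L q (m + 1))⁻¹) ∈ y →
      ChartPoint Br (ChartData.chartN A₀ (jLevel K L q (m + 1))⁻¹) (lastPair (m + 1)) y ∧
      ((∀ i, LiesOnBranch Br _ y i) →
        (⟨(jLevel K L q (m + 1))⁻¹, self_mem_chartRing _⟩ :
          ChartData.chartN A₀ (jLevel K L q (m + 1))⁻¹) ∉ y) := fun y _ hy =>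
    ⟨D.chartPoint_inv hC cK' (by omega) hnI hR₀ (D.isChart_inv hC.irreducible_q)
      (D.divCriterion_inv hC.irreducible_q) h0 y hy,
    D.notMem_of_onAllBranches hC cK' (by omega) hnI (D.isChart_inv hC.irreducible_q) y hy⟩
  exact ⟨Fin.forall_fin_two.mpr ⟨fun y _ hy => h0 y hy, fun y hm hy => (@h1 y hm hy).1⟩,
    fun y hm hy hall => (@h1 y hm hy).2 hall⟩

end Fermat.Agent.CarayolHigh
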