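import Fermat.Agent.CarayolHigh.BranchEmb
import Fermat.Agent.Carayol.Identity
import Mathlib.RingTheory.Polynomial.Cyclotomic.Eval

/-!
The generator of a branch at an ordinary point of the chart of `X₀(qⁿ L)`.

For `0 < i < n` the difference of the two coordinates placed symmetrically about `i` is, on the
branch `i`, `qExpand (qScale μ T - T)` for a primitive `q^(min i (n-i))`-th root of unity `μ`; its
`φ(q^(min i (n-i)))`-th power is `q` times a series with residue a constant times `(θ T)^φ`, and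
such a power of `θ T` does not vanish at the affine points.
-/

set_option autoImplicit false

noncomputable section

open HahnSeries ModularCurve Fermat.Agent.Igusa Fermat.Agent.MF

namespace Fermat.Agent.CarayolHigh

variable {O k : Type*} [CommRing O] [Field k] (φ : O →+* k)

/-- `μ^m - 1 = (μ - 1) g` with `g ≡ m`. -/
theorem exists_zpow_sub_one_eq {μ : Oˣ} (hμ : φ μ = 1) (m : ℤ) :
    ∃ g : O, ((μ ^ m : Oˣ) : O) - 1 = ((μ : O) - 1) * g ∧ φ g = m := by
  have hμ' : φ ((μ⁻¹ : Oˣ) : O) = 1 := by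
    have h := congrArg φ μ.mul_inv
    rwa [map_mul, hμ, one_mul, map_one] at h
  induction m using Int.induction_on with
  | zero => exact ⟨0, by simp, by simp⟩
  | succ m ih =>
    obtain ⟨g, hg, hgm⟩ := ih
    refine ⟨(μ : O) * g + 1, ?_, by simp [hμ, hgm]⟩
    rw [zpow_add_one, Units.val_mul]
    linear_combination (μ : O) * hg
  | pred m ih =>
    obtain ⟨g, hg, hgm⟩ := ih
    refine ⟨((μ⁻¹ : Oˣ) : O) * (g - 1), ?_, by simp [hμ', hgm]⟩
    rw [zpow_sub_one, Units.val_mul]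
    have h := μ.mul_inv
    linear_combination ((μ⁻¹ : Oˣ) : O) * hg + h

/-- `T(μQ) - T(Q) = (μ - 1) y` with `y ≡ θT`. -/
theorem exists_qScale_sub_eq {μ : Oˣ} (hμ : φ μ = 1) (x : LaurentSeries O) :
    ∃ y : LaurentSeries O, qScale μ x - x = HahnSeries.C ((μ : O) - 1) * y ∧
      coeffMap φ y = thetaL (coeffMap φ x) := by
  choose g hg hgm using exists_zpow_sub_one_eq φ hμ
  refine ⟨HahnSeries.mk (fun m => g m * x.coeff m)
    (x.isPWO_support.mono fun m hm => ?_), ?_, ?_⟩
  · simp only [Function.mem_support, mem_support] at hm ⊢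
    exact fun h => hm (by rw [h, mul_zero])
  · ext m
    rw [coeff_sub, qScale_coeff, C_apply, coeff_single_zero_mul]
    change _ = ((μ : O) - 1) * (g m * x.coeff m)
    linear_combination x.coeff m * hg m
  · ext m
    simp [hgm]

/-- `(μ - 1) ^ φ(q^(s+1)) v = q` with `v` a unit modulo `q`. -/
theorem exists_totient_pow_eq [IsDomain O] {q : ℕ} [Fact q.Prime] [CharP k q] {s : ℕ} {μ : O}
    (hμ : IsPrimitiveRoot μ (q ^ (s + 1))) :
    φ μ = 1 ∧ ∃ v : O, φ v ≠ 0 ∧ v * (μ - 1) ^ (q ^ (s + 1)).totient = (q : O) := by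
  classical
  have hq : q.Prime := Fact.out
  have hone : φ μ = 1 := iterateFrobenius_inj k q (s + 1) (by
    rw [iterateFrobenius_def, iterateFrobenius_def, ← map_pow, hμ.pow_eq_one, map_one, one_pow])
  refine ⟨hone, ?_⟩
  have hroot : ∀ r ∈ primitiveRoots (q ^ (s + 1)) O, ∃ g : O, 1 - r = (1 - μ) * g ∧ φ g ≠ 0 := by
    intro r hr
    have hr' := (mem_primitiveRoots (pow_pos hq.pos _)).mp hr
    have : NeZero (q ^ (s + 1)) := ⟨pow_ne_zero _ hq.ne_zero⟩
    obtain ⟨a, -, rfl⟩ := hμ.eq_pow_of_pow_eq_one hr'.pow_eq_one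
    refine ⟨∑ j ∈ Finset.range a, μ ^ j, (mul_neg_geom_sum μ a).symm, ?_⟩
    rw [map_sum]
    simp only [map_pow, hone, one_pow, Finset.sum_const, Finset.card_range, nsmul_eq_mul, mul_one]
    intro h
    have h1 := (hμ.pow_iff_coprime (pow_pos hq.pos _) a).mp hr'
    exact hq.coprime_iff_not_dvd.mp ((Nat.coprime_pow_right_iff (Nat.succ_pos s) a q).mp h1).symm
      ((CharP.cast_eq_zero_iff k q a).mp h)
  choose! g hg hgne using hroot
  have h := congrArg (Polynomial.eval 1) (Polynomial.cyclotomic_eq_prod_X_sub_primitiveRoots hμ)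
  rw [Polynomial.eval_one_cyclotomic_prime_pow, Polynomial.eval_prod] at h
  simp only [Polynomial.eval_sub, Polynomial.eval_X, Polynomial.eval_C] at h
  rw [Finset.prod_congr rfl hg, Finset.prod_mul_distrib, Finset.prod_const,
    hμ.card_primitiveRoots] at h
  refine ⟨(-1) ^ (q ^ (s + 1)).totient * ∏ r ∈ primitiveRoots (q ^ (s + 1)) O, g r, ?_, ?_⟩
  · rw [map_mul, map_pow, map_neg, map_one, map_prod]
    exact mul_ne_zero (pow_ne_zero _ (neg_ne_zero.mpr one_ne_zero))
      (Finset.prod_ne_zero_iff.mpr hgne)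
  · rw [show μ - 1 = (-1) * (1 - μ) by ring, mul_pow, h]
    have h1 : ((-1 : O) ^ (q ^ (s + 1)).totient) * (-1) ^ (q ^ (s + 1)).totient = 1 := by
      rw [← mul_pow, neg_one_mul, neg_neg, one_pow]
    linear_combination ((∏ r ∈ primitiveRoots (q ^ (s + 1)) O, g r) *
      (1 - μ) ^ (q ^ (s + 1)).totient) * h1

/-- **The turning difference.** Its power is `q` times a series with residue `c (θT)^φ`. -/
theorem exists_turn_pow [IsDomain O] {q : ℕ} [Fact q.Prime] [CharP k q] {s : ℕ} {μ : Oˣ}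
    (hμ : IsPrimitiveRoot (μ : O) (q ^ (s + 1))) (N : ℕ) [NeZero N] (x : LaurentSeries O) :
    ∃ (v : O) (w : LaurentSeries O), φ v ≠ 0 ∧
      HahnSeries.C v * qExpand O N (qScale μ x - x) ^ (q ^ (s + 1)).totient =
        HahnSeries.C (q : O) * w ∧
      coeffMap φ w = qExpand k N (thetaL (coeffMap φ x) ^ (q ^ (s + 1)).totient) := by
  obtain ⟨hone, v, hv, hvq⟩ := exists_totient_pow_eq φ hμ
  obtain ⟨y, hy, hyθ⟩ := exists_qScale_sub_eq φ hone x
  refine ⟨v, qExpand O N (y ^ (q ^ (s + 1)).totient), hv, ?_, ?_⟩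
  · rw [← map_pow (qExpand O N), hy, mul_pow, map_mul (qExpand O N), ← map_pow HahnSeries.C,
      ← mul_assoc, C_apply, C_apply, qExpand_single, mul_zero, single_mul_single, add_zero, hvq]
    rfl
  · rw [coeffMap_qExpand, map_pow, hyθ]

section Branch

variable {R : Type*} [CommRing R] {q : ℕ} [NeZero q]

theorem qExpand_pow_congr {a b : ℕ} (h : a = b) (x : LaurentSeries R) :
    qExpand R (q ^ a) x = qExpand R (q ^ b) x := by subst h; rfl

/-- For `2 i ≤ n`: the coordinates `2 i` and `0` on the branch `i`. -/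
theorem branchTerm_turn_low {n i : ℕ} (hi : 1 ≤ i) (_hin : 2 * i ≤ n) (ζ : Rˣ)
    (x : LaurentSeries R) :
    branchTerm n i ζ q (2 * i) x - branchTerm n i ζ q 0 x =
      qExpand R (q ^ n) (qScale (ζ ^ q ^ (n - i)) x - x) := by
  rw [branchTerm, branchTerm, if_neg (by omega), if_pos (Nat.zero_le _), map_sub,
    qExpand_pow_congr (show n + 2 * i - 2 * i = n by omega),
    qExpand_pow_congr (show n + 0 = n from rfl), show 2 * i - i = i by omega]

/-- For `n ≤ 2 i`: the coordinates `n` and `2 i - n` on the branch `i`. -/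
theorem branchTerm_turn_high {n i : ℕ} (hin : n ≤ 2 * i) (hi : i < n) (ζ : Rˣ)
    (x : LaurentSeries R) :
    branchTerm n i ζ q n x - branchTerm n i ζ q (2 * i - n) x =
      qExpand R (q ^ (2 * i)) (qScale (ζ ^ q ^ i) x - x) := by
  rw [branchTerm, branchTerm, if_neg (by omega), if_pos (by omega), map_sub,
    qExpand_pow_congr (show n + 2 * i - n = 2 * i by omega),
    qExpand_pow_congr (show n + (2 * i - n) = 2 * i by omega), show n - (n - i) = i by omega]

/-- The root of unity of the turning difference is primitive of order `q^r`. -/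
theorem isPrimitiveRoot_turn {n r : ℕ} (hr : r ≤ n) {ζ : Rˣ}
    (hζ : IsPrimitiveRoot (ζ : R) (q ^ n)) :
    IsPrimitiveRoot ((ζ ^ q ^ (n - r) : Rˣ) : R) (q ^ r) := by
  rw [Units.val_pow_eq_pow_val]
  exact hζ.pow (pow_pos (NeZero.pos q) n) (by rw [← _root_.pow_add, Nat.sub_add_cancel hr])

end Branch

section Nonvanishing

open Carayol

variable {N₀ : ℕ} (H : Haupt N₀) {k : Type*} [Field k] {Bb : Type*} [CommRing Bb] [Algebra k Bb]
  (ψ : Bb →ₐ[k] LaurentSeries k) (hψ : Function.Injective ψ)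

include hψ in
/-- A function with residue `s · c · (θt)^((q-1)M)` does not vanish where `s` and `D(t)` do not. -/
theorem apply_ne_zero_of_theta_pow {q : ℕ} (t d : Bb) (ht : ψ t = H.tBar k)
    (hd : ψ d * Carayol.deltaSeries k ^ (q - 1) = 1) {a s : Bb} {c : k} (hc : c ≠ 0) {M : ℕ}
    (ha : ψ a = ψ s * algebraMap k (LaurentSeries k) c * thetaL (H.tBar k) ^ ((q - 1) * M))
    (π : Bb →ₐ[k] k) (hD : evalZ (π t) H.D ≠ 0) (hs : π s ≠ 0) : π a ≠ 0 := by
  have hev : ∀ Q : Polynomial ℤ, ψ (evalZ t Q) = evalZ (H.tBar k) Q := fun Q => by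
    rw [← ht]; exact map_evalZ ψ.toRingHom t Q
  have hid : a ^ 6 * evalZ t H.D ^ ((q - 1) * M) * d ^ M =
      s ^ 6 * algebraMap k Bb c ^ 6 * evalZ t H.G ^ (6 * ((q - 1) * M)) := by
    refine hψ ?_
    simp only [map_mul, map_pow, hev, ha, AlgHom.commutes]
    have h6 : thetaL (H.tBar k) ^ (6 * ((q - 1) * M)) * evalZ (H.tBar k) H.D ^ ((q - 1) * M) =
        evalZ (H.tBar k) H.G ^ (6 * ((q - 1) * M)) * Carayol.deltaSeries k ^ ((q - 1) * M) := by
      rw [pow_mul _ 6 ((q - 1) * M), ← mul_pow, H.thetaL_tBar_pow_six, mul_pow, ← pow_mul]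
    have hdM : Carayol.deltaSeries k ^ ((q - 1) * M) * ψ d ^ M = 1 := by
      rw [pow_mul, ← mul_pow, mul_comm, hd, one_pow]
    linear_combination (ψ s ^ 6 * algebraMap k (LaurentSeries k) c ^ 6 * ψ d ^ M) * h6 +
      (ψ s ^ 6 * algebraMap k (LaurentSeries k) c ^ 6 *
        evalZ (H.tBar k) H.G ^ (6 * ((q - 1) * M))) * hdM
  intro h0
  have h := congrArg π hid
  have hπ : ∀ Q : Polynomial ℤ, π (evalZ t Q) = evalZ (π t) Q := fun Q => map_evalZ π.toRingHom t Q
  simp only [map_mul, map_pow, hπ, h0, zero_pow (by norm_num : (6 : ℕ) ≠ 0), zero_mul,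
    AlgHom.commutes] at h
  exact mul_ne_zero (mul_ne_zero (pow_ne_zero _ hs) (pow_ne_zero _ hc))
    (pow_ne_zero _ (H.G_eval_ne_zero k hD)) h.symm

include hψ in
/-- The case of a prime power: `φ(q^(r+1)) = (q-1) q^r`. -/
theorem apply_ne_zero_of_theta_totient {q : ℕ} (hq : q.Prime) (t d : Bb) (ht : ψ t = H.tBar k)
    (hd : ψ d * Carayol.deltaSeries k ^ (q - 1) = 1) {a s : Bb} {c : k} (hc : c ≠ 0) {r : ℕ}
    (ha : ψ a = ψ s * algebraMap k (LaurentSeries k) c *
      thetaL (H.tBar k) ^ (q ^ (r + 1)).totient)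
    (π : Bb →ₐ[k] k) (hD : evalZ (π t) H.D ≠ 0) (hs : π s ≠ 0) : π a ≠ 0 := by
  refine apply_ne_zero_of_theta_pow H ψ hψ t d ht hd hc (M := q ^ r) ?_ π hD hs
  rw [ha, Nat.totient_prime_pow_succ hq, mul_comm (q - 1)]

end Nonvanishing

end Fermat.Agent.CarayolHigh
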