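import Fermat.Agent.CarayolHigh.BranchEmb
import Fermat.Agent.CarayolHigh.OrdinaryTurn
import Fermat.Agent.Carayol.ResidueField

/-!
Residue zero on a branch of `X₀(qⁿ L)` means divisible by the uniformiser of the constants the
branch really uses.

After taking the variable `x^(q^min(n, 2i))` and scaling it by a root of unity, the branch `i` has
coefficients in `A[μ]`, `μ` a primitive `q^r`-th root of unity, `r = min i (n - i)`. In `A[μ]`
residue zero is divisibility by `μ - 1`, so `a b^(E-1) / q` is integral on the branch whenever `a`,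
`b` have residue zero there, `E = φ(q^r)`.
-/

set_option autoImplicit false
set_option linter.unusedSectionVars false

noncomputable section

open HahnSeries ModularCurve
open Fermat.Agent.Igusa Fermat.Agent.RED.Spec Fermat.Agent.HK.Corr Fermat.Agent.Carayol

namespace Fermat.Agent.CarayolHigh

section Over

variable {K' k : Type} [Field K'] [Field k] {O : ValuationSubring K'}

/-- Series with coefficients in a subring of `O`. -/
def overSeries (S : Subring O) : LaurentSeries S →+* LaurentSeries K' :=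
  (intSeries O).comp (coeffMap S.subtype)

theorem overSeries_injective (S : Subring O) : Function.Injective (overSeries S) :=
  (intSeries_injective O).comp (MF.coeffMap_injective (Subtype.val_injective))

theorem overSeries_ne_zero {S : Subring O} {a : LaurentSeries S} (ha : a ≠ 0) :
    overSeries S a ≠ 0 := (map_ne_zero_iff _ (overSeries_injective S)).mpr ha

theorem overSeries_C (S : Subring O) (c : S) :
    overSeries S (HahnSeries.C c) = HahnSeries.C (((c : O) : K')) := by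
  rw [overSeries, RingHom.comp_apply, intSeries, coeffMap_C', coeffMap_C']
  rfl

/-- Quotients of series with coefficients in `S`. -/
def fracOver (S : Subring O) : Subfield (LaurentSeries K') where
  carrier := {z | ∃ a b : LaurentSeries S, b ≠ 0 ∧ z * overSeries S b = overSeries S a}
  one_mem' := ⟨1, 1, one_ne_zero, by simp⟩
  zero_mem' := ⟨0, 1, one_ne_zero, by simp⟩
  mul_mem' := by
    rintro x y ⟨a, b, hb, h⟩ ⟨a', b', hb', h'⟩
    exact ⟨a * a', b * b', mul_ne_zero hb hb', by rw [map_mul, map_mul, ← h, ← h']; ring⟩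
  add_mem' := by
    rintro x y ⟨a, b, hb, h⟩ ⟨a', b', hb', h'⟩
    exact ⟨a * b' + a' * b, b * b', mul_ne_zero hb hb', by
      rw [map_add, map_mul, map_mul, map_mul, ← h, ← h']; ring⟩
  neg_mem' := by
    rintro x ⟨a, b, hb, h⟩
    exact ⟨-a, b, hb, by rw [map_neg, ← h]; ring⟩
  inv_mem' := by
    rintro x ⟨a, b, hb, h⟩
    rcases eq_or_ne x 0 with rfl | hx
    · exact ⟨0, 1, one_ne_zero, by simp⟩
    refine ⟨b, a, ?_, by rw [← h, ← mul_assoc, inv_mul_cancel₀ hx, one_mul]⟩
    rintro rfl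
    rw [map_zero, mul_eq_zero] at h
    exact h.elim hx (overSeries_ne_zero hb)

theorem overSeries_mem_fracOver (S : Subring O) (a : LaurentSeries S) :
    overSeries S a ∈ fracOver S := ⟨a, 1, one_ne_zero, by simp⟩

theorem fracOver_le (S : Subring O) : fracOver S ≤ fracSeries O := by
  rintro z ⟨a, b, hb, h⟩
  exact ⟨coeffMap S.subtype a, coeffMap S.subtype b,
    (map_ne_zero_iff _ (MF.coeffMap_injective Subtype.val_injective)).mpr hb, h⟩

variable (π : O →+* k) [IsDiscreteValuationRing O]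

/-- A power of `ϖ` times a series with nonzero residue. -/
theorem exists_primitive_over {S : Subring O} {ϖ : S} (hϖ0 : (ϖ : O) ≠ 0) (hϖ : π ϖ = 0)
    (hS : ∀ s : S, π s = 0 → ∃ t : S, s = ϖ * t) {a : LaurentSeries S} (ha : a ≠ 0) :
    ∃ (m : ℕ) (a₀ : LaurentSeries S), a = HahnSeries.C (ϖ ^ m) * a₀ ∧
      coeffMap π (coeffMap S.subtype a₀) ≠ 0 := by
  have key : ∀ (r : ℕ) (a : LaurentSeries S), (∃ n, ¬ (ϖ : O) ^ r ∣ (a.coeff n : O)) →
      ∃ (m : ℕ) (a₀ : LaurentSeries S), a = HahnSeries.C (ϖ ^ m) * a₀ ∧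
        coeffMap π (coeffMap S.subtype a₀) ≠ 0 := by
    intro r
    induction r with
    | zero =>
      rintro a ⟨n, hn⟩
      exact absurd (by rw [pow_zero]; exact one_dvd _) hn
    | succ r ih =>
      rintro a ⟨n, hn⟩
      by_cases h : coeffMap π (coeffMap S.subtype a) = 0
      · have h' : ∀ m, π (a.coeff m : O) = 0 := fun m => by
          simpa using congrArg (fun x : LaurentSeries k => x.coeff m) h
        choose t ht using fun m => hS _ (h' m)
        let a' : LaurentSeries S := ⟨t, a.isPWO_support.mono fun m hm h0 => hm (by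
          rw [ht m, mul_eq_zero] at h0
          exact h0.resolve_left fun e => hϖ0 (congrArg Subtype.val e))⟩
        obtain ⟨m, a₀, he, ha₀⟩ := ih a' ⟨n, fun hd => hn (by
          rw [ht n, pow_succ', Subring.coe_mul]
          exact mul_dvd_mul_left _ hd)⟩
        refine ⟨m + 1, a₀, ?_, ha₀⟩
        rw [pow_succ', map_mul, mul_assoc, ← he]
        ext x
        rw [HahnSeries.C_apply, HahnSeries.coeff_single_zero_mul, ht x]
      · exact ⟨0, a, by rw [pow_zero, map_one, one_mul], h⟩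
  obtain ⟨n, hn⟩ : ∃ n, a.coeff n ≠ 0 := by
    by_contra h
    push Not at h
    exact ha (HahnSeries.ext (funext fun n => by simpa using h n))
  obtain ⟨r, hr⟩ := FiniteMultiplicity.of_not_isUnit (a := (ϖ : O))
    (fun hu => not_isUnit_zero (M₀ := k) (hϖ ▸ hu.map π))
    (b := (a.coeff n : O)) (fun h => hn (Subtype.ext h))
  exact key (r + 1) a ⟨n, hr⟩

/-- **Residue zero is divisibility by `ϖ`.** -/
theorem isGauss_div_of_fracOver {S : Subring O} {ϖ : S} (hϖ0 : (ϖ : O) ≠ 0) (hϖ : π ϖ = 0)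
    (hS : ∀ s : S, π s = 0 → ∃ t : S, s = ϖ * t) {z : LaurentSeries K'} (hz : z ∈ fracOver S)
    (h0 : IsGauss π z 0) :
    ∃ r, IsGauss π (HahnSeries.C (((ϖ : O) : K')⁻¹) * z) r := by
  rcases eq_or_ne z 0 with rfl | hz0
  · exact ⟨0, by rw [mul_zero]; exact isGauss_zero⟩
  obtain ⟨a, b, hb, h⟩ := hz
  have ha : a ≠ 0 := by
    rintro rfl
    rw [map_zero, mul_eq_zero] at h
    exact h.elim hz0 (overSeries_ne_zero hb)
  obtain ⟨m, a₀, rfl, ha₀⟩ := exists_primitive_over π hϖ0 hϖ hS ha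
  obtain ⟨l, b₀, rfl, hb₀⟩ := exists_primitive_over π hϖ0 hϖ hS hb
  rw [map_mul, map_mul, overSeries_C, overSeries_C] at h
  push_cast at h
  set w : K' := ((ϖ : O) : K') with hw
  have hw0 : w ≠ 0 := fun e => hϖ0 (Subtype.ext e)
  have hC : ∀ {c : K'}, c ≠ 0 → (HahnSeries.C c : LaurentSeries K') ≠ 0 := fun hc =>
    HahnSeries.C_ne_zero hc
  rcases le_or_gt m l with hml | hml
  · obtain ⟨d, rfl⟩ := Nat.exists_eq_add_of_le hml
    have h1 : IsGauss π (HahnSeries.C (w ^ d) * z)
        (coeffMap π (coeffMap S.subtype a₀) / coeffMap π (coeffMap S.subtype b₀)) := by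
      refine ⟨_, _, hb₀, mul_left_cancel₀ (hC (pow_ne_zero m hw0)) ?_, rfl⟩
      change _ = HahnSeries.C (w ^ m) * overSeries S a₀
      rw [← h, pow_add w m d, map_mul]
      simp only [overSeries, RingHom.comp_apply]
      ring
    have h2 := (isGauss_int (π := π) (HahnSeries.C ((ϖ : O) ^ d))).mul h0
    rw [intSeries, coeffMap_C', mul_zero] at h2
    exact absurd (h2.unique (by simpa [hw] using h1)).symm (div_ne_zero ha₀ hb₀)
  · obtain ⟨d, rfl⟩ := Nat.exists_eq_add_of_le (Nat.succ_le_of_lt hml)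
    refine ⟨_, HahnSeries.C ((ϖ : O) ^ d) * coeffMap S.subtype a₀, _, hb₀,
      mul_left_cancel₀ (hC (pow_ne_zero (l + 1) hw0)) ?_, rfl⟩
    rw [map_mul, intSeries, coeffMap_C']
    simp only [SubmonoidClass.coe_pow, ValuationSubring.subtype_apply]
    change _ = HahnSeries.C (w ^ (l + 1)) * (HahnSeries.C (w ^ d) * overSeries S a₀)
    rw [← mul_assoc (HahnSeries.C (w ^ (l + 1))), ← mul_assoc (HahnSeries.C (w ^ (l + 1))),
      ← mul_assoc (HahnSeries.C (w ^ (l + 1))), ← map_mul, ← map_mul, ← _root_.pow_add, ← h, pow_succ,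
      mul_inv_cancel_right₀ hw0]
    simp only [overSeries, RingHom.comp_apply, intSeries]
    ring

end Over

section Subst

variable {K K' : Type} [Field K] [Algebra ℚ K] [Field K'] [Algebra ℚ K'] {κ : K →+* K'}
  {M : ℕ} [NeZero M] {φ : modField K M →+* LaurentSeries K'} {s : DivIdx M → LaurentSeries K'}

/-- Substitutions with values in a subfield. -/
theorem _root_.Fermat.Agent.Carayol.IsSubst.mem_subfield (h : IsSubst κ φ s) {T : Subfield (LaurentSeries K')}
    (hc : ∀ c, HahnSeries.C (κ c) ∈ T) (hs : ∀ d, s d ∈ T) (x : modField K M) : φ x ∈ T := by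
  let S : IntermediateField K (modField K M) :=
    (T.comap φ).toIntermediateField fun c => by
      show φ (algebraMap K _ c) ∈ T
      rw [h.const]
      exact hc c
  have hle : modField K M ≤ IntermediateField.lift S := by
    refine (modField_eq_adjoin_genSer (L := K) M).le.trans ?_
    rw [IntermediateField.adjoin_le_iff]
    rintro _ ⟨d, rfl⟩
    refine (IntermediateField.mem_lift (⟨_, genSer_mem d⟩ : modField K M)).mpr ?_
    show φ _ ∈ T
    rw [h.gen]
    exact hs d
  exact (IntermediateField.mem_lift x).mp (hle x.2)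

end Subst

section Root

variable {K' : Type} [Field K'] {q : ℕ} [NeZero q] {n i : ℕ}

/-- `branchTerm` in the variable `x^(q^min(n, 2i))`, scaled by `u`. -/
def normTerm (n i : ℕ) (ζ u : K'ˣ) (q : ℕ) [NeZero q] (k : ℕ) (x : LaurentSeries K') :
    LaurentSeries K' :=
  if k ≤ i then qExpand K' (q ^ (n + k - min n (2 * i)))
    (qScale (u ^ q ^ (n + k - min n (2 * i))) x)
  else qExpand K' (q ^ (n + 2 * i - k - min n (2 * i)))
    (qScale (ζ ^ q ^ (n - (k - i)) * u ^ q ^ (n + 2 * i - k - min n (2 * i))) x)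

theorem qScale_mul_apply (u v : K'ˣ) (x : LaurentSeries K') :
    qScale u (qScale v x) = qScale (u * v) x := by
  ext m
  simp only [qScale_coeff, mul_zpow, Units.val_mul]
  ring

/-- `branchTerm` from `normTerm`. -/
theorem branchTerm_eq_normTerm {k : ℕ} (_hi : i ≤ n) (hk : k ≤ n) (ζ u : K'ˣ)
    (x : LaurentSeries K') :
    branchTerm n i ζ q k x =
      qExpand K' (q ^ min n (2 * i)) (qScale u⁻¹ (normTerm n i ζ u q k x)) := by
  unfold branchTerm normTerm
  split_ifs with h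
  · rw [qScale_qExpand, qScale_mul_apply, ← mul_pow, inv_mul_cancel, one_pow, qScale_one,
      RingHom.id_apply, qExpand_qExpand]
    exact qExpand_congr (by rw [← _root_.pow_add]; congr 1; omega) _
  · rw [qScale_qExpand, qScale_mul_apply, ← mul_left_comm, ← mul_pow, inv_mul_cancel, one_pow,
      mul_one, qExpand_qExpand]
    exact qExpand_congr (by rw [← _root_.pow_add]; congr 1; omega) _

/-- The scaling of the variable. -/
def normRoot (n i : ℕ) (ζ : K'ˣ) (q : ℕ) : K'ˣ := if 2 * i ≤ n then (ζ ^ q ^ i)⁻¹ else 1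

theorem normRoot_pow (ζ : K'ˣ) (hζ : ζ ^ q ^ n = 1) : normRoot n i ζ q ^ q ^ n = 1 := by
  unfold normRoot
  split_ifs
  · rw [inv_pow, ← pow_mul, mul_comm, pow_mul, hζ, one_pow, inv_one]
  · rw [one_pow]

omit [NeZero q] in
/-- The roots in `normTerm` have order dividing `q^min(i, n - i)`. -/
theorem normRoot_spec (hi : i ≤ n) {k : ℕ} (hk : k ≤ n) (ζ : K'ˣ) (hζ : ζ ^ q ^ n = 1) :
    (k ≤ i → (normRoot n i ζ q ^ q ^ (n + k - min n (2 * i))) ^ q ^ min i (n - i) = 1) ∧
    (¬ k ≤ i → (ζ ^ q ^ (n - (k - i)) *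
      normRoot n i ζ q ^ q ^ (n + 2 * i - k - min n (2 * i))) ^ q ^ min i (n - i) = 1) := by
  have hbig : ∀ {m : ℕ}, n ≤ m → ζ ^ q ^ m = 1 := fun {m} hm => by
    obtain ⟨d, rfl⟩ := Nat.exists_eq_add_of_le hm
    rw [_root_.pow_add, pow_mul, hζ, one_pow]
  unfold normRoot
  refine ⟨fun h => ?_, fun h => ?_⟩ <;> split_ifs with h2
  · rw [inv_pow, inv_pow, ← pow_mul, ← pow_mul, inv_eq_one, ← _root_.pow_add,
      ← _root_.pow_add]
    exact hbig (by omega)
  · rw [one_pow, one_pow]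
  · rw [inv_pow, ← pow_mul ζ (q ^ i), ← _root_.pow_add,
      show i + (n + 2 * i - k - min n (2 * i)) = n - (k - i) by omega, mul_inv_cancel, one_pow]
  · rw [one_pow, mul_one, ← pow_mul, ← _root_.pow_add]
    exact hbig (by omega)

end Root

section Branch

variable {L q n i : ℕ} [NeZero L] [NeZero q] {K K' k : Type} [Field K] [Algebra ℚ K] [Field K']
  [Algebra ℚ K'] [Field k] {κ : K →+* K'} {O : ValuationSubring K'} (π : O →+* k)
  {A : ValuationSubring K} (hA : ∀ a ∈ A, κ a ∈ O)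

/-- The constants in `O`. -/
def constMap : A →+* O := (κ.comp A.subtype).codRestrict O fun a => hA a a.2

variable [Fact q.Prime] [CharP k q] [IsDiscreteValuationRing O]

/-- The ring `A[μ]` and its uniformiser. -/
theorem exists_rootRing (hAq : ∀ a : A, π (constMap hA a) = 0 → (q : A) ∣ a) (hq0 : (q : O) ≠ 0)
    {r : ℕ} {μ : K'ˣ} (hμ : IsPrimitiveRoot μ (q ^ r)) :
    ∃ (S : Subring O) (ϖ v : S), (ϖ : O) ≠ 0 ∧ π ϖ = 0 ∧
      (∀ s : S, π s = 0 → ∃ t : S, s = ϖ * t) ∧ π v ≠ 0 ∧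
      v * ϖ ^ (q ^ r).totient = (q : S) ∧ (∀ a, constMap hA a ∈ S) ∧
      ∀ w : K'ˣ, w ^ q ^ r = 1 → ∃ wS : Sˣ, (((wS : S) : O) : K') = w := by
  obtain ⟨μ', hμ', hμ1⟩ := exists_unit_res_one (π := π) hμ.pow_eq_one
  let f : Polynomial A →+* O := Polynomial.eval₂RingHom (constMap hA) (μ' : O)
  let S : Subring O := f.range
  have hμS : (μ' : O) ∈ S := ⟨Polynomial.X, by simp [f]⟩
  have hprim : IsPrimitiveRoot (⟨μ', hμS⟩ : S) (q ^ r) :=
    IsPrimitiveRoot.of_map_of_injective (f := (O.subtype.comp S.subtype)) (by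
      show IsPrimitiveRoot ((μ' : O) : K') (q ^ r)
      rw [hμ']
      exact IsPrimitiveRoot.coe_units_iff.mpr hμ)
      (Subtype.val_injective.comp Subtype.val_injective)
  have hconst : ∀ a, constMap hA a ∈ S := fun a => ⟨Polynomial.C a, by simp [f]⟩
  have hroots : ∀ w : K'ˣ, w ^ q ^ r = 1 → ∃ wS : Sˣ, (((wS : S) : O) : K') = w := by
    intro w hw
    obtain ⟨j, -, hj⟩ := (IsPrimitiveRoot.coe_units_iff.mpr hμ).eq_pow_of_pow_eq_one
      (show (w : K') ^ q ^ r = 1 by rw [← Units.val_pow_eq_pow_val, hw, Units.val_one])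
    refine ⟨(hprim.isUnit (pow_ne_zero _ (NeZero.ne q))).unit ^ j, ?_⟩
    simp [hμ', hj]
  -- `s = a + (μ - 1) t`
  have hsplit : ∀ s : S, ∃ (a : A) (t : S),
      s = ⟨constMap hA a, hconst a⟩ + (⟨μ', hμS⟩ - 1) * t := by
    rintro ⟨s, P, rfl⟩
    obtain ⟨Q, hQ⟩ := Polynomial.X_sub_C_dvd_sub_C_eval (a := (1 : A)) (p := P)
    refine ⟨P.eval 1, ⟨f Q, Q, rfl⟩, Subtype.ext ?_⟩
    have h := congrArg f hQ
    rw [map_sub, map_mul, map_sub] at h
    simp only [f, Polynomial.coe_eval₂RingHom, Polynomial.eval₂_C, Polynomial.eval₂_X,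
      map_one] at h
    push_cast
    simp only [f, Polynomial.coe_eval₂RingHom]
    linear_combination h
  have hπμ : π ((⟨μ', hμS⟩ - 1 : S) : O) = 0 := by
    push_cast
    rw [map_sub, hμ1, map_one, sub_self]
  rcases r with _ | r
  · have h1 : (⟨μ', hμS⟩ : S) = 1 := by simpa using hprim.pow_eq_one
    refine ⟨S, (q : S), 1, by simpa using hq0, by simp, fun s hs => ?_,
      by simp, by simp, hconst, hroots⟩
    obtain ⟨a, t, rfl⟩ := hsplit s
    rw [h1, sub_self, zero_mul, add_zero] at hs ⊢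
    obtain ⟨b, rfl⟩ := hAq a hs
    exact ⟨⟨constMap hA b, hconst b⟩, Subtype.ext (by simp)⟩
  · obtain ⟨-, v, hv, hvq⟩ := exists_totient_pow_eq (π.comp S.subtype) hprim
    have hne : (((⟨μ', hμS⟩ - 1 : S)) : O) ≠ 0 := fun h => by
      have h' : (⟨μ', hμS⟩ - 1 : S) = 0 := Subtype.ext h
      rw [h', zero_pow (Nat.totient_pos.mpr (pow_pos (NeZero.pos q) _)).ne', mul_zero] at hvq
      exact hq0 (by simpa using congrArg Subtype.val hvq.symm)
    refine ⟨S, ⟨μ', hμS⟩ - 1, v, hne, hπμ, fun s hs => ?_, hv, hvq, hconst, hroots⟩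
    obtain ⟨a, t, rfl⟩ := hsplit s
    have ha : π (constMap hA a) = 0 := by
      rw [Subring.coe_add, Subring.coe_mul, map_add, map_mul, hπμ, zero_mul, add_zero] at hs
      exact hs
    obtain ⟨b, rfl⟩ := hAq a ha
    obtain ⟨E, hE⟩ := Nat.exists_eq_succ_of_ne_zero
      (Nat.totient_pos.mpr (pow_pos (NeZero.pos q) (r + 1))).ne'
    refine ⟨v * (⟨μ', hμS⟩ - 1) ^ E * ⟨constMap hA b, hconst b⟩ + t, ?_⟩
    rw [hE, pow_succ] at hvq
    have hqb : (⟨constMap hA ((q : A) * b), hconst _⟩ : S) = (q : S) * ⟨constMap hA b, hconst b⟩ :=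
      Subtype.ext (by simp)
    rw [hqb, ← hvq]
    ring

/-- **On the branch `i` two functions `a`, `b` with residue zero give `a b^(E-1) / q` integral.** -/
theorem isGauss_mul_pow_div (hπ : ∀ c, π c = 0 ↔ ¬ IsUnit c) (hq : q.Prime) (hqL : ¬ q ∣ L)
    (hAq : ∀ a : A, π (constMap hA a) = 0 → (q : A) ∣ a) (hq0 : (q : O) ≠ 0)
    (hi : i ≤ n) {ζ : K'ˣ} (hζ : ζ ^ q ^ n = 1)
    (hprim : 0 < i → i < n → IsPrimitiveRoot ζ (q ^ n))
    {φ : modField K (L * q ^ n) →+* LaurentSeries K'}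
    (hφ : IsSubst κ φ (branchVal hq hqL i ζ)) {a b : modField K (L * q ^ n)}
    (ha : IsGauss π (φ a) 0) (hb : IsGauss π (φ b) 0) :
    ∃ r, IsGauss π (φ (a * b ^ ((q ^ min i (n - i)).totient - 1) / (q : ℕ))) r := by
  classical
  set r := min i (n - i) with hr
  set E := (q ^ r).totient with hE
  set m := min n (2 * i) with hm
  set u := normRoot n i ζ q with hu
  obtain ⟨μ, hμ⟩ : ∃ μ : K'ˣ, IsPrimitiveRoot μ (q ^ r) := by
    rcases Nat.eq_zero_or_pos r with h0 | h0
    · exact ⟨1, by rw [h0, pow_zero]; exact IsPrimitiveRoot.one⟩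
    · exact ⟨ζ ^ q ^ (n - r), (hprim (by omega) (by omega)).pow (pow_pos hq.pos n)
        (by rw [← _root_.pow_add, Nat.sub_add_cancel (by omega)])⟩
  obtain ⟨S, ϖ, v, hϖ0, hϖπ, hS, hv, hvq, hconst, hroots⟩ := exists_rootRing π hA hAq hq0 hμ
  -- the values, normalised
  have hC : ∀ c, HahnSeries.C (κ c) ∈ fracOver S := by
    intro c
    have hint : ∀ a : A, HahnSeries.C (κ (a : K)) ∈ fracOver S := fun a => by
      have := overSeries_mem_fracOver S (HahnSeries.C ⟨constMap hA a, hconst a⟩)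
      rwa [overSeries_C] at this
    rcases A.mem_or_inv_mem c with h | h
    · exact hint ⟨c, h⟩
    · simpa [map_inv₀] using (fracOver S).inv_mem (hint ⟨c⁻¹, h⟩)
  have hterm : ∀ {e : ℕ} [NeZero e] {w : K'ˣ}, w ^ q ^ r = 1 → ∀ d : DivIdx L,
      qExpand K' e (qScale w (genSer K' d)) ∈ fracOver S := by
    intro e _ w hw d
    obtain ⟨wS, hwS⟩ := hroots w hw
    have := overSeries_mem_fracOver S (qExpand S e (qScale wS (genSer S d)))
    rw [overSeries, RingHom.comp_apply, intSeries, coeffMap_coeffMap, coeffMap_qExpand,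
      coeffMap_qScale, coeffMap_genSer,
      show Units.map (O.subtype.comp S.subtype).toMonoidHom wS = w from Units.ext hwS] at this
    exact this
  let T : Subfield (LaurentSeries K') :=
    ((fracOver S).comap (qScale u)).map (qExpand K' (q ^ m))
  have huinv : ∀ x : LaurentSeries K', qScale u (qScale u⁻¹ x) = x := fun x => by
    rw [qScale_mul_apply, mul_inv_cancel, qScale_one, RingHom.id_apply]
  have hinvu : ∀ x : LaurentSeries K', qScale u⁻¹ (qScale u x) = x := fun x => by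
    rw [qScale_mul_apply, inv_mul_cancel, qScale_one, RingHom.id_apply]
  have hT : ∀ x, φ x ∈ T := hφ.mem_subfield (fun c => ⟨HahnSeries.C (κ c), by
      show qScale u (HahnSeries.C (κ c)) ∈ fracOver S
      rw [show qScale u (HahnSeries.C (κ c)) = HahnSeries.C (κ c) by
        rw [HahnSeries.C_apply, qScale_single]; simp]
      exact hC c, qExpand_C _ _⟩) fun d => by
    obtain ⟨-, hk, -, -⟩ := qFreeN_spec hq hqL d
    refine ⟨qScale u⁻¹ (normTerm n i ζ u q (qExpN hq d) (genSer K' (freeIdxN hq hqL d))), ?_,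
      (branchTerm_eq_normTerm hi hk ζ u _).symm⟩
    show qScale u _ ∈ fracOver S
    rw [huinv, normTerm]
    obtain ⟨h1, h2⟩ := normRoot_spec hi hk ζ hζ
    split_ifs with h
    · exact hterm (h1 h) _
    · exact hterm (h2 h) _
  -- divide by the uniformiser
  have hun : ∀ {z : LaurentSeries K'} {w : LaurentSeries k} {x : K'ˣ}, x ^ q ^ n = 1 →
      IsGauss π z w → IsGauss π (qScale x z) w := fun hx h => h.qScale_root (m := n) hx
  have hdiv : ∀ x, IsGauss π (φ x) 0 → ∃ y w, φ x = qExpand K' (q ^ m) (qScale u⁻¹ y) ∧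
      IsGauss π (HahnSeries.C (((ϖ : O) : K')⁻¹) * y) w := by
    intro x hx
    obtain ⟨z, hz, hzx⟩ := hT x
    have hz' : qScale u z ∈ fracOver S := hz
    have hzO : z ∈ fracSeries O := by
      rcases isGauss_or_inv hπ (fracOver_le S hz') with ⟨w, hw⟩ | hw
      · have := hun (x := u⁻¹) (by rw [inv_pow, hu, normRoot_pow ζ hζ, inv_one]) hw
        rw [hinvu] at this
        exact this.mem_fracSeries
      · have := hun (x := u⁻¹) (by rw [inv_pow, hu, normRoot_pow ζ hζ, inv_one]) hw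
        rw [map_inv₀, hinvu] at this
        simpa using (fracSeries O).inv_mem this.mem_fracSeries
    rw [← hzx] at hx
    obtain ⟨w, hw, hw0⟩ := exists_isGauss_of_qExpand hπ hzO hx
    obtain rfl : w = 0 := (map_eq_zero _).mp hw0.symm
    obtain ⟨w, hw'⟩ := isGauss_div_of_fracOver π hϖ0 hϖπ hS hz'
      (hun (normRoot_pow ζ hζ) hw)
    exact ⟨qScale u z, w, by rw [hinvu, hzx], hw'⟩
  obtain ⟨ya, wa, hya, hwa⟩ := hdiv a ha
  obtain ⟨yb, wb, hyb, hwb⟩ := hdiv b hb
  have hE1 : 1 ≤ E := Nat.totient_pos.mpr (pow_pos hq.pos r)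
  obtain ⟨v', hv'⟩ : ∃ v' : O, (v : O) * v' = 1 :=
    (not_not.mp fun h => hv ((hπ _).mpr h) : IsUnit (v : O)).exists_right_inv
  have hg := (isGauss_int (π := π) (HahnSeries.C v')).mul (hwa.mul (hwb.pow (E - 1)))
  have hu' : u⁻¹ ^ q ^ n = 1 := by rw [inv_pow, hu, normRoot_pow ζ hζ, inv_one]
  have hg' := (hun hu' hg).qExpand (q ^ m)
  suffices hval : qExpand K' (q ^ m) (qScale u⁻¹ (intSeries O (HahnSeries.C v') *
      (HahnSeries.C (((ϖ : O) : K')⁻¹) * ya * (HahnSeries.C (((ϖ : O) : K')⁻¹) * yb) ^ (E - 1)))) =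
      φ (a * b ^ (E - 1) / (q : ℕ)) by
    rw [hval] at hg'
    exact ⟨_, hg'⟩
  set w : K' := ((ϖ : O) : K')
  have key : (v' : K') * (w⁻¹ * w⁻¹ ^ (E - 1)) = ((q : ℕ) : K')⁻¹ := by
    have h1 : ((v : O) : K') * w ^ E = ((q : ℕ) : K') := by
      simpa using congrArg (fun s : S => ((s : O) : K')) hvq
    have h2 : ((v : O) : K') * (v' : K') = 1 := by
      simpa using congrArg (fun o : O => (o : K')) hv'
    rw [← pow_succ' w⁻¹, Nat.sub_add_cancel hE1, inv_pow, ← h1, mul_inv,
      eq_inv_of_mul_eq_one_right h2]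
  rw [map_div₀ φ, map_natCast φ, map_mul φ, map_pow φ, hya, hyb,
    ← map_pow (qExpand K' (q ^ m)), ← map_pow (qScale u⁻¹), ← map_mul (qExpand K' (q ^ m)),
    ← map_mul (qScale u⁻¹), ← map_natCast (qExpand K' (q ^ m)), ← map_natCast (qScale u⁻¹),
    ← map_div₀, ← map_div₀]
  congr 2
  rw [intSeries, coeffMap_C', mul_pow, ← map_pow HahnSeries.C]
  calc HahnSeries.C (v' : K') * (HahnSeries.C w⁻¹ * ya * (HahnSeries.C (w⁻¹ ^ (E - 1)) *
        yb ^ (E - 1)))
      = HahnSeries.C ((v' : K') * (w⁻¹ * w⁻¹ ^ (E - 1))) * (ya * yb ^ (E - 1)) := by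
        rw [map_mul, map_mul]; ring
    _ = _ := by rw [key, map_inv₀, map_natCast, div_eq_inv_mul]

end Branch

end Fermat.Agent.CarayolHigh
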