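/-
The raw key statement of the residual lowering from the existence of the model.
-/
import Fermat.Agent.CarayolHigh.KeyJZero
import Fermat.Agent.R59.Lower.KeyRaw

set_option autoImplicit false

noncomputable section

namespace Fermat.Agent.CarayolHigh

/-- `StmtKeyHighRaw` from the model. -/
theorem stmtKeyHighRaw_of_model (H : ModelExists) : R59.Lower.StmtKeyHighRaw :=
  fun q L n _ _ _ hq hqL h4 h9 hn h1 h2 m hm hqm P hP A hA hfix hα hβ =>
    inertiaTorsionZero_of_model H L q n hq hqL
      (if h : q = 2 then Or.inr ⟨h, h9 h⟩ else Or.inl ⟨h, h4 h⟩) hn A hA h1 h2 m hm.ne'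
      ((hq.coprime_iff_not_dvd.mpr hqm).symm) P hP hfix hα hβ

/-- `StmtKeyHigh` from the model. -/
theorem stmtKeyHigh_of_model (H : ModelExists) : R59.Lower.StmtKeyHigh :=
  R59.Lower.stmtKeyHigh_of_raw (stmtKeyHighRaw_of_model H)

end Fermat.Agent.CarayolHigh
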