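import Fermat.Agent.CarayolHigh.Supersingular
import Fermat.Agent.CarayolHigh.Points

/-!
Supersingular points, abstract part: the square of the twisted Frobenius fixes a supersingular
point, so two branches `i`, `j` whose twists have the same parity pass through the same point of
the reduced curve, and the chart point follows.
-/

set_option autoImplicit false
set_option linter.unusedSectionVars false

noncomputable section

namespace Fermat.Agent.CarayolHigh

open Carayol

namespace SSChain

variable {W k R B Bb : Type} [CommRing W] [Field k] [CommRing R] [CommRing B] [CommRing Bb]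
  [Algebra W R] [Algebra W B] [Algebra k Bb] {n : ℕ} (S : SSChain W k R B Bb n)
  [Fact S.q.Prime] [CharP k S.q] [IsDomain R] {π : Bb →ₐ[k] k}
  (hσ : ∀ π : Bb →ₐ[k] k, ∃ π', AlgHom.comp π' S.σ = π) (hn : 1 ≤ n) (hπ : S.IsSS π)

include hσ hn hπ

/-- Supersingular points are fixed by the square of `σ`. -/
theorem apply_σ_σ (b : Bb) : π (S.σ (S.σ b)) = π b := by
  obtain ⟨π', h⟩ := S.exists_sigmaPt_eq hσ (n - 1) π
  have hπ' : S.IsSS π' := IsSS.of_sigma S (m := n - 1) (by rw [h]; exact hπ)
  obtain ⟨c, rfl⟩ := S.red_surjective b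
  have h1 := congrArg (fun f : R →+* k => f (S.ι (n - 1) c)) (S.point_eq hn hπ' (le_refl n))
  simp only [point_apply, S.r_ι n le_rfl (n - 1) (by omega),
    S.r_ι 0 (Nat.zero_le n) (n - 1) (by omega), S.sigmaPt_apply] at h1
  rw [← Function.iterate_add_apply, show chainDepth n n (n - 1) = n - 1 by
      simp only [chainDepth]; omega,
    show chainDepth n n n + chainDepth n 0 (n - 1) = (n - 1) + 2 by
      simp only [chainDepth]; omega, Function.iterate_add_apply] at h1
  rw [← h, S.sigmaPt_apply, S.sigmaPt_apply]
  exact h1.symm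

/-- Only the parity of the twist matters. -/
theorem sigmaPt_congr {a b : ℕ} (h : a % 2 = b % 2) : S.sigmaPt a π = S.sigmaPt b π := by
  have key : ∀ m, S.sigmaPt (m + 2) π = S.sigmaPt m π := fun m => AlgHom.ext fun z => by
    rw [S.sigmaPt_apply, S.sigmaPt_apply, add_comm m 2, Function.iterate_add_apply]
    exact S.apply_σ_σ hσ hn hπ _
  have key' : ∀ m r, S.sigmaPt (r + 2 * m) π = S.sigmaPt r π := by
    intro m
    induction m with
    | zero => simp
    | succ m ih => intro r; rw [show r + 2 * (m + 1) = r + 2 * m + 2 by ring, key, ih]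
  rw [← Nat.mod_add_div a 2, ← Nat.mod_add_div b 2, key', key', h]

/-- Two branches with twists of one parity pass through the same point. -/
theorem point_congr {i j : ℕ} (hi : i ≤ n) (hj : j ≤ n)
    (h : chainDepth n i n % 2 = chainDepth n j n % 2) : S.point π i = S.point π j := by
  rw [S.point_eq hn hπ hi, S.point_eq hn hπ hj, S.sigmaPt_congr hσ hn hπ h]

/-- The branches `n - 1` and `n` pass through the same point. -/
theorem point_pred (h2 : 2 ≤ n) : S.point π (n - 1) = S.point π n :=
  S.point_congr hσ hn hπ (by omega) le_rfl (by simp only [chainDepth]; omega)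

end SSChain

section Abstract

variable {W F C k Bb : Type} [CommRing W] [IsDomain W] [IsDiscreteValuationRing W] [Field F]
  [Algebra W F] [Field C] [Field k] [CommRing Bb] [Algebra k Bb] {ι : Type}
  {Br : Branches F ι (fun _ => C)} {π : W} {R : Subalgebra W F}

/-- The values agree along two branches with the same point of the reduced curve, if both map
onto the reduced chart. -/
theorem valueCongrAt_of_point_eq (hR : IsChart Br π R) (e : Bb →+* C) (r : ι → R →+* Bb)
    (hr : ∀ i a, e (r i a) = chartRes Br hR i a) (hsurj : ∀ i, Function.Surjective (r i))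
    (χ : Bb →ₐ[k] k) {i j : ι} (hij : χ.toRingHom.comp (r i) = χ.toRingHom.comp (r j))
    {y : Ideal R} (hy : y = RingHom.ker (χ.toRingHom.comp (r i))) :
    ValueCongrAt Br R y i j := by
  intro a s hs ha hs'
  obtain ⟨a', ha'⟩ := hsurj j (r i a)
  obtain ⟨s', hs''⟩ := hsurj j (r i s)
  have hval : ∀ c c', r j c' = r i c →
      χ.toRingHom.comp (r i) c' = χ.toRingHom.comp (r i) c := fun c c' h => by
    conv_lhs => rw [hij]
    exact congrArg χ h
  refine ⟨a', s', fun h => hs ?_, ?_, fun ha₁ hs₁ => ?_⟩
  · rw [hy, RingHom.mem_ker] at h ⊢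
    rw [← hval s s' hs'']
    exact h
  · rw [hy, RingHom.mem_ker, map_sub, map_mul, map_mul, hval s s' hs'', hval a a' ha', sub_self]
  · show chartRes Br hR i a * chartRes Br hR j s' = chartRes Br hR j a' * chartRes Br hR i s
    rw [← hr, ← hr, ← hr, ← hr, ha', hs'']

end Abstract

end Fermat.Agent.CarayolHigh
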