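import Fermat.Agent.CarayolHigh.OrdinaryPoints
import Fermat.Agent.CarayolHigh.SSPoint
import Fermat.Agent.CarayolHigh.Setting
import Fermat.Agent.Carayol.HauptEquation
import Fermat.Agent.Carayol.OrdinaryPlace

/-!
The supersingular points of the finite chart of `X₀(qⁿ L)` at `q`: the data of the branches on the
images of level `L` (`SSChain`), and the chart point where all separators vanish. The branches
`n - 1` and `n` meet there at the same point of the reduced curve.
-/

set_option autoImplicit false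
set_option linter.unusedSectionVars false
set_option maxHeartbeats 800000
set_option synthInstance.maxHeartbeats 400000

noncomputable section

open Polynomial ModularCurve AlgebraicCurve IntermediateField
open Fermat.Agent.Igusa Fermat.Agent.RED Fermat.Agent.RED.Spec Fermat.Agent.HK.Corr
open Fermat.Agent.Carayol Fermat.Agent.MF

namespace Fermat.Agent.CarayolHigh

/-- The pairs of branches whose values are compared at supersingular points. -/
def penLast {n : ℕ} (i j : Fin (n + 1)) : Prop := (i : ℕ) + 1 = n ∧ (j : ℕ) = n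

section Maps

variable {K : Type} [Field K] [Algebra ℚ K] (A : ValuationSubring K) {L₀ q n : ℕ} [NeZero L₀]
  [NeZero q]

/-- `τ ↦ q^j τ` for every index. -/
def chainMap (j : ℕ) : Carayol.chartRing A (MF.Coeff.jElem K L₀) →ₐ[A]
    Carayol.chartRing A (MF.Coeff.jElem K (L₀ * q ^ n)) :=
  chartDegen A (pow_dvd_level' (min_le_right j n))

theorem coe_chainMap (j : ℕ) (b : Carayol.chartRing A (MF.Coeff.jElem K L₀)) :
    (((chainMap A (q := q) (n := n) j b :
        Carayol.chartRing A (MF.Coeff.jElem K (L₀ * q ^ n))) : modField K (L₀ * q ^ n)) :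
      LaurentSeries K) = qExpand K (q ^ min j n) ((b : modField K L₀) : LaurentSeries K) :=
  coe_degenMap _ _ _

theorem chainMap_eq {j : ℕ} (hj : j ≤ n) (b : Carayol.chartRing A (MF.Coeff.jElem K L₀)) :
    chainMap A (q := q) (n := n) j b = chartDegen A (pow_dvd_level' hj) b :=
  Subtype.ext (Subtype.ext ((coe_chainMap A j b).trans ((qExpand_congr (by
    rw [min_eq_left hj]) _).trans (coe_degenMap (q ^ j) (pow_dvd_level' hj) _).symm)))

/-- The images of level `L₀` generate an order in the chart. -/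
def chainImages (A : ValuationSubring K) (L₀ q n : ℕ) [NeZero L₀] [NeZero q] :
    Subalgebra A (Carayol.chartRing A (MF.Coeff.jElem K (L₀ * q ^ n))) :=
  Algebra.adjoin A (⋃ j ∈ Set.Iic n, Set.range (chainMap A (L₀ := L₀) (q := q) (n := n) j))

theorem jElem_mem_chainImages :
    (⟨MF.Coeff.jElem K (L₀ * q ^ n), self_mem_chartRing _⟩ :
      Carayol.chartRing A (MF.Coeff.jElem K (L₀ * q ^ n))) ∈ chainImages A L₀ q n := by
  refine Algebra.subset_adjoin (Set.mem_iUnion₂_of_mem (Set.mem_Iic.mpr (Nat.zero_le n))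
    ⟨⟨MF.Coeff.jElem K L₀, self_mem_chartRing _⟩, ?_⟩)
  exact Subtype.ext (Subtype.ext ((coe_chainMap A 0 _).trans
    ((qExpand_congr (by rw [Nat.zero_min, pow_zero]) _).trans (qExpand_one_apply _))))

end Maps

/-- The modular equation of a Hauptmodul, both ways round. -/
theorem exists_rel_both {N₀ : ℕ} [NeZero N₀] (H : Haupt N₀) (q : ℕ) [Fact q.Prime] [NeZero q]
    (hqN : ¬ q ∣ N₀) :
    ∃ (e : ℕ) (U : Polynomial ℤ[X]),
      (evalZ H.tZ H.D ^ e * ((H.tZ - qExpand ℤ q H.tZ ^ q) * (H.tZ ^ q - qExpand ℤ q H.tZ)) +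
        (q : LaurentSeries ℤ) * bieval H.tZ (qExpand ℤ q H.tZ) U = 0) ∧
      evalZ (qExpand ℤ q H.tZ) H.D ^ e *
          ((qExpand ℤ q H.tZ - H.tZ ^ q) * (qExpand ℤ q H.tZ ^ q - H.tZ)) +
        (q : LaurentSeries ℤ) * bieval (qExpand ℤ q H.tZ) H.tZ U = 0 := by
  obtain ⟨e, Φ, hd, hc, h1, h2⟩ := H.exists_modular_relation q hqN
  obtain ⟨U, hU⟩ := exists_eq_kronPoly_add hd hc H.coeff_neg_one h1 h2
  have key : ∀ a b : LaurentSeries ℤ, bieval a b Φ = 0 →
      evalZ a H.D ^ e * ((a - b ^ q) * (a ^ q - b)) + (q : LaurentSeries ℤ) * bieval a b U = 0 := by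
    intro a b h
    rw [← h, hU, ← bieval_kronPoly]
    simp only [bieval, evalZ, eval₂_add, eval₂_mul, eval₂_C, eval₂_pow, coe_eval₂RingHom,
      map_natCast, eval₂_natCast]
  exact ⟨e, U, key _ _ h1, key _ _ h2⟩

namespace ChartData

variable {K : Type} [Field K] [Algebra ℚ K] {K' : Type} [Field K'] [Algebra ℚ K']
  {O : ValuationSubring K'} {k : Type} [Field k]
variable {L₀ q n : ℕ} [NeZero L₀] [NeZero q]
variable {hq : q.Prime} {hqL : ¬ q ∣ L₀} {π : O →+* k} {κ : K →+* K'} {η : K'ˣ}
  {A : ValuationSubring K} {φ : BranchIdx q n → modField K (L₀ * q ^ n) →+* LaurentSeries K'}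
  {rep : Fin (n + 1) → BranchIdx q n}
  {Br : Branches (modField K (L₀ * q ^ n)) (Fin (n + 1))
    (fun _ => modularFunctionFieldFullC k L₀)}
  (D : ChartData hq hqL π κ η A φ rep Br (modularFunctionFieldFullC k L₀).val.toRingHom)

include D

/-- `chainImages` is Noetherian, with integral and birational extension. -/
theorem chainImages_facts :
    IsNoetherianRing (chainImages A L₀ q n) ∧
    (∀ a : Carayol.chartRing A (MF.Coeff.jElem K (L₀ * q ^ n)),
      IsIntegral (chainImages A L₀ q n) a) ∧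
    ∀ a : Carayol.chartRing A (MF.Coeff.jElem K (L₀ * q ^ n)),
      ∃ s z : chainImages A L₀ q n,
        (s : Carayol.chartRing A (MF.Coeff.jElem K (L₀ * q ^ n))) ≠ 0 ∧ a * s = z := by
  have := D.dvrA
  let F := modField K (L₀ * q ^ n)
  let R := Carayol.chartRing A (MF.Coeff.jElem K (L₀ * q ^ n))
  let G := chainImages A L₀ q n
  let xR : R := ⟨MF.Coeff.jElem K (L₀ * q ^ n), self_mem_chartRing _⟩
  let xG : G := ⟨xR, jElem_mem_chainImages A⟩
  have hval : ∀ p : A[X], ((aeval xG p : G) : R) = aeval xR p := fun p =>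
    (aeval_algHom_apply G.val xG p).symm
  have hvalF : ∀ p : A[X], ((aeval xR p : R) : F) = aeval (MF.Coeff.jElem K (L₀ * q ^ n)) p :=
    fun p => (aeval_algHom_apply R.val xR p).symm
  refine ⟨?_, fun a => ?_, ?_⟩
  · let : Algebra A[X] R := (aeval xR).toRingHom.toAlgebra
    let : Algebra A[X] G := (aeval xG).toRingHom.toAlgebra
    obtain ⟨⟨s₀, hs₀, hspan⟩, -⟩ := D.chart_facts
    have : Module.Finite A[X] R := by
      classical
      refine ⟨⟨s₀.attach.image fun v => ⟨v.1, hs₀ v.2⟩, eq_top_iff.mpr fun a _ => ?_⟩⟩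
      set T : Set R := ↑(s₀.attach.image fun v => (⟨v.1, hs₀ v.2⟩ : R))
      suffices h : ∀ y ∈ Submodule.span (Algebra.adjoin A {MF.Coeff.jElem K (L₀ * q ^ n)})
          (s₀ : Set F), ∃ b ∈ Submodule.span A[X] T, (b : F) = y by
        obtain ⟨b, hb, hba⟩ := h _ (hspan a a.2)
        rwa [show a = b from Subtype.ext hba.symm]
      intro y hy
      refine Submodule.span_induction ?_ ⟨0, zero_mem _, rfl⟩ ?_ ?_ hy
      · intro v hv
        exact ⟨⟨v, hs₀ hv⟩, Submodule.subset_span
          (Finset.mem_coe.mpr (Finset.mem_image.mpr ⟨⟨v, hv⟩, Finset.mem_attach _ _, rfl⟩)), rfl⟩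
      · rintro u v - - ⟨b, hb, rfl⟩ ⟨b', hb', rfl⟩
        exact ⟨b + b', add_mem hb hb', rfl⟩
      · rintro ⟨c, hc⟩ v - ⟨b, hb, rfl⟩
        rw [Algebra.adjoin_singleton_eq_range_aeval] at hc
        obtain ⟨p, rfl⟩ := hc
        refine ⟨p • b, Submodule.smul_mem _ p hb, ?_⟩
        show ((aeval xR p * b : R) : F) = _
        rw [MulMemClass.coe_mul, hvalF]
        rfl
    have : IsScalarTower A[X] G G := IsScalarTower.right
    let f : G →ₗ[A[X]] R :=
      { toFun := fun g => g
        map_add' := fun _ _ => rfl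
        map_smul' := fun p g => by
          show ((aeval xG p * g : G) : R) = aeval xR p * (g : R)
          rw [MulMemClass.coe_mul, hval] }
    have : IsNoetherian A[X] G := isNoetherian_of_injective f Subtype.val_injective
    exact isNoetherianRing_iff.mpr (isNoetherian_of_tower A[X] this)
  · obtain ⟨p, hp, h0⟩ := mem_chartRing_iff_isIntegralElem.mp a.2
    refine ⟨p.map (aeval xG).toRingHom, hp.map _, ?_⟩
    have hv : Function.Injective R.val.toRingHom := Subtype.val_injective
    apply hv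
    rw [map_zero, eval₂_map, Polynomial.hom_eval₂]
    refine Eq.trans ?_ h0
    congr 1
    refine RingHom.ext fun p => ?_
    show (((aeval xG p : G) : R) : F) = _
    rw [hval, hvalF]
    rfl
  · let GF : Subalgebra A F := G.map R.val
    let T : Subfield F := Subfield.closure (GF : Set F)
    suffices htop : ∀ y : F, y ∈ T by
      intro a
      obtain ⟨u, hu, v, hv, huv⟩ := Subfield.mem_closure_iff.mp (htop (a : F))
      rw [show Subring.closure (GF : Set F) = GF.toSubring from
        Subring.closure_eq GF.toSubring] at hu hv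
      obtain ⟨u₀, hu₀, rfl⟩ := hu
      obtain ⟨v₀, hv₀, rfl⟩ := hv
      change (u₀ : F) / (v₀ : F) = a at huv
      rcases eq_or_ne (v₀ : F) 0 with h0 | h0
      · refine ⟨1, 0, one_ne_zero, ?_⟩
        rw [h0, div_zero] at huv
        rw [show a = 0 from Subtype.ext huv.symm]
        simp
      · refine ⟨⟨v₀, hv₀⟩, ⟨u₀, hu₀⟩, fun h => h0 (congrArg Subtype.val h), Subtype.ext ?_⟩
        show (a : F) * v₀ = u₀
        rw [← huv, div_mul_cancel₀ _ h0]
    let T' : IntermediateField K F := T.toIntermediateField fun c => by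
      have hA : ∀ w : A, algebraMap A F w ∈ T := fun w =>
        Subfield.subset_closure (GF.algebraMap_mem w)
      rcases A.mem_or_inv_mem c with h | h
      · exact hA ⟨c, h⟩
      · rw [show algebraMap K F c = (algebraMap K F c⁻¹)⁻¹ by rw [map_inv₀, inv_inv]]
        exact inv_mem (hA ⟨c⁻¹, h⟩)
    have hbase : ∀ j (hj : j ≤ n) (g : modField K L₀),
        degenMap K (q ^ j) (pow_dvd_level' hj : L₀ * q ^ j ∣ L₀ * q ^ n) g ∈ T := by
      intro j hj g
      have := isScalarTower_valuationSubring (E := modField K L₀) A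
      have : CharZero K := charZero_of_injective_algebraMap (algebraMap ℚ K).injective
      have : CharZero (modField K L₀) :=
        charZero_of_injective_algebraMap (algebraMap K (modField K L₀)).injective
      have := MF.Coeff.isFunctionField_laurentBaseChange K L₀
      have ht := MF.Coeff.transcendental_jElem K L₀
      obtain ⟨b, c, hb, hc, -, rfl⟩ := (chartRing_finite (W := A) (MF.Coeff.jElem K L₀)
        (injective_aeval_of_transcendental ht)
        (exists_span_closure_of_finiteDimensional (FF.finiteDimensional_adjoin ht))).2.2 g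
      have hG : ∀ b : Carayol.chartRing A (MF.Coeff.jElem K L₀),
          degenMap K (q ^ j) (pow_dvd_level' hj : L₀ * q ^ j ∣ L₀ * q ^ n) b ∈ T := fun b =>
        Subfield.subset_closure ⟨chainMap A j b, Algebra.subset_adjoin
          (Set.mem_iUnion₂_of_mem (Set.mem_Iic.mpr hj) ⟨b, rfl⟩), by rw [chainMap_eq A hj]; rfl⟩
      rw [map_div₀]
      exact div_mem (hG ⟨b, hb⟩) (hG ⟨c, hc⟩)
    intro y
    have hle : modField K (L₀ * q ^ n) ≤ IntermediateField.lift T' := by
      refine (modField_eq_adjoin_genSer (L := K) (L₀ * q ^ n)).le.trans ?_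
      rw [IntermediateField.adjoin_le_iff]
      rintro _ ⟨d, rfl⟩
      obtain ⟨hd, hk, -, -⟩ := qFreeN_spec hq hqL d
      refine (IntermediateField.mem_lift (⟨_, genSer_mem d⟩ : F)).mpr ?_
      show (⟨genSer K d, genSer_mem d⟩ : F) ∈ T
      have e : (⟨genSer K d, genSer_mem d⟩ : F) =
          degenMap K (q ^ qExpN hq d) (pow_dvd_level' hk)
            ⟨genSer K (freeIdxN hq hqL d), genSer_mem _⟩ :=
        Subtype.ext ((qExpand_genSer K (show d.1 = q ^ qExpN hq d * (freeIdxN hq hqL d).1 by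
          exact hd.trans (mul_comm _ _))).symm.trans (coe_degenMap (q ^ qExpN hq d) (pow_dvd_level' hk)
            (⟨genSer K (freeIdxN hq hqL d), genSer_mem _⟩ : modField K L₀)).symm)
      rw [e]
      exact hbase _ hk _
    exact (IntermediateField.mem_lift y).mp (hle y.2)

variable (hR : IsChart Br (q : A) (Carayol.chartRing A (MF.Coeff.jElem K (L₀ * q ^ n))))
  {N₀ : ℕ} (H : Haupt N₀) {tB : Carayol.chartRing A (MF.Coeff.jElem K L₀)}
  (htB : ((tB : modField K L₀) : LaurentSeries K) = coeffMap (Int.castRingHom K) H.tZ)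

include htB

omit D in
/-- The modular equations between consecutive coordinates. -/
theorem chain_rel {P : ℤ[X]} {Q : Polynomial ℤ[X]} {e : ℕ} {j : ℕ} (hj : j < n) :
    (evalZ H.tZ P ^ e * ((H.tZ - qExpand ℤ q H.tZ ^ q) * (H.tZ ^ q - qExpand ℤ q H.tZ)) +
        (q : LaurentSeries ℤ) * bieval H.tZ (qExpand ℤ q H.tZ) Q = 0 →
      evalZ (chainMap A (q := q) (n := n) j tB) P ^ e *
          ((chainMap A j tB - chainMap A (j + 1) tB ^ q) *
            (chainMap A j tB ^ q - chainMap A (j + 1) tB)) +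
        (q : Carayol.chartRing A (MF.Coeff.jElem K (L₀ * q ^ n))) *
          bieval (chainMap A j tB) (chainMap A (j + 1) tB) Q = 0) ∧
    (evalZ (qExpand ℤ q H.tZ) P ^ e *
          ((qExpand ℤ q H.tZ - H.tZ ^ q) * (qExpand ℤ q H.tZ ^ q - H.tZ)) +
        (q : LaurentSeries ℤ) * bieval (qExpand ℤ q H.tZ) H.tZ Q = 0 →
      evalZ (chainMap A (q := q) (n := n) (j + 1) tB) P ^ e *
          ((chainMap A (j + 1) tB - chainMap A j tB ^ q) *
            (chainMap A (j + 1) tB ^ q - chainMap A j tB)) +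
        (q : Carayol.chartRing A (MF.Coeff.jElem K (L₀ * q ^ n))) *
          bieval (chainMap A (j + 1) tB) (chainMap A j tB) Q = 0) := by
  let f : Carayol.chartRing A (MF.Coeff.jElem K (L₀ * q ^ n)) →+* LaurentSeries K :=
    (modField K (L₀ * q ^ n)).val.toRingHom.comp
      (Carayol.chartRing A (MF.Coeff.jElem K (L₀ * q ^ n))).val.toRingHom
  have hf : Function.Injective f := Subtype.val_injective.comp Subtype.val_injective
  let g : LaurentSeries ℤ →+* LaurentSeries K :=
    (qExpand K (q ^ j)).comp (coeffMap (Int.castRingHom K))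
  have e0 : f (chainMap A (q := q) (n := n) j tB) = g H.tZ :=
    (coe_chainMap A j tB).trans ((qExpand_congr (by rw [min_eq_left hj.le]) _).trans
      (congrArg (qExpand K (q ^ j)) htB))
  have e1 : f (chainMap A (q := q) (n := n) (j + 1) tB) = g (qExpand ℤ q H.tZ) := by
    refine (coe_chainMap A (j + 1) tB).trans ?_
    show _ = qExpand K (q ^ j) (coeffMap (Int.castRingHom K) (qExpand ℤ q H.tZ))
    rw [coeffMap_qExpand, qExpand_qExpand, htB]
    exact qExpand_congr (by rw [min_eq_left (Nat.succ_le_of_lt hj), pow_succ]) _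
  refine ⟨fun h => hf ?_, fun h => hf ?_⟩ <;>
  · have h' := congrArg g h
    simp only [map_add, map_mul, map_pow, map_sub, map_natCast, map_bieval, map_evalZ, map_zero]
      at h' ⊢
    rw [e0, e1]
    exact h'

variable [IsAlgClosed k]

/-- What vanishes on the branch `0`, times `(t₀^q - t₁)/q`, is in the chart. -/
theorem chain_div (hAq : Irreducible (q : A))
    (a : Carayol.chartRing A (MF.Coeff.jElem K (L₀ * q ^ n))) (ha : chartRes Br hR 0 a = 0) :
    ∃ a', (q : Carayol.chartRing A (MF.Coeff.jElem K (L₀ * q ^ n))) * a' =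
      a * (chainMap A 0 tB ^ q - chainMap A 1 tB) := by
  have := Fact.mk hq
  have := D.charP
  have := D.dvr
  have : CharZero K' := charZero_of_injective_algebraMap (algebraMap ℚ K').injective
  have : CharZero K := charZero_of_injective_algebraMap (algebraMap ℚ K).injective
  have : CharZero (modField K (L₀ * q ^ n)) :=
    charZero_of_injective_algebraMap (algebraMap K (modField K (L₀ * q ^ n))).injective
  have hqF : (q : modField K (L₀ * q ^ n)) ≠ 0 := Nat.cast_ne_zero.mpr hq.ne_zero
  set p := chainMap A (q := q) (n := n) 0 tB ^ q - chainMap A 1 tB with hpdef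
  suffices h : (a : modField K (L₀ * q ^ n)) * (p : modField K (L₀ * q ^ n)) / (q : ℕ) ∈
      Carayol.chartRing A (MF.Coeff.jElem K (L₀ * q ^ n)) by
    refine ⟨⟨_, h⟩, Subtype.ext ?_⟩
    show (q : modField K (L₀ * q ^ n)) * _ = _
    rw [mul_div_cancel₀ _ hqF]
    rfl
  refine D.divCriterion_finite hAq _ ?_ fun l => ?_
  · rw [map_natCast, mul_div_cancel₀ _ hqF]
    exact (a * p).2
  by_cases hl : (l : ℕ) = 0
  · obtain rfl : l = 0 := Fin.ext hl
    have h0 := D.res_eq_zero_iff_isGauss.mpr ⟨hR.mem_V a a.2 0, ha⟩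
    obtain ⟨r, hr⟩ := isGauss_mul_pow_div (π := π) D.hA D.hπ hq hqL (D.q_dvd_of_residue hAq)
      (fun h => Nat.cast_ne_zero.mpr hq.ne_zero
        (show ((q : ℕ) : K') = 0 by simpa using congrArg O.subtype h))
      (Nat.zero_le n) (pow_pow_rootExp D.hη (rep 0)) (D.isPrimitiveRoot_rep 0)
      (D.isSubst_rep 0) h0 h0
    rw [Nat.zero_min, pow_zero, Nat.totient_one, Nat.sub_self, pow_zero, mul_one] at hr
    rw [mul_div_right_comm]
    exact mul_mem (D.mem_of_isGauss (D.hrep 0) hr).1 (hR.mem_V p p.2 0)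
  · rw [mul_div_assoc]
    refine mul_mem (hR.mem_V a a.2 l) ?_
    obtain ⟨y, hy⟩ := exists_qExpand_sub_pow q H.tZ
    set T := coeffMap (Int.castRingHom K') H.tZ with hT
    have hJ : ∀ j (_ : j ≤ (l : ℕ)),
        φ (rep l) ((chainMap A (q := q) (n := n) j tB :
          Carayol.chartRing A (MF.Coeff.jElem K (L₀ * q ^ n))) : modField K (L₀ * q ^ n)) =
        qExpand K' (q ^ (n + j)) T := fun j hj => by
      have hjn : j ≤ n := hj.trans (Nat.le_of_lt_succ l.2)
      rw [chainMap_eq A hjn, coe_chartDegen, branch_degen (D.isSubst_rep l) hjn,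
        D.baseEmb_haupt H htB, branchTerm, if_pos hj]
    have hy' : qExpand K' q T - T ^ q = (q : LaurentSeries K') *
        coeffMap (Int.castRingHom K') y := by
      have := congrArg (coeffMap (Int.castRingHom K')) hy
      rwa [map_sub, map_pow, map_mul, map_natCast, coeffMap_qExpand] at this
    have hqL' : (q : LaurentSeries K') ≠ 0 := by
      rw [← map_natCast HahnSeries.C]
      exact HahnSeries.C_ne_zero (Nat.cast_ne_zero.mpr hq.ne_zero)
    have hval : φ (rep l) ((p : modField K (L₀ * q ^ n)) / (q : ℕ)) =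
        -qExpand K' (q ^ n) (coeffMap (Int.castRingHom K') y) := by
      rw [map_div₀, map_natCast, hpdef, AddSubgroupClass.coe_sub, SubmonoidClass.coe_pow, map_sub,
        map_pow, hJ 0 (Nat.zero_le _), hJ 1 (Nat.one_le_iff_ne_zero.mpr hl), div_eq_iff hqL',
        qExpand_congr (Nat.add_zero n ▸ rfl : q ^ (n + 0) = q ^ n),
        qExpand_congr (pow_succ q n), ← qExpand_qExpand, ← map_pow, ← map_sub,
        show T ^ q - qExpand K' q T = -(coeffMap (Int.castRingHom K') y) * (q : LaurentSeries K') by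
          linear_combination -hy',
        map_mul, map_neg, map_natCast]
    have hg : IsGauss π (φ (rep l) ((p : modField K (L₀ * q ^ n)) / (q : ℕ)))
        (qExpand k (q ^ n) (coeffMap (Int.castRingHom k) (-y))) := by
      rw [hval, ← map_neg, ← map_neg]
      exact (isGauss_intCast (-y)).qExpand (q ^ n)
    exact (D.mem_of_isGauss (D.hrep l) hg).1

variable {e : ℕ} {U : Polynomial ℤ[X]}
  (hΦ : evalZ H.tZ H.D ^ e * ((H.tZ - qExpand ℤ q H.tZ ^ q) * (H.tZ ^ q - qExpand ℤ q H.tZ)) +
    (q : LaurentSeries ℤ) * bieval H.tZ (qExpand ℤ q H.tZ) U = 0)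
  (hΦ' : evalZ (qExpand ℤ q H.tZ) H.D ^ e *
      ((qExpand ℤ q H.tZ - H.tZ ^ q) * (qExpand ℤ q H.tZ ^ q - H.tZ)) +
    (q : LaurentSeries ℤ) * bieval (qExpand ℤ q H.tZ) H.tZ U = 0)
  [Fact q.Prime] [CharP k q] (hAq : Irreducible (q : A)) (hred : Function.Surjective D.baseRed)

/-- **The branches and the modular equations on the finite chart.** -/
def ssChain : SSChain A k (Carayol.chartRing A (MF.Coeff.jElem K (L₀ * q ^ n)))
    (Carayol.chartRing A (MF.Coeff.jElem K L₀)) (coordRing k (jSpecial (k := k) L₀)) n where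
  q := q
  ρ := residueA π κ A D.hA
  r i := D.branchRed hR ⟨min i n, Nat.lt_succ_of_le (min_le_right i n)⟩
  r_const _ w := D.branchRed_algebraMap hR _ w
  ι j := chainMap A j
  red := D.baseRed
  red_surjective := hred
  σ := chartFrob L₀ q
  r_ι i hi j hj b := by
    rw [chainMap_eq A hj, D.branchRed_chartDegen hR _ hj]
    simp only [min_eq_left hi]
  t := tB
  σ_t := by
    refine Subtype.ext (Subtype.ext ?_)
    show qExpand k q ((D.baseRed tB : modularFunctionFieldFullC k L₀) : LaurentSeries k) = _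
    rw [SubmonoidClass.coe_pow, SubmonoidClass.coe_pow, D.coe_baseRed_haupt H htB, Haupt.tBar,
      ← coeffMap_qExpand, coeffMap_qExpand_eq_pow]
  D := H.D
  e := e
  U := U
  rel j hj := (chain_rel (A := A) H htB hj).1 hΦ
  rel' j hj := (chain_rel (A := A) H htB hj).2 hΦ'
  div a ha := D.chain_div hR H htB hAq a (by
    have h0 : (⟨min 0 n, Nat.lt_succ_of_le (min_le_right 0 n)⟩ : Fin (n + 1)) = 0 :=
      Fin.ext (Nat.zero_min n)
    rw [h0] at ha
    exact congrArg Subtype.val ha)
  q_ne_zero h := by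
    have : CharZero K := charZero_of_injective_algebraMap (algebraMap ℚ K).injective
    have : CharZero (modField K (L₀ * q ^ n)) :=
      charZero_of_injective_algebraMap (algebraMap K (modField K (L₀ * q ^ n))).injective
    exact Nat.cast_ne_zero.mpr hq.ne_zero
      (congrArg Subtype.val h : ((q : ℕ) : modField K (L₀ * q ^ n)) = 0)

omit [Fact q.Prime] [CharP k q] hΦ hΦ' hAq hred

variable (ι : K' →+* ℂ) (ι₀ : K →+* ℂ)

include ι hR

/-- **Supersingular points**: all separators vanish. -/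
theorem chartPoint_of_sep_vanish [NeZero N₀] (hqN : ¬ q ∣ N₀) (hn : 2 ≤ n)
    (hAq : Irreducible (q : A)) (hred : Function.Surjective D.baseRed)
    (het : ∀ χ : coordRing k (jSpecial (k := k) L₀) →ₐ[k] k,
      evalZ (χ (D.baseRed tB)) H.D ≠ 0 →
      ∀ w, residueA π κ A D.hA w = χ (D.baseRed tB) → ∀ b, χ (D.baseRed b) = 0 →
        ∃ s, χ (D.baseRed s) ≠ 0 ∧ s * b ∈ Ideal.span
          {(q : Carayol.chartRing A (MF.Coeff.jElem K L₀)),
            tB - algebraMap A (Carayol.chartRing A (MF.Coeff.jElem K L₀)) w})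
    (y : Ideal (Carayol.chartRing A (MF.Coeff.jElem K (L₀ * q ^ n)))) [y.IsMaximal]
    (hqy : (⟨algebraMap A _ (q : A), Subalgebra.algebraMap_mem _ _⟩ :
      Carayol.chartRing A (MF.Coeff.jElem K (L₀ * q ^ n))) ∈ y)
    (hsep : ∀ i, sepElt ι₀ i ∈ y) :
    ChartPoint Br (Carayol.chartRing A (MF.Coeff.jElem K (L₀ * q ^ n))) penLast y := by
  have := Fact.mk hq
  have := D.charP
  have := D.dvrA
  obtain ⟨e', U', hΦ, hΦ'⟩ := exists_rel_both H q hqN
  set S := D.ssChain hR H htB hΦ hΦ' hAq hred with hS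
  have : Fact S.q.Prime := Fact.mk hq
  have : CharP k S.q := D.charP
  have hn1 : 1 ≤ n := le_trans one_le_two hn
  have hσ : ∀ χ : coordRing k (jSpecial (k := k) L₀) →ₐ[k] k,
      ∃ χ', AlgHom.comp χ' S.σ = χ :=
    exists_point_comp_eq _ (chartFrob_injective L₀ q) (chartFrob_isIntegral L₀ q)
  have hr : ∀ i : Fin (n + 1), S.r i = D.branchRed hR i := fun i => by
    show D.branchRed hR _ = _
    exact congrArg (D.branchRed hR) (Fin.ext (min_eq_left (Nat.le_of_lt_succ i.2)))
  obtain ⟨d, hd⟩ := D.exists_delta hR ι ι₀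
  let ψ := (modularFunctionFieldFullC k L₀).val.comp (coordRing k (jSpecial (k := k) L₀)).val
  -- a point on a branch is supersingular there
  have hpt : ∀ i : Fin (n + 1), LiesOnBranch Br _ y i → ∃ χ, S.IsSS χ ∧
      y = RingHom.ker (S.point χ i) := by
    intro i hi
    obtain ⟨χ, hχ⟩ := D.exists_point hR hAq hred y hqy hi
    refine ⟨χ, ?_, Ideal.ext fun a => ?_⟩
    · have h0 := (hχ _).mp (hsep i)
      rw [D.branchRed_sepElt hR ι ι₀ i hd, map_pow] at h0
      have h1 : S.sigmaPt (sepDepth n i) χ d = 0 := by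
        rw [S.sigmaPt_apply]
        exact eq_zero_of_pow_eq_zero h0
      set χ' := S.sigmaPt (sepDepth n i) χ
      have hD := D.evalZ_D_ne_zero H htB hqN χ'
      have h2 := H.isSS_of_vanish k hΦ ψ (Subtype.val_injective.comp Subtype.val_injective)
        (D.baseRed tB) d (D.coe_baseRed_haupt H htB) (by
          show ((d : modularFunctionFieldFullC k L₀) : LaurentSeries k) * _ = 1
          rw [hd, ← mul_pow, mul_comm,
            show Carayol.deltaSeries k = Igusa.deltaSeries k from rfl, deltaSeries_mul_inv,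
            one_pow])
        χ' hD h1
      exact SSChain.IsSS.of_sigma S (m := sepDepth n i) ⟨hD, h2.1, h2.2⟩
    · rw [hχ a, RingHom.mem_ker, S.point_apply, hr]
  obtain ⟨i₀, hi₀⟩ := exists_liesOnBranch hR hqy
  obtain ⟨χ₁, hss₁, hy₁⟩ := hpt i₀ hi₀
  set χ₀ := S.sigmaPt (chainDepth n i₀ n) χ₁
  have hss₀ : S.IsSS χ₀ := SSChain.IsSS.sigma S hss₁ _
  have hy₀ : y = RingHom.ker (S.point χ₀ 0) := by
    rw [hy₁, S.point_eq hn1 hss₁ (Nat.le_of_lt_succ i₀.2)]
  have hon : ∀ i, LiesOnBranch Br _ y i := fun i a h ha => by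
    rw [hy₀, RingHom.mem_ker]
    refine S.point_eq_zero_of_r_eq_zero hn1 hss₀ hσ (Nat.le_of_lt_succ i.2) ?_
    rw [hr]
    exact Subtype.ext ha
  obtain ⟨χ, hss, hy⟩ := hpt (Fin.last n) (hon _)
  refine chartPoint_of_supersingular hR ?_ hon (fun i => D.exists_dvr hR hAq hred y hqy (hon i))
    fun i j hij => ?_
  · obtain ⟨hnoeth, hint, hfrac⟩ := D.chainImages_facts
    have hgens : S.gens = chainImages A L₀ q n := rfl
    have : IsNoetherianRing S.gens := hnoeth
    have hρ : Function.Surjective S.ρ := D.residueA_surjective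
    have hker : ∀ w, S.ρ w = 0 → ((S.q : ℕ) : A) ∣ w := D.q_dvd_of_residue hAq
    have hne : ∀ j, 1 ≤ j → j < n → S.ι (j - 1) S.t ≠ S.ι (j + 1) S.t := by
      intro j h1 h2 h
      have h' := congrArg (fun a : Carayol.chartRing A (MF.Coeff.jElem K (L₀ * q ^ n)) =>
        ((a : modField K (L₀ * q ^ n)) : LaurentSeries K).coeff
          (-((q ^ (j - 1) : ℕ) : ℤ))) h
      simp only [hS, ssChain, coe_chainMap, htB] at h'
      rw [qExpand_congr (show q ^ min (j - 1) n = q ^ (j - 1) by rw [min_eq_left (by omega)]),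
        qExpand_congr (show q ^ min (j + 1) n = q ^ (j + 1) by rw [min_eq_left (by omega)]),
        show -((q ^ (j - 1) : ℕ) : ℤ) = ((q ^ (j - 1) : ℕ) : ℤ) * (-1) by ring,
        qExpand_coeff_mul, coeffMap_coeff, H.coeff_neg_one, map_one, qExpand_coeff_of_not_dvd] at h'
      · exact one_ne_zero h'
      · intro hdvd
        rw [mul_neg_one, dvd_neg, Int.natCast_dvd_natCast, Nat.pow_dvd_pow_iff_le_right hq.one_lt]
          at hdvd
        omega
    have htr : ∀ c : k, S.red S.t ≠ algebraMap k (coordRing k (jSpecial (k := k) L₀)) c := by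
      intro c h
      have h' := congrArg (fun x => (ψ x).coeff (-1)) h
      simp only [AlgHom.commutes] at h'
      rw [show ψ (S.red S.t) = H.tBar k from D.coe_baseRed_haupt H htB, H.coeff_neg_one_tBar,
        algebraMap_laurentSeries_eq_single, HahnSeries.coeff_single_of_ne (by norm_num)] at h'
      exact one_ne_zero h'
    have key := S.ufm hn1 hss₀ hρ hker het hne htr hint hfrac
    subst hy₀
    exact key
  · obtain ⟨hi, hj⟩ := hij
    have hi' : (i : ℕ) = n - 1 := by omega
    have hij' : S.point χ i = S.point χ j := by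
      rw [hi', hj]
      exact S.point_pred hσ hn1 hss hn
    refine valueCongrAt_of_point_eq hR (coordRing k (jSpecial (k := k) L₀)).val.toRingHom
      (D.branchRed hR) (fun l a => D.coe_branchRed hR l a) (D.branchRed_surjective hR hred) χ
      (i := i) (j := j) ?_ ?_
    · rw [← hr, ← hr]
      exact hij'
    · rw [hy, show ((Fin.last n : Fin (n + 1)) : ℕ) = (j : ℕ) from hj.symm, ← hij', ← hr]
      rfl

end ChartData

section Final

local notation "Qb" => AlgebraicClosure ℚ

variable {A₀ : ValuationSubring Qb} {K K' k : Type} [Field K] [Algebra ℚ K] [Algebra K Qb]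
  [Field K'] [Algebra ℚ K'] [Field k] {q L₀ n : ℕ} [NeZero q] [NeZero L₀]
  {hq : q.Prime} {hqL : ¬ q ∣ L₀} {π₀ : A₀ →+* k} {κ : K →+* K'} {ι : K' →+* Qb} {η : K'ˣ}
  {φ : BranchIdx q n → modField K (L₀ * q ^ n) →+* LaurentSeries K'}
  {rep : Fin (n + 1) → BranchIdx q n}
  {Br : Branches (modField K (L₀ * q ^ n)) (Fin (n + 1))
    (fun _ => modularFunctionFieldFullC k L₀)}
  (hC : Consts A₀ q n π₀ κ ι η)
  (D : ChartData hq hqL (constRes π₀ ι) κ η (constA A₀ K) φ rep Br
    (modularFunctionFieldFullC k L₀).val.toRingHom)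

include hC D

/-- The reduction of level `L₀` is onto the coordinate ring of `j̄`. -/
theorem baseRed_surjective_of_consts : Function.Surjective D.baseRed := by
  have := hC.galois
  have := hC.dvrA
  exact Etale.jChartRed_surjective π₀ (residueA (constRes π₀ ι) κ (constA A₀ K) D.hA) hC.π₀_surj
    D.residueA_surjective D.hL (fun w => w.2)
    (fun w => congrArg π₀ (Subtype.ext (RingHom.congr_fun hC.comp (w : K)).symm))
    (hC.normal L₀ D.hL hqL)

/-- A Hauptmodul of level `L₀` and the hypotheses of the chart points on it. -/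
theorem exists_haupt_of_consts (hL : 4 ∣ L₀ ∨ 9 ∣ L₀) :
    ∃ (N₀ : ℕ) (_ : NeZero N₀) (H : Haupt N₀)
      (tB : Carayol.chartRing (constA A₀ K) (MF.Coeff.jElem K L₀)), ¬ q ∣ N₀ ∧
      ((tB : modField K L₀) : LaurentSeries K) = coeffMap (Int.castRingHom K) H.tZ ∧
      ∀ χ : coordRing k (jSpecial (k := k) L₀) →ₐ[k] k,
        evalZ (χ (D.baseRed tB)) H.D ≠ 0 →
        ∀ w, residueA (constRes π₀ ι) κ (constA A₀ K) D.hA w = χ (D.baseRed tB) →
        ∀ b, χ (D.baseRed b) = 0 → ∃ s, χ (D.baseRed s) ≠ 0 ∧ s * b ∈ Ideal.span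
          {(q : Carayol.chartRing (constA A₀ K) (MF.Coeff.jElem K L₀)),
            tB - algebraMap (constA A₀ K)
              (Carayol.chartRing (constA A₀ K) (MF.Coeff.jElem K L₀)) w} := by
  have := hC.galois
  have := hC.dvrA
  have := hC.algClosed
  have := hC.charP
  set ρ := residueA (constRes π₀ ι) κ (constA A₀ K) D.hA
  have hρ : Function.Surjective ρ := D.residueA_surjective
  have hcompat : ∀ w : constA A₀ K, π₀ ⟨algebraMap K Qb (w : K), w.2⟩ = ρ w := fun w =>
    congrArg π₀ (Subtype.ext (RingHom.congr_fun hC.comp (w : K)).symm)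
  have hker : ∀ w, ρ w = 0 → (q : constA A₀ K) ∣ w := D.q_dvd_of_residue hC.irreducible_q
  have hq0 : ρ (q : constA A₀ K) = 0 := by rw [map_natCast, CharP.cast_eq_zero]
  have hnormal := hC.normal L₀ D.hL hqL
  rcases hL with h4 | h9
  · obtain ⟨tB, htK, htk⟩ := Etale.exists_hauptElem (K := K) ρ hρ D.hL
      (full_degeneracyC_le (K := ℚ) h4 haupt4.mem) haupt4.j_eq haupt4.P_monic haupt4.degree_lt
    exact ⟨4, ⟨by norm_num⟩, haupt4, tB, fun h => hqL (h.trans h4), htK,
      Etale.het_haupt4 π₀ ρ hC.π₀_surj hρ D.hL (fun w => w.2) hcompat hker hq0 h4 hnormal htk⟩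
  · obtain ⟨tB, htK, htk⟩ := Etale.exists_hauptElem (K := K) ρ hρ D.hL
      (full_degeneracyC_le (K := ℚ) h9 haupt9.mem) haupt9.j_eq haupt9.P_monic haupt9.degree_lt
    exact ⟨9, ⟨by norm_num⟩, haupt9, tB, fun h => hqL (h.trans h9), htK,
      Etale.het_haupt9 π₀ ρ hC.π₀_surj hρ D.hL (fun w => w.2) hcompat hker hq0 h9 hnormal htk⟩

/-- **The points of the finite chart over `q`.** -/
theorem chartPoint_finite (cι : Qb →+* ℂ) (hL : 4 ∣ L₀ ∨ 9 ∣ L₀) (hn : 2 ≤ n)
    (hR : IsChart Br (q : constA A₀ K)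
      (Carayol.chartRing (constA A₀ K) (MF.Coeff.jElem K (L₀ * q ^ n))))
    (y : Ideal (Carayol.chartRing (constA A₀ K) (MF.Coeff.jElem K (L₀ * q ^ n)))) [y.IsMaximal]
    (hqy : (⟨algebraMap (constA A₀ K) _ (q : constA A₀ K), Subalgebra.algebraMap_mem _ _⟩ :
      Carayol.chartRing (constA A₀ K) (MF.Coeff.jElem K (L₀ * q ^ n))) ∈ y) :
    ChartPoint Br (Carayol.chartRing (constA A₀ K) (MF.Coeff.jElem K (L₀ * q ^ n))) penLast y := by
  have := hC.algClosed
  obtain ⟨N₀, _, H, tB, hqN, htB, het⟩ := exists_haupt_of_consts hC D hL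
  have hred := baseRed_surjective_of_consts hC D
  let ι' : K' →+* ℂ := cι.comp ι
  by_cases h : ∀ i, ChartData.sepElt (ι'.comp κ) i ∈ y
  · exact D.chartPoint_of_sep_vanish hR H htB ι' (ι'.comp κ) hqN hn hC.irreducible_q hred het y
      hqy h
  · push Not at h
    obtain ⟨i, hi⟩ := h
    exact D.chartPoint_of_sep hR ι' (ι'.comp κ) H htB
      (D.divCriterion_finite hC.irreducible_q) hqN hC.irreducible_q hred penLast y hqy hi

end Final

end Fermat.Agent.CarayolHigh
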