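/-
The model of `X₀(qⁿ L)` exists, hence the key statements at exponents at least three.
-/
import Fermat.Agent.CarayolHigh.SSChart
import Fermat.Agent.CarayolHigh.CuspPointData
import Fermat.Agent.CarayolHigh.KeyRawOf
import Fermat.Agent.CarayolHigh.BoundOf

set_option autoImplicit false
set_option linter.style.haveILetI false
set_option linter.unusedSectionVars false
set_option maxHeartbeats 800000
set_option synthInstance.maxHeartbeats 400000

noncomputable section

open ModularCurve AlgebraicCurve
open Fermat.Agent.HK.Corr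
open Fermat.Agent.Carayol (constA constO constRes Branches)

namespace Fermat.Agent.CarayolHigh

local notation "Qb" => AlgebraicClosure ℚ

/-- Forgetting one level of roots of unity. -/
theorem Consts.pow_root {A₀ : ValuationSubring Qb} {K K' k : Type} [Field K] [Algebra K Qb]
    [Field K'] [Field k] {q n : ℕ} {π₀ : A₀ →+* k} {κ : K →+* K'} {ι : K' →+* Qb} {ω : K'ˣ}
    (hC : Consts A₀ q (n + 1) π₀ κ ι ω) : Consts A₀ q n π₀ κ ι (ω ^ q) :=
  { hC with
    hη := hC.hη.pow (pow_pos hC.hq.pos _) (pow_succ' q n)
    sigma := fun u hu => by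
      obtain ⟨σ, hσ, h1, h2, h3⟩ := hC.sigma u hu
      refine ⟨σ, hσ, h1, ?_, h3⟩
      rw [Units.val_pow_eq_pow_val, map_pow, h2, ← pow_mul, ← pow_mul, mul_comm] }

/-- **The points exist.** -/
theorem pointsExist : PointsExist := by
  intro L q m _ _ hq hqL hcase hm A₀ K K' k _ _ _ _ _ _ π₀ κ ι ω hC φ Br D
  have := hC.dvrA
  have hC' : Consts A₀ q (m + 1) π₀ κ ι (ω ^ q) := Consts.pow_root hC
  have key : ∀ (y : Ideal (Carayol.chartRing (constA A₀ K) (MF.Coeff.jElem K (L * q ^ (m + 1)))))
      [y.IsMaximal], (⟨algebraMap (constA A₀ K) _ (q : constA A₀ K), Subalgebra.algebraMap_mem _ _⟩ :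
        Carayol.chartRing (constA A₀ K) (MF.Coeff.jElem K (L * q ^ (m + 1)))) ∈ y →
      ChartPoint Br (Carayol.chartRing (constA A₀ K) (MF.Coeff.jElem K (L * q ^ (m + 1))))
        (lastPair (m + 1)) y := by
    intro y _ hy
    have h := chartPoint_finite hC' D ((IsAlgClosed.lift : Qb →ₐ[ℚ] ℂ) : Qb →+* ℂ)
      (hcase.imp And.right And.right) (by omega) (D.isChart_finite hC.irreducible_q) y hy
    exact ⟨h.ufm, h.branchRing, h.dichotomy.imp id
      fun h' => ⟨h'.1, fun i j hij => h'.2 i j ⟨hij.1, by rw [hij.2, Fin.val_last]⟩⟩⟩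
  exact pointData_of_finite hC (by omega) D fun y hy' hy => @key y hy' hy

/-- **The model exists.** -/
theorem modelExists : ModelExists := modelExists_of_points pointsExist

/-- **The key statement at `X₀(qⁿ L)`, `n ≥ 3`.** -/
theorem stmtKeyHigh : R59.Lower.StmtKeyHigh := stmtKeyHigh_of_model modelExists

/-- **The bound on inertia-fixed torsion at exponents at least three.** -/
theorem inertiaTorsionBoundHigh : InertiaTorsionBoundHigh :=
  inertiaTorsionBoundHigh_of_model modelExists

end Fermat.Agent.CarayolHigh
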