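import Mathlib

/-!
Norms along an extension of valued fields with a single extension of the valuation and purely
inseparable residue extension: the residue of the norm is a power of the residue.
-/

set_option autoImplicit false

namespace Fermat.Agent.CarayolHigh

open IsLocalRing

variable {F F' : Type*} [Field F] [Field F'] [Algebra F' F]

/-- Some valuation subring of an extension field lies over a given one. -/
theorem exists_comap_eq {Ω : Type*} [Field Ω] (f : F' →+* Ω) (V' : ValuationSubring F') :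
    ∃ B : ValuationSubring Ω, B.comap f = V' := by
  let A : Subring Ω := V'.toSubring.map f
  have hinj := f.injective
  let e : V'.toSubring ≃+* A := V'.toSubring.equivMapOfInjective f hinj
  let I : Ideal A := (maximalIdeal V').comap e.symm.toRingHom
  have hI : I ≠ ⊤ := by
    rw [Ne, Ideal.eq_top_iff_one, Ideal.mem_comap, map_one, ← Ideal.eq_top_iff_one]
    exact (maximalIdeal.isMaximal _).ne_top
  obtain ⟨B, hAB, hIB⟩ := Ideal.image_subset_nonunits_valuationSubring I hI
  refine ⟨B, le_antisymm (fun x hx => ?_) fun x hx => hAB ⟨x, hx, rfl⟩⟩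
  by_contra hxV
  have hx0 : x ≠ 0 := fun h => hxV (h ▸ V'.zero_mem)
  have hxi : x⁻¹ ∈ V' := (V'.mem_or_inv_mem x).resolve_left hxV
  have hmem : (⟨x⁻¹, hxi⟩ : V') ∈ maximalIdeal V' := by
    rw [IsLocalRing.mem_maximalIdeal, mem_nonunits_iff]
    intro hu
    obtain ⟨⟨y, hy⟩, hy'⟩ := isUnit_iff_exists_inv.mp hu
    refine hxV ?_
    have : y = x := by
      simpa [Subtype.ext_iff, inv_mul_eq_iff_eq_mul₀ hx0] using hy'
    exact this ▸ hy
  have hnu : f x⁻¹ ∈ B.nonunits := hIB ⟨e ⟨x⁻¹, hxi⟩, by
    simp only [I, SetLike.mem_coe, Ideal.mem_comap, RingEquiv.toRingHom_eq_coe, RingHom.coe_coe,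
      RingEquiv.symm_apply_apply]
    exact hmem, rfl⟩
  rw [map_inv₀] at hnu
  exact (B.inv_mem_nonunits_iff.mp hnu).resolve_left (by simpa using hx0) hx

theorem zero_mem_valuationNonunits {K : Type*} [Field K] (B : ValuationSubring K) :
    (0 : K) ∈ B.nonunits := by
  rw [← SetLike.mem_coe, ← B.image_maximalIdeal]
  exact ⟨0, zero_mem _, rfl⟩

variable [FiniteDimensional F' F] [Algebra.IsSeparable F' F]

/-- If `V` is the only valuation subring over `V'` and `a ≡ c` modulo `𝔪_V` with `c ∈ V'`, then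
`N(a) ≡ c ^ [F : F']` modulo `𝔪_{V'}`. -/
theorem norm_sub_pow_mem {V' : ValuationSubring F'} {V : ValuationSubring F}
    (huniq : ∀ B : ValuationSubring F, B.comap (algebraMap F' F) = V' → B = V)
    {a : F} {c : F'} (hc : c ∈ V') (hac : a - algebraMap F' F c ∈ V.nonunits) :
    Algebra.norm F' a - c ^ Module.finrank F' F ∈ V'.nonunits := by
  let Ω := AlgebraicClosure F
  obtain ⟨B, hB⟩ := exists_comap_eq (algebraMap F' Ω) V'
  have hmem : ∀ σ : F →ₐ[F'] Ω, σ a - algebraMap F' Ω c ∈ B.nonunits := by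
    intro σ
    have hσ : B.comap σ.toRingHom = V := huniq _ (by
      rw [← hB]
      ext x
      simp)
    rw [← hσ] at hac
    rw [← σ.commutes c, ← map_sub]
    rcases eq_or_ne (a - algebraMap F' F c) 0 with h0 | h0
    · rw [h0, map_zero]; exact zero_mem_valuationNonunits _
    rw [← inv_inv (σ (a - algebraMap F' F c)), B.inv_mem_nonunits_iff]
    right
    intro hin
    rw [← inv_inv (a - algebraMap F' F c), ValuationSubring.inv_mem_nonunits_iff] at hac
    rcases hac with h | h
    · exact h0 (by simpa using h)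
    · exact h (by simpa [ValuationSubring.mem_comap] using hin)
  have hcB : algebraMap F' Ω c ∈ B := by rw [← ValuationSubring.mem_comap, hB]; exact hc
  have hprod : algebraMap F' Ω (Algebra.norm F' a) - algebraMap F' Ω c ^ Module.finrank F' F ∈
      B.nonunits := by
    rw [Algebra.norm_eq_prod_embeddings, ← AlgHom.card F' F Ω, ← Finset.card_univ,
      ← Finset.prod_const, ← SetLike.mem_coe, ← B.image_maximalIdeal]
    have hσ : ∀ σ : F →ₐ[F'] Ω, ∃ h : σ a ∈ B,
        residue B ⟨σ a, h⟩ = residue B ⟨algebraMap F' Ω c, hcB⟩ := by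
      intro σ
      obtain ⟨⟨y, hy⟩, hym, hye⟩ := (B.image_maximalIdeal ▸ hmem σ :
        σ a - algebraMap F' Ω c ∈ ((↑) : B → Ω) '' (maximalIdeal B : Set B))
      change y = σ a - algebraMap F' Ω c at hye
      have h : σ a ∈ B := by
        have := B.add_mem _ _ hy hcB
        rwa [hye, sub_add_cancel] at this
      refine ⟨h, sub_eq_zero.mp ?_⟩
      rw [← map_sub, residue_eq_zero_iff]
      rw [show (⟨σ a, h⟩ : B) - ⟨algebraMap F' Ω c, hcB⟩ = ⟨y, hy⟩ from Subtype.ext hye.symm]
      exact hym
    refine ⟨∏ σ : F →ₐ[F'] Ω, (⟨σ a, (hσ σ).1⟩ : B) - ∏ _σ : F →ₐ[F'] Ω, ⟨_, hcB⟩, ?_, by simp⟩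
    rw [SetLike.mem_coe, ← residue_eq_zero_iff, map_sub, map_prod, map_prod, sub_eq_zero]
    exact Finset.prod_congr rfl fun σ _ => (hσ σ).2
  rw [← map_pow, ← map_sub] at hprod
  set x := Algebra.norm F' a - c ^ Module.finrank F' F
  rcases eq_or_ne x 0 with h0 | h0
  · rw [h0]; exact zero_mem_valuationNonunits _
  rw [← inv_inv x, ValuationSubring.inv_mem_nonunits_iff]
  right
  rw [← inv_inv (algebraMap F' Ω x), ValuationSubring.inv_mem_nonunits_iff] at hprod
  rcases hprod with h | h
  · exact absurd ((map_eq_zero (algebraMap F' Ω)).mp (by simpa using h)) h0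
  · rw [← hB]
    simpa using h

/-- Residue version with a purely inseparable residue extension: `N(a)^Q ≡ c^[F:F']` when
`a^Q ≡ c`. -/
theorem norm_pow_sub_pow_mem {V' : ValuationSubring F'} {V : ValuationSubring F}
    (huniq : ∀ B : ValuationSubring F, B.comap (algebraMap F' F) = V' → B = V)
    {a : F} {c : F'} {Q : ℕ} (hc : c ∈ V') (hac : a ^ Q - algebraMap F' F c ∈ V.nonunits) :
    Algebra.norm F' a ^ Q - c ^ Module.finrank F' F ∈ V'.nonunits := by
  rw [← map_pow]
  exact norm_sub_pow_mem huniq hc hac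

end Fermat.Agent.CarayolHigh
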