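import Fermat.Agent.CarayolHigh.Gauss
import Fermat.Agent.CarayolHigh.Norm

/-!
# Extensions of a valuation are the pullbacks along embeddings

* `eq_of_finite_family`: if everything in all members of a finite family of valuation subrings over
  `V'` is integral over `V'`, every valuation subring over `V'` is a member of the family;
* `isIntegral_of_embeddings`: that hypothesis for pullbacks along a complete family of embeddings;
* `exists_eq_pullback`, `eq_of_pullbacks_eq`: the Gauss branches exhaust the places over `V'`; a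
  single branch gives the uniqueness used by `norm_sub_pow_mem`.
-/

set_option autoImplicit false

noncomputable section

namespace Fermat.Agent.CarayolHigh

open IsLocalRing Polynomial

variable {E F : Type*} [Field E] [Field F]

/-- A unit of a valuation subring, seen in the field. -/
theorem inv_mem_of_residue_ne_zero {V : ValuationSubring F} {x : F} (hx : x ∈ V)
    (h : residue V ⟨x, hx⟩ ≠ 0) : x ≠ 0 ∧ x⁻¹ ∈ V := by
  rw [Ne, residue_eq_zero_iff, IsLocalRing.mem_maximalIdeal, mem_nonunits_iff, not_not] at h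
  obtain ⟨⟨z, hz⟩, hxz⟩ := isUnit_iff_exists_inv.mp h
  have h1 : x * z = 1 := congrArg Subtype.val hxz
  exact ⟨left_ne_zero_of_mul_eq_one h1, inv_eq_of_mul_eq_one_right h1 ▸ hz⟩

/-- A good exponent: for finitely many places and one element `x`, the inverse `s` of
`1 + x + ⋯ + x^(N-1)` and `s x` are integral at all of them, and `s` is a unit wherever `x` is
integral. -/
theorem exists_denominator {J : Type*} [Finite J] (V : J → ValuationSubring F) (x : F) :
    ∃ s : F, (∀ j, s ∈ V j ∧ x * s ∈ V j ∧ (x ∈ V j → s⁻¹ ∈ V j)) ∧ ((∃ j, x ∈ V j) → s ≠ 0) := by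
  classical
  cases nonempty_fintype J
  let bound : J → ℕ := fun j =>
    if h : x ∈ V j then max (ringChar (ResidueField (V j))) (orderOf (residue (V j) ⟨x, h⟩)) else 0
  obtain ⟨N, hNb, hN⟩ := Nat.exists_infinite_primes (Finset.univ.sup bound + 2)
  set S := ∑ i ∈ Finset.range N, x ^ i
  have hunit : ∀ j (h : x ∈ V j), S ≠ 0 ∧ S ∈ V j ∧ S⁻¹ ∈ V j := by
    intro j h
    have hb : bound j + 2 ≤ N :=
      le_trans (Nat.add_le_add_right (Finset.le_sup (Finset.mem_univ j)) 2) hNb
    simp only [bound, dif_pos h] at hb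
    have hmem : S ∈ V j := sum_mem fun i _ => pow_mem h i
    set z := residue (V j) ⟨x, h⟩
    have hres : residue (V j) ⟨S, hmem⟩ = ∑ i ∈ Finset.range N, z ^ i := by
      simp only [z, ← map_pow, ← map_sum]
      exact congrArg _ (Subtype.ext (by simp [S]))
    have hne : residue (V j) ⟨S, hmem⟩ ≠ 0 := by
      rw [hres]
      intro h0
      rcases eq_or_ne z 1 with hz | hz
      · simp only [hz, one_pow, Finset.sum_const, Finset.card_range, nsmul_one] at h0
        rw [ringChar.spec] at h0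
        rcases (Nat.dvd_prime hN).1 h0 with h1 | h1
        · exact CharP.ringChar_ne_one h1
        · omega
      · have h1 : z ^ N = 1 := by rw [← sub_eq_zero, ← geom_sum_mul, h0, zero_mul]
        rcases (Nat.dvd_prime hN).1 (orderOf_dvd_of_pow_eq_one h1) with h2 | h2
        · exact hz (orderOf_eq_one_iff.1 h2)
        · omega
    obtain ⟨h0, hi⟩ := inv_mem_of_residue_ne_zero hmem hne
    exact ⟨h0, hmem, hi⟩
  refine ⟨S⁻¹, fun j => ?_, fun ⟨j, hj⟩ => inv_ne_zero (hunit j hj).1⟩
  by_cases hx : x ∈ V j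
  · obtain ⟨-, hS, hi⟩ := hunit j hx
    exact ⟨hi, mul_mem hx hi, fun _ => by rwa [inv_inv]⟩
  have hx0 : x ≠ 0 := fun h => hx (h ▸ zero_mem _)
  have hy : x⁻¹ ∈ V j := ((V j).mem_or_inv_mem x).resolve_left hx
  have hy0 : residue (V j) ⟨x⁻¹, hy⟩ = 0 := by
    by_contra h
    exact hx (inv_inv x ▸ (inv_mem_of_residue_ne_zero hy h).2)
  set T := ∑ i ∈ Finset.range N, x⁻¹ ^ i
  have hT : T ∈ V j := sum_mem fun i _ => pow_mem hy i
  have hTne : residue (V j) ⟨T, hT⟩ ≠ 0 := by
    have : residue (V j) ⟨T, hT⟩ = ∑ i ∈ Finset.range N, residue (V j) ⟨x⁻¹, hy⟩ ^ i := by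
      simp only [← map_pow, ← map_sum]
      exact congrArg _ (Subtype.ext (by simp [T]))
    rw [this, hy0, zero_geom_sum, if_neg hN.ne_zero]
    exact one_ne_zero
  obtain ⟨hT0, hTi⟩ := inv_mem_of_residue_ne_zero hT hTne
  have hST : S = x ^ (N - 1) * T := by
    simp only [S, T, Finset.mul_sum]
    rw [← Finset.sum_range_reflect]
    refine Finset.sum_congr rfl fun i hi => ?_
    have := Finset.mem_range.1 hi
    rw [inv_pow, ← pow_sub₀ _ hx0 (by omega)]
  refine ⟨?_, ?_, fun h => absurd h hx⟩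
  · rw [hST, mul_inv, ← inv_pow]
    exact mul_mem (pow_mem hy _) hTi
  · have h2 := hN.two_le
    rw [hST, mul_inv, ← mul_assoc, show x * (x ^ (N - 1))⁻¹ = x⁻¹ ^ (N - 2) by
      rw [show N - 1 = (N - 2) + 1 by omega, pow_succ, mul_inv, mul_comm, mul_assoc,
        inv_mul_cancel₀ hx0, mul_one, inv_pow]]
    exact mul_mem (pow_mem hy _) hTi

variable [Algebra E F]

/-- A place over `V'` belongs to any finite family of places over `V'` whose intersection is
integral over `V'`. -/
theorem eq_of_finite_family {J : Type*} [Finite J] [Nonempty J] {V' : ValuationSubring E}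
    (V : J → ValuationSubring F) (hV : ∀ j, (V j).comap (algebraMap E F) = V')
    (hint : ∀ x, (∀ j, x ∈ V j) → IsIntegral V' x) {B : ValuationSubring F}
    (hB : B.comap (algebraMap E F) = V') : ∃ j, B = V j := by
  classical
  cases nonempty_fintype J
  let R : Subring F := ⨅ j, (V j).toSubring
  have hmemR : ∀ {x : F}, x ∈ R ↔ ∀ j, x ∈ V j := by
    intro x; simp [R, Subring.mem_iInf]
  let ιB : V' →+* B :=
    ((algebraMap E F).comp V'.subtype).codRestrict B fun c => by
      exact (SetLike.ext_iff.1 hB (c : E)).2 c.2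
  have hRB : ∀ {x : F}, x ∈ R → x ∈ B := by
    intro x hx
    obtain ⟨g, hg, hgx⟩ := hint x (hmemR.1 hx)
    have hint' : IsIntegral B x := ⟨g.map ιB, hg.map _, by rw [eval₂_map]; exact hgx⟩
    obtain ⟨y, hy⟩ := IsIntegrallyClosed.isIntegral_iff.mp hint'
    exact hy ▸ y.2
  let toV : ∀ j, R →+* V j := fun j => R.subtype.codRestrict (V j) fun x => hmemR.1 x.2 j
  let toB : R →+* B := R.subtype.codRestrict B fun x => hRB x.2
  let P : J → Ideal R := fun j => (maximalIdeal (V j)).comap (toV j)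
  let PB : Ideal R := (maximalIdeal B).comap toB
  have hsub : (PB : Set R) ⊆ ⋃ j ∈ ((Finset.univ : Finset J) : Set J), (P j : Set R) := by
    intro y hy
    by_contra hn
    simp only [Finset.coe_univ, Set.mem_univ, Set.iUnion_true, Set.mem_iUnion, not_exists,
      SetLike.mem_coe] at hn
    have hy' : ¬ IsUnit (toB y) := hy
    refine hy' ?_
    obtain ⟨j₀⟩ := (inferInstance : Nonempty J)
    have hu : ∀ j, (y : F) ≠ 0 ∧ (y : F)⁻¹ ∈ V j := fun j =>
      inv_mem_of_residue_ne_zero (hmemR.1 y.2 j) fun h => hn j ((residue_eq_zero_iff _).1 h)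
    exact isUnit_iff_exists_inv.mpr ⟨⟨_, hRB (hmemR.2 fun j => (hu j).2)⟩,
      Subtype.ext (mul_inv_cancel₀ (hu j₀).1)⟩
  have hprime : ∀ j, (P j).IsPrime := fun j => Ideal.IsPrime.comap _
  obtain ⟨j, -, hj⟩ := (Ideal.subset_union_prime
    (Classical.arbitrary J) (Classical.arbitrary J)
    fun i _ _ _ => hprime i).1 hsub
  -- the two centres agree
  let ιR : V' →+* R := ((algebraMap E F).comp V'.subtype).codRestrict R fun c => hmemR.2 fun l => by
    exact (SetLike.ext_iff.1 (hV l) (c : E)).2 c.2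
  let _ : Algebra V' R := ιR.toAlgebra
  have hRint : Algebra.IsIntegral V' R := ⟨fun y => by
    obtain ⟨g, hg, hgy⟩ := hint y (hmemR.1 y.2)
    refine ⟨g, hg, Subtype.ext ?_⟩
    change R.subtype (eval₂ ιR y g) = 0
    rw [hom_eval₂]
    exact hgy⟩
  have hcontract : ∀ (W : ValuationSubring F) (hW : W.comap (algebraMap E F) = V') (φ : R →+* W),
      (∀ y, (φ y : F) = y) → ((maximalIdeal W).comap φ).comap (algebraMap V' R) = maximalIdeal V' := by
    intro W hW φ hφ
    refine ((maximalIdeal.isMaximal V').eq_of_le (Ideal.IsPrime.ne_top inferInstance) fun c hc => ?_).symm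
    rw [Ideal.mem_comap, Ideal.mem_comap, IsLocalRing.mem_maximalIdeal, mem_nonunits_iff]
    intro hu
    rw [IsLocalRing.mem_maximalIdeal, mem_nonunits_iff] at hc
    obtain ⟨⟨z, hz⟩, hcz⟩ := isUnit_iff_exists_inv.mp hu
    have h1 : algebraMap E F (c : E) * z = 1 := by
      have := congrArg Subtype.val hcz
      rw [MulMemClass.coe_mul, hφ] at this
      exact this
    have hc0 : (c : E) ≠ 0 := fun h => by simp [h] at h1
    have hzi : algebraMap E F (c : E)⁻¹ = z := by
      rw [map_inv₀]; exact inv_eq_of_mul_eq_one_right h1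
    exact hc (isUnit_iff_exists_inv.mpr ⟨⟨(c : E)⁻¹, (SetLike.ext_iff.1 hW ((c : E)⁻¹)).1 (show algebraMap E F (c : E)⁻¹ ∈ W from hzi ▸ hz)⟩,
      Subtype.ext (mul_inv_cancel₀ hc0)⟩)
  have hPB : PB = P j := by
    rcases hj.eq_or_lt with h | h
    · exact h
    have : PB.IsPrime := Ideal.IsPrime.comap _
    have hlt := Ideal.IsIntegral.comap_lt_comap (R := V') h
    rw [hcontract B hB toB fun _ => rfl, hcontract (V j) (hV j) (toV j) fun _ => rfl] at hlt
    exact absurd hlt (lt_irrefl _)
  let W : Option J → ValuationSubring F := fun o => o.elim B V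
  have hcentre : ∀ (y : R), (y : F) ≠ 0 → ((y : F)⁻¹ ∈ B ↔ (y : F)⁻¹ ∈ V j) := fun y hy0 => by
    have e1 : (y : F)⁻¹ ∈ B ↔ y ∉ PB := by
      rw [Ideal.mem_comap, IsLocalRing.mem_maximalIdeal, mem_nonunits_iff, not_not,
        isUnit_iff_exists_inv]
      exact ⟨fun h => ⟨⟨_, h⟩, Subtype.ext (mul_inv_cancel₀ hy0)⟩,
        fun ⟨z, hz⟩ => inv_eq_of_mul_eq_one_right (congrArg Subtype.val hz) ▸ z.2⟩
    have e2 : (y : F)⁻¹ ∈ V j ↔ y ∉ P j := by
      rw [Ideal.mem_comap, IsLocalRing.mem_maximalIdeal, mem_nonunits_iff, not_not,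
        isUnit_iff_exists_inv]
      exact ⟨fun h => ⟨⟨_, h⟩, Subtype.ext (mul_inv_cancel₀ hy0)⟩,
        fun ⟨z, hz⟩ => inv_eq_of_mul_eq_one_right (congrArg Subtype.val hz) ▸ z.2⟩
    rw [e1, e2, hPB]
  refine ⟨j, SetLike.ext fun x => ?_⟩
  obtain ⟨s, hs, hs0⟩ := exists_denominator W x
  have hsR : s ∈ R := hmemR.2 fun l => (hs (some l)).1
  have hxsR : x * s ∈ R := hmemR.2 fun l => (hs (some l)).2.1
  constructor
  · intro hx
    have h0 := hs0 ⟨none, hx⟩
    have h1 : s⁻¹ ∈ V j := (hcentre ⟨s, hsR⟩ h0).1 ((hs none).2.2 hx)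
    simpa [mul_assoc, mul_inv_cancel₀ h0] using mul_mem (hmemR.1 hxsR j) h1
  · intro hx
    have h0 := hs0 ⟨some j, hx⟩
    have h1 : s⁻¹ ∈ B := (hcentre ⟨s, hsR⟩ h0).2 ((hs (some j)).2.2 hx)
    simpa [mul_assoc, mul_inv_cancel₀ h0] using mul_mem (hRB hxsR) h1

variable [FiniteDimensional E F] [Algebra.IsSeparable E F]

/-- If every root is integral in `Ω`, the minimal polynomial has coefficients in `V'`. -/
theorem isIntegral_of_embeddings {Ω : Type*} [Field Ω] (O : Subring Ω) (ψE : E →+* Ω)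
    {V' : ValuationSubring E} (hV' : ∀ e, ψE e ∈ O → e ∈ V')
    {σ : Type*} [Fintype σ] (ψ : σ → F →+* Ω) (hψ : Function.Injective ψ)
    (hψE : ∀ j, (ψ j).comp (algebraMap E F) = ψE)
    (hcard : Fintype.card σ = Module.finrank E F) {a : F} (ha : ∀ j, ψ j a ∈ O) :
    IsIntegral V' a := by
  classical
  let : Algebra E Ω := ψE.toAlgebra
  let ι₀ : Ω →+* AlgebraicClosure Ω := algebraMap Ω (AlgebraicClosure Ω)
  let φ : σ → F →ₐ[E] AlgebraicClosure Ω := fun j =>
    { ι₀.comp (ψ j) with
      commutes' := fun e => by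
        show ι₀ (ψ j (algebraMap E F e)) = _
        rw [show ψ j (algebraMap E F e) = ψE e from RingHom.congr_fun (hψE j) e]
        exact (IsScalarTower.algebraMap_apply E Ω (AlgebraicClosure Ω) e).symm }
  have hφ : Function.Bijective φ := by
    rw [Fintype.bijective_iff_injective_and_card]
    exact ⟨fun i j h => hψ (RingHom.ext fun x => ι₀.injective (DFunLike.congr_fun h x :)),
      by rw [hcard, AlgHom.card]⟩
  have haE : IsIntegral E a := Algebra.IsIntegral.isIntegral a
  set p := minpoly E a with hp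
  have hmonic : p.Monic := minpoly.monic haE
  let M := p.map (algebraMap E (AlgebraicClosure Ω))
  have hMeq : M = (M.roots.map fun r => X - C r).prod :=
    (IsAlgClosed.splits M).eq_prod_roots_of_monic (hmonic.map _)
  have hroots : ∀ r ∈ M.roots, ∃ j, r = ι₀ (ψ j a) := by
    intro r hr
    have : r ∈ p.rootSet (AlgebraicClosure Ω) := by
      rw [mem_rootSet, aeval_def, ← eval_map]
      exact ⟨hmonic.ne_zero, (mem_roots'.mp hr).2⟩
    rw [hp, ← Algebra.IsAlgebraic.range_eval_eq_rootSet_minpoly] at this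
    obtain ⟨g, hg⟩ := this
    obtain ⟨j, rfl⟩ := hφ.2 g
    exact ⟨j, hg.symm⟩
  have : Nonempty σ := Fintype.card_pos_iff.mp (hcard ▸ Module.finrank_pos)
  choose! jr hjr using hroots
  let P : O[X] := (M.roots.map fun r => X - C (⟨ψ (jr r) a, ha _⟩ : O)).prod
  have hP : P.map O.subtype = p.map ψE := by
    apply map_injective ι₀ ι₀.injective
    rw [Polynomial.map_map, Polynomial.map_map, Polynomial.map_multiset_prod, Multiset.map_map]
    show _ = M
    conv_rhs => rw [hMeq]
    refine congrArg Multiset.prod (Multiset.map_congr rfl fun r hr => ?_)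
    rw [Function.comp_apply, Polynomial.map_sub, Polynomial.map_X, Polynomial.map_C,
      RingHom.comp_apply]
    exact congrArg (fun t => X - C t) (hjr r hr).symm
  have hcoef : ∀ m, p.coeff m ∈ V' := fun m => hV' _ (by
    rw [← coeff_map ψE, ← hP, coeff_map]; exact (P.coeff m).2)
  obtain ⟨g, hgp, -, hg⟩ := lifts_and_degree_eq_and_monic
    ((mem_lifts p).2 ⟨∑ m ∈ Finset.range (p.natDegree + 1), monomial m (⟨p.coeff m, hcoef m⟩ : V'),
      by
        conv_rhs => rw [p.as_sum_range]
        simp [Polynomial.map_sum]⟩ : p ∈ lifts (algebraMap V' E)) hmonic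
  refine ⟨g, hg, ?_⟩
  have h := minpoly.aeval E a
  rw [← hp, ← hgp, aeval_map_algebraMap] at h
  exact h

section Gauss

variable {K' : Type*} [Field K'] {O : ValuationSubring K'} {k : Type*} [Field k]

/-- The integral elements of a Gauss valuation in `K'((y))`. -/
def gaussSubring (π : O →+* k) : Subring (LaurentSeries K') where
  carrier := {z | ∃ a b : LaurentSeries O,
    ModularCurve.coeffMap π b ≠ 0 ∧ z * intSeries O b = intSeries O a}
  one_mem' := ⟨1, 1, by simp, by simp⟩
  zero_mem' := ⟨0, 1, by simp, by simp⟩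
  mul_mem' := by
    rintro x y ⟨a, b, hb, h⟩ ⟨a', b', hb', h'⟩
    exact ⟨a * a', b * b', by rw [map_mul]; exact mul_ne_zero hb hb', by
      rw [map_mul, map_mul, ← h, ← h']; ring⟩
  add_mem' := by
    rintro x y ⟨a, b, hb, h⟩ ⟨a', b', hb', h'⟩
    exact ⟨a * b' + a' * b, b * b', by rw [map_mul]; exact mul_ne_zero hb hb', by
      rw [map_add, map_mul, map_mul, map_mul, ← h, ← h']; ring⟩
  neg_mem' := by
    rintro x ⟨a, b, hb, h⟩
    exact ⟨-a, b, hb, by rw [map_neg, ← h]; ring⟩

variable [IsDiscreteValuationRing O]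

/-- The places over the Gauss valuation of `E` are the branches of a complete family of
embeddings. -/
theorem exists_eq_pullback (π : O →+* k) (hπ : ∀ c, π c = 0 ↔ ¬ IsUnit c)
    (ψE : E →+* LaurentSeries K') {V' : ValuationSubring E}
    (hV' : ∀ e, e ∈ V' ↔ ψE e ∈ gaussSubring π)
    {σ : Type*} [Fintype σ] (ψ : σ → F →+* LaurentSeries K') (hψ : Function.Injective ψ)
    (hψE : ∀ j, (ψ j).comp (algebraMap E F) = ψE) (hfrac : ∀ j x, ψ j x ∈ fracSeries O)
    (hcard : Fintype.card σ = Module.finrank E F) {B : ValuationSubring F}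
    (hB : B.comap (algebraMap E F) = V') :
    ∃ j, B = ({ π := π, π_eq_zero := hπ, ψ := ψ j, frac := hfrac j } : GaussBranch O k F).V := by
  have : Nonempty σ := Fintype.card_pos_iff.mp (hcard ▸ Module.finrank_pos)
  refine eq_of_finite_family
    (fun j => ({ π := π, π_eq_zero := hπ, ψ := ψ j, frac := hfrac j } : GaussBranch O k F).V)
    (fun j => SetLike.ext fun e => ?_) (fun x hx => ?_) hB
  · rw [hV', ← RingHom.congr_fun (hψE j) e]
    rfl
  · exact isIntegral_of_embeddings (gaussSubring π) ψE (fun e he => (hV' e).2 he) ψ hψ hψE hcard hx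

/-- Several embeddings inducing one branch: the extension is unique, as `norm_sub_pow_mem`
requires. -/
theorem eq_of_pullbacks_eq (π : O →+* k) (hπ : ∀ c, π c = 0 ↔ ¬ IsUnit c)
    (ψE : E →+* LaurentSeries K') {V' : ValuationSubring E}
    (hV' : ∀ e, e ∈ V' ↔ ψE e ∈ gaussSubring π)
    {σ : Type*} [Fintype σ] (ψ : σ → F →+* LaurentSeries K') (hψ : Function.Injective ψ)
    (hψE : ∀ j, (ψ j).comp (algebraMap E F) = ψE) (hfrac : ∀ j x, ψ j x ∈ fracSeries O)
    (hcard : Fintype.card σ = Module.finrank E F) {V : ValuationSubring F}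
    (hV : ∀ j x, ψ j x ∈ gaussSubring π → x ∈ V) (hV₂ : ∀ j, ∀ x ∈ V, ψ j x ∈ gaussSubring π) :
    ∀ B : ValuationSubring F, B.comap (algebraMap E F) = V' → B = V := fun B hB => by
  obtain ⟨j, rfl⟩ := exists_eq_pullback π hπ ψE hV' ψ hψ hψE hfrac hcard hB
  exact SetLike.ext fun x => ⟨hV j x, hV₂ j x⟩

end Gauss

end Fermat.Agent.CarayolHigh
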